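import Mathlib

set_option autoImplicit false

/-!
# Hyperbolic three-space

Upper half-space model, the action of `GL₂(ℂ)`, invariant measure, the radial mean value property
of spherical parameter `0`, and the Bessel kernel `K₀`.
-/

noncomputable section

open MeasureTheory Complex
open scoped ComplexConjugate

namespace FermatAgent.LT

/-- The upper half-space. -/
@[ext] structure H3 where
  /-- horizontal coordinate -/
  z : ℂ
  /-- height -/
  t : ℝ
  t_pos : 0 < t

namespace H3

/-- The coordinates of a point. -/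
def coords (P : H3) : ℂ × ℝ := (P.z, P.t)

theorem coords_injective : Function.Injective coords := fun _ _ h =>
  H3.ext (congrArg Prod.fst h) (congrArg Prod.snd h)

instance : TopologicalSpace H3 := TopologicalSpace.induced coords inferInstance

instance : MeasurableSpace H3 := MeasurableSpace.comap coords inferInstance

theorem measurable_coords : Measurable coords := comap_measurable coords

theorem continuous_coords : Continuous coords := continuous_induced_dom

instance : Inhabited H3 := ⟨⟨0, 1, one_pos⟩⟩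

/-- The denominator of the action. -/
def den (g : GL (Fin 2) ℂ) (P : H3) : ℝ :=
  normSq (g 1 0 * P.z + g 1 1) + normSq (g 1 0) * P.t ^ 2

theorem den_pos (g : GL (Fin 2) ℂ) (P : H3) : 0 < den g P := by
  rcases eq_or_ne (g 1 0) 0 with h | h
  · have hd : g 1 1 ≠ 0 := fun h' => by
      have := g.det_ne_zero
      rw [Matrix.det_fin_two, h, h'] at this
      simp at this
    simp [den, h, hd]
  · have := normSq_pos.mpr h
    have := pow_pos P.t_pos 2
    have := normSq_nonneg (g 1 0 * P.z + g 1 1)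
    simp only [den]
    positivity

/-- The action of `GL₂(ℂ)`. -/
def act (g : GL (Fin 2) ℂ) (P : H3) : H3 where
  z := ((g 0 0 * P.z + g 0 1) * conj (g 1 0 * P.z + g 1 1) +
    g 0 0 * conj (g 1 0) * (P.t : ℂ) ^ 2) / (den g P : ℂ)
  t := ‖(g : Matrix (Fin 2) (Fin 2) ℂ).det‖ * P.t / den g P
  t_pos := div_pos (mul_pos (norm_pos_iff.mpr g.det_ne_zero) P.t_pos) (den_pos g P)

theorem act_z_mul (h : GL (Fin 2) ℂ) (P : H3) : (act h P).z * (den h P : ℂ) =
    (h 0 0 * P.z + h 0 1) * conj (h 1 0 * P.z + h 1 1) +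
      h 0 0 * conj (h 1 0) * (P.t : ℂ) ^ 2 :=
  div_mul_cancel₀ _ (by exact_mod_cast (den_pos h P).ne')

theorem act_t_mul (h : GL (Fin 2) ℂ) (P : H3) : ((act h P).t : ℂ) ^ 2 * (den h P : ℂ) ^ 2 =
    (h 0 0 * h 1 1 - h 0 1 * h 1 0) * conj (h 0 0 * h 1 1 - h 0 1 * h 1 0) * (P.t : ℂ) ^ 2 := by
  have hh : (act h P).t * den h P = ‖(h : Matrix (Fin 2) (Fin 2) ℂ).det‖ * P.t :=
    div_mul_cancel₀ _ (den_pos h P).ne'
  rw [← mul_pow, ← Complex.ofReal_mul, hh, Complex.mul_conj, Complex.normSq_eq_norm_sq,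
    Matrix.det_fin_two]
  push_cast
  ring

theorem den_coe (h : GL (Fin 2) ℂ) (P : H3) : (den h P : ℂ) =
    (h 1 0 * P.z + h 1 1) * conj (h 1 0 * P.z + h 1 1) +
      h 1 0 * conj (h 1 0) * (P.t : ℂ) ^ 2 := by
  simp only [den, Complex.ofReal_add, Complex.ofReal_mul, Complex.ofReal_pow, Complex.mul_conj]

theorem den_mul (g h : GL (Fin 2) ℂ) (P : H3) :
    den (g * h) P = den g (act h P) * den h P := by
  have hh : (den h P : ℂ) ≠ 0 := by exact_mod_cast (den_pos h P).ne'
  have key : (den (g * h) P : ℂ) = (den g (act h P) : ℂ) * (den h P : ℂ) := by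
    refine mul_right_cancel₀ hh ?_
    have hz := act_z_mul h P
    have hzc := congrArg conj hz
    have ht := act_t_mul h P
    simp only [map_add, map_mul, map_pow, map_sub, Complex.conj_conj, Complex.conj_ofReal,
      den_coe, Matrix.GeneralLinearGroup.coe_mul, Matrix.mul_apply, Fin.sum_univ_two]
      at hz hzc ht hh ⊢
    generalize (act h P).z = w at *
    generalize ((act h P).t : ℂ) = u at *
    generalize conj w = wc at *
    set D := (h 1 0 * P.z + h 1 1) * (conj (h 1 0) * conj P.z + conj (h 1 1)) +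
      h 1 0 * conj (h 1 0) * (P.t : ℂ) ^ 2 with hD
    linear_combination (-(g 1 0) * (conj (g 1 0) * wc * D + conj (g 1 1) * D)) * hz +
      (-(conj (g 1 0)) * (g 1 0 * ((h 0 0 * P.z + h 0 1) * (conj (h 1 0) * conj P.z + conj (h 1 1)) +
        h 0 0 * conj (h 1 0) * (P.t : ℂ) ^ 2) + g 1 1 * D)) * hzc +
      (-(g 1 0) * conj (g 1 0)) * ht
  exact_mod_cast key

theorem act_one (P : H3) : act 1 P = P := by
  refine H3.ext ?_ ?_ <;> simp [act, den]

theorem act_mul (g h : GL (Fin 2) ℂ) (P : H3) : act (g * h) P = act g (act h P) := by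
  have hh : (den h P : ℂ) ≠ 0 := by exact_mod_cast (den_pos h P).ne'
  have hg : (den g (act h P) : ℂ) ≠ 0 := by exact_mod_cast (den_pos g (act h P)).ne'
  have hgh : (den (g * h) P : ℂ) ≠ 0 := by exact_mod_cast (den_pos (g * h) P).ne'
  refine H3.ext ?_ ?_
  · refine mul_right_cancel₀ hgh ?_
    rw [act_z_mul, den_mul g h P, Complex.ofReal_mul, ← mul_assoc, act_z_mul]
    refine mul_right_cancel₀ hh ?_
    have hz := act_z_mul h P
    have hzc := congrArg conj hz
    have ht := act_t_mul h P
    simp only [map_add, map_mul, map_pow, map_sub, Complex.conj_conj, Complex.conj_ofReal,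
      den_coe, Matrix.GeneralLinearGroup.coe_mul, Matrix.mul_apply, Fin.sum_univ_two]
      at hz hzc ht hh ⊢
    generalize (act h P).z = w at *
    generalize ((act h P).t : ℂ) = u at *
    generalize conj w = wc at *
    set D := (h 1 0 * P.z + h 1 1) * (conj (h 1 0) * conj P.z + conj (h 1 1)) +
      h 1 0 * conj (h 1 0) * (P.t : ℂ) ^ 2 with hD
    linear_combination (-(g 0 0) * (conj (g 1 0) * wc * D + conj (g 1 1) * D)) * hz +
      (-(conj (g 1 0)) * (g 0 0 * ((h 0 0 * P.z + h 0 1) * (conj (h 1 0) * conj P.z + conj (h 1 1)) +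
        h 0 0 * conj (h 1 0) * (P.t : ℂ) ^ 2) + g 0 1 * D)) * hzc +
      (-(g 0 0) * conj (g 1 0)) * ht
  · simp only [act]
    rw [show den (g * h) P = den g (act h P) * den h P from den_mul g h P]
    simp only [Matrix.GeneralLinearGroup.coe_mul, Matrix.det_mul, norm_mul, act]
    field_simp

instance : MulAction (GL (Fin 2) ℂ) H3 where
  smul := act
  one_smul := act_one
  mul_smul := act_mul

theorem smul_def (g : GL (Fin 2) ℂ) (P : H3) : g • P = act g P := rfl

/-- The invariant measure `dA dt / t³`. -/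
def vol : Measure H3 :=
  Measure.comap coords
    ((volume : Measure (ℂ × ℝ)).withDensity fun p => ENNReal.ofReal (p.2 ^ 3)⁻¹)

/-- The hyperbolic cosine of the distance. -/
def coshDist (P Q : H3) : ℝ :=
  1 + (normSq (P.z - Q.z) + (P.t - Q.t) ^ 2) / (2 * P.t * Q.t)

/-- The closed hyperbolic ball. -/
def ball (P : H3) (ε : ℝ) : Set H3 := {Q | coshDist P Q ≤ Real.cosh ε}

/-- The integral over a ball of radius `ε` of the spherical function `r / sinh r`. -/
def sph0 (ε : ℝ) : ℝ := 4 * Real.pi * ∫ r in (0 : ℝ)..ε, r * Real.sinh r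

/-- Eigenfunctions of all radial operators with spherical parameter `0`, as a mean value
property. -/
def IsSph0 (f : H3 → ℂ) : Prop :=
  ∀ (P : H3) (ε : ℝ), 0 < ε → ∫ Q in ball P ε, f Q ∂vol = (sph0 ε : ℂ) * f P

/-- `K₀ x = ∫₀^∞ exp (-x cosh u) du`. -/
def besselK0 (x : ℝ) : ℝ := ∫ u in Set.Ioi (0 : ℝ), Real.exp (-x * Real.cosh u)

/-- The cuspidal wave of frequency `ν` and spherical parameter `0`. -/
def wave (ν : ℂ) (P : H3) : ℂ :=
  (P.t * besselK0 (4 * Real.pi * ‖ν‖ * P.t) : ℝ) *
    Complex.exp (2 * Real.pi * I * (2 * (ν * P.z).re : ℝ))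

/-- The embedding of the upper half-plane. -/
def ofUHP (τ : UpperHalfPlane) : H3 := ⟨(τ.re : ℂ), τ.im, τ.im_pos⟩

end H3

end FermatAgent.LT
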