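import Mathlib
import Fermat.Agent.LT.Base.H3

set_option autoImplicit false

/-!
# Functions on `H3ⁿ × GL₂(𝔸_f)` for a totally complex number field

Local embeddings, principal congruence subgroups, Hecke operators and the class of cusp forms of
spherical parameter `0` used in the Langlands-Tunnell argument.
-/

noncomputable section

open MeasureTheory NumberField IsDedekindDomain
open scoped ComplexConjugate

namespace FermatAgent.LT

variable (K : Type*) [Field K] [NumberField K]

/-- The finite adeles. -/
abbrev Adf := FiniteAdeleRing (𝓞 K) K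

/-- `GL₂` of the finite adeles. -/
abbrev GAf := GL (Fin 2) (Adf K)

/-- The archimedean space. -/
abbrev XInf := InfinitePlace K → H3

variable {K}

/-- Rational matrices as adelic matrices. -/
def rationalMat : GL (Fin 2) K →* GAf K :=
  Matrix.GeneralLinearGroup.map (algebraMap K (Adf K))

/-- Rational matrices on the archimedean space. -/
def infAct (γ : GL (Fin 2) K) (x : XInf K) : XInf K :=
  fun w => Matrix.GeneralLinearGroup.map w.embedding γ • x w

variable (K) in
/-- Everywhere integral adeles. -/
abbrev IntAd := Π v : HeightOneSpectrum (𝓞 K), v.adicCompletionIntegers K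

/-- The inclusion of the integral adeles. -/
def intToAdele : IntAd K →+* Adf K where
  toFun a := RestrictedProduct.structureMap _ _ _ a
  map_one' := rfl
  map_zero' := rfl
  map_mul' _ _ := rfl
  map_add' _ _ := rfl

/-- The principal congruence subgroup of level `𝔫`. -/
def congrSubgroup (𝔫 : Ideal (𝓞 K)) : Subgroup (GAf K) :=
  (Matrix.GeneralLinearGroup.map (n := Fin 2)
      (Ideal.Quotient.mk (𝔫.map (RingHom.pi fun v : HeightOneSpectrum (𝓞 K) =>
        algebraMap (𝓞 K) (v.adicCompletionIntegers K))))).ker.map
    (Matrix.GeneralLinearGroup.map intToAdele)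

theorem eventually_update_mem {ι : Type*} {R : ι → Type*} [DecidableEq ι] (A : ∀ i, Set (R i))
    {f : ∀ i, R i} (hf : ∀ i, f i ∈ A i) (v : ι) (a : R v) :
    ∀ᶠ i in Filter.cofinite, Function.update f v a i ∈ A i := by
  filter_upwards [(Set.finite_singleton v).compl_mem_cofinite] with i hi
  rw [Function.update_of_ne hi]
  exact hf i

section Place

variable (v : HeightOneSpectrum (𝓞 K))

open Classical in
/-- The adele with component `a` at `v` and `c` (which is `0` or `1`) elsewhere. -/
def updAt (a : v.adicCompletion K) (c : ℕ) : Adf K :=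
  ⟨Function.update (fun w => (c : w.adicCompletion K)) v a,
    eventually_update_mem _ (fun w => natCast_mem (w.adicCompletionIntegers K) c) v a⟩

open Classical in
theorem updAt_self (a : v.adicCompletion K) (c : ℕ) : updAt v a c v = a :=
  Function.update_self v a fun u => (c : u.adicCompletion K)

theorem updAt_of_ne (a : v.adicCompletion K) (c : ℕ) {w : HeightOneSpectrum (𝓞 K)} (h : w ≠ v) :
    updAt v a c w = (c : w.adicCompletion K) := by
  classical exact Function.update_of_ne h a fun u => (c : u.adicCompletion K)

theorem adele_add_apply (a b : Adf K) (w : HeightOneSpectrum (𝓞 K)) : (a + b) w = a w + b w := rfl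

theorem adele_mul_apply (a b : Adf K) (w : HeightOneSpectrum (𝓞 K)) : (a * b) w = a w * b w := rfl

/-- The adelic matrix with component `g` at `v` and the identity elsewhere. -/
def atPlaceMat : Matrix (Fin 2) (Fin 2) (v.adicCompletion K) →* Matrix (Fin 2) (Fin 2) (Adf K) where
  toFun g := Matrix.of fun i j => updAt v (g i j) (if i = j then 1 else 0)
  map_one' := by
    refine Matrix.ext fun i j => FiniteAdeleRing.ext _ fun w => ?_
    rw [Matrix.of_apply, Matrix.one_apply, Matrix.one_apply]
    rcases eq_or_ne w v with rfl | h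
    · rw [updAt_self]
      split_ifs <;> rfl
    · rw [updAt_of_ne v _ _ h]
      split_ifs <;> simp only [Nat.cast_one, Nat.cast_zero] <;> rfl
  map_mul' g h := by
    refine Matrix.ext fun i j => FiniteAdeleRing.ext _ fun w => ?_
    simp only [Matrix.mul_apply, Fin.sum_univ_two, Matrix.of_apply, adele_add_apply,
      adele_mul_apply]
    rcases eq_or_ne w v with rfl | hw
    · simp only [updAt_self]
    · simp only [updAt_of_ne v _ _ hw]
      fin_cases i <;> fin_cases j <;> simp

/-- The embedding of the local group at `v`. -/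
def atPlace : GL (Fin 2) (v.adicCompletion K) →* GAf K := Units.map (atPlaceMat v)

/-- An upper triangular element of `GL₂`. -/
def upperTri {R : Type*} [CommRing R] (a : Rˣ) (b : R) (d : Rˣ) : GL (Fin 2) R where
  val := !![(a : R), b; 0, (d : R)]
  inv := !![((a⁻¹ : Rˣ) : R), -(((a⁻¹ : Rˣ) : R) * b * ((d⁻¹ : Rˣ) : R)); 0, ((d⁻¹ : Rˣ) : R)]
  val_inv := by
    ext i j
    fin_cases i <;> fin_cases j <;> simp [Matrix.mul_apply, Fin.sum_univ_two, ← mul_assoc]
  inv_val := by
    ext i j
    fin_cases i <;> fin_cases j <;> simp [Matrix.mul_apply, Fin.sum_univ_two, mul_assoc]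

/-- A uniformizer at `v` chosen in `K`. -/
def pi : Kˣ :=
  Units.mk0 (v.valuation_exists_uniformizer K).choose fun h => by
    have := (v.valuation_exists_uniformizer K).choose_spec
    rw [h, map_zero] at this
    exact WithZero.coe_ne_zero this.symm

/-- The uniformizer in the completion. -/
def piLoc : (v.adicCompletion K)ˣ :=
  Units.map (algebraMap K (v.adicCompletion K)).toMonoidHom (pi v)

/-- The translation by an integer at the single place `v`. -/
def transl (b : 𝓞 K) : GAf K :=
  atPlace v (upperTri 1 (algebraMap K (v.adicCompletion K) (b : K)) 1)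

/-- The unnormalised Hecke operator at `v`. -/
def heckeT (φ : XInf K → GAf K → ℂ) (x : XInf K) (g : GAf K) : ℂ :=
  (∑ᶠ b : 𝓞 K ⧸ v.asIdeal, φ x (g * atPlace v (upperTri (piLoc v)
      (algebraMap K (v.adicCompletion K)
        ((Function.surjInv (Ideal.Quotient.mk_surjective (I := v.asIdeal)) b : 𝓞 K) : K)) 1))) +
    φ x (g * atPlace v (upperTri 1 0 (piLoc v)))

/-- `φ` is an eigenfunction of the Hecke operator at `v` with normalised eigenvalue `l`. -/
def IsEigenAt (φ : XInf K → GAf K → ℂ) (l : ℂ) : Prop :=
  ∀ x g, heckeT v φ x g = (Real.sqrt (Ideal.absNorm v.asIdeal) : ℂ) * l * φ x g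

/-- Translations by integers at `v` act through the character `ψ` of the residue field. -/
def IsPsiAt (ψ : AddChar (𝓞 K ⧸ v.asIdeal) ℂ) (φ : XInf K → GAf K → ℂ) : Prop :=
  ∀ x g b, φ x (g * transl v b) = ψ (Ideal.Quotient.mk v.asIdeal b) * φ x g

/-- The sum over residual translations of every integral translate vanishes. -/
def IsCuspidalAt (φ : XInf K → GAf K → ℂ) : Prop :=
  ∀ x g (k : GL (Fin 2) (v.adicCompletionIntegers K)),
    ∑ᶠ b : 𝓞 K ⧸ v.asIdeal, φ x (g *
      transl v (Function.surjInv (Ideal.Quotient.mk_surjective (I := v.asIdeal)) b) *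
      atPlace v (Matrix.GeneralLinearGroup.map (v.adicCompletionIntegers K).subtype k)) = 0

end Place

/-- The product of the archimedean waves of frequency `ν`. -/
def waveProd (ν : K) (x : XInf K) : ℂ :=
  ∏ w : InfinitePlace K, (‖w.embedding ν‖ : ℂ) * H3.wave (w.embedding ν) (x w)

/-- A Fourier-Whittaker expansion with coefficient function `W`. -/
def HasExpansion (φ : XInf K → GAf K → ℂ) (W : GAf K → ℂ) : Prop :=
  ∀ x g, HasSum (fun ν : Kˣ => W (rationalMat (upperTri ν 0 1) * g) * waveProd (ν : K) x) (φ x g)

/-- Cusp forms of spherical parameter `0`, level `𝔫` and trivial central character. -/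
structure IsCuspFn (𝔫 : Ideal (𝓞 K)) (φ : XInf K → GAf K → ℂ) : Prop where
  rational : ∀ γ x g, φ (infAct γ x) (rationalMat γ * g) = φ x g
  central : ∀ (a : (Adf K)ˣ) x g, φ x (g * upperTri a 0 a) = φ x g
  level : ∀ k ∈ congrSubgroup 𝔫, ∀ x g, φ x (g * k) = φ x g
  continuous : ∀ g, Continuous fun x => φ x g
  bounded : ∃ C, ∀ x g, ‖φ x g‖ ≤ C
  sph0 : ∀ (w : InfinitePlace K) x g,
    letI := Classical.decEq (InfinitePlace K)
    H3.IsSph0 fun P => φ (Function.update x w P) g
  expansion : ∃ W, HasExpansion φ W

end FermatAgent.LT
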