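import Mathlib

set_option autoImplicit false

/-!
# Weighted second differences

A continuous function whose weighted symmetric second differences converge is twice
differentiable (maximum principle).
-/

noncomputable section

open MeasureTheory Set Filter
open scoped Topology

namespace FermatAgent.LT.SecondDiff

/-- The weight. -/
def wgt (ε y : ℝ) : ℝ := Real.cosh ε - Real.cosh y

theorem continuous_wgt (ε : ℝ) : Continuous (wgt ε) := by unfold wgt; fun_prop

theorem wgt_nonneg {ε y : ℝ} (hy : |y| ≤ ε) : 0 ≤ wgt ε y := by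
  rw [wgt, sub_nonneg, Real.cosh_le_cosh]
  exact hy.trans (le_abs_self ε)

theorem wgt_neg (ε y : ℝ) : wgt ε (-y) = wgt ε y := by simp [wgt]

theorem integral_wgt (ε : ℝ) :
    ∫ y in -ε..ε, wgt ε y = 2 * (ε * Real.cosh ε - Real.sinh ε) := by
  have hd : ∀ y ∈ uIcc (-ε) ε,
      HasDerivAt (fun y => Real.cosh ε * y - Real.sinh y) (wgt ε y) y := fun y _ => by
    simpa [wgt] using
      (((hasDerivAt_id' y).const_mul (Real.cosh ε)).fun_sub (Real.hasDerivAt_sinh y))
  rw [intervalIntegral.integral_eq_sub_of_hasDerivAt hd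
    ((continuous_wgt ε).intervalIntegrable _ _), Real.sinh_neg]
  ring

theorem integral_mul_wgt (ε : ℝ) : ∫ y in -ε..ε, y * wgt ε y = 0 := by
  have h := intervalIntegral.integral_comp_neg (f := fun y => y * wgt ε y) (a := -ε) (b := ε)
  simp only [wgt_neg, neg_mul, intervalIntegral.integral_neg, neg_neg] at h
  linarith

theorem abs_cosh_sub_le {x : ℝ} (hx : |x| ≤ 1) : |Real.cosh x - (1 + x ^ 2 / 2)| ≤ x ^ 4 := by
  have h1 := Real.exp_bound (x := x) hx (n := 4) (by norm_num)
  have h2 := Real.exp_bound (x := -x) (by rwa [abs_neg]) (n := 4) (by norm_num)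
  norm_num [Finset.sum_range_succ, Nat.factorial] at h1 h2
  rw [show |x| ^ 4 = x ^ 4 from by rw [← abs_pow, abs_of_nonneg (by positivity)]] at h1 h2
  have h0 : 0 ≤ x ^ 4 := by positivity
  rw [abs_le] at h1 h2 ⊢
  rw [Real.cosh_eq]
  constructor <;> nlinarith

theorem abs_wgt_div_sub_le {ε y : ℝ} (hε : 0 < ε) (hε1 : ε ≤ 1) (hy : |y| ≤ ε) :
    |wgt ε y / ε ^ 2 - (1 - (y / ε) ^ 2) / 2| ≤ 2 * ε ^ 2 := by
  have h1 := abs_cosh_sub_le (x := ε) (by rwa [abs_of_pos hε])
  have h2 := abs_cosh_sub_le (x := y) (hy.trans hε1)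
  have h4 : y ^ 4 ≤ ε ^ 4 := by
    rw [show y ^ 4 = |y| ^ 4 from by rw [← abs_pow, abs_of_nonneg (by positivity)]]
    exact pow_le_pow_left₀ (abs_nonneg y) hy 4
  rw [show wgt ε y / ε ^ 2 - (1 - (y / ε) ^ 2) / 2 =
    ((Real.cosh ε - (1 + ε ^ 2 / 2)) - (Real.cosh y - (1 + y ^ 2 / 2))) / ε ^ 2 by
      rw [wgt]; field_simp; ring]
  rw [abs_div, abs_of_pos (pow_pos hε 2), div_le_iff₀ (pow_pos hε 2)]
  refine (abs_sub _ _).trans ?_
  nlinarith

/-- Integrals against powers of the weight. -/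
theorem tendsto_weighted {g : ℝ → ℝ → ℂ} {c : ℂ} (j k : ℕ)
    (hg : ∀ ε, Continuous (g ε) ∨ ∀ a b : ℝ, IntervalIntegrable (g ε) volume a b)
    (hF : ∀ η > 0, ∀ᶠ ε in 𝓝[>] (0 : ℝ), ∀ y : ℝ, |y| ≤ ε →
      ‖g ε y - (((y / ε) ^ j * (wgt ε y / ε ^ 2) ^ k * ε ^ 4 : ℝ) : ℂ) * c‖ ≤ η * ε ^ 4) :
    Tendsto (fun ε => (∫ y in -ε..ε, g ε y) / ((ε : ℂ) ^ 5)) (𝓝[>] 0)
      (𝓝 (((∫ s in (-1 : ℝ)..1, s ^ j * ((1 - s ^ 2) / 2) ^ k : ℝ) : ℂ) * c)) := by
  set J : ℝ := ∫ s in (-1 : ℝ)..1, s ^ j * ((1 - s ^ 2) / 2) ^ k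
  rw [Metric.tendsto_nhds]
  intro δ hδ
  obtain ⟨η, hη, hηδ⟩ : ∃ η > 0, 2 * η < δ / 2 := ⟨δ / 8, by positivity, by linarith⟩
  have hk : Tendsto (fun ε : ℝ => 2 * ((k : ℝ) * (2 * ε ^ 2)) * ‖c‖) (𝓝[>] 0) (𝓝 0) := by
    have h : Continuous fun ε : ℝ => 2 * ((k : ℝ) * (2 * ε ^ 2)) * ‖c‖ := by fun_prop
    simpa using (h.tendsto 0).mono_left nhdsWithin_le_nhds
  filter_upwards [hF η hη, self_mem_nhdsWithin, Ioo_mem_nhdsGT (show (0 : ℝ) < 1 / 2 by norm_num),
    hk.eventually_lt_const (half_pos hδ)] with ε hε (hε0 : 0 < ε) hε1 hεk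
  set M : ℝ → ℝ := fun y => (y / ε) ^ j * (wgt ε y / ε ^ 2) ^ k with hM
  set M0 : ℝ → ℝ := fun y => (y / ε) ^ j * ((1 - (y / ε) ^ 2) / 2) ^ k with hM0
  have hMc : Continuous M := by
    have := continuous_wgt ε
    fun_prop
  have hM0c : Continuous M0 := by fun_prop
  have hint : IntervalIntegrable (g ε) volume (-ε) ε := by
    rcases hg ε with h | h
    · exact h.intervalIntegrable _ _
    · exact h _ _
  have hJ : ∫ y in -ε..ε, M0 y = ε * J := by
    simp only [hM0, J]
    rw [intervalIntegral.integral_comp_div (fun s => s ^ j * ((1 - s ^ 2) / 2) ^ k) hε0.ne',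
      neg_div, div_self hε0.ne', smul_eq_mul]
  have hdiff : ∀ y ∈ uIoc (-ε) ε, |M y - M0 y| ≤ (k : ℝ) * (2 * ε ^ 2) := by
    intro y hy
    rw [uIoc_of_le (by linarith)] at hy
    have hy' : |y| ≤ ε := abs_le.mpr ⟨hy.1.le, hy.2⟩
    have hd := abs_wgt_div_sub_le hε0 (by linarith [hε1.2]) hy'
    have hs : |y / ε| ≤ 1 := by
      rw [abs_div, abs_of_pos hε0, div_le_one hε0]; exact hy'
    simp only [hM, hM0, ← mul_sub, abs_mul, abs_pow]
    refine (mul_le_of_le_one_left (abs_nonneg _) (pow_le_one₀ (abs_nonneg _) hs)).trans ?_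
    have ha : |wgt ε y / ε ^ 2| ≤ 1 := by
      rw [abs_div, abs_of_pos (pow_pos hε0 2), div_le_one (pow_pos hε0 2),
        abs_of_nonneg (wgt_nonneg hy'), wgt]
      have h1 := abs_le.mp (abs_cosh_sub_le (x := ε) (by rw [abs_of_pos hε0]; linarith [hε1.2]))
      have h2 := Real.one_le_cosh y
      nlinarith [mul_pos hε0 hε0, mul_le_mul hε1.2.le hε1.2.le hε0.le (by norm_num)]
    have hb : |(1 - (y / ε) ^ 2) / 2| ≤ 1 := by
      have : (y / ε) ^ 2 ≤ 1 := by rw [← sq_abs]; exact pow_le_one₀ (abs_nonneg _) hs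
      rw [abs_le]; constructor <;> nlinarith [sq_nonneg (y / ε)]
    refine le_trans (abs_pow_sub_pow_le _ _ k) ?_
    calc |wgt ε y / ε ^ 2 - (1 - (y / ε) ^ 2) / 2| * k *
          max |wgt ε y / ε ^ 2| |(1 - (y / ε) ^ 2) / 2| ^ (k - 1)
        ≤ 2 * ε ^ 2 * k * 1 := by
          gcongr
          exact pow_le_one₀ (le_max_of_le_left (abs_nonneg _)) (max_le ha hb)
      _ = k * (2 * ε ^ 2) := by ring
  have hMint : IntervalIntegrable (fun y => ((M y * ε ^ 4 : ℝ) : ℂ) * c) volume (-ε) ε :=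
    Continuous.intervalIntegrable (by fun_prop) _ _
  have hM0int : IntervalIntegrable (fun y => ((M0 y * ε ^ 4 : ℝ) : ℂ) * c) volume (-ε) ε :=
    Continuous.intervalIntegrable (by fun_prop) _ _
  have h1 : ‖(∫ y in -ε..ε, g ε y) - ∫ y in -ε..ε, ((M0 y * ε ^ 4 : ℝ) : ℂ) * c‖ ≤
      (η * ε ^ 4 + (k : ℝ) * (2 * ε ^ 2) * ε ^ 4 * ‖c‖) * |ε - -ε| := by
    rw [← intervalIntegral.integral_sub hint hM0int]
    refine intervalIntegral.norm_integral_le_of_norm_le_const fun y hy => ?_
    have hd := hdiff y hy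
    rw [uIoc_of_le (by linarith)] at hy
    refine (norm_sub_le_norm_sub_add_norm_sub _ (((M y * ε ^ 4 : ℝ) : ℂ) * c) _).trans
      (add_le_add (hε y (abs_le.mpr ⟨hy.1.le, hy.2⟩)) ?_)
    rw [← sub_mul, norm_mul, ← Complex.ofReal_sub, Complex.norm_real, Real.norm_eq_abs, ← sub_mul,
      abs_mul, abs_of_nonneg (pow_nonneg hε0.le 4)]
    gcongr
  rw [intervalIntegral.integral_mul_const, intervalIntegral.integral_ofReal,
    intervalIntegral.integral_mul_const, hJ] at h1
  rw [dist_eq_norm]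
  have he : (ε : ℂ) ^ 5 ≠ 0 := pow_ne_zero _ (Complex.ofReal_ne_zero.mpr hε0.ne')
  rw [show (∫ y in -ε..ε, g ε y) / (ε : ℂ) ^ 5 - (J : ℂ) * c =
    ((∫ y in -ε..ε, g ε y) - ((ε * J * ε ^ 4 : ℝ) : ℂ) * c) / (ε : ℂ) ^ 5 by
      rw [eq_div_iff he, sub_mul, div_mul_cancel₀ _ he]; push_cast; ring]
  rw [norm_div, norm_pow, Complex.norm_real, Real.norm_of_nonneg hε0.le,
    div_lt_iff₀ (pow_pos hε0 5)]
  refine h1.trans_lt ?_
  rw [show ε - -ε = 2 * ε by ring, abs_of_pos (by linarith : (0 : ℝ) < 2 * ε)]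
  nlinarith [pow_pos hε0 5]

theorem integral_two : ∫ s in (-1 : ℝ)..1, s ^ 2 * ((1 - s ^ 2) / 2) ^ 1 = 2 / 15 := by
  simp only [pow_one, show ∀ s : ℝ, s ^ 2 * ((1 - s ^ 2) / 2) = (s ^ 2 - s ^ 4) / 2 from
    fun s => by ring, intervalIntegral.integral_div]
  rw [intervalIntegral.integral_sub (Continuous.intervalIntegrable (by fun_prop) _ _)
    (Continuous.intervalIntegrable (by fun_prop) _ _), integral_pow, integral_pow]
  norm_num

theorem integral_sq_weight : ∫ s in (-1 : ℝ)..1, s ^ 0 * ((1 - s ^ 2) / 2) ^ 2 = 4 / 15 := by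
  have e : ∀ s : ℝ, s ^ 0 * ((1 - s ^ 2) / 2) ^ 2 = (1 - 2 * s ^ 2 + s ^ 4) / 4 := fun s => by ring
  simp only [e, intervalIntegral.integral_div]
  rw [intervalIntegral.integral_add (Continuous.intervalIntegrable (by fun_prop) _ _)
    (Continuous.intervalIntegrable (by fun_prop) _ _),
    intervalIntegral.integral_sub (Continuous.intervalIntegrable (by fun_prop) _ _)
    (Continuous.intervalIntegrable (by fun_prop) _ _), intervalIntegral.integral_const_mul,
    integral_pow, integral_pow, intervalIntegral.integral_const]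
  norm_num

/-- The weighted second difference of a twice differentiable function. -/
theorem tendsto_of_hasDerivAt {f f₁ : ℝ → ℂ} {x : ℝ} {d : ℂ}
    (hf : ∀ z, HasDerivAt f (f₁ z) z) (hf₁ : HasDerivAt f₁ d x) :
    Tendsto (fun ε => (∫ y in -ε..ε, (f (x + y) - f x) * (wgt ε y : ℂ)) / (ε : ℂ) ^ 5)
      (𝓝[>] 0) (𝓝 (d / 15)) := by
  have hfc : Continuous f := continuous_iff_continuousAt.mpr fun z => (hf z).continuousAt
  set g : ℝ → ℝ → ℂ := fun ε y => (f (x + y) - f x - (y : ℂ) * f₁ x) * (wgt ε y : ℂ)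
  have hgc : ∀ ε, Continuous (g ε) := fun ε => by
    have := continuous_wgt ε
    fun_prop
  have h := tendsto_weighted (g := g) (c := d / 2) 2 1 (fun ε => Or.inl (hgc ε)) (fun η hη => by
    obtain ⟨r, hr, hrb⟩ := Metric.eventually_nhds_iff.mp
      ((hasDerivAt_iff_isLittleO_nhds_zero.mp hf₁).def hη)
    filter_upwards [Ioo_mem_nhdsGT (lt_min hr one_half_pos), self_mem_nhdsWithin] with ε hε (hε0 : 0 < ε)
    intro y hy
    have hkey : ‖f (x + y) - f x - (y : ℂ) * f₁ x - (y : ℂ) ^ 2 * (d / 2)‖ ≤ η * ε * ε := by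
      set φ : ℝ → ℂ := fun z => f (x + z) - (z : ℂ) * f₁ x - (z : ℂ) ^ 2 * (d / 2) with hφ
      have hφd : ∀ z, HasDerivAt φ (f₁ (x + z) - f₁ x - (z : ℂ) * d) z := fun z => by
        refine ((((hf (x + z)).comp_const_add x z).sub
          (((hasDerivAt_id' z).ofReal_comp).mul_const (f₁ x))).sub
          ((((hasDerivAt_id' z).ofReal_comp).pow 2).mul_const (d / 2))).congr_deriv ?_
        simp; ring
      have hb : ∀ z ∈ uIcc (0 : ℝ) y, ‖f₁ (x + z) - f₁ x - (z : ℂ) * d‖ ≤ η * ε := by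
        intro z hz
        have hz' : |z| ≤ ε := by
          have h := abs_sub_left_of_mem_uIcc hz
          simp only [sub_zero] at h
          exact h.trans hy
        have h1 := hrb (y := z) (by rw [Real.dist_0_eq_abs]
                                    exact hz'.trans_lt (hε.2.trans_le (min_le_left _ _)))
        simp only [Real.norm_eq_abs, Complex.real_smul] at h1
        exact h1.trans (mul_le_mul_of_nonneg_left hz' hη.le)
      have h2 := (convex_uIcc (0 : ℝ) y).norm_image_sub_le_of_norm_hasDerivWithin_le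
        (fun z _ => (hφd z).hasDerivWithinAt) hb left_mem_uIcc right_mem_uIcc
      simp only [hφ, Complex.ofReal_zero, add_zero, zero_mul, sub_zero, ne_eq,
        OfNat.ofNat_ne_zero, not_false_eq_true, zero_pow, Real.norm_eq_abs] at h2
      rw [show f (x + y) - f x - (y : ℂ) * f₁ x - (y : ℂ) ^ 2 * (d / 2) =
        f (x + y) - (y : ℂ) * f₁ x - (y : ℂ) ^ 2 * (d / 2) - f x by ring]
      exact h2.trans (mul_le_mul_of_nonneg_left hy (by positivity))
    rw [show g ε y - (((y / ε) ^ 2 * (wgt ε y / ε ^ 2) ^ 1 * ε ^ 4 : ℝ) : ℂ) * (d / 2) =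
      (f (x + y) - f x - (y : ℂ) * f₁ x - (y : ℂ) ^ 2 * (d / 2)) * (wgt ε y : ℂ) by
        simp only [g]; rw [show ((y / ε) ^ 2 * (wgt ε y / ε ^ 2) ^ 1 * ε ^ 4) = y ^ 2 * wgt ε y by
          field_simp]; push_cast; ring]
    rw [norm_mul, Complex.norm_real, Real.norm_of_nonneg (wgt_nonneg hy)]
    have hw : wgt ε y ≤ ε ^ 2 := by
      have h1 := abs_le.mp (abs_cosh_sub_le (x := ε)
        (by rw [abs_of_pos hε0]; linarith [hε.2, min_le_right r (1 / 2 : ℝ)]))
      have h2 := Real.one_le_cosh y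
      have h3 : ε ≤ 1 / 2 := hε.2.le.trans (min_le_right _ _)
      rw [wgt]
      nlinarith [mul_pos hε0 hε0, mul_le_mul h3 h3 hε0.le (by norm_num)]
    calc _ ≤ η * ε * ε * ε ^ 2 := by gcongr; exact wgt_nonneg hy
      _ = η * ε ^ 4 := by ring)
  rw [integral_two] at h
  refine ((h.congr fun ε => ?_).trans (le_of_eq ?_))
  · congr 1
    simp only [g, sub_mul]
    rw [intervalIntegral.integral_sub ?_ ?_, sub_eq_self]
    · rw [show (fun y : ℝ => (y : ℂ) * f₁ x * (wgt ε y : ℂ)) =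
        fun y => (((y * wgt ε y : ℝ)) : ℂ) * f₁ x from funext fun y => by push_cast; ring,
        intervalIntegral.integral_mul_const, intervalIntegral.integral_ofReal, integral_mul_wgt,
        Complex.ofReal_zero, zero_mul]
    all_goals
      have := continuous_wgt ε
      exact Continuous.intervalIntegrable (by fun_prop) _ _
  · congr 1
    push_cast
    ring

/-- Interpolation by lines. -/
theorem le_line {P : ℝ → ℝ} (hP : Continuous P)
    (h : ∀ x, Tendsto (fun ε => (∫ y in -ε..ε, (P (x + y) - P x) * wgt ε y) / ε ^ 5) (𝓝[>] 0) (𝓝 0))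
    {a b x : ℝ} (hab : a < b) (hx : x ∈ Icc a b) :
    P x ≤ P a + (P b - P a) / (b - a) * (x - a) := by
  set s : ℝ := (P b - P a) / (b - a) with hs
  have key : ∀ δ > 0, P x - (P a + s * (x - a)) ≤ δ * (max (a ^ 2) (b ^ 2)) - δ * x ^ 2 := by
    intro δ hδ
    set D : ℝ → ℝ := fun z => P z - (P a + s * (z - a)) + δ * z ^ 2 with hD
    obtain ⟨z, hz, hmax⟩ := isCompact_Icc.exists_isMaxOn (nonempty_Icc.mpr hab.le)
      (show ContinuousOn D (Icc a b) by fun_prop)
    have hend : D z ≤ δ * max (a ^ 2) (b ^ 2) := by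
      have hba : b - a ≠ 0 := (sub_pos.mpr hab).ne'
      rcases eq_or_lt_of_le hz.1 with h1 | h1
      · rw [← h1]
        simp only [hD, sub_self, mul_zero, add_zero, zero_add]
        exact mul_le_mul_of_nonneg_left (le_max_left _ _) hδ.le
      rcases eq_or_lt_of_le hz.2 with h2 | h2
      · rw [h2]
        simp only [hD, hs, div_mul_cancel₀ _ hba, add_sub_cancel, sub_self, zero_add]
        exact mul_le_mul_of_nonneg_left (le_max_right _ _) hδ.le
      exfalso
      have hsq := tendsto_of_hasDerivAt (f := fun w : ℝ => ((w ^ 2 : ℝ) : ℂ))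
        (f₁ := fun w : ℝ => ((2 * w : ℝ) : ℂ)) (x := z) (d := ((2 : ℝ) : ℂ))
        (fun w => by simpa using (hasDerivAt_pow 2 w).ofReal_comp)
        (by simpa using ((hasDerivAt_id' z).const_mul 2).ofReal_comp)
      have hsq' : Tendsto (fun ε => (∫ y in -ε..ε, ((z + y) ^ 2 - z ^ 2) * wgt ε y) / ε ^ 5)
          (𝓝[>] 0) (𝓝 (2 / 15)) := by
        have h' := (Complex.continuous_re.tendsto _).comp hsq
        simp only [← Complex.ofReal_sub, ← Complex.ofReal_mul, intervalIntegral.integral_ofReal,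
          ← Complex.ofReal_pow, ← Complex.ofReal_div] at h'
        rw [show ((((2 : ℝ) : ℂ)) / 15).re = 2 / 15 by simp] at h'
        refine h'.congr fun ε => ?_
        simp only [Function.comp_apply, Complex.ofReal_re]
      have hlim : Tendsto (fun ε => (∫ y in -ε..ε, (D (z + y) - D z) * wgt ε y) / ε ^ 5)
          (𝓝[>] 0) (𝓝 (0 + δ * (2 / 15))) := by
        refine ((h z).add (hsq'.const_mul δ)).congr fun ε => ?_
        have hw := continuous_wgt ε
        rw [show (fun y => (D (z + y) - D z) * wgt ε y) = fun y => ((P (z + y) - P z) * wgt ε y +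
            δ * (((z + y) ^ 2 - z ^ 2) * wgt ε y)) - s * (y * wgt ε y) from
          funext fun y => by simp only [hD]; ring,
          intervalIntegral.integral_sub (Continuous.intervalIntegrable (by fun_prop) _ _)
            (Continuous.intervalIntegrable (by fun_prop) _ _),
          intervalIntegral.integral_add (Continuous.intervalIntegrable (by fun_prop) _ _)
            (Continuous.intervalIntegrable (by fun_prop) _ _),
          intervalIntegral.integral_const_mul, intervalIntegral.integral_const_mul,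
          integral_mul_wgt]
        ring
      have hle : 0 + δ * (2 / 15) ≤ 0 := by
        refine le_of_tendsto hlim ?_
        filter_upwards [Ioo_mem_nhdsGT (lt_min (sub_pos.mpr h1) (sub_pos.mpr h2)),
          self_mem_nhdsWithin] with ε hε (hε0 : 0 < ε)
        refine div_nonpos_of_nonpos_of_nonneg ?_ (by positivity)
        rw [← neg_nonneg, ← intervalIntegral.integral_neg]
        refine intervalIntegral.integral_nonneg (by linarith) fun y hy => ?_
        have hy' : |y| ≤ ε := abs_le.mpr ⟨hy.1, hy.2⟩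
        have hmem : z + y ∈ Icc a b :=
          ⟨by linarith [hy.1, hε.2, min_le_left (z - a) (b - z)],
            by linarith [hy.2, hε.2, min_le_right (z - a) (b - z)]⟩
        have : D (z + y) ≤ D z := hmax hmem
        nlinarith [wgt_nonneg hy']
      linarith
    have : D x ≤ D z := hmax hx
    simp only [hD] at this hend
    linarith
  by_contra hne
  set d := P x - (P a + s * (x - a))
  have hd : 0 < d := by simp only [d]; linarith
  have hM : 0 ≤ max (a ^ 2) (b ^ 2) := le_max_of_le_left (sq_nonneg a)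
  have h1 := key (d / (2 * (max (a ^ 2) (b ^ 2) + 1))) (by positivity)
  have h2 : d / (2 * (max (a ^ 2) (b ^ 2) + 1)) * max (a ^ 2) (b ^ 2) < d := by
    rw [div_mul_eq_mul_div, div_lt_iff₀ (by positivity)]
    nlinarith
  have h3 : 0 ≤ d / (2 * (max (a ^ 2) (b ^ 2) + 1)) * x ^ 2 := by positivity
  linarith

/-- A continuous function with vanishing weighted second differences is affine. -/
theorem eq_affine {P : ℝ → ℝ} (hP : Continuous P)
    (h : ∀ x, Tendsto (fun ε => (∫ y in -ε..ε, (P (x + y) - P x) * wgt ε y) / ε ^ 5) (𝓝[>] 0) (𝓝 0))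
    (x : ℝ) : P x = P 0 + (P 1 - P 0) * x := by
  have hn : ∀ x, Tendsto (fun ε => (∫ y in -ε..ε, ((-P) (x + y) - (-P) x) * wgt ε y) / ε ^ 5)
      (𝓝[>] 0) (𝓝 0) := fun x => by
    have h1 := (h x).neg
    rw [neg_zero] at h1
    refine h1.congr fun ε => ?_
    rw [← neg_div, ← intervalIntegral.integral_neg]
    simp only [Pi.neg_apply]
    congr 2
    funext y
    ring
  set a := min x 0 - 1 with ha
  set b := max x 1 + 1 with hb
  have hab : a < b := by
    have := min_le_right x 0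
    have := le_max_right x 1
    linarith
  have heq : ∀ y ∈ Icc a b, P y = P a + (P b - P a) / (b - a) * (y - a) := fun y hy => by
    have h1 := le_line hP h hab hy
    have h2 := le_line hP.neg hn hab hy
    have h3 : ((-P) b - (-P) a) / (b - a) = -((P b - P a) / (b - a)) := by
      simp only [Pi.neg_apply]; ring
    rw [h3] at h2
    simp only [Pi.neg_apply] at h2
    linarith
  have m := min_le_left x 0
  have m' := min_le_right x 0
  have n := le_max_left x 1
  have n' := le_max_right x 1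
  rw [heq x ⟨by linarith, by linarith⟩, heq 0 ⟨by linarith, by linarith⟩,
    heq 1 ⟨by linarith, by linarith⟩]
  ring

/-- The converse of `tendsto_of_hasDerivAt`. -/
theorem hasDerivAt_of_tendsto {q r : ℝ → ℂ} (hq : Continuous q) (hr : Continuous r)
    (h : ∀ x, Tendsto (fun ε => (∫ y in -ε..ε, (q (x + y) - q x) * (wgt ε y : ℂ)) / (ε : ℂ) ^ 5)
      (𝓝[>] 0) (𝓝 (r x / 15))) :
    ∃ q₁ : ℝ → ℂ, (∀ x, HasDerivAt q (q₁ x) x) ∧ ∀ x, HasDerivAt q₁ (r x) x := by
  set R₁ : ℝ → ℂ := fun x => ∫ t in (0 : ℝ)..x, r t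
  have hR₁ : ∀ x, HasDerivAt R₁ (r x) x := fun x => (hr.integral_hasStrictDerivAt 0 x).hasDerivAt
  have hR₁c : Continuous R₁ := continuous_iff_continuousAt.mpr fun x => (hR₁ x).continuousAt
  set R₂ : ℝ → ℂ := fun x => ∫ t in (0 : ℝ)..x, R₁ t
  have hR₂ : ∀ x, HasDerivAt R₂ (R₁ x) x := fun x =>
    (hR₁c.integral_hasStrictDerivAt 0 x).hasDerivAt
  have hR₂c : Continuous R₂ := continuous_iff_continuousAt.mpr fun x => (hR₂ x).continuousAt
  set P : ℝ → ℂ := fun x => q x - R₂ x with hPdef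
  have hPc : Continuous P := hq.sub hR₂c
  have hP : ∀ x, Tendsto (fun ε => (∫ y in -ε..ε, (P (x + y) - P x) * (wgt ε y : ℂ)) / (ε : ℂ) ^ 5)
      (𝓝[>] 0) (𝓝 0) := fun x => by
    have h' := (h x).sub (tendsto_of_hasDerivAt hR₂ (hR₁ x))
    rw [sub_self] at h'
    refine h'.congr fun ε => ?_
    have := continuous_wgt ε
    rw [← sub_div, ← intervalIntegral.integral_sub (Continuous.intervalIntegrable (by fun_prop) _ _)
      (Continuous.intervalIntegrable (by fun_prop) _ _)]
    congr 2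
    funext y
    simp only [hPdef]
    ring
  have hpart : ∀ l : ℂ →L[ℝ] ℝ, ∀ x, l (P x) = l (P 0) + (l (P 1) - l (P 0)) * x := fun l => by
    refine eq_affine (P := fun x => l (P x)) (l.continuous.comp hPc) fun x => ?_
    have h' := (l.continuous.tendsto _).comp (hP x)
    rw [map_zero] at h'
    refine h'.congr fun ε => ?_
    have hw := continuous_wgt ε
    simp only [Function.comp_apply]
    rw [show (∫ y in -ε..ε, (P (x + y) - P x) * (wgt ε y : ℂ)) / (ε : ℂ) ^ 5 =
      (ε ^ 5)⁻¹ • ∫ y in -ε..ε, wgt ε y • (P (x + y) - P x) by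
        simp only [Complex.real_smul, Complex.ofReal_inv, Complex.ofReal_pow]
        rw [div_eq_inv_mul]
        congr 2
        funext y
        ring, map_smul, ← l.intervalIntegral_comp_comm
          (Continuous.intervalIntegrable (by fun_prop) _ _)]
    simp only [map_smul, map_sub, smul_eq_mul]
    rw [div_eq_inv_mul]
    congr 2
    funext y
    ring
  have haff : ∀ x : ℝ, P x = P 0 + (P 1 - P 0) * (x : ℂ) := fun x => by
    have e1 := hpart Complex.reCLM x
    have e2 := hpart Complex.imCLM x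
    simp only [Complex.reCLM_apply, Complex.imCLM_apply] at e1 e2
    exact Complex.ext (by simp [e1]) (by simp [e2])
  refine ⟨fun x => R₁ x + (P 1 - P 0), fun x => ?_, fun x => (hR₁ x).add_const _⟩
  have hq' : q = fun x : ℝ => R₂ x + (P 0 + (P 1 - P 0) * (x : ℂ)) := funext fun x => by
    rw [← haff x, hPdef]; ring
  rw [hq']
  refine ((hR₂ x).fun_add ((((hasDerivAt_id' x).ofReal_comp).const_mul (P 1 - P 0)).const_add
    (P 0))).congr_deriv ?_
  simp

end FermatAgent.LT.SecondDiff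

end
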