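import Mathlib
import Fermat.Agent.LT.Base.H3
import Fermat.Agent.LT.Base.SecondDiff

set_option autoImplicit false

/-!
# Integrals over hyperbolic balls in horospherical coordinates
-/

noncomputable section

open MeasureTheory Set Filter Complex
open scoped Topology

namespace FermatAgent.LT.H3

open SecondDiff (wgt)

/-- The point at height `t eˣ` above `P.z + ζ`. -/
def hpt (P : H3) (x : ℝ) (ζ : ℂ) : H3 :=
  ⟨P.z + ζ, P.t * Real.exp x, mul_pos P.t_pos (Real.exp_pos x)⟩

theorem range_coords : range coords = {p : ℂ × ℝ | 0 < p.2} := by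
  ext p
  refine ⟨fun ⟨P, hP⟩ => hP ▸ P.t_pos, fun h => ⟨⟨p.1, p.2, h⟩, rfl⟩⟩

theorem measurableEmbedding_coords : MeasurableEmbedding coords := by
  refine ⟨coords_injective, measurable_coords, fun {s} hs => ?_⟩
  obtain ⟨t, ht, rfl⟩ := hs
  rw [image_preimage_eq_inter_range, range_coords]
  exact ht.inter (measurableSet_lt measurable_const measurable_snd)

/-- Extension of a function by zero to the full coordinate space. -/
def extCoords (g : H3 → ℂ) (p : ℂ × ℝ) : ℂ := if h : 0 < p.2 then g ⟨p.1, p.2, h⟩ else 0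

theorem extCoords_coords (g : H3 → ℂ) (P : H3) : extCoords g (coords P) = g P := by
  exact dif_pos P.t_pos

theorem continuousOn_extCoords {g : H3 → ℂ} (hg : Continuous g) :
    ContinuousOn (extCoords g) {p : ℂ × ℝ | 0 < p.2} := by
  rw [continuousOn_iff_continuous_domRestrict]
  have hmk : Continuous fun p : {p : ℂ × ℝ | 0 < p.2} => (⟨p.1.1, p.1.2, p.2⟩ : H3) :=
    continuous_induced_rng.mpr continuous_subtype_val
  refine (hg.comp hmk).congr fun p => ?_
  simp only [Function.comp_apply, Set.domRestrict_apply, extCoords]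
  rw [dif_pos (show 0 < p.1.2 from p.2)]

/-- The image of a ball in coordinates. -/
def ballSet (P : H3) (ε : ℝ) : Set (ℂ × ℝ) :=
  {p | p.2 ∈ Icc (P.t * Real.exp (-ε)) (P.t * Real.exp ε) ∧
    ‖p.1 - P.z‖ ^ 2 ≤ 2 * P.t * p.2 * Real.cosh ε - P.t ^ 2 - p.2 ^ 2}

theorem ballSet_subset (P : H3) (ε : ℝ) : ballSet P ε ⊆ {p : ℂ × ℝ | 0 < p.2} := fun _ hp =>
  (mul_pos P.t_pos (Real.exp_pos _)).trans_le hp.1.1

theorem preimage_ballSet (P : H3) {ε : ℝ} (hε : 0 ≤ ε) : coords ⁻¹' ballSet P ε = ball P ε := by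
  ext Q
  have ht := P.t_pos
  have hs := Q.t_pos
  have key : coshDist P Q ≤ Real.cosh ε ↔
      ‖Q.z - P.z‖ ^ 2 ≤ 2 * P.t * Q.t * Real.cosh ε - P.t ^ 2 - Q.t ^ 2 := by
    rw [coshDist, Complex.normSq_eq_norm_sq, norm_sub_rev, ← le_sub_iff_add_le',
      div_le_iff₀ (by positivity)]
    constructor <;> intro h <;> nlinarith
  simp only [mem_preimage, ballSet, coords, mem_ofPred_eq, ball, mem_Icc]
  rw [key]
  refine ⟨fun h => h.2, fun h => ⟨?_, h⟩⟩
  have hle : Real.exp (-ε) ≤ Real.exp ε := Real.exp_le_exp.mpr (by linarith)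
  have h0 : (Q.t - P.t * Real.exp (-ε)) * (Q.t - P.t * Real.exp ε) ≤ 0 := by
    have he : Real.exp (-ε) * Real.exp ε = 1 := by
      rw [← Real.exp_add, neg_add_cancel, Real.exp_zero]
    have e : (Q.t - P.t * Real.exp (-ε)) * (Q.t - P.t * Real.exp ε) =
        Q.t ^ 2 + P.t ^ 2 - 2 * P.t * Q.t * Real.cosh ε := by
      rw [Real.cosh_eq]
      linear_combination P.t ^ 2 * he
    nlinarith [sq_nonneg ‖Q.z - P.z‖]
  constructor <;> by_contra hc <;> push Not at hc <;>
    nlinarith [mul_le_mul_of_nonneg_left hle ht.le]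

theorem isCompact_ballSet (P : H3) (ε : ℝ) : IsCompact (ballSet P ε) := by
  refine IsCompact.of_isClosed_subset ((isCompact_closedBall P.z
    (Real.sqrt (2 * P.t * (P.t * Real.exp ε) * Real.cosh ε))).prod
      (isCompact_Icc (a := P.t * Real.exp (-ε)) (b := P.t * Real.exp ε))) ?_ ?_
  · exact IsClosed.inter (isClosed_Icc.preimage continuous_snd)
      (isClosed_le (f := fun p : ℂ × ℝ => ‖p.1 - P.z‖ ^ 2)
        (g := fun p => 2 * P.t * p.2 * Real.cosh ε - P.t ^ 2 - p.2 ^ 2) (by fun_prop) (by fun_prop))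
  · rintro p ⟨hp, hp'⟩
    refine ⟨?_, hp⟩
    rw [Metric.mem_closedBall, dist_eq_norm]
    refine Real.le_sqrt_of_sq_le (hp'.trans ?_)
    have ht := P.t_pos
    have hm := mul_le_mul_of_nonneg_right (mul_le_mul_of_nonneg_left hp.2
      (by positivity : (0 : ℝ) ≤ 2 * P.t)) (Real.cosh_pos ε).le
    nlinarith [sq_nonneg P.t, sq_nonneg p.2]

theorem setIntegral_ball {g : H3 → ℂ} (hg : Continuous g) (P : H3) {ε : ℝ} (hε : 0 ≤ ε) :
    ∫ Q in ball P ε, g Q ∂vol = ∫ x in -ε..ε, ((Real.exp (-2 * x) / P.t ^ 2 : ℝ) : ℂ) *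
      ∫ ζ in Metric.closedBall (0 : ℂ) (Real.sqrt (2 * P.t ^ 2 * Real.exp x * wgt ε x)),
        g (hpt P x ζ) := by
  set S := ballSet P ε with hS
  have hSc := isCompact_ballSet P ε
  have hSm : MeasurableSet S := hSc.measurableSet
  set μ : Measure (ℂ × ℝ) :=
    (volume : Measure (ℂ × ℝ)).withDensity fun p => ENNReal.ofReal (p.2 ^ 3)⁻¹ with hμ
  have h1 : ∫ Q in ball P ε, g Q ∂vol = ∫ p in S, extCoords g p ∂μ := by
    have h := measurableEmbedding_coords.setIntegral_map (μ := vol) (extCoords g) S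
    simp only [extCoords_coords, hS, preimage_ballSet P hε] at h
    rw [← h, vol, measurableEmbedding_coords.map_comap,
      Measure.restrict_restrict hSm, range_coords, inter_eq_left.mpr (ballSet_subset P ε)]
  have h2 : ∫ p in S, extCoords g p ∂μ = ∫ p in S, (p.2 ^ 3)⁻¹ • extCoords g p := by
    rw [hμ, setIntegral_withDensity_eq_setIntegral_toReal_smul (by fun_prop)
      (Eventually.of_forall fun _ => ENNReal.ofReal_lt_top) _ hSm]
    refine setIntegral_congr_fun hSm fun p hp => ?_
    have hp2 : 0 < p.2 := ballSet_subset P ε hp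
    simp [ENNReal.toReal_ofReal (inv_nonneg.mpr (pow_nonneg hp2.le 3))]
  set h : ℂ × ℝ → ℂ := fun p => (p.2 ^ 3)⁻¹ • extCoords g p with hh
  have hcont : ContinuousOn h {p : ℂ × ℝ | 0 < p.2} := by
    refine ContinuousOn.smul (ContinuousOn.inv₀ (f := fun p : ℂ × ℝ => p.2 ^ 3) (by fun_prop) fun p hp => ?_)
      (continuousOn_extCoords hg)
    exact pow_ne_zero 3 (ne_of_gt hp)
  have hint : Integrable (S.indicator h) (volume : Measure (ℂ × ℝ)) :=
    ((hcont.mono (ballSet_subset P ε)).integrableOn_compact hSc).integrable_indicator hSm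
  rw [h1, h2, ← integral_indicator hSm]
  rw [Measure.volume_eq_prod] at hint ⊢
  rw [integral_prod_symm _ hint]
  have hsec : ∀ s : ℝ, ∫ z, S.indicator h (z, s) =
      (Icc (P.t * Real.exp (-ε)) (P.t * Real.exp ε)).indicator (fun s =>
        ∫ ζ in Metric.closedBall (0 : ℂ)
          (Real.sqrt (2 * P.t * s * Real.cosh ε - P.t ^ 2 - s ^ 2)), h (P.z + ζ, s)) s := by
    intro s
    by_cases hs : s ∈ Icc (P.t * Real.exp (-ε)) (P.t * Real.exp ε)
    · rw [indicator_of_mem hs]
      have hu : 0 ≤ 2 * P.t * s * Real.cosh ε - P.t ^ 2 - s ^ 2 := by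
        have he : Real.exp (-ε) * Real.exp ε = 1 := by
          rw [← Real.exp_add, neg_add_cancel, Real.exp_zero]
        have h' := mul_nonneg (sub_nonneg.mpr hs.1) (sub_nonneg.mpr hs.2)
        rw [Real.cosh_eq]
        nlinarith
      have hsect : (fun z => S.indicator h (z, s)) = (Metric.closedBall P.z
          (Real.sqrt (2 * P.t * s * Real.cosh ε - P.t ^ 2 - s ^ 2))).indicator
            fun z => h (z, s) := by
        funext z
        have hiff : (z, s) ∈ S ↔ z ∈ Metric.closedBall P.z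
            (Real.sqrt (2 * P.t * s * Real.cosh ε - P.t ^ 2 - s ^ 2)) := by
          rw [Metric.mem_closedBall, dist_eq_norm, Real.le_sqrt (norm_nonneg _) hu]
          exact ⟨fun hm => hm.2, fun hm => ⟨hs, hm⟩⟩
        by_cases hz : (z, s) ∈ S
        · rw [indicator_of_mem hz, indicator_of_mem (hiff.mp hz)]
        · rw [indicator_of_notMem hz, indicator_of_notMem (hiff.not.mp hz)]
      rw [hsect, integral_indicator Metric.isClosed_closedBall.measurableSet,
        ← (measurePreserving_add_left (volume : Measure ℂ) P.z).setIntegral_preimage_emb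
          (measurableEmbedding_addLeft P.z) (fun z => h (z, s))]
      congr 2
      ext ζ
      simp
    · rw [indicator_of_notMem hs]
      have : (fun z => S.indicator h (z, s)) = 0 := by
        funext z
        exact indicator_of_notMem (fun hm => hs hm.1) _
      rw [this]
      simp
  simp only [hsec]
  rw [integral_indicator measurableSet_Icc]
  have hmono : StrictMono fun x => P.t * Real.exp x := fun a b hab =>
    mul_lt_mul_of_pos_left (Real.exp_lt_exp.mpr hab) P.t_pos
  have himg : (fun x => P.t * Real.exp x) '' Icc (-ε) ε =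
      Icc (P.t * Real.exp (-ε)) (P.t * Real.exp ε) := by
    refine Subset.antisymm ?_ (intermediate_value_Icc (f := fun x => P.t * Real.exp x) (by linarith : -ε ≤ ε) (by fun_prop))
    exact hmono.monotone.image_Icc_subset
  rw [← himg, integral_image_eq_integral_abs_deriv_smul measurableSet_Icc
    (fun x _ => ((Real.hasDerivAt_exp x).const_mul P.t).hasDerivWithinAt)
    hmono.injective.injOn, intervalIntegral.integral_of_le (by linarith), ← integral_Icc_eq_integral_Ioc]
  refine setIntegral_congr_fun measurableSet_Icc fun x _ => ?_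
  have ht := P.t_pos
  have he := Real.exp_pos x
  rw [show 2 * P.t * (P.t * Real.exp x) * Real.cosh ε - P.t ^ 2 - (P.t * Real.exp x) ^ 2 =
    2 * P.t ^ 2 * Real.exp x * wgt ε x by
      rw [wgt, Real.cosh_eq x, Real.exp_neg]; field_simp; ring]
  simp only [hh]
  rw [integral_smul, smul_smul, Complex.real_smul]
  congr 1
  · congr 1
    rw [abs_of_pos (mul_pos ht he), show -2 * x = -x + -x by ring, Real.exp_add, Real.exp_neg]
    field_simp
  · refine setIntegral_congr_fun Metric.isClosed_closedBall.measurableSet fun ζ _ => ?_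
    rw [extCoords, dif_pos (mul_pos ht he)]
    rfl

end FermatAgent.LT.H3

end
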