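import Mathlib
import Fermat.Agent.LT.Base.H3

set_option autoImplicit false

/-!
# The Bessel kernel `K₀`
-/

noncomputable section

open MeasureTheory Set Filter
open scoped Topology

namespace FermatAgent.LT.H3

/-- `∫₀^∞ (cosh u)^k exp (-r cosh u) du`. -/
def besselMom (k : ℕ) (r : ℝ) : ℝ :=
  ∫ u in Ioi (0 : ℝ), Real.cosh u ^ k * Real.exp (-r * Real.cosh u)

theorem besselMom_zero (r : ℝ) : besselMom 0 r = besselK0 r := by simp [besselMom, besselK0]

theorem mom_le (k : ℕ) {r : ℝ} (hr : 0 < r) {u : ℝ} (hu : 0 ≤ u) :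
    Real.cosh u ^ k * Real.exp (-r * Real.cosh u) ≤
      (k.factorial / (r / 2) ^ k) * Real.exp (-(r / 2) * u) := by
  have hc : 0 ≤ Real.cosh u := (Real.cosh_pos u).le
  have hle : u ≤ Real.cosh u := (Real.self_le_sinh_iff.mpr hu).trans (Real.sinh_lt_cosh u).le
  have h := Real.pow_div_factorial_le_exp (x := r / 2 * Real.cosh u) (by positivity) k
  rw [div_le_iff₀ (by positivity), mul_pow] at h
  have h' : Real.cosh u ^ k ≤ k.factorial / (r / 2) ^ k * Real.exp (r / 2 * Real.cosh u) := by
    rw [div_mul_eq_mul_div, le_div_iff₀ (by positivity)]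
    linarith
  calc Real.cosh u ^ k * Real.exp (-r * Real.cosh u)
      ≤ k.factorial / (r / 2) ^ k * Real.exp (r / 2 * Real.cosh u) *
          Real.exp (-r * Real.cosh u) := by gcongr
    _ = k.factorial / (r / 2) ^ k * Real.exp (-(r / 2) * Real.cosh u) := by
        rw [mul_assoc, ← Real.exp_add]; ring_nf
    _ ≤ k.factorial / (r / 2) ^ k * Real.exp (-(r / 2) * u) := by
        refine mul_le_mul_of_nonneg_left (Real.exp_le_exp.mpr ?_) (by positivity)
        nlinarith

theorem integrable_mom (k : ℕ) {r : ℝ} (hr : 0 < r) :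
    IntegrableOn (fun u => Real.cosh u ^ k * Real.exp (-r * Real.cosh u)) (Ioi 0) := by
  refine ((exp_neg_integrableOn_Ioi 0 (half_pos hr)).const_mul
    (k.factorial / (r / 2) ^ k : ℝ)).mono' (by fun_prop) ?_
  filter_upwards [ae_restrict_mem measurableSet_Ioi] with u hu
  have h0 : 0 ≤ Real.cosh u := (Real.cosh_pos u).le
  rw [Real.norm_of_nonneg (by positivity)]
  exact mom_le k hr (le_of_lt hu)

theorem hasDerivAt_besselMom (k : ℕ) {r : ℝ} (hr : 0 < r) :
    HasDerivAt (besselMom k) (-besselMom (k + 1) r) r := by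
  have h := hasDerivAt_integral_of_dominated_loc_of_deriv_le
    (μ := volume.restrict (Ioi (0 : ℝ)))
    (F := fun r u => Real.cosh u ^ k * Real.exp (-r * Real.cosh u))
    (F' := fun r u => -(Real.cosh u ^ (k + 1) * Real.exp (-r * Real.cosh u)))
    (bound := fun u => Real.cosh u ^ (k + 1) * Real.exp (-(r / 2) * Real.cosh u))
    (Ioi_mem_nhds (half_lt_self hr)) (Eventually.of_forall fun _ => by fun_prop)
    (integrable_mom k hr) (by fun_prop) ?_ (integrable_mom (k + 1) (half_pos hr)) ?_
  · simp only [integral_neg] at h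
    exact h.2
  · refine Eventually.of_forall fun u x hx => ?_
    have hc := Real.cosh_pos u
    rw [norm_neg, Real.norm_of_nonneg (by positivity)]
    refine mul_le_mul_of_nonneg_left (Real.exp_le_exp.mpr ?_) (by positivity)
    have : r / 2 < x := hx
    nlinarith
  · refine Eventually.of_forall fun u x _ => ?_
    have h1 : HasDerivAt (fun y : ℝ => Real.exp (-y * Real.cosh u))
        (Real.exp (-x * Real.cosh u) * (-1 * Real.cosh u)) x :=
      (((hasDerivAt_id x).neg).mul_const _).exp
    refine (h1.const_mul (Real.cosh u ^ k)).congr_deriv ?_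
    ring

theorem continuousAt_besselK0 {r : ℝ} (hr : 0 < r) : ContinuousAt besselK0 r := by
  have h := (hasDerivAt_besselMom 0 hr).continuousAt
  rwa [show besselMom 0 = besselK0 from funext besselMom_zero] at h

theorem continuousOn_besselK0 : ContinuousOn besselK0 (Ioi 0) :=
  fun _ hr => (continuousAt_besselK0 hr).continuousWithinAt

theorem besselK0_pos {r : ℝ} (hr : 0 < r) : 0 < besselK0 r := by
  have h0 : IntegrableOn (fun u => Real.exp (-r * Real.cosh u)) (Ioi 0) := by
    simpa using integrable_mom 0 hr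
  rw [besselK0, setIntegral_pos_iff_support_of_nonneg_ae
    (Eventually.of_forall fun u => (Real.exp_pos _).le) h0]
  have hs : Function.support (fun u => Real.exp (-r * Real.cosh u)) = univ :=
    eq_univ_of_forall fun u => (Real.exp_pos _).ne'
  rw [hs, univ_inter, Real.volume_Ioi]
  exact ENNReal.zero_lt_top

/-- Exponential decay. -/
theorem besselK0_le_exp {r₀ r : ℝ} (h₀ : 0 < r₀) (h : r₀ ≤ r) :
    besselK0 r ≤ Real.exp (-(r - r₀)) * besselK0 r₀ := by
  rw [besselK0, besselK0, ← integral_const_mul]
  refine integral_mono (by simpa [IntegrableOn] using integrable_mom 0 (h₀.trans_le h))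
    ((by simpa [IntegrableOn] using integrable_mom 0 h₀ : Integrable _ _).const_mul _) fun u => ?_
  rw [← Real.exp_add, Real.exp_le_exp]
  nlinarith [Real.one_le_cosh u]

theorem besselK0_anti {r₀ r : ℝ} (h₀ : 0 < r₀) (h : r₀ ≤ r) : besselK0 r ≤ besselK0 r₀ :=
  (besselK0_le_exp h₀ h).trans
    (mul_le_of_le_one_left (besselK0_pos h₀).le (Real.exp_le_one_iff.mpr (by linarith)))

/-- The integration by parts behind Bessel's equation. -/
theorem bessel_relation {r : ℝ} (hr : 0 < r) :
    besselMom 1 r + r * besselMom 0 r - r * besselMom 2 r = 0 := by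
  have hd : ∀ u ∈ Ici (0 : ℝ), HasDerivAt (fun u => Real.sinh u * Real.exp (-r * Real.cosh u))
      (Real.cosh u ^ 1 * Real.exp (-r * Real.cosh u) +
        r * (Real.cosh u ^ 0 * Real.exp (-r * Real.cosh u)) -
        r * (Real.cosh u ^ 2 * Real.exp (-r * Real.cosh u))) u := fun u _ => by
    have := (Real.hasDerivAt_sinh u).mul (((Real.hasDerivAt_cosh u).const_mul (-r)).exp)
    refine this.congr_deriv ?_
    rw [Real.cosh_sq u]
    ring
  have hint : IntegrableOn (fun u => Real.cosh u ^ 1 * Real.exp (-r * Real.cosh u) +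
      r * (Real.cosh u ^ 0 * Real.exp (-r * Real.cosh u)) -
      r * (Real.cosh u ^ 2 * Real.exp (-r * Real.cosh u))) (Ioi 0) :=
    ((integrable_mom 1 hr).add ((integrable_mom 0 hr).const_mul r)).sub
      ((integrable_mom 2 hr).const_mul r)
  have hlim : Tendsto (fun u => Real.sinh u * Real.exp (-r * Real.cosh u)) atTop (𝓝 0) := by
    refine squeeze_zero' ?_ ?_ (by
      simpa using ((Real.tendsto_exp_atBot.comp
        (tendsto_id.const_mul_atTop_of_neg (show -(r / 2) < 0 by linarith))).const_mul
          ((Nat.factorial 1 : ℝ) / (r / 2) ^ 1)))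
    · filter_upwards [eventually_ge_atTop 0] with u hu
      exact mul_nonneg (Real.sinh_nonneg_iff.mpr hu) (Real.exp_pos _).le
    · filter_upwards [eventually_ge_atTop 0] with u hu
      refine le_trans ?_ (le_trans (mom_le 1 hr hu) (le_of_eq ?_))
      · exact mul_le_mul_of_nonneg_right (by simpa using (Real.sinh_lt_cosh u).le)
          (Real.exp_pos _).le
      · simp
  have h := integral_Ioi_of_hasDerivAt_of_tendsto' hd hint hlim
  rw [Real.sinh_zero, zero_mul, sub_zero] at h
  rw [integral_sub ?_ ((integrable_mom 2 hr).const_mul r), integral_add (integrable_mom 1 hr)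
    ((integrable_mom 0 hr).const_mul r), integral_const_mul, integral_const_mul] at h
  · exact h
  · exact (integrable_mom 1 hr).add ((integrable_mom 0 hr).const_mul r)

/-- `y x = K₀ (μ eˣ)` satisfies `y'' = μ² e^{2x} y`. -/
theorem bessel_ode {μ : ℝ} (hμ : 0 < μ) (x : ℝ) :
    HasDerivAt (fun x => besselK0 (μ * Real.exp x))
        (-(μ * Real.exp x) * besselMom 1 (μ * Real.exp x)) x ∧
      HasDerivAt (fun x => -(μ * Real.exp x) * besselMom 1 (μ * Real.exp x))
        (μ ^ 2 * Real.exp (2 * x) * besselK0 (μ * Real.exp x)) x := by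
  set r := μ * Real.exp x with hrdef
  have hr : 0 < r := mul_pos hμ (Real.exp_pos x)
  have he : HasDerivAt (fun x => μ * Real.exp x) r x := (Real.hasDerivAt_exp x).const_mul μ
  constructor
  · have h := (hasDerivAt_besselMom 0 hr).comp x he
    rw [show besselMom 0 = besselK0 from funext besselMom_zero] at h
    exact h.congr_deriv (by ring)
  · have h := he.neg.mul ((hasDerivAt_besselMom 1 hr).comp x he)
    refine h.congr_deriv ?_
    have h2 : Real.exp (2 * x) = Real.exp x * Real.exp x := by rw [← Real.exp_add]; ring_nf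
    have hrr : r * r = μ ^ 2 * (Real.exp x * Real.exp x) := by rw [hrdef]; ring
    simp only [Pi.neg_apply, Function.comp_apply]
    rw [← besselMom_zero, h2, ← hrdef]
    linear_combination (-r) * bessel_relation hr + (besselMom 0 r) * hrr

end FermatAgent.LT.H3

end
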