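import Mathlib
import Fermat.Agent.LT.Dihedral.Poisson

set_option autoImplicit false
set_option linter.unusedSectionVars false

/-!
# Fourier series of periodic functions on `d → ℝ`
-/

noncomputable section

open MeasureTheory Complex Set Filter Topology UnitAddTorus

-- the normalised Haar measure on `ℝ / ℤ`
local instance : MeasureSpace UnitAddCircle := ⟨AddCircle.haarAddCircle⟩

local instance : Measure.IsAddHaarMeasure (volume : Measure UnitAddCircle) :=
  inferInstanceAs (Measure.IsAddHaarMeasure AddCircle.haarAddCircle)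

namespace FermatAgent.LT.BoxFourier

open FermatAgent.LT.Dihedral (toTorus torusSection toTorus_section boxAt intVec phaseVec
  norm_phaseVec continuous_phaseVec measurableSet_boxAt volume_boxAt phaseVec_add_intVec)

variable {d : Type*} [Fintype d]

/-- The Fourier coefficient over the unit box. -/
def boxCoeff (f : (d → ℝ) → ℂ) (k : d → ℤ) : ℂ := ∫ y in boxAt 0, phaseVec y k * f y

/-- The character `exp (2πi ⟨y, k⟩)`. -/
def boxChar (y : d → ℝ) (k : d → ℤ) : ℂ :=
  cexp (2 * Real.pi * I * ∑ i, ((k i : ℂ) * (y i : ℂ)))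

/-- `f` has period `ℤᵈ`. -/
def IsPer (f : (d → ℝ) → ℂ) : Prop := ∀ (y : d → ℝ) (n : d → ℤ), f (y + intVec n) = f y

theorem phaseVec_zero (y : d → ℝ) : phaseVec y (0 : d → ℤ) = 1 := by simp [phaseVec]

theorem phaseVec_mul_boxChar (y : d → ℝ) (k : d → ℤ) : phaseVec y k * boxChar y k = 1 := by
  rw [phaseVec, boxChar, ← Complex.exp_add, ← add_mul]
  simp

theorem phaseVec_add (y z : d → ℝ) (k : d → ℤ) :
    phaseVec (y + z) k = phaseVec y k * phaseVec z k := by
  rw [phaseVec, phaseVec, phaseVec, ← Complex.exp_add, ← mul_add, ← Finset.sum_add_distrib]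
  congr 2
  refine Finset.sum_congr rfl fun i _ => ?_
  simp only [Pi.add_apply]
  push_cast
  ring

theorem box_subset_Icc : boxAt (0 : d → ℤ) ⊆ Icc (0 : d → ℝ) 1 := fun x hx => by
  constructor <;> intro i <;> have := hx i <;>
    simp only [Pi.zero_apply, Int.cast_zero, zero_add, mem_Ioc] at this
  · exact this.1.le
  · exact this.2

theorem integrableOn_box {f : (d → ℝ) → ℂ} (hf : Continuous f) : IntegrableOn f (boxAt 0) :=
  (hf.continuousOn.integrableOn_compact isCompact_Icc).mono_set box_subset_Icc

theorem norm_boxCoeff_le {f : (d → ℝ) → ℂ} {C : ℝ} (hb : ∀ y, ‖f y‖ ≤ C) (k : d → ℤ) :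
    ‖boxCoeff f k‖ ≤ C := by
  refine (norm_setIntegral_le_of_norm_le_const (C := C) (by simp [volume_boxAt]) fun y _ => ?_).trans
    (le_of_eq ?_)
  · rw [norm_mul, norm_phaseVec, one_mul]; exact hb y
  · simp [measureReal_def, volume_boxAt]

theorem per_section {f : (d → ℝ) → ℂ} (hper : IsPer f) (x : d → ℝ) :
    f (torusSection (toTorus x)) = f x := by
  have h : ∀ i, ∃ k : ℤ, torusSection (toTorus x) i = x i + k := fun i => by
    have := congrFun (toTorus_section (toTorus x)) i
    simp only [toTorus] at this
    obtain ⟨k, hk⟩ := QuotientAddGroup.eq.1 this.symm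
    refine ⟨k, ?_⟩
    simp only [zsmul_one] at hk
    linarith
  choose k hk using h
  rw [show torusSection (toTorus x) = x + intVec k from funext hk, hper]

/-- A periodic function on the torus. -/
def onTorus (f : (d → ℝ) → ℂ) (hf : Continuous f) (hper : IsPer f) : C(UnitAddTorus d, ℂ) where
  toFun t := f (torusSection t)
  continuous_toFun := by
    have hq : IsOpenQuotientMap (toTorus (d := d)) :=
      IsOpenQuotientMap.piMap fun _ => QuotientAddGroup.isOpenQuotientMap_mk
    rw [hq.isQuotientMap.continuous_iff]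
    exact hf.congr fun x => (per_section hper x).symm

theorem onTorus_apply {f : (d → ℝ) → ℂ} (hf : Continuous f) (hper : IsPer f) (x : d → ℝ) :
    onTorus f hf hper (toTorus x) = f x := per_section hper x

theorem mFourier_toTorus (k : d → ℤ) (x : d → ℝ) : mFourier k (toTorus x) = boxChar x k := by
  show (∏ i, fourier (k i) (x i : UnitAddCircle)) = _
  simp only [fourier_coe_apply, boxChar, Finset.mul_sum, ← Complex.exp_sum]
  congr 1
  refine Finset.sum_congr rfl fun i _ => ?_
  push_cast
  ring

theorem boxSet_eq : {x : d → ℝ | ∀ i, x i ∈ Ioc ((0 : d → ℝ) i) ((0 : d → ℝ) i + 1)} =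
    boxAt (0 : d → ℤ) := by
  ext x; simp [boxAt]

theorem integral_onTorus {f : (d → ℝ) → ℂ} (hf : Continuous f) (hper : IsPer f) :
    ∫ t, onTorus f hf hper t = ∫ y in boxAt 0, f y := by
  rw [integral_preimage _ (0 : d → ℝ), boxSet_eq]
  exact setIntegral_congr_fun (measurableSet_boxAt 0) fun x _ => onTorus_apply hf hper x

theorem mFourierCoeff_onTorus {f : (d → ℝ) → ℂ} (hf : Continuous f) (hper : IsPer f) (k : d → ℤ) :
    mFourierCoeff (onTorus f hf hper) k = boxCoeff f k := by
  rw [mFourierCoeff_eq_integral _ k 0, boxCoeff, boxSet_eq]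
  refine setIntegral_congr_fun (measurableSet_boxAt 0) fun x _ => ?_
  show mFourier (-k) (toTorus x) • onTorus f hf hper (toTorus x) = _
  rw [onTorus_apply, mFourier_toTorus, smul_eq_mul, phaseVec, boxChar]
  congr 2
  simp only [Pi.neg_apply, Int.cast_neg, neg_mul, Finset.sum_neg_distrib, mul_neg]

/-- Translation invariance. -/
theorem integral_box_add {f : (d → ℝ) → ℂ} (hf : Continuous f) (hper : IsPer f) (s : d → ℝ) :
    ∫ y in boxAt 0, f (y + s) = ∫ y in boxAt 0, f y := by
  have hper' : IsPer fun y => f (y + s) := fun y n => by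
    show f (y + intVec n + s) = f (y + s)
    rw [add_right_comm, hper]
  have hf' : Continuous fun y => f (y + s) := by fun_prop
  rw [← integral_onTorus hf' hper', ← integral_onTorus hf hper,
    ← integral_add_right_eq_self (fun t => onTorus f hf hper t) (toTorus s)]
  congr 1
  funext t
  conv_lhs => rw [← toTorus_section t]
  conv_rhs => rw [← toTorus_section t]
  have h : toTorus (torusSection t) + toTorus s = toTorus (torusSection t + s) := by
    funext i; simp [toTorus]
  rw [h, onTorus_apply, onTorus_apply]

theorem boxCoeff_translate {f : (d → ℝ) → ℂ} (hf : Continuous f) (hper : IsPer f) (s : d → ℝ)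
    (k : d → ℤ) : boxCoeff (fun y => f (y + s)) k = boxChar s k * boxCoeff f k := by
  have hg : IsPer fun y => phaseVec y k * f y := fun y n => by
    show phaseVec (y + intVec n) k * f (y + intVec n) = _
    rw [phaseVec_add_intVec, hper]
  rw [boxCoeff, boxCoeff, ← integral_box_add (f := fun y => phaseVec y k * f y)
      ((continuous_phaseVec k).mul hf) hg s,
    ← integral_const_mul]
  refine integral_congr_ae (Eventually.of_forall fun y => ?_)
  show phaseVec y k * f (y + s) = boxChar s k * (phaseVec (y + s) k * f (y + s))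
  rw [phaseVec_add]
  linear_combination (-(phaseVec y k * f (y + s))) * phaseVec_mul_boxChar s k

theorem hasSum_boxCoeff {f : (d → ℝ) → ℂ} (hf : Continuous f) (hper : IsPer f)
    (hs : Summable (boxCoeff f)) (x : d → ℝ) :
    HasSum (fun k => boxCoeff f k * boxChar x k) (f x) := by
  have hco : mFourierCoeff (onTorus f hf hper) = boxCoeff f :=
    funext fun k => mFourierCoeff_onTorus hf hper k
  have h := hasSum_mFourier_series_apply_of_summable (f := onTorus f hf hper) (hco ▸ hs) (toTorus x)
  rw [onTorus_apply, hco] at h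
  simpa only [smul_eq_mul, mFourier_toTorus] using h

end FermatAgent.LT.BoxFourier

end
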