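import Mathlib

set_option autoImplicit false

/-!
# Circle averages of `wᵐ exp (p w + q / w)`

These give the Bessel function `J₀` as an entire function of the square of its argument, together
with its differential equation.
-/

noncomputable section

open MeasureTheory Set Filter
open scoped Topology Interval

namespace FermatAgent.LT.CircleExp

/-- Differentiation under an interval integral, for continuous data. -/
theorem hasDerivAt_param {F F' : ℝ → ℝ → ℂ} (hF : Continuous fun p : ℝ × ℝ => F p.1 p.2)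
    (hF' : Continuous fun p : ℝ × ℝ => F' p.1 p.2)
    (hd : ∀ s x, HasDerivAt (fun s => F s x) (F' s x) s) (a b s₀ : ℝ) :
    HasDerivAt (fun s => ∫ x in a..b, F s x) (∫ x in a..b, F' s₀ x) s₀ := by
  obtain ⟨C, hC⟩ := (isCompact_Icc.prod isCompact_uIcc).exists_bound_of_continuousOn
    (hF'.continuousOn (s := Icc (s₀ - 1) (s₀ + 1) ×ˢ [[a, b]]))
  have hs : ∀ s : ℝ, Continuous fun x : ℝ => F s x := fun s =>
    hF.comp (continuous_const.prodMk continuous_id)
  have hs' : ∀ s : ℝ, Continuous fun x : ℝ => F' s x := fun s =>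
    hF'.comp (continuous_const.prodMk continuous_id)
  refine (intervalIntegral.hasDerivAt_integral_of_dominated_loc_of_deriv_le (𝕜 := ℝ) (F := F)
    (F' := F') (x₀ := s₀) (bound := fun _ => C) (s := Icc (s₀ - 1) (s₀ + 1))
    (Icc_mem_nhds (by linarith) (by linarith))
    (Eventually.of_forall fun s => (hs s).aestronglyMeasurable)
    ((hs s₀).intervalIntegrable _ _) (hs' s₀).aestronglyMeasurable
    (Eventually.of_forall fun x hx s hs => hC (s, x) ⟨hs, uIoc_subset_uIcc hx⟩)
    intervalIntegrable_const (Eventually.of_forall fun x _ s _ => hd s x)).2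

/-- The point `exp (i θ)`. -/
def wθ (θ : ℝ) : ℂ := Complex.exp ((θ : ℂ) * Complex.I)

theorem wθ_ne_zero (θ : ℝ) : wθ θ ≠ 0 := Complex.exp_ne_zero _

theorem continuous_wθ : Continuous wθ := by unfold wθ; fun_prop

theorem hasDerivAt_wθ (θ : ℝ) : HasDerivAt wθ (Complex.I * wθ θ) θ := by
  have h : HasDerivAt (fun θ : ℝ => (θ : ℂ) * Complex.I) Complex.I θ := by
    simpa using (Complex.ofRealCLM.hasDerivAt (x := θ)).mul_const Complex.I
  exact h.cexp.congr_deriv (mul_comm _ _)

theorem wθ_two_pi : wθ (2 * Real.pi) = wθ 0 := by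
  simp [wθ, Complex.exp_two_pi_mul_I]

/-- The integrand. -/
def kern (m : ℤ) (p q : ℂ) (θ : ℝ) : ℂ := wθ θ ^ m * Complex.exp (p * wθ θ + q * (wθ θ)⁻¹)

/-- The circle average. -/
def avg (m : ℤ) (p q : ℂ) : ℂ := ((2 * Real.pi : ℝ) : ℂ)⁻¹ * ∫ θ in 0..2 * Real.pi, kern m p q θ

theorem continuous_kern {α : Type*} [TopologicalSpace α] (m : ℤ) {P Q : α → ℂ} {θ : α → ℝ}
    (hP : Continuous P) (hQ : Continuous Q) (hθ : Continuous θ) :
    Continuous fun a => kern m (P a) (Q a) (θ a) := by
  have hw : Continuous fun a => wθ (θ a) := continuous_wθ.comp hθ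
  exact (hw.zpow₀ m fun a => Or.inl (wθ_ne_zero _)).mul
    ((hP.mul hw).add (hQ.mul (hw.inv₀ fun a => wθ_ne_zero _))).cexp

theorem hasDerivAt_avg (m : ℤ) {P Q P' Q' : ℝ → ℂ} (hP : ∀ s, HasDerivAt P (P' s) s)
    (hQ : ∀ s, HasDerivAt Q (Q' s) s) (hP' : Continuous P') (hQ' : Continuous Q') (s : ℝ) :
    HasDerivAt (fun s => avg m (P s) (Q s))
      (P' s * avg (m + 1) (P s) (Q s) + Q' s * avg (m - 1) (P s) (Q s)) s := by
  have hPc : Continuous P := continuous_iff_continuousAt.2 fun s => (hP s).continuousAt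
  have hQc : Continuous Q := continuous_iff_continuousAt.2 fun s => (hQ s).continuousAt
  have hF := continuous_kern m (hPc.comp (continuous_fst (Y := ℝ))) (hQc.comp continuous_fst)
    continuous_snd
  have h1 := continuous_kern (m + 1) (hPc.comp (continuous_fst (Y := ℝ))) (hQc.comp continuous_fst)
    continuous_snd
  have h2 := continuous_kern (m - 1) (hPc.comp (continuous_fst (Y := ℝ))) (hQc.comp continuous_fst)
    continuous_snd
  have hd := (hasDerivAt_param (F := fun s θ => kern m (P s) (Q s) θ)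
    (F' := fun s θ => P' s * kern (m + 1) (P s) (Q s) θ + Q' s * kern (m - 1) (P s) (Q s) θ)
    hF (((hP'.comp continuous_fst).mul h1).add ((hQ'.comp continuous_fst).mul h2))
    (fun s θ => by
      refine ((((hP s).mul_const _).fun_add ((hQ s).mul_const _)).cexp.const_mul
        (wθ θ ^ m)).congr_deriv ?_
      simp only [kern, zpow_add_one₀ (wθ_ne_zero θ), zpow_sub_one₀ (wθ_ne_zero θ)]
      ring) 0 (2 * Real.pi) s).const_mul ((2 * Real.pi : ℝ) : ℂ)⁻¹
  refine hd.congr_deriv ?_
  rw [intervalIntegral.integral_add, intervalIntegral.integral_const_mul,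
    intervalIntegral.integral_const_mul]
  · simp only [avg]; ring
  · exact ((continuous_kern (m + 1) continuous_const continuous_const continuous_id).const_smul
      (P' s)).intervalIntegrable _ _
  · exact ((continuous_kern (m - 1) continuous_const continuous_const continuous_id).const_smul
      (Q' s)).intervalIntegrable _ _

/-- The integral of a derivative over the circle vanishes. -/
theorem avg_relation (m : ℤ) (p q : ℂ) :
    (m : ℂ) * avg m p q + p * avg (m + 1) p q - q * avg (m - 1) p q = 0 := by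
  have hd : ∀ θ : ℝ, HasDerivAt (kern m p q) (Complex.I * ((m : ℂ) * kern m p q θ +
      p * kern (m + 1) p q θ - q * kern (m - 1) p q θ)) θ := fun θ => by
    have hw := hasDerivAt_wθ θ
    have hz := (hasDerivAt_zpow m (wθ θ) (Or.inl (wθ_ne_zero θ))).comp θ hw
    refine ((hz.mul (((hw.const_mul p).fun_add ((hw.fun_inv (wθ_ne_zero θ)).const_mul q)).cexp))
      ).congr_deriv ?_
    have hne := wθ_ne_zero θ
    simp only [kern, zpow_add_one₀ hne, zpow_sub_one₀ hne, Function.comp_apply]
    field_simp
    ring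
  have hc : ∀ k, Continuous (kern k p q) := fun k =>
    continuous_kern k continuous_const continuous_const continuous_id
  have hint := intervalIntegral.integral_eq_sub_of_hasDerivAt (a := 0) (b := 2 * Real.pi)
    (fun θ _ => hd θ) ((by fun_prop : Continuous fun θ => Complex.I * ((m : ℂ) * kern m p q θ +
      p * kern (m + 1) p q θ - q * kern (m - 1) p q θ)).intervalIntegrable _ _)
  rw [show kern m p q (2 * Real.pi) = kern m p q 0 by simp only [kern, wθ_two_pi], sub_self,
    intervalIntegral.integral_const_mul, intervalIntegral.integral_sub, intervalIntegral.integral_add,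
    intervalIntegral.integral_const_mul, intervalIntegral.integral_const_mul,
    intervalIntegral.integral_const_mul] at hint
  · have := (mul_eq_zero.mp hint).resolve_left Complex.I_ne_zero
    simp only [avg]
    linear_combination ((2 * Real.pi : ℝ) : ℂ)⁻¹ * this
  all_goals exact (by fun_prop : Continuous _).intervalIntegrable _ _

theorem avg_zero_zero : avg 0 0 0 = 1 := by
  have hp : ((Real.pi : ℝ) : ℂ) ≠ 0 := Complex.ofReal_ne_zero.mpr Real.pi_ne_zero
  simp only [avg, kern, zpow_zero, zero_mul, add_zero, Complex.exp_zero, mul_one,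
    intervalIntegral.integral_const, sub_zero, Complex.real_smul]
  exact inv_mul_cancel₀ (Complex.ofReal_ne_zero.mpr (by positivity))

theorem avg_one_zero : avg 1 0 0 = 0 := by
  have h := avg_relation 1 0 0
  simpa using h

theorem avg_real_zero (x : ℝ) : avg 0 (x : ℂ) 0 = 1 := by
  have hd : ∀ s : ℝ, HasDerivAt (fun s : ℝ => avg 0 (s : ℂ) 0) 0 s := fun s => by
    refine (hasDerivAt_avg 0 (P' := fun _ => 1) (Q' := fun _ => 0)
      (fun s => Complex.ofRealCLM.hasDerivAt) (fun s => hasDerivAt_const s 0) continuous_const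
      continuous_const s).congr_deriv ?_
    rw [one_mul, zero_mul, add_zero, zero_add]
    rcases eq_or_ne s 0 with rfl | hs
    · simpa using avg_one_zero
    · have h := avg_relation 0 (s : ℂ) 0
      simpa [hs] using h
  rw [is_const_of_deriv_eq_zero (fun s => (hd s).differentiableAt) (fun s => (hd s).deriv) x 0,
    Complex.ofReal_zero, avg_zero_zero]

/-- The average only depends on the product of the two parameters. -/
theorem avg_eq_prod {p : ℂ} (hp : p ≠ 0) (q : ℂ) : avg 0 p q = avg 0 1 (p * q) := by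
  set L := Complex.log p with hL
  have he : ∀ s : ℝ, HasDerivAt (fun s : ℝ => Complex.exp ((s : ℂ) * L))
      (Complex.exp ((s : ℂ) * L) * L) s := fun s => by
    simpa using ((Complex.ofRealCLM.hasDerivAt (x := s)).mul_const L).cexp
  have he' : ∀ s : ℝ, HasDerivAt (fun s : ℝ => p * q * Complex.exp (-((s : ℂ) * L)))
      (p * q * (Complex.exp (-((s : ℂ) * L)) * -L)) s := fun s => by
    simpa using (((Complex.ofRealCLM.hasDerivAt (x := s)).mul_const L).fun_neg.cexp.const_mul (p * q))
  have hd : ∀ s : ℝ, HasDerivAt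
      (fun s : ℝ => avg 0 (Complex.exp ((s : ℂ) * L)) (p * q * Complex.exp (-((s : ℂ) * L)))) 0 s :=
    fun s => by
    refine (hasDerivAt_avg 0 he he' (by fun_prop) (by fun_prop) s).congr_deriv ?_
    have h := avg_relation 0 (Complex.exp ((s : ℂ) * L)) (p * q * Complex.exp (-((s : ℂ) * L)))
    rw [Int.cast_zero, zero_mul, zero_add] at h
    linear_combination L * h
  have h := is_const_of_deriv_eq_zero (fun s => (hd s).differentiableAt) (fun s => (hd s).deriv) 1 0
  simp only [Complex.ofReal_one, one_mul, Complex.ofReal_zero, zero_mul, neg_zero, Complex.exp_zero,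
    mul_one, hL, Complex.exp_log hp, Complex.exp_neg] at h
  rwa [mul_comm p q, mul_assoc, mul_inv_cancel₀ hp, mul_one, mul_comm q p] at h

/-- `J₀ (2 √(a u))`, an entire function of `u`. -/
def bfun (a u : ℝ) : ℂ := avg 0 1 (-((a : ℂ) * u))

/-- Its derivative. -/
def bfun₁ (a u : ℝ) : ℂ := -(a : ℂ) * avg (-1) 1 (-((a : ℂ) * u))

/-- Its second derivative. -/
def bfun₂ (a u : ℝ) : ℂ := (a : ℂ) ^ 2 * avg (-2) 1 (-((a : ℂ) * u))

theorem hasDerivAt_avg_line (m : ℤ) (a u : ℝ) :
    HasDerivAt (fun u : ℝ => avg m 1 (-((a : ℂ) * u)))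
      (-(a : ℂ) * avg (m - 1) 1 (-((a : ℂ) * u))) u := by
  refine (hasDerivAt_avg m (P' := fun _ => 0) (Q' := fun _ => -(a : ℂ))
    (fun s => hasDerivAt_const s 1) (fun s => ?_) continuous_const continuous_const u).congr_deriv
    (by ring)
  simpa using ((Complex.ofRealCLM.hasDerivAt (x := s)).const_mul (a : ℂ)).fun_neg

theorem hasDerivAt_bfun (a u : ℝ) : HasDerivAt (bfun a) (bfun₁ a u) u := by
  unfold bfun bfun₁
  exact hasDerivAt_avg_line 0 a u

theorem hasDerivAt_bfun₁ (a u : ℝ) : HasDerivAt (bfun₁ a) (bfun₂ a u) u := by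
  refine ((hasDerivAt_avg_line (-1) a u).const_mul (-(a : ℂ))).congr_deriv ?_
  rw [bfun₂, show (-1 : ℤ) - 1 = -2 from rfl]
  ring

theorem continuous_avg_line (m : ℤ) (a : ℝ) :
    Continuous fun u : ℝ => avg m 1 (-((a : ℂ) * u)) :=
  continuous_iff_continuousAt.2 fun u => (hasDerivAt_avg_line m a u).continuousAt

theorem continuous_bfun (a : ℝ) : Continuous (bfun a) := continuous_avg_line 0 a

theorem continuous_bfun₁ (a : ℝ) : Continuous (bfun₁ a) :=
  continuous_const.mul (continuous_avg_line (-1) a)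

theorem continuous_bfun₂ (a : ℝ) : Continuous (bfun₂ a) :=
  continuous_const.mul (continuous_avg_line (-2) a)

theorem bfun_ode (a u : ℝ) : (u : ℂ) * bfun₂ a u + bfun₁ a u + (a : ℂ) * bfun a u = 0 := by
  have h := avg_relation (-1) 1 (-((a : ℂ) * u))
  rw [show (-1 : ℤ) + 1 = 0 from rfl, show (-1 : ℤ) - 1 = -2 from rfl] at h
  push_cast at h
  simp only [bfun, bfun₁, bfun₂]
  linear_combination (a : ℂ) * h

theorem bfun_zero (a : ℝ) : bfun a 0 = 1 := by
  have h := avg_real_zero 1
  simpa [bfun] using h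

end FermatAgent.LT.CircleExp

end
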