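import Mathlib
import Fermat.Agent.LT.Base.H3

set_option autoImplicit false

/-!
# Characters on small discs
-/

noncomputable section

open MeasureTheory Set Filter Complex
open scoped Topology ComplexConjugate

namespace FermatAgent.LT.H3

/-- The additive character of frequency `ν`. -/
def echar (ν z : ℂ) : ℂ := Complex.exp (2 * Real.pi * I * (2 * (ν * z).re : ℝ))

theorem wave_eq (ν : ℂ) (P : H3) :
    wave ν P = (P.t * besselK0 (4 * Real.pi * ‖ν‖ * P.t) : ℝ) * echar ν P.z := rfl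

theorem echar_eq_exp (ν z : ℂ) : echar ν z = Complex.exp (((4 * Real.pi * (ν * z).re : ℝ) : ℂ) * I) := by
  rw [echar]; congr 1; push_cast; ring

@[simp] theorem norm_echar (ν z : ℂ) : ‖echar ν z‖ = 1 := by
  rw [echar_eq_exp, Complex.norm_exp_ofReal_mul_I]

theorem echar_add (ν z w : ℂ) : echar ν (z + w) = echar ν z * echar ν w := by
  rw [echar, echar, echar, ← Complex.exp_add]
  congr 1
  simp only [mul_add, Complex.add_re]
  push_cast
  ring

@[simp] theorem echar_zero_left (z : ℂ) : echar 0 z = 1 := by simp [echar]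

@[simp] theorem echar_zero_right (ν : ℂ) : echar ν 0 = 1 := by simp [echar]

theorem continuous_echar (ν : ℂ) : Continuous (echar ν) := by unfold echar; fun_prop

/-- The integral of the character over the disc of squared radius `u`. -/
def discInt (ν : ℂ) (u : ℝ) : ℂ := ∫ ζ in Metric.closedBall (0 : ℂ) (Real.sqrt u), echar ν ζ

theorem integral_disc_one {r : ℝ} (hr : 0 ≤ r) :
    ∫ _ζ in Metric.closedBall (0 : ℂ) r, (1 : ℝ) = Real.pi * r ^ 2 := by
  rw [setIntegral_const, smul_eq_mul, mul_one, measureReal_def, Complex.volume_closedBall]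
  simp [hr, mul_comm]

theorem integral_disc_normSq {r : ℝ} (hr : 0 ≤ r) :
    ∫ ζ in Metric.closedBall (0 : ℂ) r, ‖ζ‖ ^ 2 = Real.pi * r ^ 4 / 2 := by
  rw [← integral_indicator Metric.isClosed_closedBall.measurableSet,
    ← Complex.integral_comp_polarCoord_symm, polarCoord_target]
  have hfun : ∀ p ∈ Ioi (0 : ℝ) ×ˢ Ioo (-Real.pi) Real.pi,
      p.1 • (Metric.closedBall (0 : ℂ) r).indicator (fun ζ => ‖ζ‖ ^ 2) (Complex.polarCoord.symm p) =
        (Iic r).indicator (fun s => s ^ 3) p.1 * 1 := by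
    intro p hp
    have h1 : (0 : ℝ) < p.1 := hp.1
    have hn : ‖Complex.polarCoord.symm p‖ = p.1 := by
      rw [Complex.norm_polarCoord_symm, abs_of_pos h1]
    rcases le_or_gt p.1 r with h | h
    · rw [Set.indicator_of_mem (mem_closedBall_zero_iff.mpr (hn.trans_le h)),
        Set.indicator_of_mem (mem_Iic.mpr h), hn, smul_eq_mul, mul_one]
      ring
    · rw [Set.indicator_of_notMem (fun hm => absurd (hn ▸ mem_closedBall_zero_iff.mp hm)
        (not_le.mpr h)), Set.indicator_of_notMem (by simpa using h), smul_zero, zero_mul]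
  rw [setIntegral_congr_fun (measurableSet_Ioi.prod measurableSet_Ioo) hfun,
    Measure.volume_eq_prod, setIntegral_prod_mul (fun s => (Iic r).indicator (fun s => s ^ 3) s)
      (fun _ => (1 : ℝ)), setIntegral_indicator measurableSet_Iic, Ioi_inter_Iic,
    ← intervalIntegral.integral_of_le hr, integral_pow, setIntegral_const, measureReal_def,
    Real.volume_Ioo]
  norm_num [ENNReal.toReal_ofReal, Real.pi_pos.le]
  ring

theorem integral_disc_neg (r : ℝ) (f : ℂ → ℝ) :
    ∫ ζ in Metric.closedBall (0 : ℂ) r, f (-ζ) = ∫ ζ in Metric.closedBall (0 : ℂ) r, f ζ := by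
  have h := (Measure.measurePreserving_neg (volume : Measure ℂ)).setIntegral_preimage_emb
    (MeasurableEquiv.neg ℂ).measurableEmbedding f (Metric.closedBall (0 : ℂ) r)
  rwa [show (Neg.neg : ℂ → ℂ) ⁻¹' Metric.closedBall 0 r = Metric.closedBall 0 r from by
    ext ζ; simp] at h

theorem integral_disc_mul_I (r : ℝ) (f : ℂ → ℝ) :
    ∫ ζ in Metric.closedBall (0 : ℂ) r, f (I * ζ) = ∫ ζ in Metric.closedBall (0 : ℂ) r, f ζ := by
  set e : ℂ ≃ₗᵢ[ℝ] ℂ := rotation ⟨I, mem_sphere_zero_iff_norm.mpr Complex.norm_I⟩ with he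
  have hap : ∀ ζ, e ζ = I * ζ := fun ζ => rotation_apply _ ζ
  have h := e.measurePreserving.setIntegral_preimage_emb e.toMeasurableEquiv.measurableEmbedding f
    (Metric.closedBall (0 : ℂ) r)
  rw [show (e : ℂ → ℂ) ⁻¹' Metric.closedBall 0 r = Metric.closedBall 0 r from by
    ext ζ; simp] at h
  simpa only [hap] using h

theorem integrableOn_disc {E : Type*} [NormedAddCommGroup E] {f : ℂ → E} (hf : Continuous f)
    (r : ℝ) : IntegrableOn f (Metric.closedBall (0 : ℂ) r) :=
  hf.continuousOn.integrableOn_compact (isCompact_closedBall _ _)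

theorem integral_disc_reMul {r : ℝ} (hr : 0 ≤ r) (ν : ℂ) :
    (∫ ζ in Metric.closedBall (0 : ℂ) r, (ν * ζ).re = 0) ∧
      ∫ ζ in Metric.closedBall (0 : ℂ) r, (ν * ζ).re ^ 2 = ‖ν‖ ^ 2 * Real.pi * r ^ 4 / 4 := by
  constructor
  · have h := integral_disc_neg r fun ζ => (ν * ζ).re
    simp only [mul_neg, Complex.neg_re, integral_neg] at h
    linarith
  · have h := integral_disc_mul_I r fun ζ => (ν * ζ).re ^ 2
    have hsum : ∫ ζ in Metric.closedBall (0 : ℂ) r, ((ν * ζ).re ^ 2 + (ν * (I * ζ)).re ^ 2) =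
        ∫ ζ in Metric.closedBall (0 : ℂ) r, ‖ν‖ ^ 2 * ‖ζ‖ ^ 2 := by
      congr 1
      funext ζ
      rw [← mul_pow, ← norm_mul, Complex.sq_norm, Complex.normSq_apply]
      simp [Complex.mul_re, Complex.mul_im]
      ring
    rw [integral_add (integrableOn_disc (by fun_prop) r) (integrableOn_disc (by fun_prop) r),
      h, integral_const_mul, integral_disc_normSq hr] at hsum
    linear_combination hsum / 2

/-- The second order expansion of the disc integral. -/
theorem discInt_sub_le (ν : ℂ) {u : ℝ} (hu : 0 ≤ u)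
    (hsmall : 4 * Real.pi * ‖ν‖ * Real.sqrt u ≤ 1) :
    ‖discInt ν u - ((Real.pi * u - 2 * Real.pi ^ 3 * ‖ν‖ ^ 2 * u ^ 2 : ℝ) : ℂ)‖ ≤
      (4 * Real.pi * ‖ν‖ * Real.sqrt u) ^ 3 * (Real.pi * u) := by
  set r := Real.sqrt u with hrdef
  have hr : 0 ≤ r := Real.sqrt_nonneg u
  have hr2 : r ^ 2 = u := Real.sq_sqrt hu
  set θ : ℂ → ℝ := fun ζ => 4 * Real.pi * (ν * ζ).re with hθ
  set main : ℂ → ℂ := fun ζ => 1 + ((θ ζ : ℝ) : ℂ) * I + ((-(θ ζ) ^ 2 / 2 : ℝ) : ℂ) with hmain
  have hbound : ∀ ζ ∈ Metric.closedBall (0 : ℂ) r,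
      ‖echar ν ζ - main ζ‖ ≤ (4 * Real.pi * ‖ν‖ * r) ^ 3 := by
    intro ζ hζ
    have hζ' : ‖ζ‖ ≤ r := mem_closedBall_zero_iff.mp hζ
    have hθb : |θ ζ| ≤ 4 * Real.pi * ‖ν‖ * r := by
      simp only [hθ, abs_mul, abs_of_pos Real.pi_pos, Nat.abs_ofNat]
      rw [mul_assoc (4 * Real.pi)]
      exact mul_le_mul_of_nonneg_left ((Complex.abs_re_le_norm _).trans
        (by rw [norm_mul]; gcongr)) (by positivity)
    have hn : ‖((θ ζ : ℝ) : ℂ) * I‖ = |θ ζ| := by simp
    have h := Complex.exp_bound (x := ((θ ζ : ℝ) : ℂ) * I) (by rw [hn]; linarith) (n := 3) (by norm_num)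
    rw [hn] at h
    rw [echar_eq_exp, show (4 * Real.pi * (ν * ζ).re) = θ ζ from rfl]
    refine le_trans ?_ (le_trans h ?_)
    · refine le_of_eq (congrArg _ ?_)
      simp only [hmain, Finset.sum_range_succ, Finset.sum_range_zero, Nat.factorial]
      push_cast
      linear_combination (1 / 2 : ℂ) * ((θ ζ : ℝ) : ℂ) ^ 2 * Complex.I_sq
    · refine le_trans (mul_le_of_le_one_right (by positivity) ?_)
        (pow_le_pow_left₀ (abs_nonneg _) hθb 3)
      norm_num [Nat.factorial]
  have hmainInt : ∫ ζ in Metric.closedBall (0 : ℂ) r, main ζ =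
      ((Real.pi * u - 2 * Real.pi ^ 3 * ‖ν‖ ^ 2 * u ^ 2 : ℝ) : ℂ) := by
    obtain ⟨h1, h2⟩ := integral_disc_reMul hr ν
    have e : main = fun ζ => ((1 + (-(8 * Real.pi ^ 2) * (ν * ζ).re ^ 2) : ℝ) : ℂ) +
        ((4 * Real.pi * (ν * ζ).re : ℝ) : ℂ) * I := by
      funext ζ; simp only [hmain, hθ]; push_cast; ring
    rw [e, integral_add (integrableOn_disc (by fun_prop) r) (integrableOn_disc (by fun_prop) r),
      integral_complex_ofReal, integral_mul_const, integral_complex_ofReal,
      integral_add (integrableOn_disc (by fun_prop) r) (integrableOn_disc (by fun_prop) r),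
      integral_const_mul, integral_const_mul, h1, h2, integral_disc_one hr,
      show r ^ 4 = (r ^ 2) ^ 2 by ring, hr2]
    push_cast
    ring
  rw [← hmainInt, discInt, ← hrdef, ← integral_sub (integrableOn_disc (continuous_echar ν) r)
    (integrableOn_disc (by fun_prop) r)]
  refine (norm_setIntegral_le_of_norm_le_const measure_closedBall_lt_top hbound).trans (le_of_eq ?_)
  have h := integral_disc_one hr
  rw [setIntegral_const, smul_eq_mul, mul_one] at h
  rw [h, hr2]

end FermatAgent.LT.H3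

end
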