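import Mathlib
import Fermat.Agent.LT.Base.Disc
import Fermat.Agent.LT.Base.SecondDiff
import Fermat.Agent.LT.Base.Bessel

set_option autoImplicit false

/-!
# Uniqueness of the bounded radial eigenfunction
-/

noncomputable section

open MeasureTheory Set Filter Complex
open scoped Topology

namespace FermatAgent.LT.H3

open SecondDiff (wgt)

theorem continuous_discInt (ν : ℂ) : Continuous (discInt ν) := by
  have h : discInt ν = fun u => ((Real.sqrt u ^ 2 : ℝ) : ℂ) *
      ∫ ζ in Metric.closedBall (0 : ℂ) 1, echar ν ((Real.sqrt u : ℂ) * ζ) := by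
    funext u
    rcases (Real.sqrt_nonneg u).eq_or_lt with h | h
    · simp [discInt, ← h, Metric.closedBall_zero]
    · have hs := Measure.setIntegral_comp_smul_of_pos (volume : Measure ℂ) (echar ν)
        (Metric.closedBall (0 : ℂ) 1) h
      rw [_root_.smul_closedBall _ _ zero_le_one, smul_zero, Real.norm_of_nonneg h.le, mul_one,
        Complex.finrank_real_complex] at hs
      simp only [Complex.real_smul] at hs
      rw [discInt, hs, ← mul_assoc, ← Complex.ofReal_mul,
        mul_inv_cancel₀ (pow_ne_zero 2 h.ne'), Complex.ofReal_one, one_mul]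
  rw [h]
  refine Continuous.mul (by fun_prop)
    (continuous_parametric_integral_of_continuous ?_ (isCompact_closedBall _ _))
  exact (continuous_echar ν).comp (by fun_prop)

/-- The sphere function is twice the weight integral. -/
theorem sph0_eq (ε : ℝ) : sph0 ε = 2 * Real.pi * ∫ y in -ε..ε, wgt ε y := by
  have hd : ∀ r ∈ uIcc 0 ε,
      HasDerivAt (fun r => r * Real.cosh r - Real.sinh r) (r * Real.sinh r) r := fun r _ => by
    refine (((hasDerivAt_id' r).fun_mul (Real.hasDerivAt_cosh r)).fun_sub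
      (Real.hasDerivAt_sinh r)).congr_deriv ?_
    ring
  rw [sph0, intervalIntegral.integral_eq_sub_of_hasDerivAt hd
    (Continuous.intervalIntegrable (by fun_prop) _ _), SecondDiff.integral_wgt]
  simp
  ring

/-- The only solutions of `y'' = μ² e^{2x} y` bounded to the right are multiples of `K₀ (μ eˣ)`. -/
theorem eq_mul_bessel {μ : ℝ} (hμ : 0 < μ) {q q₁ : ℝ → ℂ} (h1 : ∀ x, HasDerivAt q (q₁ x) x)
    (h2 : ∀ x, HasDerivAt q₁ (((μ ^ 2 * Real.exp (2 * x) : ℝ) : ℂ) * q x) x)
    (hb : ∀ x₀ : ℝ, ∃ C, ∀ x, x₀ ≤ x → ‖q x‖ ≤ C) (x : ℝ) :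
    q x = q 0 / (besselK0 μ : ℂ) * (besselK0 (μ * Real.exp x) : ℂ) := by
  set y : ℝ → ℝ := fun x => besselK0 (μ * Real.exp x) with hy
  set y₁ : ℝ → ℝ := fun x => -(μ * Real.exp x) * besselMom 1 (μ * Real.exp x) with hy₁
  have hy0 : ∀ x, 0 < y x := fun x => besselK0_pos (mul_pos hμ (Real.exp_pos x))
  have key : ∀ x₀ x, x₀ ≤ x → q x = q x₀ / (y x₀ : ℂ) * (y x : ℂ) := by
    intro x₀
    set c : ℂ := q x₀ / (y x₀ : ℂ) with hc
    set z : ℝ → ℂ := fun x => q x - c * (y x : ℂ) with hz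
    set z₁ : ℝ → ℂ := fun x => q₁ x - c * (y₁ x : ℂ) with hz₁
    have hzd : ∀ x, HasDerivAt z (z₁ x) x := fun x =>
      (h1 x).sub ((bessel_ode hμ x).1.ofReal_comp.const_mul c)
    have hz₁d : ∀ x, HasDerivAt z₁ (((μ ^ 2 * Real.exp (2 * x) : ℝ) : ℂ) * z x) x := fun x => by
      refine ((h2 x).sub ((bessel_ode hμ x).2.ofReal_comp.const_mul c)).congr_deriv ?_
      simp only [hz, hy]
      push_cast
      ring
    set N : ℝ → ℝ := fun x => (z x).re ^ 2 + (z x).im ^ 2 with hN
    set W : ℝ → ℝ := fun x => 2 * ((z x).re * (z₁ x).re + (z x).im * (z₁ x).im) with hW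
    have hNd : ∀ x, HasDerivAt N (W x) x := fun x => by
      have hr := Complex.reCLM.hasFDerivAt.comp_hasDerivAt x (hzd x)
      have hi := Complex.imCLM.hasFDerivAt.comp_hasDerivAt x (hzd x)
      refine ((hr.fun_pow 2).fun_add (hi.fun_pow 2)).congr_deriv ?_
      simp [hW]
      ring
    have hWd : ∀ x, HasDerivAt W
        (2 * ((z₁ x).re ^ 2 + (z₁ x).im ^ 2 + μ ^ 2 * Real.exp (2 * x) * N x)) x := fun x => by
      have hr := Complex.reCLM.hasFDerivAt.comp_hasDerivAt x (hzd x)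
      have hi := Complex.imCLM.hasFDerivAt.comp_hasDerivAt x (hzd x)
      have hr' := Complex.reCLM.hasFDerivAt.comp_hasDerivAt x (hz₁d x)
      have hi' := Complex.imCLM.hasFDerivAt.comp_hasDerivAt x (hz₁d x)
      refine (((hr.fun_mul hr').fun_add (hi.fun_mul hi')).const_mul 2).congr_deriv ?_
      simp only [Function.comp_apply, Complex.reCLM_apply, Complex.imCLM_apply, Complex.re_ofReal_mul,
        Complex.im_ofReal_mul, hN]
      ring
    have hWmono : Monotone W := monotone_of_hasDerivAt_nonneg hWd fun x => by positivity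
    obtain ⟨C, hC⟩ := hb x₀
    set M : ℝ := (C + ‖c‖ * y x₀) ^ 2 with hM
    have hNb : ∀ x, x₀ ≤ x → N x ≤ M := fun x hx => by
      have h : ‖z x‖ ≤ C + ‖c‖ * y x₀ := by
        refine (norm_sub_le _ _).trans (add_le_add (hC x hx) ?_)
        rw [norm_mul, Complex.norm_real, Real.norm_of_nonneg (hy0 x).le]
        refine mul_le_mul_of_nonneg_left ?_ (norm_nonneg c)
        exact besselK0_anti (mul_pos hμ (Real.exp_pos _))
          (mul_le_mul_of_nonneg_left (Real.exp_le_exp.mpr hx) hμ.le)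
      calc N x = ‖z x‖ ^ 2 := by rw [Complex.sq_norm, Complex.normSq_apply]; simp [hN]; ring
        _ ≤ M := pow_le_pow_left₀ (norm_nonneg _) h 2
    have hWle : ∀ x, x₀ ≤ x → W x ≤ 0 := by
      intro x₁ hx₁
      by_contra hpos
      push Not at hpos
      have hmono : MonotoneOn (fun x => N x - W x₁ * x) (Ici x₁) := by
        refine monotoneOn_of_hasDerivWithinAt_nonneg (convex_Ici x₁)
          (fun x _ => ((hNd x).continuousAt.sub (by fun_prop)).continuousWithinAt)
          (f' := fun x => W x - W x₁)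
          (fun x _ => ((hNd x).sub (((hasDerivAt_id' x).const_mul (W x₁)).congr_deriv
            (mul_one _))).hasDerivWithinAt) fun x hx => ?_
        rw [interior_Ici] at hx
        linarith [hWmono (le_of_lt (mem_Ioi.mp hx))]
      set x₂ := x₁ + (M + 1) / W x₁ with hx₂
      have hM0 : 0 ≤ M := sq_nonneg _
      have hle : x₁ ≤ x₂ := le_add_of_nonneg_right (by positivity)
      have h := hmono (self_mem_Ici) (mem_Ici.mpr hle) hle
      have hN0 : 0 ≤ N x₁ := by simp only [hN]; positivity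
      have hb' := hNb x₂ (hx₁.trans hle)
      have : W x₁ * ((M + 1) / W x₁) = M + 1 := by field_simp
      simp only [hx₂, mul_add] at h
      linarith
    have hanti : AntitoneOn N (Ici x₀) := by
      refine antitoneOn_of_hasDerivWithinAt_nonpos (convex_Ici x₀)
        (fun x _ => (hNd x).continuousAt.continuousWithinAt) (f' := W)
        (fun x _ => (hNd x).hasDerivWithinAt) fun x hx => hWle x ?_
      rw [interior_Ici] at hx
      exact le_of_lt hx
    intro x hx
    have hz0 : z x₀ = 0 := by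
      simp only [hz, hc]
      rw [div_mul_cancel₀ _ (Complex.ofReal_ne_zero.mpr (hy0 x₀).ne'), sub_self]
    have hN0 : N x₀ = 0 := by simp [hN, hz0]
    have h := hanti self_mem_Ici (mem_Ici.mpr hx) hx
    rw [hN0] at h
    have hzx : z x = 0 := by
      have hre : (z x).re ^ 2 = 0 := le_antisymm
        (le_trans (le_add_of_nonneg_right (sq_nonneg _)) h) (sq_nonneg _)
      have him : (z x).im ^ 2 = 0 := le_antisymm
        (le_trans (le_add_of_nonneg_left (sq_nonneg _)) h) (sq_nonneg _)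
      exact Complex.ext (pow_eq_zero_iff two_ne_zero |>.mp hre)
        (pow_eq_zero_iff two_ne_zero |>.mp him)
    exact sub_eq_zero.mp hzx
  set x₀ := min x 0
  have hne : (y x₀ : ℂ) ≠ 0 := Complex.ofReal_ne_zero.mpr (hy0 x₀).ne'
  have hne' : (y 0 : ℂ) ≠ 0 := Complex.ofReal_ne_zero.mpr (hy0 0).ne'
  rw [show (besselK0 μ : ℂ) = (y 0 : ℂ) by simp [hy], key x₀ x (min_le_left _ _),
    key x₀ 0 (min_le_right _ _)]
  show q x₀ / (y x₀ : ℂ) * (y x : ℂ) = _
  rw [show (besselK0 (μ * Real.exp x) : ℂ) = (y x : ℂ) from rfl]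
  field_simp

theorem radial_ode {a : ℝ → ℂ} (ha : ContinuousOn a (Ioi 0)) (ν : ℂ)
    (heq : ∀ t, 0 < t → ∀ ε, 0 < ε → (∫ x in -ε..ε, ((Real.exp (-2 * x) / t ^ 2 : ℝ) : ℂ) *
      (a (t * Real.exp x) * discInt ν (2 * t ^ 2 * Real.exp x * wgt ε x))) = (sph0 ε : ℂ) * a t) :
    ∃ q₁ : ℝ → ℂ,
      (∀ x, HasDerivAt (fun x => a (Real.exp x) * ((Real.exp (-x) : ℝ) : ℂ)) (q₁ x) x) ∧
      ∀ x, HasDerivAt q₁ ((((4 * Real.pi * ‖ν‖) ^ 2 * Real.exp (2 * x) : ℝ) : ℂ) *
        (a (Real.exp x) * ((Real.exp (-x) : ℝ) : ℂ))) x := by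
  set q : ℝ → ℂ := fun x => a (Real.exp x) * ((Real.exp (-x) : ℝ) : ℂ) with hqdef
  have hqc : Continuous q :=
    ((ha.comp_continuous Real.continuous_exp Real.exp_pos)).mul (by fun_prop)
  refine SecondDiff.hasDerivAt_of_tendsto hqc (Continuous.mul (by fun_prop) hqc) fun x => ?_
  set K : ℝ := 2 * Real.pi ^ 3 * ‖ν‖ ^ 2 with hK
  set u : ℝ → ℝ → ℝ := fun ε y => 2 * Real.exp x ^ 2 * Real.exp y * wgt ε y with hu
  set g : ℝ → ℝ → ℂ := fun ε y => -(((Real.exp (-x - y) : ℝ) : ℂ) * q (x + y) *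
    (discInt ν (u ε y) - ((Real.pi * u ε y : ℝ) : ℂ))) with hg
  have hgc : ∀ ε, Continuous (g ε) := fun ε => by
    have hw := SecondDiff.continuous_wgt ε
    have hd := continuous_discInt ν
    simp only [hg, hu]
    fun_prop
  set c : ℂ := ((4 * K * Real.exp (3 * x) : ℝ) : ℂ) * q x with hc
  have hlim := SecondDiff.tendsto_weighted (g := g) (c := c) 0 2 (fun ε => Or.inl (hgc ε)) (by
    intro η hη
    set Φ : ℝ → ℂ := fun y => ((4 * K * Real.exp (3 * x + y) : ℝ) : ℂ) * q (x + y) with hΦ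
    have hΦc : Continuous Φ := by fun_prop
    set Ψ : ℝ → ℝ := fun y => Real.exp (-x - y) * ‖q (x + y)‖ with hΨ
    obtain ⟨M, hM⟩ := (isCompact_Icc (a := (-1 : ℝ)) (b := 1)).bddAbove_image
      (show ContinuousOn Ψ (Icc (-1) 1) by fun_prop)
    set B : ℝ := 2 * Real.exp x ^ 2 * Real.exp 1 with hB
    set D : ℝ := M * ((4 * Real.pi * ‖ν‖ * Real.sqrt B) ^ 3 * (Real.pi * B)) with hD
    obtain ⟨δ, hδ, hδΦ⟩ := Metric.continuousAt_iff.mp (hΦc.continuousAt (x := 0)) (η / 2) (half_pos hη)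
    have he1 : Tendsto (fun ε : ℝ => D * ε) (𝓝[>] 0) (𝓝 0) := by
      simpa using ((continuous_const_mul D).tendsto 0).mono_left nhdsWithin_le_nhds
    have he2 : Tendsto (fun ε : ℝ => 4 * Real.pi * ‖ν‖ * Real.sqrt B * ε) (𝓝[>] 0) (𝓝 0) := by
      simpa using ((continuous_const_mul (4 * Real.pi * ‖ν‖ * Real.sqrt B)).tendsto 0).mono_left
        nhdsWithin_le_nhds
    filter_upwards [he1.eventually_lt_const (half_pos hη), he2.eventually_le_const one_pos,
      Ioo_mem_nhdsGT (lt_min hδ (one_half_pos (α := ℝ))), self_mem_nhdsWithin]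
      with ε hεD hεν hεδ (hε0 : 0 < ε) y hy
    have hε1 : ε ≤ 1 / 2 := hεδ.2.le.trans (min_le_right _ _)
    have hy1 : |y| ≤ 1 := hy.trans (by linarith)
    have hw0 := SecondDiff.wgt_nonneg hy
    have hw : wgt ε y ≤ ε ^ 2 := by
      have h1 := abs_le.mp (SecondDiff.abs_cosh_sub_le (x := ε)
        (by rw [abs_of_pos hε0]; linarith))
      have h2 := Real.one_le_cosh y
      rw [SecondDiff.wgt]
      nlinarith [mul_pos hε0 hε0, mul_le_mul hε1 hε1 hε0.le (by norm_num)]
    have hu0 : 0 ≤ u ε y := by simp only [hu]; positivity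
    have huB : u ε y ≤ B * ε ^ 2 := by
      simp only [hu, hB]
      have : Real.exp y ≤ Real.exp 1 := Real.exp_le_exp.mpr ((le_abs_self y).trans hy1)
      gcongr
    have hsq : Real.sqrt (u ε y) ≤ Real.sqrt B * ε := by
      refine (Real.sqrt_le_sqrt huB).trans (le_of_eq ?_)
      rw [Real.sqrt_mul (by positivity), Real.sqrt_sq hε0.le]
    have hsm : 4 * Real.pi * ‖ν‖ * Real.sqrt (u ε y) ≤ 1 := by
      refine le_trans ?_ hεν
      rw [mul_assoc _ (Real.sqrt B) ε]
      gcongr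
    have hE := discInt_sub_le ν hu0 hsm
    have hid : g ε y - (((y / ε) ^ 0 * (wgt ε y / ε ^ 2) ^ 2 * ε ^ 4 : ℝ) : ℂ) * c =
        -(((Real.exp (-x - y) : ℝ) : ℂ) * q (x + y) * (discInt ν (u ε y) -
          ((Real.pi * u ε y - 2 * Real.pi ^ 3 * ‖ν‖ ^ 2 * u ε y ^ 2 : ℝ) : ℂ))) +
          ((wgt ε y ^ 2 : ℝ) : ℂ) * (Φ y - Φ 0) := by
      rw [show ((y / ε) ^ 0 * (wgt ε y / ε ^ 2) ^ 2 * ε ^ 4) = wgt ε y ^ 2 by field_simp]
      have e : Real.exp (3 * x + y) * 4 * K * wgt ε y ^ 2 =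
          Real.exp (-x - y) * (K * u ε y ^ 2) := by
        simp only [hu]
        have : Real.exp (3 * x + y) = Real.exp (-x - y) * (Real.exp x ^ 2 * Real.exp y) ^ 2 := by
          rw [← Real.exp_nat_mul, ← Real.exp_add, ← Real.exp_nat_mul, ← Real.exp_add]
          congr 1; push_cast; ring
        rw [this]; ring
      have e' := congrArg (fun r : ℝ => (r : ℂ)) e
      simp only [hg, hc, hΦ, ← hK, add_zero]
      push_cast at e' ⊢
      linear_combination (-(q (x + y))) * e'
    rw [hid]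
    refine (norm_add_le _ _).trans ?_
    have h1 : ‖-(((Real.exp (-x - y) : ℝ) : ℂ) * q (x + y) * (discInt ν (u ε y) -
        ((Real.pi * u ε y - 2 * Real.pi ^ 3 * ‖ν‖ ^ 2 * u ε y ^ 2 : ℝ) : ℂ)))‖ ≤ η / 2 * ε ^ 4 := by
      rw [norm_neg, norm_mul, norm_mul, Complex.norm_real, Real.norm_of_nonneg (Real.exp_pos _).le]
      have hM' : Ψ y ≤ M := hM ⟨y, ⟨(abs_le.mp hy1).1, (abs_le.mp hy1).2⟩, rfl⟩
      have hM0 : 0 ≤ M := le_trans (by positivity) hM'
      calc Ψ y * _ ≤ M * ((4 * Real.pi * ‖ν‖ * (Real.sqrt B * ε)) ^ 3 * (Real.pi * (B * ε ^ 2))) := by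
            refine mul_le_mul hM' (hE.trans ?_) (norm_nonneg _) hM0
            gcongr
        _ = D * ε * ε ^ 4 := by simp only [hD]; ring
        _ ≤ η / 2 * ε ^ 4 := by gcongr
    have h2 : ‖((wgt ε y ^ 2 : ℝ) : ℂ) * (Φ y - Φ 0)‖ ≤ η / 2 * ε ^ 4 := by
      rw [norm_mul, Complex.norm_real, Real.norm_of_nonneg (sq_nonneg _), mul_comm]
      have hd : ‖Φ y - Φ 0‖ ≤ η / 2 := by
        rw [← dist_eq_norm]
        refine (hδΦ ?_).le
        rw [Real.dist_0_eq_abs]
        exact hy.trans_lt (hεδ.2.trans_le (min_le_left _ _))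
      refine mul_le_mul hd ?_ (sq_nonneg _) (half_pos hη).le
      calc wgt ε y ^ 2 ≤ (ε ^ 2) ^ 2 := pow_le_pow_left₀ hw0 hw 2
        _ = ε ^ 4 := by ring
    linarith)
  rw [SecondDiff.integral_sq_weight] at hlim
  set k : ℂ := ((2 * Real.pi * Real.exp x : ℝ) : ℂ) with hk
  have hk0 : k ≠ 0 := Complex.ofReal_ne_zero.mpr (by positivity)
  refine ((hlim.const_mul k⁻¹).congr' ?_).trans (le_of_eq (congrArg 𝓝 ?_))
  · filter_upwards [self_mem_nhdsWithin] with ε (hε : 0 < ε)
    have hwc := SecondDiff.continuous_wgt ε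
    have hdc := continuous_discInt ν
    have hA := heq (Real.exp x) (Real.exp_pos x) ε hε
    have hint : ∫ y in -ε..ε, g ε y = k * ∫ y in -ε..ε, (q (x + y) - q x) * (wgt ε y : ℂ) := by
      have e1 : ∀ y : ℝ, ((Real.exp (-2 * y) / Real.exp x ^ 2 : ℝ) : ℂ) *
          (a (Real.exp x * Real.exp y) * discInt ν (2 * Real.exp x ^ 2 * Real.exp y * wgt ε y)) =
          k * (q (x + y) * (wgt ε y : ℂ)) - g ε y := fun y => by
        have ea : a (Real.exp x * Real.exp y) = q (x + y) * ((Real.exp (x + y) : ℝ) : ℂ) := by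
          rw [← Real.exp_add, hqdef]
          simp only
          rw [mul_assoc, ← Complex.ofReal_mul, ← Real.exp_add, neg_add_cancel, Real.exp_zero,
            Complex.ofReal_one, mul_one]
        have ee : Real.exp (-2 * y) / Real.exp x ^ 2 * Real.exp (x + y) = Real.exp (-x - y) := by
          rw [← Real.exp_nat_mul, ← Real.exp_sub, ← Real.exp_add]
          congr 1; push_cast; ring
        have eu : Real.exp (-x - y) * (Real.pi * u ε y) = 2 * Real.pi * Real.exp x * wgt ε y := by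
          simp only [hu]
          rw [show Real.exp (-x - y) = (Real.exp x * Real.exp y)⁻¹ by
            rw [← Real.exp_add, ← Real.exp_neg]; congr 1; ring]
          field_simp
        have ee' := congrArg (fun r : ℝ => (r : ℂ)) ee
        have eu' := congrArg (fun r : ℝ => (r : ℂ)) eu
        rw [ea]
        simp only [hg, hk]
        push_cast at ee' eu' ⊢
        linear_combination (q (x + y) * discInt ν (u ε y)) * ee' + (q (x + y)) * eu'
      simp only [e1] at hA
      rw [intervalIntegral.integral_sub (Continuous.intervalIntegrable (by fun_prop) _ _)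
        ((hgc ε).intervalIntegrable _ _), intervalIntegral.integral_const_mul] at hA
      rw [show (fun y => (q (x + y) - q x) * (wgt ε y : ℂ)) =
        fun y => q (x + y) * (wgt ε y : ℂ) - q x * (wgt ε y : ℂ) from funext fun y => sub_mul _ _ _,
        intervalIntegral.integral_sub (Continuous.intervalIntegrable (by fun_prop) _ _)
          (Continuous.intervalIntegrable (by fun_prop) _ _),
        intervalIntegral.integral_const_mul, intervalIntegral.integral_ofReal]
      have hax : a (Real.exp x) = q x * ((Real.exp x : ℝ) : ℂ) := by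
        simp only [hqdef]
        rw [mul_assoc, ← Complex.ofReal_mul, ← Real.exp_add, neg_add_cancel, Real.exp_zero,
          Complex.ofReal_one, mul_one]
      rw [hax, sph0_eq] at hA
      simp only [hk] at hA ⊢
      push_cast at hA ⊢
      linear_combination (-1 : ℂ) * hA
    rw [hint]
    field_simp
  · have e : Real.exp (3 * x) = Real.exp (2 * x) * Real.exp x := by
      rw [← Real.exp_add]; congr 1; ring
    simp only [hc, hk, hK, e]
    push_cast
    field_simp
    simp only [hqdef]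
    push_cast
    ring

/-- **Uniqueness**: a bounded solution of the radial mean value equations is `t K₀(4π‖ν‖t)`. -/
theorem radial_eq {a : ℝ → ℂ} (ha : ContinuousOn a (Ioi 0))
    (hb : ∃ C, ∀ t, 0 < t → ‖a t‖ ≤ C) {ν : ℂ} (hν : ν ≠ 0)
    (heq : ∀ t, 0 < t → ∀ ε, 0 < ε → (∫ x in -ε..ε, ((Real.exp (-2 * x) / t ^ 2 : ℝ) : ℂ) *
      (a (t * Real.exp x) * discInt ν (2 * t ^ 2 * Real.exp x * wgt ε x))) = (sph0 ε : ℂ) * a t)
    {t : ℝ} (ht : 0 < t) :
    a t = a 1 / (besselK0 (4 * Real.pi * ‖ν‖) : ℂ) *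
      ((t * besselK0 (4 * Real.pi * ‖ν‖ * t) : ℝ) : ℂ) := by
  obtain ⟨q₁, h1, h2⟩ := radial_ode ha ν heq
  obtain ⟨C, hC⟩ := hb
  have hC0 : 0 ≤ C := (norm_nonneg _).trans (hC 1 one_pos)
  have hμ : 0 < 4 * Real.pi * ‖ν‖ := by positivity
  have h := eq_mul_bessel hμ h1 h2 (fun x₀ => ⟨C * Real.exp (-x₀), fun x hx => by
    rw [norm_mul, Complex.norm_real, Real.norm_of_nonneg (Real.exp_pos _).le]
    exact mul_le_mul (hC _ (Real.exp_pos x)) (Real.exp_le_exp.mpr (by linarith))
      (Real.exp_pos _).le hC0⟩) (Real.log t)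
  simp only [Real.exp_log ht, Real.exp_neg, Real.exp_zero, neg_zero, Complex.ofReal_one, mul_one] at h
  have ht' : (t : ℂ) ≠ 0 := Complex.ofReal_ne_zero.mpr ht.ne'
  push_cast at h ⊢
  rw [← mul_inv_cancel_right₀ ht' (a t), mul_assoc (a t)]
  field_simp at h ⊢
  linear_combination h

end FermatAgent.LT.H3

end
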