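import Mathlib
import Fermat.Agent.LT.Base.Adelic
import Fermat.Agent.LT.Base.Disc
import Fermat.Agent.LT.MultOne.Whittaker

set_option autoImplicit false
set_option linter.unusedSectionVars false

/-!
# Horizontal translations and characters of `ℂ^{places}`
-/

noncomputable section

open NumberField InfinitePlace Complex
open scoped ComplexConjugate

namespace FermatAgent.LT

variable {K : Type*} [Field K] [NumberField K]

/-- Horizontal translation, the point first. -/
def hshift (x : XInf K) (c : InfinitePlace K → ℂ) : XInf K := shiftX c x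

@[simp] theorem hshift_z (x : XInf K) (c : InfinitePlace K → ℂ) (w : InfinitePlace K) :
    (hshift x c w).z = (x w).z + c w := rfl

@[simp] theorem hshift_t (x : XInf K) (c : InfinitePlace K → ℂ) (w : InfinitePlace K) :
    (hshift x c w).t = (x w).t := rfl

@[simp] theorem hshift_zero (x : XInf K) : hshift x 0 = x :=
  funext fun _ => H3.ext (add_zero _) rfl

theorem hshift_shiftX (x : XInf K) (c d : InfinitePlace K → ℂ) :
    hshift (hshift x c) d = hshift x (c + d) :=
  funext fun _ => H3.ext (add_assoc _ _ _) rfl

theorem continuous_shiftX (x : XInf K) : Continuous (hshift x) :=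
  continuous_pi fun w => continuous_induced_rng.mpr
    ((continuous_const.add (continuous_apply w)).prodMk continuous_const)

theorem continuous_shiftX_left (c : InfinitePlace K → ℂ) : Continuous fun x : XInf K => hshift x c :=
  continuous_pi fun w => continuous_induced_rng.mpr
    ((((continuous_fst.comp H3.continuous_coords).comp (continuous_apply w)).add
      continuous_const).prodMk ((continuous_snd.comp H3.continuous_coords).comp (continuous_apply w)))

theorem embVec_apply (β : K) (w : InfinitePlace K) : embVec β w = w.embedding β := rfl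

/-- Unipotents act by translations. -/
theorem infAct_upperUni_hshift (β : K) (x : XInf K) :
    infAct (upperTri 1 β 1) x = hshift x (embVec β) := infAct_upperUni β x

/-- Diagonal matrices act by dilations. -/
theorem infAct_diag (ν : Kˣ) (x : XInf K) (w : InfinitePlace K) :
    (infAct (upperTri ν 0 1) x w).z = w.embedding (ν : K) * (x w).z ∧
      (infAct (upperTri ν 0 1) x w).t = ‖w.embedding (ν : K)‖ * (x w).t := by
  have hm : ∀ i j, (Matrix.GeneralLinearGroup.map w.embedding (upperTri ν 0 1)) i j =
      !![w.embedding (ν : K), 0; 0, 1] i j := fun i j => by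
    fin_cases i <;> fin_cases j <;> simp [upperTri, Matrix.GeneralLinearGroup.map_apply]
  rw [infAct, H3.smul_def]
  exact ⟨by simp [H3.act, H3.den, hm],
    by simp [H3.act, H3.den, upperTri, Matrix.det_fin_two]⟩

/-- The trace pairing with a vector. -/
def pairX (ν : K) (c : InfinitePlace K → ℂ) : ℝ := ∑ w, 2 * (w.embedding ν * c w).re

theorem pairX_embVec [IsTotallyComplex K] (ν β : K) :
    pairX ν (embVec β) = (Algebra.trace ℚ K (ν * β) : ℝ) := by
  classical
  have h := trace_eq_sum_embeddings ℂ (K := ℚ) (L := K) (x := ν * β)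
  have hsum : ∑ σ : K →ₐ[ℚ] ℂ, σ (ν * β) = ∑ φ : K →+* ℂ, φ (ν * β) :=
    Fintype.sum_equiv (RingHom.equivRatAlgHom (R := K) (S := ℂ)).symm _ _ fun σ => rfl
  rw [hsum, ← Finset.sum_fiberwise (s := Finset.univ) (g := InfinitePlace.mk) (f := fun φ : K →+* ℂ => φ (ν * β))] at h
  have hfib : ∀ w : InfinitePlace K,
      ∑ φ ∈ Finset.univ.filter (fun φ : K →+* ℂ => InfinitePlace.mk φ = w), φ (ν * β) =
        ((2 * (w.embedding ν * w.embedding β).re : ℝ) : ℂ) := by
    intro w
    have hset : Finset.univ.filter (fun φ : K →+* ℂ => InfinitePlace.mk φ = w) =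
        {w.embedding, ComplexEmbedding.conjugate w.embedding} := by
      ext φ
      simp only [Finset.mem_filter, Finset.mem_univ, true_and, Finset.mem_insert,
        Finset.mem_singleton]
      conv_lhs => rw [← mk_embedding w, eq_comm, mk_eq_iff]
      constructor <;> rintro (h | h) <;> simp [h]
    have hne : w.embedding ≠ ComplexEmbedding.conjugate w.embedding := fun h =>
      (InfinitePlace.isComplex_iff.mp (IsTotallyComplex.isComplex w))
        (ComplexEmbedding.isReal_iff.mpr h.symm)
    rw [hset, Finset.sum_pair hne, ComplexEmbedding.conjugate_coe_eq, map_mul, Complex.add_conj]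
  simp only [hfib] at h
  rw [← Complex.ofReal_sum] at h
  have h' := congrArg Complex.re h
  simp only [Complex.ofReal_re] at h'
  rw [pairX]
  simp only [embVec_apply]
  rw [← h']
  simp

/-- The character of frequency `ν`. -/
def charX (ν : K) (c : InfinitePlace K → ℂ) : ℂ := cexp (2 * Real.pi * I * (pairX ν c : ℝ))

theorem prod_echar (ν : K) (c : InfinitePlace K → ℂ) :
    ∏ w, H3.echar (w.embedding ν) (c w) = charX ν c := by
  rw [charX, pairX]
  simp only [H3.echar, ← Complex.exp_sum]
  push_cast
  rw [Finset.mul_sum]

@[simp] theorem norm_charX (ν : K) (c : InfinitePlace K → ℂ) : ‖charX ν c‖ = 1 := by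
  rw [← prod_echar, norm_prod]
  simp

theorem charX_add (ν : K) (c d : InfinitePlace K → ℂ) :
    charX ν (c + d) = charX ν c * charX ν d := by
  rw [← prod_echar, ← prod_echar, ← prod_echar, ← Finset.prod_mul_distrib]
  exact Finset.prod_congr rfl fun w _ => H3.echar_add _ _ _

@[simp] theorem charX_zero_right (ν : K) : charX ν 0 = 1 := by simp [← prod_echar]

/-- The heights of a point, as a point above `0`. -/
def flatX (x : XInf K) : XInf K := fun w => ⟨0, (x w).t, (x w).t_pos⟩

@[simp] theorem flatX_z (x : XInf K) (w : InfinitePlace K) : (flatX x w).z = 0 := rfl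

@[simp] theorem flatX_t (x : XInf K) (w : InfinitePlace K) : (flatX x w).t = (x w).t := rfl

theorem hshift_flatX (x : XInf K) : hshift (flatX x) (fun w => (x w).z) = x :=
  funext fun _ => H3.ext (zero_add _) rfl

theorem waveProd_eq (ν : K) (x : XInf K) :
    waveProd ν x = (∏ w, ((‖w.embedding ν‖ * ((x w).t *
      H3.besselK0 (4 * Real.pi * ‖w.embedding ν‖ * (x w).t)) : ℝ) : ℂ)) *
        charX ν (fun w => (x w).z) := by
  rw [← prod_echar, ← Finset.prod_mul_distrib, waveProd]
  refine Finset.prod_congr rfl fun w _ => ?_
  rw [H3.wave_eq]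
  push_cast
  ring

theorem waveProd_shiftX (ν : K) (x : XInf K) (c : InfinitePlace K → ℂ) :
    waveProd ν (hshift x c) = charX ν c * waveProd ν x := by
  rw [waveProd_eq, waveProd_eq]
  simp only [hshift_t, hshift_z]
  rw [show (fun w => (x w).z + c w) = (fun w => (x w).z) + c from rfl, charX_add]
  ring

section Basis

variable {ι : Type*} [Fintype ι] (b : Module.Basis ι ℚ K)

/-- The real vector space spanned by the embeddings of a basis. -/
def iotaX : (ι → ℝ) →ₗ[ℝ] (InfinitePlace K → ℂ) where
  toFun y := fun w => ∑ j, (y j : ℂ) * w.embedding (b j)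
  map_add' y z := funext fun w => by simp [add_mul, Finset.sum_add_distrib]
  map_smul' r y := funext fun w => by simp [Finset.mul_sum, mul_assoc]

theorem iotaX_apply (y : ι → ℝ) (w : InfinitePlace K) :
    iotaX b y w = ∑ j, (y j : ℂ) * w.embedding (b j) := rfl

theorem iotaX_intVec (n : ι → ℤ) :
    iotaX b (fun j => (n j : ℝ)) = embVec (∑ j, n j • b j) := by
  funext w
  simp [iotaX_apply, embVec_apply, map_sum, zsmul_eq_mul]

theorem pairX_iotaX [IsTotallyComplex K] (ν : K) (y : ι → ℝ) :
    pairX ν (iotaX b y) = ∑ j, y j * (Algebra.trace ℚ K (ν * b j) : ℝ) := by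
  simp only [← pairX_embVec, pairX, iotaX_apply, embVec_apply, Finset.mul_sum, Complex.re_sum]
  rw [Finset.sum_comm]
  refine Finset.sum_congr rfl fun j _ => Finset.sum_congr rfl fun w _ => ?_
  rw [← mul_assoc, mul_comm (w.embedding ν) (y j : ℂ), mul_assoc, Complex.re_ofReal_mul]
  ring

/-- The element with prescribed traces against the basis. -/
def dualVec (q : ι → ℚ) : K :=
  letI := Classical.decEq ι
  ∑ j, q j • b.traceDual j

theorem trace_dualVec_mul (q : ι → ℚ) (i : ι) : Algebra.trace ℚ K (dualVec b q * b i) = q i := by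
  classical
  simp only [dualVec, Finset.sum_mul, map_sum, smul_mul_assoc, map_smul]
  simp [Module.Basis.trace_traceDual_mul]

theorem eq_zero_of_trace_eq_zero {x : K} (h : ∀ i, Algebra.trace ℚ K (x * b i) = 0) : x = 0 := by
  classical
  rw [← b.traceDual.sum_repr x]
  exact Finset.sum_eq_zero fun i _ => by
    rw [Module.Basis.traceDual_repr_apply, Algebra.traceForm_apply, h, zero_smul]

theorem dualVec_trace (x : K) : dualVec b (fun i => Algebra.trace ℚ K (x * b i)) = x :=
  sub_eq_zero.mp <| eq_zero_of_trace_eq_zero b fun i => by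
    rw [sub_mul, map_sub, trace_dualVec_mul, sub_self]

theorem iotaX_bijective [IsTotallyComplex K] : Function.Bijective (iotaX b) := by
  classical
  have hinj : Function.Injective (iotaX b) := by
    rw [injective_iff_map_eq_zero]
    intro y hy
    funext i
    have h := pairX_iotaX b (dualVec b (Pi.single i 1)) y
    rw [hy] at h
    simp only [pairX, Pi.zero_apply, mul_zero, Complex.zero_re, Finset.sum_const_zero,
      trace_dualVec_mul, Pi.single_apply] at h
    simpa [apply_ite (fun q : ℚ => (q : ℝ)), mul_ite, Finset.sum_ite_eq'] using h.symm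
  refine ⟨hinj, ?_⟩
  refine (LinearMap.injective_iff_surjective_of_finrank_eq_finrank ?_).mp hinj
  rw [Module.finrank_pi, Module.finrank_pi_fintype, ← Module.finrank_eq_card_basis b,
    IsTotallyComplex.finrank, Finset.sum_const, Finset.card_univ, smul_eq_mul,
    Complex.finrank_real_complex, mul_comm]
  congr 1
  rw [InfinitePlace.card_eq_nrRealPlaces_add_nrComplexPlaces, IsTotallyComplex.nrRealPlaces_eq_zero,
    zero_add]

end Basis

end FermatAgent.LT

end
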