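import Mathlib
import Fermat.Agent.LT.Base.Shift
import Fermat.Agent.LT.Base.BoxFourier
import Fermat.Agent.LT.Base.BallInt
import Fermat.Agent.LT.Base.Radial

set_option autoImplicit false
set_option linter.unusedSectionVars false

/-!
# Fourier coefficients of periodic eigenfunctions of parameter `0`
-/

noncomputable section

open MeasureTheory NumberField Complex Set Filter Function
open scoped Topology

namespace FermatAgent.LT

open BoxFourier FermatAgent.LT.Dihedral
open SecondDiff (wgt continuous_wgt)

/-- Exchange of the order of integration for continuous functions on subsets of compact sets. -/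
theorem integral_swap_compact {α β : Type*} [TopologicalSpace α] [MeasurableSpace α] [BorelSpace α]
    [T2Space α] [SecondCountableTopology α] [TopologicalSpace β] [MeasurableSpace β] [BorelSpace β]
    [T2Space β] [SecondCountableTopology β] (μ : Measure α) [IsFiniteMeasureOnCompacts μ] [SFinite μ]
    (ν : Measure β) [IsFiniteMeasureOnCompacts ν] [SFinite ν] {H : α → β → ℂ}
    (hH : Continuous (uncurry H)) {S A : Set α} {T B : Set β} (hSA : S ⊆ A) (hA : IsCompact A)
    (hTB : T ⊆ B) (hB : IsCompact B) :
    ∫ a in S, ∫ b in T, H a b ∂ν ∂μ = ∫ b in T, ∫ a in S, H a b ∂μ ∂ν := by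
  refine integral_integral_swap ?_
  rw [Measure.prod_restrict]
  exact (hH.continuousOn.integrableOn_compact (hA.prod hB)).mono_set (Set.prod_mono hSA hTB)

theorem setIntegral_disc_scale (h : ℂ → ℂ) {r : ℝ} (hr : 0 ≤ r) :
    ∫ ζ in Metric.closedBall (0 : ℂ) r, h ζ =
      ((r ^ 2 : ℝ) : ℂ) * ∫ ζ in Metric.closedBall (0 : ℂ) 1, h ((r : ℂ) * ζ) := by
  rcases hr.eq_or_lt with h0 | hpos
  · simp [← h0, Metric.closedBall_zero]
  · have hs := Measure.setIntegral_comp_smul_of_pos (volume : Measure ℂ) h
      (Metric.closedBall (0 : ℂ) 1) hpos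
    rw [_root_.smul_closedBall _ _ zero_le_one, smul_zero, Real.norm_of_nonneg hpos.le, mul_one,
      Complex.finrank_real_complex] at hs
    simp only [Complex.real_smul] at hs
    rw [hs, ← mul_assoc, ← Complex.ofReal_mul, mul_inv_cancel₀ (pow_ne_zero 2 hpos.ne'),
      Complex.ofReal_one, one_mul]

/-- The order of integration over box, interval and disc. -/
theorem integral_swap_box {d : Type*} [Fintype d] {H : (d → ℝ) → ℝ → ℂ → ℂ}
    (hH : Continuous fun q : ((d → ℝ) × ℝ) × ℂ => H q.1.1 q.1.2 q.2) (a c : ℝ) :
    ∫ y in boxAt 0, ∫ r in Ioc a c, ∫ ζ in Metric.closedBall (0 : ℂ) 1, H y r ζ =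
      ∫ r in Ioc a c, ∫ ζ in Metric.closedBall (0 : ℂ) 1, ∫ y in boxAt 0, H y r ζ := by
  have hH2 : Continuous fun q : (d → ℝ) × ℝ => ∫ ζ in Metric.closedBall (0 : ℂ) 1, H q.1 q.2 ζ :=
    continuous_parametric_integral_of_continuous hH (isCompact_closedBall _ _)
  rw [integral_swap_compact volume volume (H := fun y r => ∫ ζ in Metric.closedBall (0 : ℂ) 1, H y r ζ)
    hH2 box_subset_Icc isCompact_Icc Ioc_subset_Icc_self isCompact_Icc]
  refine setIntegral_congr_fun measurableSet_Ioc fun r _ => ?_
  exact integral_swap_compact volume volume (H := fun y ζ => H y r ζ)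
    (hH.comp ((continuous_fst.prodMk continuous_const).prodMk continuous_snd))
    box_subset_Icc isCompact_Icc subset_rfl (isCompact_closedBall _ _)

variable {K : Type*} [Field K] [NumberField K]

/-- The base point above `0` at height one. -/
def onesX : XInf K := fun _ => ⟨0, 1, one_pos⟩

/-- A periodic bounded eigenfunction of parameter zero. -/
structure PeriodicEigen {ι : Type*} [Fintype ι] (b : Module.Basis ι ℚ K) (F : XInf K → ℂ) :
    Prop where
  continuous : Continuous F
  bounded : ∃ C, ∀ x, ‖F x‖ ≤ C
  sph0 : ∀ (w : InfinitePlace K) x,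
    letI := Classical.decEq (InfinitePlace K)
    H3.IsSph0 fun P => F (Function.update x w P)
  periodic : ∀ j x, F (hshift x (embVec (b j))) = F x

variable {ι : Type*} [Fintype ι] (b : Module.Basis ι ℚ K) (F : XInf K → ℂ)

/-- The restriction to the horizontal torus through `x`. -/
def torusFn (x : XInf K) (y : ι → ℝ) : ℂ := F (hshift x (iotaX b y))

/-- The frequency of an integer vector. -/
def freq (k : ι → ℤ) : K := dualVec b fun j => (k j : ℚ)

/-- The Fourier coefficient. -/
def coefX (k : ι → ℤ) (x : XInf K) : ℂ := boxCoeff (torusFn b F x) k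

variable {b F}

theorem PeriodicEigen.periodic_int (h : PeriodicEigen b F) (x : XInf K) (n : ι → ℤ) :
    F (hshift x (embVec (∑ j, n j • b j))) = F x := by
  let P : AddSubgroup K :=
    { carrier := {β | ∀ x, F (hshift x (embVec β)) = F x}
      zero_mem' := fun x => by
        rw [show embVec (0 : K) = 0 from funext fun w => map_zero _, hshift_zero]
      add_mem' := fun {a c} ha hc x => by
        rw [show embVec (a + c) = embVec a + embVec c from funext fun w => map_add _ _ _,
          ← hshift_shiftX, hc, ha]
      neg_mem' := fun {a} ha x => by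
        have h1 := ha (hshift x (embVec (-a)))
        rw [hshift_shiftX, show embVec (-a) + embVec a = 0 from funext fun w => by simp [embVec_apply],
          hshift_zero] at h1
        exact h1.symm }
  have hmem : ∑ j, n j • b j ∈ P :=
    sum_mem fun j _ => zsmul_mem (show b j ∈ P from fun x => h.periodic j x) _
  exact hmem x

theorem isPer_torusFn (h : PeriodicEigen b F) (x : XInf K) : IsPer (torusFn b F x) := fun y n => by
  rw [torusFn, map_add, ← hshift_shiftX, show intVec n = fun j => ((n j : ℤ) : ℝ) from rfl,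
    iotaX_intVec, h.periodic_int]
  rfl

theorem continuous_torusFn (h : PeriodicEigen b F) (x : XInf K) : Continuous (torusFn b F x) :=
  h.continuous.comp ((continuous_shiftX x).comp (iotaX b).continuous_of_finiteDimensional)

theorem continuous_uncurry_torusFn (h : PeriodicEigen b F) :
    Continuous fun p : XInf K × (ι → ℝ) => torusFn b F p.1 p.2 := by
  refine h.continuous.comp (continuous_pi fun w => continuous_induced_rng.mpr ?_)
  have h1 : Continuous fun p : XInf K × (ι → ℝ) => (p.1 w).coords :=
    H3.continuous_coords.comp ((continuous_apply w).comp continuous_fst)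
  have h2 : Continuous fun p : XInf K × (ι → ℝ) => iotaX b p.2 w :=
    (continuous_apply w).comp ((iotaX b).continuous_of_finiteDimensional.comp continuous_snd)
  exact ((continuous_fst.comp h1).add h2).prodMk (continuous_snd.comp h1)

theorem continuous_coefX (h : PeriodicEigen b F) (k : ι → ℤ) : Continuous (coefX b F k) := by
  obtain ⟨C, hC⟩ := h.bounded
  have : SecondCountableTopology H3 := TopologicalSpace.secondCountableTopology_induced _ _ H3.coords
  refine continuous_of_dominated (bound := fun _ => C)
    (fun x => ((continuous_phaseVec k).mul (continuous_torusFn h x)).aestronglyMeasurable)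
    (fun x => Eventually.of_forall fun y => ?_) (integrableOn_const (by simp [volume_boxAt]))
    (Eventually.of_forall fun y => ?_)
  · rw [norm_mul, norm_phaseVec, one_mul]; exact hC _
  · exact continuous_const.mul
      ((continuous_uncurry_torusFn h).comp (continuous_id.prodMk continuous_const))

theorem norm_coefX_le (h : PeriodicEigen b F) : ∃ C, ∀ k x, ‖coefX b F k x‖ ≤ C := by
  obtain ⟨C, hC⟩ := h.bounded
  exact ⟨C, fun k x => norm_boxCoeff_le (fun y => hC _) k⟩

variable [IsTotallyComplex K]

theorem freq_eq_zero_iff {k : ι → ℤ} : freq b k = 0 ↔ k = 0 := by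
  refine ⟨fun hk => funext fun i => ?_, fun hk => ?_⟩
  · have h := trace_dualVec_mul b (fun j => (k j : ℚ)) i
    rw [← freq, hk, zero_mul, map_zero] at h
    exact_mod_cast h.symm
  · simp [hk, freq, dualVec]

theorem freq_injective : Injective (freq b) := fun k l hkl => funext fun i => by
  have h := trace_dualVec_mul b (fun j => (k j : ℚ)) i
  rw [← freq, hkl, freq, trace_dualVec_mul] at h
  exact_mod_cast h.symm

theorem charX_freq (k : ι → ℤ) (y : ι → ℝ) : charX (freq b k) (iotaX b y) = boxChar y k := by
  rw [charX, boxChar, pairX_iotaX]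
  congr 2
  push_cast
  refine Finset.sum_congr rfl fun j _ => ?_
  rw [freq, trace_dualVec_mul]
  push_cast
  ring

theorem coefX_hshift (h : PeriodicEigen b F) (k : ι → ℤ) (x : XInf K)
    (c : InfinitePlace K → ℂ) : coefX b F k (hshift x c) = charX (freq b k) c * coefX b F k x := by
  obtain ⟨s, rfl⟩ := (iotaX_bijective b).2 c
  rw [charX_freq, coefX, coefX, ← boxCoeff_translate (continuous_torusFn h x) (isPer_torusFn h x)]
  congr 1
  funext y
  rw [torusFn, torusFn, hshift_shiftX, map_add, add_comm]

/-- The mean value property on the torus through `x`. -/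
theorem sph0_mul_torusFn (h : PeriodicEigen b F) (x : XInf K) (w : InfinitePlace K)
    {ε : ℝ} (hε : 0 < ε) (y : ι → ℝ) :
    letI := Classical.decEq (InfinitePlace K)
    (H3.sph0 ε : ℂ) * torusFn b F x y = ∫ x' in Ioc (-ε) ε, ∫ ζ in Metric.closedBall (0 : ℂ) 1,
      (((Real.exp (-2 * x') / (x w).t ^ 2 : ℝ) : ℂ) *
          ((Real.sqrt (2 * (x w).t ^ 2 * Real.exp x' * wgt ε x') ^ 2 : ℝ) : ℂ)) *
        torusFn b F (update x w (H3.hpt (x w) x'
          ((Real.sqrt (2 * (x w).t ^ 2 * Real.exp x' * wgt ε x') : ℂ) * ζ))) y := by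
  classical
  set c := iotaX b y with hc
  have hs := h.sph0 w (hshift x c) (hshift x c w) ε hε
  have hg : Continuous fun Q => F (update (hshift x c) w Q) :=
    h.continuous.comp (Continuous.update continuous_const w continuous_id)
  beta_reduce at hs
  rw [H3.setIntegral_ball hg _ hε.le, update_eq_self,
    intervalIntegral.integral_of_le (by linarith)] at hs
  rw [torusFn, ← hc, ← hs]
  refine setIntegral_congr_fun measurableSet_Ioc fun x' _ => ?_
  simp only [hshift_t]
  rw [setIntegral_disc_scale _ (Real.sqrt_nonneg _), integral_const_mul, ← mul_assoc]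
  congr 1
  refine integral_congr_ae (Eventually.of_forall fun ζ => ?_)
  simp only [torusFn, ← hc]
  congr 1
  funext v
  by_cases hv : v = w
  · subst hv
    refine H3.ext ?_ ?_ <;> simp [H3.hpt, hshift, shiftX]
    ring
  · simp [hshift, shiftX, update_of_ne hv]

/-- The mean value property passes to the coefficients. -/
theorem coefX_meanValue (h : PeriodicEigen b F) (k : ι → ℤ) (x : XInf K) (w : InfinitePlace K)
    {ε : ℝ} (hε : 0 < ε) :
    letI := Classical.decEq (InfinitePlace K)
    (∫ x' in -ε..ε, ((Real.exp (-2 * x') / (x w).t ^ 2 : ℝ) : ℂ) *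
      (coefX b F k (update x w (H3.hpt (x w) x' 0)) *
        H3.discInt (w.embedding (freq b k)) (2 * (x w).t ^ 2 * Real.exp x' * wgt ε x'))) =
      (H3.sph0 ε : ℂ) * coefX b F k x := by
  classical
  set P := x w with hP
  set X : ℝ → ℂ → XInf K := fun x' ζ => update x w (H3.hpt P x' ζ) with hX
  set u : ℝ → ℝ := fun x' => Real.sqrt (2 * P.t ^ 2 * Real.exp x' * wgt ε x') with hu
  set e : ℝ → ℂ := fun x' => ((Real.exp (-2 * x') / P.t ^ 2 : ℝ) : ℂ) * ((u x' ^ 2 : ℝ) : ℂ) with he
  have hXc : Continuous fun p : ℝ × ℂ => X p.1 p.2 := by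
    refine Continuous.update continuous_const w (continuous_induced_rng.mpr ?_)
    exact (continuous_const.add continuous_snd).prodMk
      (continuous_const.mul (Real.continuous_exp.comp continuous_fst))
  have huc : Continuous u := by
    have := continuous_wgt ε
    fun_prop
  have hec : Continuous e := by
    have := continuous_wgt ε
    have : P.t ≠ 0 := P.t_pos.ne'
    simp only [he]
    fun_prop
  have hmean : ∀ y : ι → ℝ, (H3.sph0 ε : ℂ) * torusFn b F x y =
      ∫ x' in Ioc (-ε) ε, ∫ ζ in Metric.closedBall (0 : ℂ) 1,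
        e x' * torusFn b F (X x' ((u x' : ℂ) * ζ)) y := sph0_mul_torusFn h x w hε
  have hstep : (H3.sph0 ε : ℂ) * coefX b F k x = ∫ x' in Ioc (-ε) ε,
      ∫ ζ in Metric.closedBall (0 : ℂ) 1, e x' * coefX b F k (X x' ((u x' : ℂ) * ζ)) := by
    have hH : Continuous fun q : ((ι → ℝ) × ℝ) × ℂ =>
        phaseVec q.1.1 k * (e q.1.2 * torusFn b F (X q.1.2 ((u q.1.2 : ℂ) * q.2)) q.1.1) := by
      refine ((continuous_phaseVec k).comp (continuous_fst.comp continuous_fst)).mul
        ((hec.comp (continuous_snd.comp continuous_fst)).mul ?_)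
      refine (continuous_uncurry_torusFn h).comp (Continuous.prodMk
        (hXc.comp (Continuous.prodMk (continuous_snd.comp continuous_fst) ?_))
        (continuous_fst.comp continuous_fst))
      exact (Complex.continuous_ofReal.comp (huc.comp (continuous_snd.comp continuous_fst))).mul
        continuous_snd
    rw [coefX, boxCoeff, ← integral_const_mul]
    calc ∫ y in boxAt 0, (H3.sph0 ε : ℂ) * (phaseVec y k * torusFn b F x y)
        = ∫ y in boxAt 0, ∫ x' in Ioc (-ε) ε, ∫ ζ in Metric.closedBall (0 : ℂ) 1,
            phaseVec y k * (e x' * torusFn b F (X x' ((u x' : ℂ) * ζ)) y) := by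
          refine setIntegral_congr_fun (measurableSet_boxAt 0) fun y _ => ?_
          simp only [integral_const_mul]
          rw [mul_left_comm, hmean y]
          simp only [integral_const_mul]
      _ = ∫ x' in Ioc (-ε) ε, ∫ ζ in Metric.closedBall (0 : ℂ) 1, ∫ y in boxAt 0,
            phaseVec y k * (e x' * torusFn b F (X x' ((u x' : ℂ) * ζ)) y) :=
          integral_swap_box (H := fun y x' ζ =>
            phaseVec y k * (e x' * torusFn b F (X x' ((u x' : ℂ) * ζ)) y)) hH _ _
      _ = _ := by
          simp only [coefX, boxCoeff, ← integral_const_mul]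
          simp only [mul_left_comm (phaseVec _ k) (e _)]
  rw [intervalIntegral.integral_of_le (by linarith), hstep]
  refine setIntegral_congr_fun measurableSet_Ioc fun x' _ => ?_
  have hXs : ∀ z : ℂ, X x' z = hshift (X x' 0) (Pi.single w z) := fun z => by
    funext v
    by_cases hv : v = w
    · subst hv
      refine H3.ext ?_ ?_ <;> simp [hX, H3.hpt, hshift, shiftX]
    · simp [hX, hshift, shiftX, update_of_ne hv, Pi.single_eq_of_ne hv]
  have hch : ∀ z : ℂ, charX (freq b k) (Pi.single w z) = H3.echar (w.embedding (freq b k)) z :=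
    fun z => by
      rw [← prod_echar, Finset.prod_eq_single w (fun v _ hv => by simp [Pi.single_eq_of_ne hv])
        (fun hw => absurd (Finset.mem_univ w) hw), Pi.single_eq_same]
  show _ = ∫ ζ in Metric.closedBall (0 : ℂ) 1, e x' * coefX b F k (X x' ((u x' : ℂ) * ζ))
  simp only [hXs (_ * _), coefX_hshift h, hch, integral_const_mul, integral_mul_const]
  rw [H3.discInt, setIntegral_disc_scale _ (Real.sqrt_nonneg _)]
  simp only [he, hu, hX]
  ring

theorem coefX_update (h : PeriodicEigen b F) {k : ι → ℤ} (hk : k ≠ 0) (x : XInf K)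
    (w : InfinitePlace K) (z : ℂ) {t : ℝ} (ht : 0 < t) :
    letI := Classical.decEq (InfinitePlace K)
    coefX b F k (update x w ⟨z, t, ht⟩) = coefX b F k (update x w ⟨z, 1, one_pos⟩) /
        (H3.besselK0 (4 * Real.pi * ‖w.embedding (freq b k)‖) : ℂ) *
      ((t * H3.besselK0 (4 * Real.pi * ‖w.embedding (freq b k)‖ * t) : ℝ) : ℂ) := by
  classical
  have hg : Continuous fun Q : H3 => coefX b F k (update x w Q) :=
    (continuous_coefX h k).comp (Continuous.update continuous_const w continuous_id)
  set a : ℝ → ℂ := fun s => H3.extCoords (fun Q => coefX b F k (update x w Q)) (z, s) with ha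
  have hval : ∀ s (hs : 0 < s), a s = coefX b F k (update x w ⟨z, s, hs⟩) := fun s hs => dif_pos hs
  have hac : ContinuousOn a (Ioi 0) :=
    (H3.continuousOn_extCoords hg).comp (continuous_const.prodMk continuous_id).continuousOn
      fun s hs => hs
  obtain ⟨C, hC⟩ := norm_coefX_le h
  have hν : w.embedding (freq b k) ≠ 0 :=
    (map_ne_zero _).mpr (mt freq_eq_zero_iff.mp hk)
  have hrad := H3.radial_eq hac ⟨C, fun s hs => by rw [hval s hs]; exact hC _ _⟩ hν
    (fun s hs ε hε => ?_) ht
  · rwa [hval t ht, hval 1 one_pos] at hrad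
  · have hm := coefX_meanValue h k (update x w ⟨z, s, hs⟩) w hε
    rw [update_self] at hm
    rw [hval s hs, ← hm]
    refine intervalIntegral.integral_congr fun x' _ => ?_
    simp only [hval _ (mul_pos hs (Real.exp_pos x')), update_idem]
    congr 3
    refine congrArg (update x w) (H3.ext ?_ ?_) <;> simp [H3.hpt]

/-- The normalised coefficient. -/
def coefW (b : Module.Basis ι ℚ K) (F : XInf K → ℂ) (k : ι → ℤ) : ℂ :=
  coefX b F k onesX / ∏ w : InfinitePlace K, ((‖w.embedding (freq b k)‖ *
    H3.besselK0 (4 * Real.pi * ‖w.embedding (freq b k)‖) : ℝ) : ℂ)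

theorem coefX_eq (h : PeriodicEigen b F) {k : ι → ℤ} (hk : k ≠ 0) (x : XInf K) :
    coefX b F k x = coefW b F k * waveProd (freq b k) x := by
  classical
  set ν := freq b k with hν
  set K0 : InfinitePlace K → ℂ := fun w =>
    (H3.besselK0 (4 * Real.pi * ‖w.embedding ν‖) : ℂ) with hK0
  set R : InfinitePlace K → ℂ := fun w => (((x w).t *
    H3.besselK0 (4 * Real.pi * ‖w.embedding ν‖ * (x w).t) : ℝ) : ℂ) with hR
  have key : ∀ S : Finset (InfinitePlace K), coefX b F k (flatX x) =
      (∏ w ∈ S, R w / K0 w) *
        coefX b F k (fun w => if w ∈ S then ⟨0, 1, one_pos⟩ else flatX x w) := by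
    intro S
    induction S using Finset.induction_on with
    | empty => simp
    | insert a S ha ih =>
      rw [ih, Finset.prod_insert ha]
      set y : XInf K := fun w => if w ∈ S then ⟨0, 1, one_pos⟩ else flatX x w with hy
      have hu := coefX_update h hk y a 0 (x a).t_pos
      have e1 : update y a ⟨0, (x a).t, (x a).t_pos⟩ = y := by
        rw [update_eq_self_iff, hy]
        simp [ha, flatX]
      have e2 : update y a ⟨0, 1, one_pos⟩ =
          fun w => if w ∈ insert a S then (⟨0, 1, one_pos⟩ : H3) else flatX x w := by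
        funext w
        by_cases hw : w = a
        · subst hw; simp
        · simp [hy, hw]
      rw [e1, e2] at hu
      rw [hu]
      simp only [hR, hK0, ← hν]
      ring
  have hfull := key Finset.univ
  simp only [Finset.mem_univ, if_true] at hfull
  conv_lhs => rw [← hshift_flatX x]
  rw [coefX_hshift h, hfull, waveProd_eq, coefW, ← hν]
  have hne : ∀ w : InfinitePlace K, w.embedding ν ≠ 0 := fun w =>
    (map_ne_zero _).mpr (mt freq_eq_zero_iff.mp hk)
  have hK : ∀ w, K0 w ≠ 0 := fun w => Complex.ofReal_ne_zero.mpr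
    (H3.besselK0_pos (by have := norm_pos_iff.mpr (hne w); positivity)).ne'
  have h1 : (∏ w : InfinitePlace K, (‖w.embedding ν‖ : ℂ)) ≠ 0 :=
    Finset.prod_ne_zero_iff.mpr fun w _ => Complex.ofReal_ne_zero.mpr (norm_ne_zero_iff.mpr (hne w))
  have h2 : ∏ w, K0 w ≠ 0 := Finset.prod_ne_zero_iff.mpr fun w _ => hK w
  simp only [hK0] at h2
  simp only [hR, hK0, Finset.prod_div_distrib, Complex.ofReal_mul, Finset.prod_mul_distrib]
  field_simp
  ring_nf
  rfl

end FermatAgent.LT

end
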