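import Mathlib
import Fermat.Agent.LT.Base.Adelic

set_option autoImplicit false

/-!
# Approximation in finite adeles, idele classes and the Iwasawa decomposition
-/

noncomputable section

open NumberField IsDedekindDomain WithZero Filter Topology
open scoped nonZeroDivisors

namespace FermatAgent.LT

variable {K : Type*} [Field K] [NumberField K]

/-- The embedding in the completion. -/
abbrev loc (v : HeightOneSpectrum (𝓞 K)) : K →+* v.adicCompletion K :=
  algebraMap K (v.adicCompletion K)

theorem valued_loc (v : HeightOneSpectrum (𝓞 K)) (k : K) :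
    Valued.v (loc v k) = v.valuation K k :=
  HeightOneSpectrum.valuedAdicCompletion_eq_valuation' v k

theorem valued_uniformizer (v : HeightOneSpectrum (𝓞 K)) :
    Valued.v (loc v (pi v : K)) = exp (-1 : ℤ) := by
  rw [valued_loc]
  exact (v.valuation_exists_uniformizer K).choose_spec

/-- An integral local element is approximated by a global integer. -/
theorem exists_int_close (v : HeightOneSpectrum (𝓞 K)) {a : v.adicCompletion K}
    (ha : Valued.v a ≤ 1) (n : ℕ) :
    ∃ x : 𝓞 K, Valued.v (a - (loc v (x : K))) ≤ exp (-(n : ℤ)) := by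
  have hpow : Valued.v ((loc v (pi v : K)) ^ (n + 1)) = exp (-((n : ℤ) + 1)) := by
    rw [map_pow, valued_uniformizer, ← exp_nsmul]
    congr 1
    simp
  have hne : (Valued.v.restrict ((loc v (pi v : K)) ^ (n + 1))) ≠ 0 := by
    rw [ne_eq, Valuation.restrict_eq_zero_iff]
    exact (show Valued.v ((loc v (pi v : K)) ^ (n + 1)) ≠ 0
      by rw [hpow]; exact exp_ne_zero)
  have hmem : {y : v.adicCompletion K | Valued.v (y - a) < exp (-((n : ℤ) + 1))} ∈ 𝓝 a := by
    rw [Valued.mem_nhds]
    refine ⟨Units.mk0 _ hne, fun y hy => ?_⟩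
    have h1 := Valued.v.restrict_lt_iff.mp hy
    rwa [hpow] at h1
  obtain ⟨y, hy⟩ := mem_closure_iff_nhds.mp
    (HeightOneSpectrum.denseRange_algebraMap (K := K) v a) _ hmem
  obtain ⟨hy, k, rfl⟩ := hy
  have hy1 : Valued.v ((algebraMap K (v.adicCompletion K) k) - a) ≤ exp (-(n : ℤ)) :=
    hy.le.trans (exp_le_exp.mpr (by omega))
  have hk : v.valuation K k ≤ 1 := by
    rw [← valued_loc, show (loc v k) = (algebraMap K (v.adicCompletion K) k - a) + a by
        rw [sub_add_cancel]]
    exact (Valuation.map_add _ _ _).trans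
      (max_le (hy1.trans (exp_le_exp.mpr (by omega : -(n : ℤ) ≤ 0))) ha)
  obtain ⟨x, hx⟩ := v.exists_valuation_sub_lt_of_integer hk
    (Units.mk0 (exp (-(n : ℤ))) exp_ne_zero)
  refine ⟨x, ?_⟩
  rw [show a - (loc v (x : K)) =
      -(algebraMap K (v.adicCompletion K) k - a) - (loc v ((x : K) - k)) by
    rw [map_sub]
    ring]
  refine (Valuation.map_sub _ _ _).trans (max_le (by rwa [Valuation.map_neg]) ?_)
  rw [valued_loc]
  exact hx.le

/-- Simultaneous approximation by a global integer at finitely many places. -/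
theorem exists_int_close_finset (s : Finset (HeightOneSpectrum (𝓞 K)))
    (a : ∀ v : HeightOneSpectrum (𝓞 K), v.adicCompletion K) (n : HeightOneSpectrum (𝓞 K) → ℕ)
    (ha : ∀ v ∈ s, Valued.v (a v) ≤ 1) :
    ∃ x : 𝓞 K, ∀ v ∈ s, Valued.v (a v - (loc v (x : K))) ≤ exp (-(n v : ℤ)) := by
  choose y hy using fun v : s => exists_int_close v.1 (ha v.1 v.2) (n v.1)
  obtain ⟨x, hx⟩ := IsDedekindDomain.exists_forall_sub_mem_ideal (s := s) (fun v => v.asIdeal) n
    (fun v _ => v.prime) (fun v _ w _ h h' => h (HeightOneSpectrum.ext h')) y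
  refine ⟨x, fun v hv => ?_⟩
  rw [show a v - (loc v (x : K)) = (a v - (loc v (y ⟨v, hv⟩ : K))) -
      (loc v ((x - y ⟨v, hv⟩ : 𝓞 K) : K)) by
    push_cast
    ring]
  refine (Valuation.map_sub _ _ _).trans (max_le (hy ⟨v, hv⟩) ?_)
  rw [valued_loc, HeightOneSpectrum.valuation_of_algebraMap]
  exact (v.intValuation_le_pow_iff_mem _ _).mpr (hx v hv)

/-- `𝔸_f = K + ∏ 𝔭_v^{e_v}` for exponents vanishing almost everywhere. -/
theorem exists_sub_small (a : Adf K) (e : HeightOneSpectrum (𝓞 K) → ℕ)
    (he : ∀ᶠ v in cofinite, e v = 0) :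
    ∃ b : K, ∀ v : HeightOneSpectrum (𝓞 K),
      Valued.v (a v - (loc v b)) ≤ exp (-(e v : ℤ)) := by
  classical
  obtain ⟨m, hm, ham⟩ : ∃ m : 𝓞 K, m ≠ 0 ∧ ∀ v : HeightOneSpectrum (𝓞 K),
      Valued.v ((loc v (m : K)) * a v) ≤ 1 := by
    have hfin := Filter.eventually_cofinite.mp a.2
    choose b hb hb' using fun v : HeightOneSpectrum (𝓞 K) =>
      HeightOneSpectrum.adicCompletion.mul_nonZeroDivisor_mem_adicCompletionIntegers
        (R := 𝓞 K) v (a v)
    refine ⟨∏ v ∈ hfin.toFinset, b v, ?_, fun v => ?_⟩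
    · exact Finset.prod_ne_zero_iff.mpr fun v _ => nonZeroDivisors.ne_zero (hb v)
    · rw [map_mul, valued_loc,
        HeightOneSpectrum.valuation_of_algebraMap]
      by_cases hv : v ∈ hfin.toFinset
      · rw [← Finset.mul_prod_erase _ _ hv, map_mul, mul_comm _ (Valued.v (a v)), ← mul_assoc]
        refine mul_le_one' ?_ (v.intValuation_le_one _)
        have h := hb' v
        rw [HeightOneSpectrum.mem_adicCompletionIntegers, map_mul,
          HeightOneSpectrum.valuedAdicCompletion_eq_valuation,
          HeightOneSpectrum.valuation_of_algebraMap] at h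
        exact h
      · refine mul_le_one' (v.intValuation_le_one _) ?_
        have h2 : a.1 v ∈ v.adicCompletionIntegers K := by simpa using hv
        exact h2
  have hmK : ((m : K)) ≠ 0 := RingOfIntegers.coe_ne_zero_iff.mpr hm
  have hfin : {v : HeightOneSpectrum (𝓞 K) | v.intValuation m ≠ 1 ∨ e v ≠ 0}.Finite := by
    refine ((Ideal.finite_factors (I := Ideal.span {m}) (by simpa using hm)).union
      (Filter.eventually_cofinite.mp he)).subset ?_
    rintro v (hv | hv)
    · left
      refine Ideal.dvd_iff_le.mpr ?_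
      rw [Ideal.span_singleton_le_iff_mem]
      by_contra h
      exact hv (v.intValuation_eq_one_iff_mem_primeCompl m |>.mpr h)
    · exact Or.inr hv
  let k : HeightOneSpectrum (𝓞 K) → ℕ := fun v => (-(log (v.intValuation m))).toNat
  obtain ⟨x, hx⟩ := exists_int_close_finset hfin.toFinset
    (fun v => (loc v (m : K)) * a v) (fun v => e v + k v) fun v _ => ham v
  refine ⟨(x : K) / m, fun v => ?_⟩
  have hmv : Valued.v (loc v (m : K)) = v.intValuation m := by
    rw [valued_loc,
      HeightOneSpectrum.valuation_of_algebraMap]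
  have hm0 : v.intValuation m ≠ 0 := v.intValuation_ne_zero m hm
  have hne : (loc v (m : K)) ≠ 0 := fun h => hm0 (by rw [← hmv, h, map_zero])
  have key : Valued.v ((loc v (m : K)) * a v - (loc v (x : K))) ≤
      exp (-(e v : ℤ)) * v.intValuation m := by
    by_cases hv : v ∈ hfin.toFinset
    · refine (hx v hv).trans ?_
      have hle : log (v.intValuation m) ≤ 0 := by
        rw [← exp_le_exp, exp_log hm0, exp_zero]
        exact v.intValuation_le_one m
      rw [show v.intValuation m = exp (log (v.intValuation m)) from (exp_log hm0).symm, ← exp_add,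
        exp_le_exp]
      simp only [k]
      push_cast
      omega
    · simp only [Set.Finite.mem_toFinset, Set.mem_ofPred_eq, not_or, not_not] at hv
      rw [hv.1, hv.2, mul_one, Nat.cast_zero, neg_zero, exp_zero]
      refine (Valuation.map_sub _ _ _).trans (max_le (ham v) ?_)
      rw [valued_loc,
        HeightOneSpectrum.valuation_of_algebraMap]
      exact v.intValuation_le_one x
  have hdiv : a v - (loc v ((x : K) / m)) =
      ((loc v (m : K)) * a v - (loc v (x : K))) /
        (loc v (m : K)) := by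
    rw [show (loc v ((x : K) / m)) =
      (loc v (x : K)) / (loc v (m : K)) from
        map_div₀ (loc v) _ _]
    field_simp
  rw [hdiv, map_div₀, hmv, div_le_iff₀ (zero_lt_iff.mpr hm0)]
  exact key

/-- The exponent of an ideal at a place. -/
def ordAt (v : HeightOneSpectrum (𝓞 K)) (J : Ideal (𝓞 K)) : ℤ :=
  FractionalIdeal.count K v (J : FractionalIdeal (𝓞 K)⁰ K)

theorem valued_int (v : HeightOneSpectrum (𝓞 K)) {x : 𝓞 K} (hx : x ≠ 0) :
    Valued.v (loc v (x : K)) = exp (-ordAt v (Ideal.span {x})) := by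
  rw [valued_loc, HeightOneSpectrum.valuation_of_algebraMap, v.intValuation_if_neg hx, ordAt,
    FractionalIdeal.count_coe K v (by simpa using hx)]

theorem eventually_ordAt_eq_zero {J : Ideal (𝓞 K)} (hJ : J ≠ ⊥) :
    ∀ᶠ v in cofinite, ordAt v J = 0 := by
  refine Filter.eventually_cofinite.mpr ((Ideal.finite_factors (I := J) hJ).subset fun v hv => ?_)
  by_contra h
  refine hv ?_
  rw [ordAt, FractionalIdeal.count_coe K v hJ, Nat.cast_eq_zero]
  by_contra h'
  refine h ?_
  have hd := (Associates.count_ne_zero_iff_dvd hJ v.irreducible).mp h'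
  exact hd

/-- The idele with prescribed valuations. -/
theorem exists_idele_ord (n : HeightOneSpectrum (𝓞 K) → ℤ) (hn : ∀ᶠ v in cofinite, n v = 0) :
    ∃ a : (Adf K)ˣ, ∀ v : HeightOneSpectrum (𝓞 K), Valued.v ((a : Adf K) v) = exp (-n v) := by
  let f : ∀ v : HeightOneSpectrum (𝓞 K), v.adicCompletion K := fun v => loc v (pi v : K) ^ n v
  have hf : ∀ v, Valued.v (f v) = exp (-n v) := fun v => by
    simp only [f, map_zpow₀, valued_uniformizer, ← exp_zsmul]
    congr 1
    simp
  let a : Adf K := ⟨f, by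
    filter_upwards [hn] with v hv
    change f v ∈ v.adicCompletionIntegers K
    rw [HeightOneSpectrum.mem_adicCompletionIntegers, hf v, hv, neg_zero, exp_zero]⟩
  have ha : IsUnit a := FiniteAdeleRing.isUnit_iff.mpr ⟨fun v h => by
    have h' := congrArg Valued.v h
    rw [map_zero] at h'
    exact exp_ne_zero ((hf v).symm.trans h'),
    by filter_upwards [hn] with v hv; exact (hf v).trans (by rw [hv, neg_zero, exp_zero])⟩
  exact ⟨ha.unit, fun v => hf v⟩

/-- The idele classes modulo the units of the integral adeles form a finite set. -/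
theorem exists_finite_idele_reps : ∃ C : Set (Adf K)ˣ, C.Finite ∧ ∀ a : (Adf K)ˣ,
    ∃ (k : Kˣ) (c : (Adf K)ˣ), c ∈ C ∧ ∀ v : HeightOneSpectrum (𝓞 K),
      Valued.v ((a : Adf K) v) = Valued.v (loc v (k : K)) * Valued.v ((c : Adf K) v) := by
  choose J hJ using ClassGroup.mk0_surjective (R := 𝓞 K)
  choose c hc using fun cl : ClassGroup (𝓞 K) =>
    exists_idele_ord (fun v => ordAt v (J cl : Ideal (𝓞 K)))
      (eventually_ordAt_eq_zero (nonZeroDivisors.ne_zero (J cl).2))
  refine ⟨Set.range c, Set.finite_range c, fun a => ?_⟩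
  obtain ⟨m, hm, ham⟩ : ∃ m : 𝓞 K, m ≠ 0 ∧ ∀ v : HeightOneSpectrum (𝓞 K),
      Valued.v (loc v (m : K)) * Valued.v ((a : Adf K) v) ≤ 1 := by
    classical
    have hfin := Filter.eventually_cofinite.mp (a : Adf K).2
    choose d hd hd' using fun v : HeightOneSpectrum (𝓞 K) =>
      HeightOneSpectrum.adicCompletion.mul_nonZeroDivisor_mem_adicCompletionIntegers
        (R := 𝓞 K) v ((a : Adf K) v)
    refine ⟨∏ v ∈ hfin.toFinset, d v, ?_, fun v => ?_⟩
    · exact Finset.prod_ne_zero_iff.mpr fun v _ => nonZeroDivisors.ne_zero (hd v)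
    · rw [valued_loc, HeightOneSpectrum.valuation_of_algebraMap]
      by_cases hv : v ∈ hfin.toFinset
      · rw [← Finset.mul_prod_erase _ _ hv, map_mul, mul_comm _ (Valued.v ((a : Adf K) v)),
          ← mul_assoc]
        refine mul_le_one' ?_ (v.intValuation_le_one _)
        have h := hd' v
        rw [HeightOneSpectrum.mem_adicCompletionIntegers, map_mul,
          HeightOneSpectrum.valuedAdicCompletion_eq_valuation,
          HeightOneSpectrum.valuation_of_algebraMap] at h
        exact h
      · refine mul_le_one' (v.intValuation_le_one _) ?_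
        have h2 : (a : Adf K).1 v ∈ v.adicCompletionIntegers K := by simpa using hv
        exact h2
  have ha0 : ∀ v : HeightOneSpectrum (𝓞 K), Valued.v ((a : Adf K) v) ≠ 0 := fun v =>
    (Valuation.ne_zero_iff _).mpr ((FiniteAdeleRing.isUnit_iff.mp a.isUnit).1 v)
  let n : HeightOneSpectrum (𝓞 K) → ℤ := fun v =>
    -log (Valued.v (loc v (m : K)) * Valued.v ((a : Adf K) v))
  have hm0 : ∀ v : HeightOneSpectrum (𝓞 K), Valued.v (loc v (m : K)) ≠ 0 := fun v => by
    rw [valued_int v hm]; exact exp_ne_zero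
  have hn : ∀ v, Valued.v (loc v (m : K)) * Valued.v ((a : Adf K) v) = exp (-n v) := fun v => by
    simp only [n, neg_neg, exp_log (mul_ne_zero (hm0 v) (ha0 v))]
  have hn0 : ∀ v, 0 ≤ n v := fun v => by
    have h := ham v
    rw [hn v, ← exp_zero, exp_le_exp] at h
    omega
  have hnfin : ∀ᶠ v in cofinite, n v = 0 := by
    filter_upwards [(FiniteAdeleRing.isUnit_iff.mp a.isUnit).2,
      eventually_ordAt_eq_zero (J := Ideal.span {m}) (by simpa using hm)] with v h1 h2
    have h := hn v
    rw [h1, valued_int v hm, h2, mul_one, exp_inj] at h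
    omega
  let s := (Filter.eventually_cofinite.mp hnfin).toFinset
  let I : Ideal (𝓞 K) := ∏ v ∈ s, v.asIdeal ^ (n v).toNat
  have hI0 : I ≠ ⊥ := Finset.prod_ne_zero_iff.mpr fun v _ => pow_ne_zero _ v.ne_bot
  have hI : ∀ v, ordAt v I = n v := fun v => by
    classical
    simp only [ordAt, I]
    rw [show ((∏ w ∈ s, w.asIdeal ^ (n w).toNat : Ideal (𝓞 K)) : FractionalIdeal (𝓞 K)⁰ K) =
      ∏ w ∈ s, (w.asIdeal : FractionalIdeal (𝓞 K)⁰ K) ^ (n w).toNat from by
        change FractionalIdeal.coeIdealHom (𝓞 K)⁰ K _ = _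
        rw [map_prod]
        exact Finset.prod_congr rfl fun w _ => map_pow _ _ _]
    rw [FractionalIdeal.count_prod _ _ _ _ fun w _ => pow_ne_zero _
      (FractionalIdeal.coeIdeal_ne_zero.mpr w.ne_bot)]
    simp only [FractionalIdeal.count_pow, FractionalIdeal.count_maximal]
    simp only [mul_ite, mul_one, mul_zero, Finset.sum_ite_eq']
    split_ifs with hv
    · exact Int.toNat_of_nonneg (hn0 v)
    · simpa [s] using hv |> fun h => (by simpa [s] using h : n v = 0).symm
  set cl := ClassGroup.mk0 ⟨I, mem_nonZeroDivisors_of_ne_zero hI0⟩ with hcl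
  obtain ⟨x, y, hx, hy, hxy⟩ := ClassGroup.mk0_eq_mk0_iff.mp (hcl.symm.trans (hJ cl).symm)
  have hord : ∀ v, ordAt v (Ideal.span {x}) + n v =
      ordAt v (Ideal.span {y}) + ordAt v (J cl : Ideal (𝓞 K)) := fun v => by
    have h := congrArg (fun X : Ideal (𝓞 K) => ordAt v X) hxy
    simp only [ordAt, FractionalIdeal.coeIdeal_mul] at h ⊢
    rw [FractionalIdeal.count_mul, FractionalIdeal.count_mul] at h
    · rw [← hI v]; exact h
    all_goals first
      | exact FractionalIdeal.coeIdeal_ne_zero.mpr (by simpa using hy)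
      | exact FractionalIdeal.coeIdeal_ne_zero.mpr (by simpa using hx)
      | exact FractionalIdeal.coeIdeal_ne_zero.mpr (nonZeroDivisors.ne_zero (J cl).2)
      | exact FractionalIdeal.coeIdeal_ne_zero.mpr hI0
  have hk : (y : K) / ((x : K) * (m : K)) ≠ 0 := by
    simp [hx, hy, hm]
  refine ⟨Units.mk0 _ hk, c cl, Set.mem_range_self _, fun v => ?_⟩
  rw [Units.val_mk0, map_div₀, map_mul, map_div₀, map_mul, hc cl v, valued_int v hx, valued_int v hy]
  have hmv := hn v
  rw [valued_int v hm] at hmv ⊢
  have key : Valued.v ((a : Adf K) v) = exp (-n v + ordAt v (Ideal.span {m})) := by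
    rw [exp_add, ← hmv, mul_comm (exp (-ordAt v _)), mul_assoc, ← exp_add, neg_add_cancel, exp_zero,
      mul_one]
  rw [key, ← exp_add, ← exp_sub, ← exp_add, exp_inj]
  have := hord v
  omega

/-- The local Iwasawa factor: the identity decomposition at the places where `g` is integral. -/
theorem exists_iwasawa_local (g : GAf K) (v : HeightOneSpectrum (𝓞 K)) :
    ∃ k : GL (Fin 2) (v.adicCompletionIntegers K),
      (g 1 0) v * (((k⁻¹ : GL (Fin 2) _) 0 0 : v.adicCompletionIntegers K) : v.adicCompletion K) +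
        (g 1 1) v * (((k⁻¹ : GL (Fin 2) _) 1 0 : v.adicCompletionIntegers K) : v.adicCompletion K) = 0 ∧
      ((∀ i j, (g i j) v ∈ v.adicCompletionIntegers K ∧
        ((g⁻¹ : GAf K) i j) v ∈ v.adicCompletionIntegers K) →
          ∀ i j, ((k i j : v.adicCompletionIntegers K) : v.adicCompletion K) = (g i j) v) := by
  have hmul : ∀ i j, (g i 0) v * ((g⁻¹ : GAf K) 0 j) v + (g i 1) v * ((g⁻¹ : GAf K) 1 j) v =
      if i = j then 1 else 0 := fun i j => by
    have h := congrArg (fun M : Matrix (Fin 2) (Fin 2) (Adf K) => M i j v) g.mul_inv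
    simp only [Matrix.mul_apply, Fin.sum_univ_two, adele_add_apply, adele_mul_apply,
      Matrix.one_apply] at h
    split_ifs at h ⊢ with hij <;> exact h
  have hinv : ∀ i j, ((g⁻¹ : GAf K) i 0) v * (g 0 j) v + ((g⁻¹ : GAf K) i 1) v * (g 1 j) v =
      if i = j then 1 else 0 := fun i j => by
    have h := congrArg (fun M : Matrix (Fin 2) (Fin 2) (Adf K) => M i j v) g.inv_mul
    simp only [Matrix.mul_apply, Fin.sum_univ_two, adele_add_apply, adele_mul_apply,
      Matrix.one_apply] at h
    split_ifs at h ⊢ with hij <;> exact h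
  by_cases hint : ∀ i j, (g i j) v ∈ v.adicCompletionIntegers K ∧
      ((g⁻¹ : GAf K) i j) v ∈ v.adicCompletionIntegers K
  · refine ⟨⟨Matrix.of fun i j => ⟨(g i j) v, (hint i j).1⟩,
      Matrix.of fun i j => ⟨((g⁻¹ : GAf K) i j) v, (hint i j).2⟩, ?_, ?_⟩, ?_, fun _ i j => rfl⟩
    · refine Matrix.ext fun i j => Subtype.ext ?_
      simp only [Matrix.mul_apply, Fin.sum_univ_two, Matrix.of_apply, Matrix.one_apply]
      exact (hmul i j).trans (by split_ifs <;> rfl)
    · refine Matrix.ext fun i j => Subtype.ext ?_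
      simp only [Matrix.mul_apply, Fin.sum_univ_two, Matrix.of_apply, Matrix.one_apply]
      exact (hinv i j).trans (by split_ifs <;> rfl)
    · simpa using hmul 1 0
  · have hint' : ∀ r : v.adicCompletion K, Valued.v r ≤ 1 → r ∈ v.adicCompletionIntegers K :=
      fun r h => h
    rcases le_total (Valued.v ((g 1 0) v)) (Valued.v ((g 1 1) v)) with h | h
    · have hne : (g 1 1) v ≠ 0 := fun h0 => by
        rw [h0, map_zero, nonpos_iff_eq_zero, map_eq_zero] at h
        have := hmul 1 1
        simp [h0, h] at this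
      set r : v.adicCompletionIntegers K := ⟨(g 1 0) v / (g 1 1) v, hint' _ (by
        rw [map_div₀]; exact div_le_one_of_le₀ h zero_le)⟩ with hr
      refine ⟨⟨!![1, 0; r, 1], !![1, 0; -r, 1],
        by ext i j; fin_cases i <;> fin_cases j <;> simp [Matrix.mul_apply, Fin.sum_univ_two],
        by ext i j; fin_cases i <;> fin_cases j <;> simp [Matrix.mul_apply, Fin.sum_univ_two]⟩,
        ?_, fun h' => absurd h' hint⟩
      change (g 1 0) v * ((1 : v.adicCompletionIntegers K) : v.adicCompletion K) +
        (g 1 1) v * ((-r : v.adicCompletionIntegers K) : v.adicCompletion K) = 0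
      rw [hr]
      push_cast
      field_simp
      ring
    · have hne : (g 1 0) v ≠ 0 := fun h0 => by
        rw [h0, map_zero, nonpos_iff_eq_zero, map_eq_zero] at h
        have := hmul 1 1
        simp [h0, h] at this
      set r : v.adicCompletionIntegers K := ⟨(g 1 1) v / (g 1 0) v, hint' _ (by
        rw [map_div₀]; exact div_le_one_of_le₀ h zero_le)⟩ with hr
      refine ⟨⟨!![0, -1; 1, r], !![r, 1; -1, 0],
        by ext i j; fin_cases i <;> fin_cases j <;> simp [Matrix.mul_apply, Fin.sum_univ_two],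
        by ext i j; fin_cases i <;> fin_cases j <;> simp [Matrix.mul_apply, Fin.sum_univ_two]⟩,
        ?_, fun h' => absurd h' hint⟩
      change (g 1 0) v * ((r : v.adicCompletionIntegers K) : v.adicCompletion K) +
        (g 1 1) v * ((-1 : v.adicCompletionIntegers K) : v.adicCompletion K) = 0
      rw [hr]
      push_cast
      field_simp
      ring

/-- The Iwasawa decomposition of `GL₂` of the finite adeles. -/
theorem exists_iwasawa (g : GAf K) : ∃ (a d : (Adf K)ˣ) (b : Adf K) (k : GL (Fin 2) (IntAd K)),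
    g = upperTri a b d * Matrix.GeneralLinearGroup.map intToAdele k := by
  choose k hk _ using exists_iwasawa_local g
  let kk : GL (Fin 2) (IntAd K) :=
    ⟨Matrix.of fun i j => fun v => k v i j,
      Matrix.of fun i j => fun v => ((k v)⁻¹ : GL (Fin 2) _) i j,
      by
        refine Matrix.ext fun i j => funext fun v => ?_
        have h := congrArg (fun M : Matrix (Fin 2) (Fin 2) _ => M i j) (k v).mul_inv
        simp only [Matrix.mul_apply, Fin.sum_univ_two, Matrix.one_apply] at h ⊢
        simp only [Matrix.of_apply, Pi.add_apply, Pi.mul_apply]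
        rw [h]
        split_ifs <;> rfl,
      by
        refine Matrix.ext fun i j => funext fun v => ?_
        have h := congrArg (fun M : Matrix (Fin 2) (Fin 2) _ => M i j) (k v).inv_mul
        simp only [Matrix.mul_apply, Fin.sum_univ_two, Matrix.one_apply] at h ⊢
        simp only [Matrix.of_apply, Pi.add_apply, Pi.mul_apply]
        rw [h]
        split_ifs <;> rfl⟩
  set h := g * (Matrix.GeneralLinearGroup.map intToAdele kk)⁻¹ with hh
  have h10 : h 1 0 = 0 := FiniteAdeleRing.ext _ fun v => by
    rw [hh, Matrix.GeneralLinearGroup.coe_mul, Matrix.mul_apply, Fin.sum_univ_two,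
      adele_add_apply, adele_mul_apply, adele_mul_apply, ← map_inv]
    exact hk v
  have hdet : IsUnit (h 0 0 * h 1 1) := by
    have := (Matrix.GeneralLinearGroup.det h).isUnit
    rwa [Matrix.GeneralLinearGroup.val_det_apply, Matrix.det_fin_two, h10, mul_zero, sub_zero]
      at this
  obtain ⟨ha, hd⟩ := IsUnit.mul_iff.mp hdet
  refine ⟨ha.unit, hd.unit, h 0 1, kk, ?_⟩
  have : upperTri ha.unit (h 0 1) hd.unit = h := by
    refine Units.ext (Matrix.ext fun i j => ?_)
    fin_cases i <;> fin_cases j <;> simp [upperTri, h10]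
  rw [this, hh, inv_mul_cancel_right]

end FermatAgent.LT
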