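import Mathlib
import Fermat.Agent.LT.Base.Adelic

set_option autoImplicit false

/-!
# The space `XInf × GL₂(𝔸_f)/(Z U)`, the action of `PGL₂` and the height
-/

noncomputable section

open MeasureTheory NumberField IsDedekindDomain
open scoped ENNReal MatrixGroups

namespace FermatAgent.LT

variable {K : Type*} [Field K] [NumberField K]

theorem H3.scalar_smul (a : ℂˣ) (P : H3) :
    (Matrix.GeneralLinearGroup.scalar (Fin 2) a) • P = P := by
  have ha : ‖(a : ℂ)‖ ≠ 0 := norm_ne_zero_iff.mpr a.ne_zero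
  have hc : (Matrix.GeneralLinearGroup.scalar (Fin 2) a : Matrix (Fin 2) (Fin 2) ℂ) =
      Matrix.diagonal fun _ => (a : ℂ) := rfl
  rw [H3.smul_def]
  refine H3.ext ?_ ?_ <;> simp only [H3.act, H3.den, hc, Matrix.diagonal_apply_eq,
    Matrix.diagonal_apply_ne _ (show (1 : Fin 2) ≠ 0 by decide),
    Matrix.diagonal_apply_ne _ (show (0 : Fin 2) ≠ 1 by decide), Matrix.det_diagonal]
  · simp only [zero_mul, zero_add, add_zero, map_zero, mul_zero,
      Complex.normSq_eq_norm_sq]
    rw [mul_assoc, mul_comm P.z, ← mul_assoc, Complex.mul_conj, Complex.normSq_eq_norm_sq]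
    field_simp
  · simp only [zero_mul, zero_add, Complex.normSq_eq_norm_sq,
      Finset.prod_const, Finset.card_univ, Fintype.card_fin, norm_pow, norm_zero]
    field_simp
    ring

/-- The level subgroup times the centre. -/
def levelGroup (𝔫 : Ideal (𝓞 K)) : Subgroup (GAf K) :=
  congrSubgroup 𝔫 ⊔ Subgroup.center (GAf K)

/-- The finite cosets. -/
abbrev Cosets (𝔫 : Ideal (𝓞 K)) := GAf K ⧸ levelGroup 𝔫

/-- The space on which the trace formula lives. -/
abbrev YSpace (𝔫 : Ideal (𝓞 K)) := XInf K × Cosets 𝔫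

/-- The action of `GL₂(K)` on the space. -/
def ySmul (𝔫 : Ideal (𝓞 K)) : GL (Fin 2) K →* Equiv.Perm (YSpace 𝔫) where
  toFun γ :=
    { toFun := fun y => (infAct γ y.1, rationalMat γ • y.2)
      invFun := fun y => (infAct γ⁻¹ y.1, rationalMat γ⁻¹ • y.2)
      left_inv := fun y => Prod.ext (funext fun w => by simp [infAct, map_inv])
        (by simp [map_inv])
      right_inv := fun y => Prod.ext (funext fun w => by simp [infAct, map_inv])
        (by simp [map_inv]) }
  map_one' := Equiv.ext fun y => Prod.ext (funext fun w => by simp [infAct]) (by simp)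
  map_mul' γ δ := Equiv.ext fun y =>
    Prod.ext (funext fun w => by simp [infAct, mul_smul]) (by simp [mul_smul])

theorem ySmul_center (𝔫 : Ideal (𝓞 K)) :
    Subgroup.center (GL (Fin 2) K) ≤ (ySmul 𝔫).ker := by
  rw [Matrix.GeneralLinearGroup.center_eq_range_scalar]
  rintro _ ⟨a, rfl⟩
  refine MonoidHom.mem_ker.mpr (Equiv.ext fun y => Prod.ext (funext fun w => ?_) ?_)
  · change Matrix.GeneralLinearGroup.map w.embedding (Matrix.GeneralLinearGroup.scalar _ a) • _ = _
    rw [Matrix.GeneralLinearGroup.map_scalar, H3.scalar_smul]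
    rfl
  · obtain ⟨x, g⟩ := y
    induction g using QuotientGroup.induction_on with
    | H g =>
      change ((rationalMat (Matrix.GeneralLinearGroup.scalar _ a) * g : GAf K) : Cosets 𝔫) = g
      have hz : rationalMat (Matrix.GeneralLinearGroup.scalar (Fin 2) a) ∈
          Subgroup.center (GAf K) :=
        Matrix.GeneralLinearGroup.map_center_le _ (by
          rw [Matrix.GeneralLinearGroup.center_eq_range_scalar]; exact ⟨a, rfl⟩)
      rw [QuotientGroup.eq]
      rw [← (Subgroup.mem_center_iff.mp hz g), mul_inv_rev, mul_assoc, inv_mul_cancel, mul_one]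
      exact Subgroup.mem_sup_right (inv_mem hz)

instance (𝔫 : Ideal (𝓞 K)) : MulAction PGL(2, K) (YSpace 𝔫) :=
  MulAction.compHom _ (QuotientGroup.lift _ (ySmul 𝔫) (ySmul_center 𝔫))

theorem mk_smul (𝔫 : Ideal (𝓞 K)) (γ : GL (Fin 2) K) (y : YSpace 𝔫) :
    Matrix.ProjGenLinGroup.mk γ • y = (infAct γ y.1, rationalMat γ • y.2) := rfl

instance (𝔫 : Ideal (𝓞 K)) : MeasurableSpace (Cosets 𝔫) := ⊤

/-- Hyperbolic volume times counting measure. -/
def yVol (𝔫 : Ideal (𝓞 K)) : Measure (YSpace 𝔫) :=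
  (Measure.pi fun _ : InfinitePlace K => H3.vol).prod Measure.count

/-- The finite part of the height of the bottom row. -/
def heightFin (g : GAf K) : ℝ :=
  ∏ᶠ v : HeightOneSpectrum (𝓞 K),
    ‖((g : Matrix (Fin 2) (Fin 2) (Adf K)).det) v‖ / (max ‖(g 1 0) v‖ ‖(g 1 1) v‖) ^ 2

/-- The height of the cusp `∞`. -/
def height (x : XInf K) (g : GAf K) : ℝ := (∏ w, (x w).t ^ 2) * heightFin g

/-- The height of the cusp moved by `γ`. -/
def heightAt (γ : GL (Fin 2) K) (x : XInf K) (g : GAf K) : ℝ :=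
  height (infAct γ x) (rationalMat γ * g)

end FermatAgent.LT
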