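import Mathlib
import Fermat.Agent.LT.Base.FiniteAdele
import Fermat.Agent.LT.Base.Quotient

set_option autoImplicit false

/-!
# Representatives of the finite cosets modulo `B(K)`
-/

noncomputable section

open NumberField IsDedekindDomain WithZero Filter
open scoped MatrixGroups

namespace FermatAgent.LT

variable {K : Type*} [Field K] [NumberField K]

theorem upperTri_mul_upperTri {R : Type*} [CommRing R] (a a' d d' : Rˣ) (b b' : R) :
    upperTri a b d * upperTri a' b' d' = upperTri (a * a') (a * b' + b * d') (d * d') := by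
  refine Units.ext (Matrix.ext fun i j => ?_)
  fin_cases i <;> fin_cases j <;> simp [upperTri, Matrix.mul_apply, Fin.sum_univ_two]

theorem map_upperTri {R S : Type*} [CommRing R] [CommRing S] (f : R →+* S) (a d : Rˣ) (b : R) :
    Matrix.GeneralLinearGroup.map f (upperTri a b d) =
      upperTri (Units.map f.toMonoidHom a) (f b) (Units.map f.toMonoidHom d) := by
  refine Units.ext (Matrix.ext fun i j => ?_)
  fin_cases i <;> fin_cases j <;> simp [upperTri]

theorem scalar_eq_upperTri {R : Type*} [CommRing R] (z : Rˣ) :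
    Matrix.GeneralLinearGroup.scalar (Fin 2) z = upperTri z 0 z := by
  refine Units.ext (Matrix.ext fun i j => ?_)
  fin_cases i <;> fin_cases j <;> simp [upperTri]

theorem exists_intUnit (a : (Adf K)ˣ)
    (h : ∀ v : HeightOneSpectrum (𝓞 K), Valued.v ((a : Adf K) v) = 1) :
    ∃ u : (IntAd K)ˣ, Units.map intToAdele.toMonoidHom u = a := by
  have h0 : ∀ v : HeightOneSpectrum (𝓞 K), (a : Adf K) v ≠ 0 := fun v hv => by
    have := h v; rw [hv, map_zero] at this; exact zero_ne_one this
  refine ⟨⟨fun v => ⟨(a : Adf K) v, (h v).le⟩, fun v => ⟨((a : Adf K) v)⁻¹, by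
      change Valued.v ((a : Adf K) v)⁻¹ ≤ 1
      rw [map_inv₀, h v, inv_one]⟩,
    funext fun v => Subtype.ext (mul_inv_cancel₀ (h0 v)),
    funext fun v => Subtype.ext (inv_mul_cancel₀ (h0 v))⟩, Units.ext ?_⟩
  rfl

/-- The quotient of the integral adeles by a nonzero ideal is finite. -/
theorem finite_intAd_quotient {𝔫 : Ideal (𝓞 K)} (h : 𝔫 ≠ ⊥) :
    Finite (IntAd K ⧸ 𝔫.map (RingHom.pi fun v : HeightOneSpectrum (𝓞 K) =>
      algebraMap (𝓞 K) (v.adicCompletionIntegers K))) := by
  classical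
  set f : 𝓞 K →+* IntAd K := RingHom.pi fun v : HeightOneSpectrum (𝓞 K) =>
    algebraMap (𝓞 K) (v.adicCompletionIntegers K) with hf
  obtain ⟨N, hN, hN0⟩ := Submodule.exists_mem_ne_zero_of_ne_bot h
  have hfin := Filter.eventually_cofinite.mp
    (eventually_ordAt_eq_zero (K := K) (J := Ideal.span {N}) (by simpa using hN0))
  have hsurj : Function.Surjective ((Ideal.Quotient.mk (𝔫.map f)).comp f) := by
    intro q
    obtain ⟨a, rfl⟩ := Ideal.Quotient.mk_surjective q
    obtain ⟨x, hx⟩ := exists_int_close_finset hfin.toFinset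
      (fun v => ((a v : v.adicCompletionIntegers K) : v.adicCompletion K))
      (fun v => (ordAt v (Ideal.span {N})).toNat) fun v _ => (a v).2
    refine ⟨x, Ideal.Quotient.eq.mpr ?_⟩
    have hNv : ∀ v : HeightOneSpectrum (𝓞 K), loc v (N : K) ≠ 0 := fun v hv => by
      have := valued_int (K := K) v hN0
      rw [hv, map_zero] at this
      exact exp_ne_zero this.symm
    have hy : ∀ v : HeightOneSpectrum (𝓞 K),
        (loc v (x : K) - ((a v : v.adicCompletionIntegers K) : v.adicCompletion K)) / loc v (N : K) ∈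
          v.adicCompletionIntegers K := fun v => by
      change Valued.v ((loc v (x : K) - ((a v : v.adicCompletionIntegers K) : v.adicCompletion K)) /
        loc v (N : K)) ≤ 1
      rw [map_div₀, valued_int v hN0, Valuation.map_sub_swap,
        div_le_one₀ (zero_lt_iff.mpr exp_ne_zero)]
      have h0 : 0 ≤ ordAt v (Ideal.span {N}) := FractionalIdeal.count_coe_nonneg K v _
      by_cases hv : v ∈ hfin.toFinset
      · have := hx v hv
        rwa [Int.toNat_of_nonneg h0] at this
      · have hv' : ordAt v (Ideal.span {N}) = 0 := by simpa using hv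
        rw [hv', neg_zero, exp_zero]
        refine (Valuation.map_sub _ _ _).trans (max_le (a v).2 ?_)
        rw [valued_loc, HeightOneSpectrum.valuation_of_algebraMap]
        exact v.intValuation_le_one x
    have hmem : f N * (fun v => ⟨_, hy v⟩ : IntAd K) ∈ 𝔫.map f :=
      Ideal.mul_mem_right _ _ (Ideal.mem_map_of_mem f hN)
    convert hmem using 1
    refine funext fun v => Subtype.ext ?_
    change loc v (x : K) - _ = loc v (N : K) * _
    rw [mul_div_cancel₀ _ (hNv v)]
  have : Finite (𝓞 K ⧸ Ideal.span {N}) :=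
    Ideal.finiteQuotientOfFreeOfNeBot _ (by simpa using hN0)
  refine Finite.of_surjective
    (Ideal.Quotient.lift (Ideal.span {N}) ((Ideal.Quotient.mk (𝔫.map f)).comp f) fun y hy => ?_)
    fun q => ?_
  · refine Ideal.Quotient.eq_zero_iff_mem.mpr (Ideal.mem_map_of_mem f ?_)
    exact (Ideal.span_singleton_le_iff_mem 𝔫).mpr hN hy
  · obtain ⟨y, rfl⟩ := hsurj q
    exact ⟨Ideal.Quotient.mk _ y, Ideal.Quotient.lift_mk _ _ _⟩

/-- Finitely many integral matrices represent `GL₂(∏ O_v)` modulo the congruence subgroup. -/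
theorem exists_finite_int_reps {𝔫 : Ideal (𝓞 K)} (h : 𝔫 ≠ ⊥) :
    ∃ R : Set (GL (Fin 2) (IntAd K)), R.Finite ∧ ∀ k : GL (Fin 2) (IntAd K), ∃ r ∈ R,
      (Matrix.GeneralLinearGroup.map intToAdele r)⁻¹ * Matrix.GeneralLinearGroup.map intToAdele k ∈
        congrSubgroup 𝔫 := by
  set I := 𝔫.map (RingHom.pi fun v : HeightOneSpectrum (𝓞 K) =>
    algebraMap (𝓞 K) (v.adicCompletionIntegers K))
  have : Finite (IntAd K ⧸ I) := finite_intAd_quotient h
  set π := Matrix.GeneralLinearGroup.map (n := Fin 2) (Ideal.Quotient.mk I)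
  refine ⟨Set.range fun q : π.range => Classical.choose q.2, Set.finite_range _, fun k => ?_⟩
  refine ⟨_, ⟨⟨π k, k, rfl⟩, rfl⟩, ?_⟩
  set r := Classical.choose (show ∃ x, π x = π k from ⟨k, rfl⟩)
  have hr : π r = π k := Classical.choose_spec (show ∃ x, π x = π k from ⟨k, rfl⟩)
  rw [← map_inv, ← map_mul]
  refine Subgroup.mem_map_of_mem _ (MonoidHom.mem_ker.mpr ?_)
  rw [map_mul, map_inv]
  change (π r)⁻¹ * π k = 1
  rw [hr, inv_mul_cancel]

/-- Finitely many representatives of the finite cosets modulo the rational upper triangular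
matrices. -/
theorem exists_finite_coset_reps {𝔫 : Ideal (𝓞 K)} (h : 𝔫 ≠ ⊥) :
    ∃ D : Set (GAf K), D.Finite ∧ ∀ g : GAf K, ∃ (γ : GL (Fin 2) K) (d : GAf K),
      γ 1 0 = 0 ∧ d ∈ D ∧ (g : Cosets 𝔫) = ((rationalMat γ * d : GAf K) : Cosets 𝔫) := by
  obtain ⟨C, hC, hCr⟩ := exists_finite_idele_reps (K := K)
  obtain ⟨R, hR, hRr⟩ := exists_finite_int_reps h
  refine ⟨Set.image2 (fun c r => upperTri c 0 1 * Matrix.GeneralLinearGroup.map intToAdele r) C R,
    hC.image2 _ hR, fun g => ?_⟩
  obtain ⟨a, d, b, k, rfl⟩ := exists_iwasawa g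
  obtain ⟨q, c, hc, hq⟩ := hCr (a * d⁻¹)
  let qA : (Adf K)ˣ := Units.map (algebraMap K (Adf K)).toMonoidHom q
  obtain ⟨u, hu⟩ := exists_intUnit ((a * d⁻¹) * (qA * c)⁻¹) fun v => by
    have hx : ∀ x : (Adf K)ˣ, Valued.v ((x : Adf K) v) ≠ 0 := fun x =>
      (Valuation.ne_zero_iff _).mpr ((FiniteAdeleRing.isUnit_iff.mp x.isUnit).1 v)
    have hinv : Valued.v (((qA * c)⁻¹ : (Adf K)ˣ).val v) = (Valued.v ((qA * c : (Adf K)ˣ).val v))⁻¹ := by
      refine eq_inv_of_mul_eq_one_left ?_
      rw [← map_mul, ← adele_mul_apply, Units.inv_mul]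
      exact map_one _
    rw [Units.val_mul, adele_mul_apply, map_mul, hinv, hq v, Units.val_mul qA c, adele_mul_apply,
      map_mul]
    change Valued.v (loc v (q : K)) * _ * (Valued.v (loc v (q : K)) * _)⁻¹ = 1
    exact mul_inv_cancel₀ (by
      have := hx (qA * c)
      rwa [Units.val_mul, adele_mul_apply, map_mul] at this)
  -- the translation part
  set t : Adf K := ((qA⁻¹ : (Adf K)ˣ) : Adf K) * (((d⁻¹ : (Adf K)ˣ) : Adf K) * b)
  obtain ⟨β, hβ⟩ := exists_sub_small t
    (fun v => (-log (Valued.v ((c : Adf K) v))).toNat) (by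
      filter_upwards [(FiniteAdeleRing.isUnit_iff.mp c.isUnit).2] with v hv
      rw [hv, log_one, neg_zero, Int.toNat_zero])
  have hs : ∀ v : HeightOneSpectrum (𝓞 K),
      ((t - algebraMap K (Adf K) β) * ((c⁻¹ : (Adf K)ˣ) : Adf K)).1 v ∈
        v.adicCompletionIntegers K := fun v => by
    change Valued.v (((t - algebraMap K (Adf K) β) * ((c⁻¹ : (Adf K)ˣ) : Adf K)) v) ≤ 1
    have hc0 : Valued.v ((c : Adf K) v) ≠ 0 :=
      (Valuation.ne_zero_iff _).mpr ((FiniteAdeleRing.isUnit_iff.mp c.isUnit).1 v)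
    have hcinv : Valued.v ((c⁻¹ : (Adf K)ˣ).val v) = (Valued.v ((c : Adf K) v))⁻¹ := by
      refine eq_inv_of_mul_eq_one_left ?_
      rw [← map_mul, ← adele_mul_apply, Units.inv_mul]
      exact map_one _
    rw [adele_mul_apply, map_mul, hcinv, mul_inv_le_iff₀ (zero_lt_iff.mpr hc0), one_mul]
    refine (hβ v).trans ?_
    conv_rhs => rw [← exp_log hc0]
    exact exp_le_exp.mpr (by omega)
  let si : IntAd K := fun v => ⟨_, hs v⟩
  obtain ⟨r, hr, hrk⟩ := hRr (upperTri u si 1 * k)
  refine ⟨upperTri q ((q : K) * β) 1, _, by simp [upperTri], Set.mem_image2_of_mem hc hr, ?_⟩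
  -- compare the two cosets
  have hsi : intToAdele si = (t - algebraMap K (Adf K) β) * ((c⁻¹ : (Adf K)ˣ) : Adf K) := rfl
  have key : upperTri a b d = rationalMat (upperTri q ((q : K) * β) 1) * upperTri c 0 1 *
      Matrix.GeneralLinearGroup.map intToAdele (upperTri u si 1) *
        Matrix.GeneralLinearGroup.scalar (Fin 2) d := by
    rw [scalar_eq_upperTri, rationalMat, map_upperTri, map_upperTri, upperTri_mul_upperTri, upperTri_mul_upperTri,
      upperTri_mul_upperTri, hu, hsi]
    have ha : qA * c * (a * d⁻¹ * (qA * c)⁻¹) * d = a := by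
      rw [mul_comm (a * d⁻¹), mul_inv_cancel_left, inv_mul_cancel_right]
    simp only [RingHom.toMonoidHom_eq_coe, map_one, map_mul, mul_zero, zero_add, one_mul, mul_one,
      Units.val_one]
    congr 1
    · exact ha.symm
    · have h1 : ((d : (Adf K)ˣ) : Adf K) * ((d⁻¹ : (Adf K)ˣ) : Adf K) = 1 := Units.mul_inv d
      have h2 : ((c : (Adf K)ˣ) : Adf K) * ((c⁻¹ : (Adf K)ˣ) : Adf K) = 1 := Units.mul_inv c
      have h3 : algebraMap K (Adf K) (q : K) *
          (((Units.map (algebraMap K (Adf K)).toMonoidHom q)⁻¹ : (Adf K)ˣ) : Adf K) = 1 :=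
        Units.mul_inv (Units.map (algebraMap K (Adf K)).toMonoidHom q)
      simp only [t, qA, Units.coe_map, MonoidHom.coe_coe, Units.val_mul,
        RingHom.toMonoidHom_eq_coe] at h3 ⊢
      linear_combination (-(((c : (Adf K)ˣ) : Adf K) * ((c⁻¹ : (Adf K)ˣ) : Adf K)) *
          (((d : (Adf K)ˣ) : Adf K) * ((d⁻¹ : (Adf K)ˣ) : Adf K)) * b) * h3 +
        (-(((d : (Adf K)ˣ) : Adf K) * ((d⁻¹ : (Adf K)ˣ) : Adf K) * b) +
          algebraMap K (Adf K) (q : K) * algebraMap K (Adf K) β * (d : (Adf K)ˣ)) * h2 + (-b) * h1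
  refine QuotientGroup.eq.mpr ?_
  set X : GAf K := Matrix.GeneralLinearGroup.map intToAdele (upperTri u si 1 * k)
  have hgX : upperTri a b d * Matrix.GeneralLinearGroup.map intToAdele k =
      rationalMat (upperTri q ((q : K) * β) 1) * upperTri c 0 1 * X *
        Matrix.GeneralLinearGroup.scalar (Fin 2) d := by
    rw [key, mul_assoc _ (Matrix.GeneralLinearGroup.scalar (Fin 2) d),
      Matrix.GeneralLinearGroup.scalar_commute, ← mul_assoc]
    simp only [X, map_mul, mul_assoc]
  rw [hgX]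
  set Rr : GAf K := Matrix.GeneralLinearGroup.map intToAdele r
  set G0 : GAf K := rationalMat (upperTri q ((q : K) * β) 1) * upperTri c 0 1
  set Z : GAf K := Matrix.GeneralLinearGroup.scalar (Fin 2) d
  rw [← mul_assoc (rationalMat (upperTri q ((q : K) * β) 1)) (upperTri c 0 1) Rr]
  rw [show (G0 * X * Z)⁻¹ * (G0 * Rr) = Z⁻¹ * (Rr⁻¹ * X)⁻¹ by group]
  exact mul_mem (Subgroup.mem_sup_right (inv_mem (by
      rw [Matrix.GeneralLinearGroup.center_eq_range_scalar]; exact ⟨d, rfl⟩)))
    (Subgroup.mem_sup_left (inv_mem hrk))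

/-- The finite cosets form a countable set. -/
theorem countable_cosets {𝔫 : Ideal (𝓞 K)} (h : 𝔫 ≠ ⊥) : Countable (Cosets 𝔫) := by
  obtain ⟨D, hD, hDr⟩ := exists_finite_coset_reps h
  have : Countable K := (Module.finBasis ℚ K).equivFun.toEquiv.injective.countable
  have : Countable (Matrix (Fin 2) (Fin 2) K) := inferInstanceAs (Countable (Fin 2 → Fin 2 → K))
  have : Countable (GL (Fin 2) K) := Units.val_injective.countable
  have : Countable D := hD.countable.to_subtype
  refine Function.Surjective.countable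
    (f := fun p : GL (Fin 2) K × D => ((rationalMat p.1 * p.2.1 : GAf K) : Cosets 𝔫)) fun x => ?_
  induction x using QuotientGroup.induction_on with
  | H g =>
    obtain ⟨γ, d, -, hd, he⟩ := hDr g
    exact ⟨(γ, ⟨d, hd⟩), he.symm⟩

end FermatAgent.LT
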