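import Mathlib
import Fermat.Agent.LT.Base.Coeff

set_option autoImplicit false
set_option linter.unusedSectionVars false

/-!
# The Fourier series of a periodic eigenfunction of parameter `0`, and its converse
-/

noncomputable section

open MeasureTheory NumberField Complex Set Filter Function
open scoped Topology Real

namespace FermatAgent.LT

open BoxFourier FermatAgent.LT.Dihedral

/-- `r K₀ r ≤ A exp (-r / 2)` for every `r > 0`. -/
theorem exists_mul_besselK0_bound :
    ∃ A, 0 < A ∧ ∀ r, 0 < r → r * H3.besselK0 r ≤ A * Real.exp (-r / 2) := by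
  set A : ℝ := max (Real.exp (1 / 2)) (2 * Real.exp 1 * H3.besselK0 1) with hA
  refine ⟨A, lt_max_of_lt_left (Real.exp_pos _), fun r hr => ?_⟩
  rcases le_or_gt r 1 with h1 | h1
  · have h : r * H3.besselK0 r ≤ 1 := by
      have hle : H3.besselK0 r ≤ ∫ u in Ioi (0 : ℝ), Real.exp (-r * u) := by
        refine setIntegral_mono_on (by simpa using H3.integrable_mom 0 hr)
          (exp_neg_integrableOn_Ioi 0 hr) measurableSet_Ioi fun u hu => ?_
        refine Real.exp_le_exp.mpr ?_
        have : u ≤ Real.cosh u :=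
          (Real.self_le_sinh_iff.mpr (le_of_lt hu)).trans (Real.sinh_lt_cosh u).le
        nlinarith
      rw [integral_exp_mul_Ioi (by linarith) 0, mul_zero, Real.exp_zero, neg_div_neg_eq] at hle
      calc r * H3.besselK0 r ≤ r * (1 / r) := mul_le_mul_of_nonneg_left hle hr.le
        _ = 1 := by field_simp
    refine h.trans ?_
    calc (1 : ℝ) ≤ Real.exp (1 / 2) * Real.exp (-r / 2) := by
          rw [← Real.exp_add]; exact Real.one_le_exp (by linarith)
      _ ≤ A * Real.exp (-r / 2) :=
          mul_le_mul_of_nonneg_right (le_max_left _ _) (Real.exp_pos _).le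
  · have h := H3.besselK0_le_exp one_pos h1.le
    have hK := H3.besselK0_pos one_pos
    have hr2 : r ≤ 2 * Real.exp (r / 2) := by
      have := Real.add_one_le_exp (r / 2)
      linarith
    calc r * H3.besselK0 r ≤ (2 * Real.exp (r / 2)) * (Real.exp (-(r - 1)) * H3.besselK0 1) :=
          mul_le_mul hr2 h (H3.besselK0_pos hr).le (by positivity)
      _ = 2 * Real.exp 1 * H3.besselK0 1 * Real.exp (-r / 2) := by
          have e : Real.exp (r / 2) * Real.exp (-(r - 1)) = Real.exp 1 * Real.exp (-r / 2) := by
            rw [← Real.exp_add, ← Real.exp_add]; congr 1; ring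
          linear_combination (2 * H3.besselK0 1) * e
      _ ≤ A * Real.exp (-r / 2) :=
          mul_le_mul_of_nonneg_right (le_max_right _ _) (Real.exp_pos _).le

variable {K : Type*} [Field K] [NumberField K]

theorem waveProd_zero (x : XInf K) : waveProd (0 : K) x = 0 := by
  refine Finset.prod_eq_zero (Finset.mem_univ (Classical.arbitrary (InfinitePlace K))) ?_
  simp

theorem norm_waveProd (ν : K) (x : XInf K) :
    ‖waveProd ν x‖ = ∏ w, ‖w.embedding ν‖ * ((x w).t *
      H3.besselK0 (4 * π * ‖w.embedding ν‖ * (x w).t)) := by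
  rw [waveProd_eq, norm_mul, norm_charX, mul_one, norm_prod]
  refine Finset.prod_congr rfl fun w _ => ?_
  rw [Complex.norm_real, Real.norm_eq_abs, abs_of_nonneg]
  rcases eq_or_ne (w.embedding ν) 0 with h | h
  · simp [h]
  · have := (x w).t_pos
    have := norm_pos_iff.mpr h
    have := (H3.besselK0_pos (show 0 < 4 * π * ‖w.embedding ν‖ * (x w).t by positivity)).le
    positivity

/-- The waves decay exponentially in the frequency. -/
theorem exists_norm_waveProd_bound :
    ∃ A, 0 < A ∧ ∀ (ν : K) (x : XInf K), ‖waveProd ν x‖ ≤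
      A * Real.exp (-(2 * π) * ∑ w, ‖w.embedding ν‖ * (x w).t) := by
  obtain ⟨A, hA, hbd⟩ := exists_mul_besselK0_bound
  refine ⟨(A / (4 * π)) ^ Fintype.card (InfinitePlace K), by positivity, fun ν x => ?_⟩
  rw [norm_waveProd, Finset.mul_sum, Real.exp_sum, ← Finset.card_univ, ← Finset.prod_const,
    ← Finset.prod_mul_distrib]
  refine Finset.prod_le_prod (fun w _ => ?_) fun w _ => ?_
  · rcases eq_or_ne (w.embedding ν) 0 with h | h
    · simp [h]
    · have := (x w).t_pos
      have := norm_pos_iff.mpr h
      have := (H3.besselK0_pos (show 0 < 4 * π * ‖w.embedding ν‖ * (x w).t by positivity)).le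
      positivity
  · rcases eq_or_ne (w.embedding ν) 0 with h | h
    · simp [h]; positivity
    · have := (x w).t_pos
      have := norm_pos_iff.mpr h
      have h1 := hbd (4 * π * ‖w.embedding ν‖ * (x w).t) (by positivity)
      rw [show -(4 * π * ‖w.embedding ν‖ * (x w).t) / 2 =
        -(2 * π) * (‖w.embedding ν‖ * (x w).t) by ring] at h1
      rw [div_mul_eq_mul_div, le_div_iff₀ (by positivity)]
      linarith

variable [IsTotallyComplex K] {ι : Type*} [Fintype ι] {b : Module.Basis ι ℚ K} {F : XInf K → ℂ}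

theorem summable_norm_waveProd_freq (b : Module.Basis ι ℚ K) (x : XInf K) :
    Summable fun k : ι → ℤ => ‖waveProd (freq b k) x‖ := by
  obtain ⟨A, hA, hbd⟩ := exists_norm_waveProd_bound (K := K)
  set B : ℝ := 1 + ∑ j, ∑ w : InfinitePlace K, 2 * ‖w.embedding (b j)‖ with hB
  obtain ⟨w0, hw0⟩ := Finite.exists_min fun w : InfinitePlace K => (x w).t
  set c : ℝ := 2 * π * (x w0).t / (B * (Fintype.card ι + 1)) with hc
  have hB0 : 0 < B := by positivity
  have hc0 : 0 < c := by have := (x w0).t_pos; positivity
  have hgeo : Summable fun n : ℤ => Real.exp (-c * |(n : ℝ)|) := by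
    refine Summable.of_nat_of_neg ?_ ?_ <;>
      simp only [Int.cast_natCast, Int.cast_neg, abs_neg, Nat.abs_cast] <;>
      exact (Real.summable_exp_nat_mul_iff.2 (show -c < 0 by linarith)).congr fun n => by ring_nf
  refine Summable.of_nonneg_of_le (fun k => norm_nonneg _) (fun k => ?_)
    ((summable_pi_prod hgeo fun n => (Real.exp_pos _).le).mul_left A)
  refine (hbd (freq b k) x).trans (mul_le_mul_of_nonneg_left ?_ hA.le)
  rw [← Real.exp_sum, ← Finset.mul_sum, Real.exp_le_exp, neg_mul, neg_mul, neg_le_neg_iff]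
  set S : ℝ := ∑ w : InfinitePlace K, ‖w.embedding (freq b k)‖ with hS
  have hS0 : 0 ≤ S := by positivity
  have hk : ∀ j, |(k j : ℝ)| ≤ B * S := by
    intro j
    have h := pairX_embVec (freq b k) (b j)
    rw [freq, trace_dualVec_mul, ← freq] at h
    push_cast at h
    rw [← h, pairX]
    refine (Finset.abs_sum_le_sum_abs _ _).trans ?_
    rw [hS, Finset.mul_sum]
    refine Finset.sum_le_sum fun w _ => ?_
    rw [abs_mul, abs_two, embVec_apply]
    refine (mul_le_mul_of_nonneg_left (Complex.abs_re_le_norm _) zero_le_two).trans ?_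
    rw [norm_mul, ← mul_assoc, mul_comm (2 : ℝ), mul_assoc, mul_comm B]
    refine mul_le_mul_of_nonneg_left ?_ (norm_nonneg _)
    have h1 : 2 * ‖w.embedding (b j)‖ ≤ ∑ w : InfinitePlace K, 2 * ‖w.embedding (b j)‖ :=
      Finset.single_le_sum (f := fun w : InfinitePlace K => 2 * ‖w.embedding (b j)‖)
        (fun _ _ => by positivity) (Finset.mem_univ w)
    have h2 : ∑ w : InfinitePlace K, 2 * ‖w.embedding (b j)‖ ≤
        ∑ j, ∑ w : InfinitePlace K, 2 * ‖w.embedding (b j)‖ :=
      Finset.single_le_sum (f := fun j => ∑ w : InfinitePlace K, 2 * ‖w.embedding (b j)‖)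
        (fun _ _ => by positivity) (Finset.mem_univ j)
    linarith
  have hsum : ∑ j, |(k j : ℝ)| ≤ Fintype.card ι * (B * S) := by
    simpa using Finset.sum_le_card_nsmul Finset.univ _ _ fun j _ => hk j
  have hlow : (x w0).t * S ≤ ∑ w : InfinitePlace K, ‖w.embedding (freq b k)‖ * (x w).t := by
    rw [hS, Finset.mul_sum]
    refine Finset.sum_le_sum fun w _ => ?_
    rw [mul_comm]
    exact mul_le_mul_of_nonneg_left (hw0 w) (norm_nonneg _)
  have ht0 := (x w0).t_pos
  calc c * ∑ j, |(k j : ℝ)| ≤ c * (Fintype.card ι * (B * S)) := by gcongr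
    _ ≤ 2 * π * ((x w0).t * S) := by
        rw [hc, div_mul_eq_mul_div, div_le_iff₀ (by positivity)]
        have : 0 ≤ 2 * π * (x w0).t * B * S := by positivity
        nlinarith
    _ ≤ 2 * π * ∑ w, ‖w.embedding (freq b k)‖ * (x w).t := by gcongr

/-- The normalised coefficients are bounded. -/
theorem exists_coefW_bound (h : PeriodicEigen b F) : ∃ C, ∀ k, k ≠ 0 → ‖coefW b F k‖ ≤ C := by
  obtain ⟨C, hC⟩ := norm_coefX_le h
  set M : ℝ := (H3.besselK0 1 / (4 * π)) ^ Fintype.card (InfinitePlace K) with hM
  have hK := H3.besselK0_pos one_pos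
  have hM0 : 0 < M := by positivity
  refine ⟨C / M, fun k hk => ?_⟩
  have hne : ∀ w : InfinitePlace K, 0 < ‖w.embedding (freq b k)‖ := fun w =>
    norm_pos_iff.mpr ((map_ne_zero _).mpr (mt freq_eq_zero_iff.mp hk))
  set x : XInf K := fun w => ⟨0, 1 / (4 * π * ‖w.embedding (freq b k)‖), by
    have := hne w; positivity⟩ with hx
  have hwave : ‖waveProd (freq b k) x‖ = M := by
    rw [norm_waveProd, hM, ← Finset.card_univ, ← Finset.prod_const]
    refine Finset.prod_congr rfl fun w _ => ?_
    have h4 : 4 * π * ‖w.embedding (freq b k)‖ * (x w).t = 1 := by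
      simp only [hx]
      have := hne w
      field_simp
    rw [h4]
    simp only [hx]
    have := hne w
    field_simp
  have := hC k x
  rw [coefX_eq h hk, norm_mul, hwave] at this
  rwa [le_div_iff₀ hM0]

/-- The coefficient function on `Kˣ`. -/
def expCoef (b : Module.Basis ι ℚ K) (F : XInf K → ℂ) (ν : Kˣ) : ℂ :=
  Function.extend (freq b) (coefW b F) 0 (ν : K)

theorem coefX_eq_mul (h : PeriodicEigen b F) (hzero : ∀ x, coefX b F 0 x = 0) (k : ι → ℤ)
    (x : XInf K) : coefX b F k x = coefW b F k * waveProd (freq b k) x := by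
  rcases eq_or_ne k 0 with hk | hk
  · subst hk
    rw [hzero, freq_eq_zero_iff.mpr rfl, waveProd_zero, mul_zero]
  · exact coefX_eq h hk x

theorem summable_coefW_mul (h : PeriodicEigen b F) (x : XInf K) :
    Summable fun k => coefW b F k * waveProd (freq b k) x := by
  obtain ⟨C, hC⟩ := exists_coefW_bound h
  refine Summable.of_norm_bounded ((summable_norm_waveProd_freq b x).mul_left C) fun k => ?_
  rw [norm_mul]
  rcases eq_or_ne k 0 with hk | hk
  · subst hk
    rw [freq_eq_zero_iff.mpr rfl, waveProd_zero, norm_zero, mul_zero, mul_zero]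
  · exact mul_le_mul_of_nonneg_right (hC k hk) (norm_nonneg _)

theorem boxChar_zero {d : Type*} [Fintype d] (k : d → ℤ) : boxChar (0 : d → ℝ) k = 1 := by
  simp [boxChar]

theorem torusFn_zero (x : XInf K) : torusFn b F x 0 = F x := by
  rw [torusFn, map_zero, hshift_zero]

theorem PeriodicEigen.hasSum_coefW (h : PeriodicEigen b F) (hzero : ∀ x, coefX b F 0 x = 0)
    (x : XInf K) : HasSum (fun k => coefW b F k * waveProd (freq b k) x) (F x) := by
  have hs : Summable fun k => boxCoeff (torusFn b F x) k :=
    (summable_coefW_mul h x).congr fun k => (coefX_eq_mul h hzero k x).symm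
  have hsum := hasSum_boxCoeff (continuous_torusFn h x) (isPer_torusFn h x) hs 0
  rw [torusFn_zero] at hsum
  refine hsum.congr_fun fun k => ?_
  rw [boxChar_zero, mul_one, ← coefX_eq_mul h hzero k x]
  rfl

theorem hasSum_units_iff {f : K → ℂ} {s : ℂ} (h0 : f 0 = 0) :
    HasSum (fun ν : Kˣ => f (ν : K)) s ↔ HasSum f s :=
  Units.val_injective.hasSum_iff fun v hv => by
    rw [show v = 0 from by_contra fun h1 => hv ⟨Units.mk0 v h1, rfl⟩, h0]

theorem hasSum_range_iff {κ : Type*} {g : κ → K} (hg : Injective g) {f : K → ℂ} {s : ℂ}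
    (h0 : ∀ v, v ∉ Set.range g → f v = 0) : HasSum (fun k => f (g k)) s ↔ HasSum f s :=
  hg.hasSum_iff h0

theorem extend_eq_zero_of_not_mem {κ : Type*} {g : κ → K} {c : κ → ℂ} {v : K}
    (hv : v ∉ Set.range g) : Function.extend g c (0 : K → ℂ) v = 0 := by
  rw [Function.extend_apply' c (0 : K → ℂ) v fun ⟨k, hk⟩ => hv ⟨k, hk⟩, Pi.zero_apply]

theorem hasSum_units_of_extend {κ : Type*} {g : κ → K} (hg : Injective g) {c : κ → ℂ} {s : ℂ}
    {x : XInf K} (h : HasSum (fun k => c k * waveProd (g k) x) s) :
    HasSum (fun ν : Kˣ => Function.extend g c 0 (ν : K) * waveProd (ν : K) x) s := by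
  have hK : HasSum (fun v : K => Function.extend g c 0 v * waveProd v x) s := by
    refine (hasSum_range_iff (f := fun v : K => Function.extend g c 0 v * waveProd v x) hg
      fun v hv => ?_).mp (h.congr_fun fun k => ?_)
    · rw [extend_eq_zero_of_not_mem hv, zero_mul]
    · rw [hg.extend_apply]
  exact (hasSum_units_iff (f := fun v : K => Function.extend g c 0 v * waveProd v x)
    (by rw [waveProd_zero, mul_zero])).mpr hK

/-- **Expansion**: a periodic bounded eigenfunction of parameter `0` with vanishing constant term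
is the sum of its Fourier-Whittaker series. -/
theorem PeriodicEigen.hasSum_expansion (h : PeriodicEigen b F) (hzero : ∀ x, coefX b F 0 x = 0)
    (x : XInf K) : HasSum (fun ν : Kˣ => expCoef b F ν * waveProd (ν : K) x) (F x) :=
  hasSum_units_of_extend freq_injective (h.hasSum_coefW hzero x)

/-- Orthogonality of the characters on the box. -/
theorem integral_box_char (k l : ι → ℤ) :
    ∫ y in boxAt 0, phaseVec y k * boxChar y l = if l = k then 1 else 0 := by
  classical
  split_ifs with hlk
  · subst hlk
    simp [phaseVec_mul_boxChar, measureReal_def, volume_boxAt]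
  obtain ⟨i, hi⟩ := Function.ne_iff.mp hlk
  set f : (ι → ℝ) → ℂ := fun y => phaseVec y k * boxChar y l with hf
  have hfc : Continuous f := (continuous_phaseVec k).mul (by unfold boxChar; fun_prop)
  have hcharper : ∀ (y : ι → ℝ) (n : ι → ℤ), boxChar (y + intVec n) l = boxChar y l := fun y n => by
    simp only [boxChar, intVec, Pi.add_apply, Complex.ofReal_add, Complex.ofReal_intCast, mul_add,
      Finset.sum_add_distrib, Complex.exp_add]
    have e : 2 * (π : ℂ) * I * ∑ i, (l i : ℂ) * (n i : ℂ) =
        (((∑ i, l i * n i : ℤ)) : ℂ) * (2 * π * I) := by push_cast; ring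
    rw [e, Complex.exp_int_mul_two_pi_mul_I, mul_one]
  have hfp : IsPer f := fun y n => by
    simp only [hf, phaseVec_add_intVec, hcharper]
  set s : ι → ℝ := Pi.single i (1 / (2 * ((l i : ℝ) - k i))) with hs
  have hs1 : f s = -1 := by
    simp only [hf, phaseVec, boxChar, ← Complex.exp_add]
    have hd : (l i : ℂ) - k i ≠ 0 := by
      rw [sub_ne_zero]; exact_mod_cast hi
    have e : ∀ m : ι → ℤ, ∑ j, (m j : ℂ) * (s j : ℂ) = (m i : ℂ) / (2 * ((l i : ℂ) - k i)) := by
      intro m
      rw [Finset.sum_eq_single i (fun j _ hj => by simp [hs, Pi.single_eq_of_ne hj])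
        (fun hii => absurd (Finset.mem_univ i) hii), hs, Pi.single_eq_same]
      push_cast
      ring
    rw [e, e, ← Complex.exp_pi_mul_I]
    congr 1
    field_simp
    ring
  have hmul : ∀ y, f (y + s) = f y * f s := fun y => by
    simp only [hf, phaseVec_add, boxChar, Pi.add_apply, Complex.ofReal_add, mul_add,
      Finset.sum_add_distrib, Complex.exp_add]
    ring
  have h := integral_box_add hfc hfp s
  simp only [hmul, hs1, mul_neg, mul_one, integral_neg] at h
  exact CharZero.eq_neg_self_iff.mp h.symm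

/-- Translation by a period forces integral traces on the support of an expansion. -/
theorem int_trace_of_expansion {a : Kˣ → ℂ}
    (hF : ∀ x, HasSum (fun ν : Kˣ => a ν * waveProd (ν : K) x) (F x)) {β : K}
    (hβ : ∀ x, F (hshift x (embVec β)) = F x) (ν : Kˣ) (hν : a ν ≠ 0) :
    ∃ n : ℤ, Algebra.trace ℚ K ((ν : K) * β) = n := by
  let x₀ : XInf K := fun _ => default
  have h1 := MultOne.coeff_eq_zero (p := fun ν : Kˣ => embVec (ν : K))
    (embVec_injective.comp Units.val_injective)
    (a := fun ν : Kˣ => a ν * (charX (ν : K) (embVec β) - 1) * waveProd (ν : K) x₀)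
    (fun u => by
      have h2 := (hF (hshift (shiftX u x₀) (embVec β))).sub (hF (shiftX u x₀))
      rw [hβ, sub_self] at h2
      refine h2.congr_fun fun μ => ?_
      rw [waveProd_shiftX, waveProd_shift]
      ring) ν
  rcases mul_eq_zero.mp h1 with h2 | h2
  · have h3 := sub_eq_zero.mp ((mul_eq_zero.mp h2).resolve_left hν)
    rw [charX, pairX_embVec, Complex.exp_eq_one_iff] at h3
    obtain ⟨n, hn⟩ := h3
    refine ⟨n, ?_⟩
    have h4 : ((Algebra.trace ℚ K ((ν : K) * β) : ℝ) : ℂ) = ((n : ℝ) : ℂ) := by
      refine mul_left_cancel₀ Complex.two_pi_I_ne_zero ?_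
      rw [hn]; push_cast; ring
    exact_mod_cast h4
  · exact absurd h2 (waveProd_ne_zero (Units.ne_zero _) _)

theorem exists_freq_eq {ν : K} (h : ∀ j, ∃ n : ℤ, Algebra.trace ℚ K (ν * b j) = n) :
    ∃ k, freq b k = ν := by
  choose k hk using h
  refine ⟨k, ?_⟩
  rw [freq, ← dualVec_trace b ν]
  congr 1
  funext j
  rw [hk]

theorem hasSum_freq_of_expansion {a : Kˣ → ℂ}
    (hF : ∀ x, HasSum (fun ν : Kˣ => a ν * waveProd (ν : K) x) (F x))
    (hper : ∀ j x, F (hshift x (embVec (b j))) = F x) (y : XInf K) :
    HasSum (fun l : ι → ℤ => Function.extend Units.val a (0 : K → ℂ) (freq b l) *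
      waveProd (freq b l) y) (F y) := by
  set A : K → ℂ := Function.extend Units.val a (0 : K → ℂ) with hA
  have hAu : ∀ μ : Kˣ, A (μ : K) = a μ := fun μ => by rw [hA, Units.val_injective.extend_apply]
  have hAK : HasSum (fun v : K => A v * waveProd v y) (F y) :=
    (hasSum_units_iff (f := fun v : K => A v * waveProd v y) (by rw [waveProd_zero, mul_zero])).mp
      ((hF y).congr_fun fun μ => by rw [hAu])
  refine (hasSum_range_iff (f := fun v : K => A v * waveProd v y) freq_injective
    fun v hv => ?_).mpr hAK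
  by_contra hne
  have hAv : A v ≠ 0 := left_ne_zero_of_mul hne
  obtain ⟨μ, rfl⟩ : v ∈ Set.range (Units.val : Kˣ → K) := by
    by_contra h0
    exact hAv (by rw [hA, extend_eq_zero_of_not_mem h0])
  rw [hAu] at hAv
  exact hv (exists_freq_eq fun j => int_trace_of_expansion hF (hper j) μ hAv)

/-- Term by term integration of a series of characters on the box. -/
theorem boxCoeff_of_hasSum {c : (ι → ℤ) → ℂ} (hc : Summable fun l => ‖c l‖) {f : (ι → ℝ) → ℂ}
    (hf : ∀ y, HasSum (fun l => boxChar y l * c l) (f y)) (k : ι → ℤ) : boxCoeff f k = c k := by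
  classical
  have hcont : ∀ l : ι → ℤ, Continuous fun y : ι → ℝ => boxChar y l := fun l => by
    unfold boxChar; fun_prop
  have hnorm : ∀ (l : ι → ℤ) (y : ι → ℝ), ‖boxChar y l‖ = 1 := fun l y => by
    have h := phaseVec_mul_boxChar y l
    have h' := congrArg norm h
    rwa [norm_mul, norm_phaseVec, one_mul, norm_one] at h'
  have hI := hasSum_integral_of_dominated_convergence
    (μ := (volume : Measure (ι → ℝ)).restrict (boxAt 0))
    (F := fun l y => phaseVec y k * (boxChar y l * c l))
    (f := fun y => phaseVec y k * f y)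
    (fun l _ => ‖c l‖)
    (fun l => ((continuous_phaseVec k).mul
      ((hcont l).mul continuous_const)).aestronglyMeasurable)
    (fun l => Eventually.of_forall fun y => le_of_eq (by
      rw [norm_mul, norm_mul, norm_phaseVec, hnorm, one_mul, one_mul]))
    (Eventually.of_forall fun _ => hc)
    (integrableOn_const (by simp [volume_boxAt]))
    (Eventually.of_forall fun y => (hf y).mul_left _)
  have hval : ∀ l : ι → ℤ,
      (∫ y in boxAt 0, phaseVec y k * (boxChar y l * c l)) = if l = k then c k else 0 := by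
    intro l
    simp only [← mul_assoc]
    rw [integral_mul_const, integral_box_char]
    split_ifs with hl
    · rw [one_mul, hl]
    · rw [zero_mul]
  simp only [hval] at hI
  exact hI.unique (hasSum_ite_eq k _)

/-- **Converse**: the Fourier coefficients of a periodic function given by an expansion. -/
theorem coefX_of_expansion {a : Kˣ → ℂ}
    (hF : ∀ x, HasSum (fun ν : Kˣ => a ν * waveProd (ν : K) x) (F x))
    (hper : ∀ j x, F (hshift x (embVec (b j))) = F x) (k : ι → ℤ) (x : XInf K) :
    coefX b F k x =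
      Function.extend Units.val a (0 : K → ℂ) (freq b k) * waveProd (freq b k) x := by
  refine boxCoeff_of_hasSum (c := fun l => Function.extend Units.val a (0 : K → ℂ) (freq b l) *
    waveProd (freq b l) x) (hasSum_freq_of_expansion hF hper x).summable.norm (fun y => ?_) k
  refine (hasSum_freq_of_expansion hF hper (hshift x (iotaX b y))).congr_fun fun l => ?_
  rw [waveProd_shiftX, charX_freq]
  ring

/-- The constant term of an expansion vanishes. -/
theorem integral_box_eq_zero_of_expansion {a : Kˣ → ℂ}
    (hF : ∀ x, HasSum (fun ν : Kˣ => a ν * waveProd (ν : K) x) (F x))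
    (hper : ∀ j x, F (hshift x (embVec (b j))) = F x) (x : XInf K) :
    ∫ y in boxAt 0, F (hshift x (iotaX b y)) = 0 := by
  have h := coefX_of_expansion hF hper 0 x
  rw [freq_eq_zero_iff.mpr rfl, waveProd_zero, mul_zero] at h
  simpa [coefX, boxCoeff, phaseVec_zero, torusFn] using h

end FermatAgent.LT

end
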