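import Mathlib
import Fermat.Agent.LT.Base.Series
import Fermat.Agent.LT.MultOne.Whittaker

set_option autoImplicit false
set_option linter.unusedSectionVars false

/-!
# Expansions of automorphic functions of spherical parameter `0`

A left invariant, level invariant, continuous, bounded function of parameter `0` whose constant
terms vanish has a Fourier-Whittaker expansion, and the coefficients of an expansion are unique.
-/

noncomputable section

open MeasureTheory NumberField IsDedekindDomain Complex Set Filter Function WithZero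
open scoped Topology Real

namespace FermatAgent.LT

open BoxFourier FermatAgent.LT.Dihedral

variable {K : Type*} [Field K] [NumberField K]

/-- The multiple by `N` of the integral basis. -/
def mulBasis (N : ℕ) (hN : N ≠ 0) : Module.Basis (Module.Free.ChooseBasisIndex ℤ (𝓞 K)) ℚ K :=
  (integralBasis K).unitsSMul fun _ => Units.mk0 (N : ℚ) (Nat.cast_ne_zero.mpr hN)

theorem mulBasis_apply (N : ℕ) (hN : N ≠ 0) (j : Module.Free.ChooseBasisIndex ℤ (𝓞 K)) :
    (mulBasis N hN : Module.Basis _ ℚ K) j =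
      (((N : 𝓞 K) * RingOfIntegers.basis K j : 𝓞 K) : K) := by
  simp [mulBasis, Module.Basis.unitsSMul_apply, integralBasis_apply, Units.smul_def, Nat.cast_smul_eq_nsmul]

/-- Translations by the multiples of a suitable positive integer fix a left invariant function of
some level. -/
theorem exists_periodic {φ : XInf K → GAf K → ℂ} {𝔫 : Ideal (𝓞 K)} (h𝔫 : 𝔫 ≠ ⊥)
    (hrat : ∀ γ x g, φ (infAct γ x) (rationalMat γ * g) = φ x g)
    (hlev : ∀ k ∈ congrSubgroup 𝔫, ∀ x g, φ x (g * k) = φ x g) (g : GAf K) :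
    ∃ N : ℕ, N ≠ 0 ∧ ∀ (β : 𝓞 K) (x : XInf K),
      φ (hshift x (embVec (((N : 𝓞 K) * β : 𝓞 K) : K))) g = φ x g := by
  classical
  obtain ⟨e, he, he0⟩ := exists_levelExp h𝔫
  obtain ⟨e', he', hconj⟩ := IsNearOne.exists_conj g⁻¹ e he0
  have hfin : {v : HeightOneSpectrum (𝓞 K) | ¬ e' v = 0}.Finite := he'
  set N : ℕ := ∏ v ∈ hfin.toFinset, Ideal.absNorm v.asIdeal ^ e' v with hN
  refine ⟨N, Finset.prod_ne_zero_iff.mpr fun v _ => pow_ne_zero _ fun h0 => ?_, fun β x => ?_⟩
  · exact v.ne_bot (Ideal.absNorm_eq_zero_iff.mp h0)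
  set b : K := (((N : 𝓞 K) * β : 𝓞 K) : K) with hb
  have hmem : ∀ v : HeightOneSpectrum (𝓞 K), (N : 𝓞 K) * β ∈ v.asIdeal ^ e' v := by
    intro v
    refine Ideal.mul_mem_right _ _ ?_
    rcases eq_or_ne (e' v) 0 with h0 | h0
    · simp [h0]
    · have hv : v ∈ hfin.toFinset := hfin.mem_toFinset.mpr h0
      rw [hN, ← Finset.mul_prod_erase _ _ hv, Nat.cast_mul, Nat.cast_pow]
      exact Ideal.mul_mem_right _ _ (Ideal.pow_mem_pow (Ideal.absNorm_mem _) _)
  have hsmall : algebraMap K (Adf K) (-b) ∈ smallAdeles e' := fun v => by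
    rw [adele_algebraMap_apply, valued_loc, Valuation.map_neg, hb,
      HeightOneSpectrum.valuation_of_algebraMap]
    exact (v.intValuation_le_pow_iff_mem _ _).mpr (hmem v)
  have hk : g⁻¹ * upperTri 1 (algebraMap K (Adf K) (-b)) 1 * g⁻¹⁻¹ ∈ congrSubgroup 𝔫 :=
    (hconj _ (isNearOne_upperUni hsmall)).mem_congrSubgroup he
  have hdec : rationalMat (upperTri 1 (-b) 1) * g =
      g * (g⁻¹ * upperTri 1 (algebraMap K (Adf K) (-b)) 1 * g⁻¹⁻¹) := by
    rw [rationalMat_upperTri]
    simp only [map_one]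
    group
  have h1 := hrat (upperTri 1 (-b) 1) (hshift x (embVec b)) g
  rw [infAct_upperUni_hshift, hshift_shiftX, hdec, hlev _ hk] at h1
  rw [← h1]
  congr 2
  rw [show embVec b + embVec (-b) = 0 from funext fun w => by simp [embVec_apply], hshift_zero]

theorem exists_periodic_basis {φ : XInf K → GAf K → ℂ} {𝔫 : Ideal (𝓞 K)} (h𝔫 : 𝔫 ≠ ⊥)
    (hrat : ∀ γ x g, φ (infAct γ x) (rationalMat γ * g) = φ x g)
    (hlev : ∀ k ∈ congrSubgroup 𝔫, ∀ x g, φ x (g * k) = φ x g) (g : GAf K) :
    ∃ b : Module.Basis (Module.Free.ChooseBasisIndex ℤ (𝓞 K)) ℚ K,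
      ∀ j x, φ (hshift x (embVec (b j))) g = φ x g := by
  obtain ⟨N, hN, hper⟩ := exists_periodic h𝔫 hrat hlev g
  exact ⟨mulBasis N hN, fun j x => by rw [mulBasis_apply]; exact hper _ x⟩

theorem waveProd_infAct_diag (μ : K) (ν : Kˣ) (x : XInf K) :
    waveProd μ (infAct (upperTri ν 0 1) x) = waveProd (μ * (ν : K)) x := by
  rw [waveProd_eq, waveProd_eq]
  congr 1
  · refine Finset.prod_congr rfl fun w _ => ?_
    rw [(infAct_diag ν x w).2, map_mul, norm_mul]
    congr 1
    simp only [mul_assoc]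
  · simp only [← prod_echar]
    refine Finset.prod_congr rfl fun w _ => ?_
    rw [(infAct_diag ν x w).1, map_mul]
    simp only [H3.echar]
    ring_nf

/-- Two expansions of one function have the same coefficients. -/
theorem expansion_unique {F : XInf K → ℂ} {a a' : Kˣ → ℂ}
    (hF : ∀ x, HasSum (fun ν : Kˣ => a ν * waveProd (ν : K) x) (F x))
    (hF' : ∀ x, HasSum (fun ν : Kˣ => a' ν * waveProd (ν : K) x) (F x)) (ν : Kˣ) : a ν = a' ν := by
  let x₀ : XInf K := fun _ => default
  have h1 := MultOne.coeff_eq_zero (p := fun ν : Kˣ => embVec (ν : K))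
    (embVec_injective.comp Units.val_injective)
    (a := fun ν : Kˣ => (a ν - a' ν) * waveProd (ν : K) x₀)
    (fun u => by
      have h2 := (hF (shiftX u x₀)).sub (hF' (shiftX u x₀))
      rw [sub_self] at h2
      refine h2.congr_fun fun μ => ?_
      rw [waveProd_shift]
      ring) ν
  exact sub_eq_zero.mp ((mul_eq_zero.mp h1).resolve_right (waveProd_ne_zero (Units.ne_zero _) _))

variable [IsTotallyComplex K]

theorem periodicEigen_of {φ : XInf K → GAf K → ℂ} (hcont : ∀ g, Continuous fun x => φ x g)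
    (hbd : ∃ C, ∀ x g, ‖φ x g‖ ≤ C)
    (hsph : ∀ (w : InfinitePlace K) x g,
      letI := Classical.decEq (InfinitePlace K)
      H3.IsSph0 fun P => φ (Function.update x w P) g)
    {ι : Type*} [Fintype ι] {b : Module.Basis ι ℚ K} {g : GAf K}
    (hper : ∀ j x, φ (hshift x (embVec (b j))) g = φ x g) :
    PeriodicEigen b fun x => φ x g where
  continuous := hcont g
  bounded := ⟨hbd.choose, fun x => hbd.choose_spec x g⟩
  sph0 w x := hsph w x g
  periodic := hper

/-- **Existence of expansions**: left invariance, a level, continuity, boundedness, parameter `0`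
and vanishing constant terms. -/
theorem exists_hasExpansion {φ : XInf K → GAf K → ℂ}
    (hrat : ∀ γ x g, φ (infAct γ x) (rationalMat γ * g) = φ x g)
    (hcont : ∀ g, Continuous fun x => φ x g) (hbd : ∃ C, ∀ x g, ‖φ x g‖ ≤ C)
    (hsph : ∀ (w : InfinitePlace K) x g,
      letI := Classical.decEq (InfinitePlace K)
      H3.IsSph0 fun P => φ (Function.update x w P) g)
    (hzero : ∀ g, ∃ b : Module.Basis (Module.Free.ChooseBasisIndex ℤ (𝓞 K)) ℚ K,
      (∀ j x, φ (hshift x (embVec (b j))) g = φ x g) ∧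
        ∀ x, ∫ y in boxAt 0, φ (hshift x (iotaX b y)) g = 0) :
    ∃ W, HasExpansion φ W := by
  choose b hper hbox using hzero
  set a : GAf K → Kˣ → ℂ := fun g => expCoef (b g) fun x => φ x g with ha
  have hexp : ∀ g x, HasSum (fun ν : Kˣ => a g ν * waveProd (ν : K) x) (φ x g) := fun g x =>
    (periodicEigen_of hcont hbd hsph (hper g)).hasSum_expansion (fun y => by
      simpa [coefX, boxCoeff, phaseVec_zero, torusFn] using hbox g y) x
  refine ⟨fun g => a g 1, fun x g => ?_⟩
  refine (hexp g x).congr_fun fun ν => ?_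
  congr 1
  set h := rationalMat (upperTri ν 0 1) * g with hh
  have h2 : ∀ y, HasSum (fun lam : Kˣ => a h (lam * ν⁻¹) * waveProd (lam : K) y) (φ y g) := fun y => by
    have h3 := hexp h (infAct (upperTri ν 0 1) y)
    rw [hh, hrat] at h3
    refine ((Equiv.mulRight ν⁻¹).hasSum_iff.mpr h3).congr_fun fun lam => ?_
    simp only [Function.comp_apply, Equiv.coe_mulRight, waveProd_infAct_diag]
    rw [Units.val_mul, mul_assoc, Units.inv_mul, mul_one]
  have h4 := expansion_unique h2 (hexp g) ν
  rwa [mul_inv_cancel] at h4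

end FermatAgent.LT

end
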