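import Mathlib
import Fermat.Agent.LT.Base.H3

set_option autoImplicit false

/-!
# A short vector for the height form at every archimedean point
-/

noncomputable section

open MeasureTheory NumberField NumberField.InfinitePlace Module

namespace FermatAgent.LT.Minkowski

variable (K : Type*) [Field K] [NumberField K] [IsTotallyComplex K]

/-- The embedding space. -/
abbrev ESpace := InfinitePlace K → ℂ

/-- The canonical embedding in the space of the complex places. -/
def phi : K →+* ESpace K := RingHom.pi fun w => w.embedding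

/-- The mixed space of a totally complex field is the space of its places. -/
def mixedEquiv : mixedEmbedding.mixedSpace K ≃ₗ[ℝ] ESpace K where
  toFun y w := y.2 ⟨w, IsTotallyComplex.isComplex w⟩
  invFun y := (fun w => absurd w.2 (not_isReal_iff_isComplex.mpr (IsTotallyComplex.isComplex w.1)),
    fun w => y w.1)
  map_add' _ _ := rfl
  map_smul' _ _ := rfl
  left_inv _ := Prod.ext (funext fun w => absurd w.2
    (not_isReal_iff_isComplex.mpr (IsTotallyComplex.isComplex w.1))) rfl
  right_inv _ := rfl

/-- The basis given by the ring of integers. -/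
def eBasis : Basis (Module.Free.ChooseBasisIndex ℤ (𝓞 K)) ℝ (ESpace K) :=
  (mixedEmbedding.latticeBasis K).map (mixedEquiv K)

theorem eBasis_apply (i : Module.Free.ChooseBasisIndex ℤ (𝓞 K)) :
    eBasis K i = phi K ((RingOfIntegers.basis K i : 𝓞 K) : K) := by
  funext w
  simp [eBasis, mixedEquiv, phi, mixedEmbedding.latticeBasis_apply, integralBasis_apply]

/-- There is a constant `C` such that for every point of the product of half-spaces some nonzero
integral row has height form at most `C`. -/
theorem exists_short_row : ∃ C : ℝ, ∀ x : InfinitePlace K → H3, ∃ c d : 𝓞 K, (c ≠ 0 ∨ d ≠ 0) ∧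
    ∀ w : InfinitePlace K,
      Complex.normSq (w.embedding (c : K) * (x w).z + w.embedding (d : K)) +
        Complex.normSq (w.embedding (c : K)) * (x w).t ^ 2 ≤ C * (x w).t := by
  classical
  set b := (eBasis K).prod (eBasis K)
  set F := ZSpan.fundamentalDomain b
  set N := finrank ℝ (ESpace K × ESpace K)
  set μ : Measure (ESpace K × ESpace K) := (volume : Measure (ESpace K)).prod volume
  have hF : μ F ≠ ⊤ := (ZSpan.fundamentalDomain_isBounded b).measure_lt_top.ne
  -- the radius
  obtain ⟨r, hr1, hr⟩ : ∃ r : NNReal, 1 ≤ r ∧ μ F * 2 ^ N < (r : ENNReal) := by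
    have : μ F * 2 ^ N ≠ ⊤ := ENNReal.mul_ne_top hF (ENNReal.pow_ne_top ENNReal.ofNat_ne_top)
    obtain ⟨n, hn⟩ := ENNReal.exists_nat_gt this
    refine ⟨(n : NNReal) + 1, le_add_of_nonneg_left zero_le, hn.trans ?_⟩
    push_cast
    exact ENNReal.lt_add_right (ENNReal.natCast_ne_top n) one_ne_zero
  refine ⟨2 * (r : ℝ) ^ 2, fun x => ?_⟩
  have ht : ∀ w, 0 < Real.sqrt (x w).t := fun w => Real.sqrt_pos.mpr (x w).t_pos
  have hr0 : (0 : ℝ) < r := lt_of_lt_of_le one_pos (by exact_mod_cast hr1)
  set A : Set (ESpace K) := Set.pi Set.univ fun w => Metric.ball (0 : ℂ) (r / Real.sqrt (x w).t)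
  set B : Set (ESpace K) := Set.pi Set.univ fun w => Metric.ball (0 : ℂ) (r * Real.sqrt (x w).t)
  set sh : ESpace K → ESpace K := fun c w => c w * (x w).z
  set s : Set (ESpace K × ESpace K) := {p | p.1 ∈ A ∧ sh p.1 + p.2 ∈ B}
  have hsh : Continuous sh := by fun_prop
  have hA : MeasurableSet A := MeasurableSet.univ_pi fun w => measurableSet_ball
  have hB : MeasurableSet B := MeasurableSet.univ_pi fun w => measurableSet_ball
  have hs : MeasurableSet s := (measurable_fst hA).inter
    (((hsh.measurable.comp measurable_fst).add measurable_snd) hB)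
  have hvol : μ s = volume A * volume B := by
    rw [Measure.prod_apply hs]
    have key : ∀ c : ESpace K, volume (Prod.mk c ⁻¹' s) = A.indicator (fun _ => volume B) c := by
      intro c
      by_cases hc : c ∈ A
      · rw [Set.indicator_of_mem hc,
          show Prod.mk c ⁻¹' s = (fun d => sh c + d) ⁻¹' B from Set.ext fun d => and_iff_right hc,
          measure_preimage_add]
      · rw [Set.indicator_of_notMem hc,
          show Prod.mk c ⁻¹' s = ∅ from Set.eq_empty_of_forall_notMem fun d h => hc h.1,
          measure_empty]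
    simp_rw [key]
    rw [lintegral_indicator hA, setLIntegral_const, mul_comm]
  have hbig : μ F * 2 ^ N < μ s := by
    rw [hvol]
    refine lt_of_lt_of_le hr ?_
    rw [volume_pi_pi, volume_pi_pi, ← Finset.prod_mul_distrib]
    obtain ⟨w₀⟩ : Nonempty (InfinitePlace K) := inferInstance
    have hfac : ∀ w, volume (Metric.ball (0 : ℂ) ((r : ℝ) / Real.sqrt (x w).t)) *
        volume (Metric.ball (0 : ℂ) ((r : ℝ) * Real.sqrt (x w).t)) =
          ENNReal.ofReal ((r : ℝ) ^ 4 * Real.pi ^ 2) := by
      intro w
      rw [Complex.volume_ball, Complex.volume_ball,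
        ← ENNReal.ofReal_pow (div_nonneg r.coe_nonneg (ht w).le), ← ENNReal.ofReal_pow (mul_nonneg r.coe_nonneg (ht w).le),
        ← ENNReal.ofReal_coe_nnreal, ← ENNReal.ofReal_mul (by positivity), ← ENNReal.ofReal_mul (by positivity),
        ← ENNReal.ofReal_mul (by positivity)]
      congr 1
      have := (ht w).ne'
      field_simp
      simp [NNReal.coe_real_pi]
    simp_rw [hfac]
    rw [Finset.prod_const]
    have hpi : (1 : ℝ) ≤ Real.pi ^ 2 := by nlinarith [Real.two_le_pi]
    have h1 : (r : ℝ) ≤ (r : ℝ) ^ 4 * Real.pi ^ 2 := by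
      have h4 : (r : ℝ) ≤ (r : ℝ) ^ 4 := by
        have : (1 : ℝ) ≤ r := by exact_mod_cast hr1
        nlinarith [pow_le_pow_left₀ zero_le_one this 3]
      nlinarith [pow_nonneg r.coe_nonneg 4]
    have h2 : (1 : ℝ) ≤ (r : ℝ) ^ 4 * Real.pi ^ 2 := le_trans (by exact_mod_cast hr1) h1
    rw [← ENNReal.ofReal_pow (by positivity), ← ENNReal.ofReal_coe_nnreal]
    refine ENNReal.ofReal_le_ofReal (h1.trans ?_)
    exact le_self_pow₀ h2 Fintype.card_ne_zero
  have hsymm : ∀ p ∈ s, -p ∈ s := by
    intro p hp
    refine ⟨fun w hw => by simpa using hp.1 w hw, fun w hw => ?_⟩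
    have := hp.2 w hw
    simp only [sh, Pi.add_apply, Metric.mem_ball, dist_zero_right, Prod.fst_neg, Prod.snd_neg,
      Pi.neg_apply, neg_mul] at this ⊢
    rwa [← neg_add, norm_neg]
  have hconv : Convex ℝ s := by
    have h1 : Convex ℝ A := convex_pi fun w _ => convex_ball _ _
    have h2 : Convex ℝ B := convex_pi fun w _ => convex_ball _ _
    let L : ESpace K × ESpace K →ₗ[ℝ] ESpace K :=
      { toFun := fun p => sh p.1 + p.2
        map_add' := fun p q => funext fun w => by simp [sh]; ring
        map_smul' := fun a p => funext fun w => by simp [sh]; ring }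
    exact (h1.linear_preimage (LinearMap.fst ℝ _ _)).inter (h2.linear_preimage L)
  have : Countable (Submodule.span ℤ (Set.range b)).toAddSubgroup :=
    inferInstanceAs (Countable (Submodule.span ℤ (Set.range b)))
  have : μ.IsAddHaarMeasure := Measure.prod.instIsAddHaarMeasure _ _
  obtain ⟨⟨p, hp⟩, hp0, hps⟩ := exists_ne_zero_mem_lattice_of_measure_mul_two_pow_lt_measure
    (L := (Submodule.span ℤ (Set.range b)).toAddSubgroup)
    (ZSpan.isAddFundamentalDomain b μ) hsymm hconv hbig
  have key : ∀ q ∈ Submodule.span ℤ (Set.range b),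
      ∃ c d : 𝓞 K, q = (phi K (c : K), phi K (d : K)) := by
    intro q hq
    induction hq using Submodule.span_induction with
    | mem u hu =>
      obtain ⟨i | i, rfl⟩ := hu
      · exact ⟨RingOfIntegers.basis K i, 0, by simp [b, eBasis_apply]⟩
      · exact ⟨0, RingOfIntegers.basis K i, by simp [b, eBasis_apply]⟩
    | zero => exact ⟨0, 0, by simp only [map_zero]; rfl⟩
    | add u v _ _ hu hv =>
      obtain ⟨c, d, rfl⟩ := hu
      obtain ⟨c', d', rfl⟩ := hv
      exact ⟨c + c', d + d', by simp⟩
    | smul n u _ hu =>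
      obtain ⟨c, d, rfl⟩ := hu
      exact ⟨n • c, n • d, by simp⟩
  obtain ⟨c, d, rfl⟩ := key p hp
  refine ⟨c, d, ?_, fun w => ?_⟩
  · by_contra h
    push Not at h
    exact hp0 (Subtype.ext (by simp [h.1, h.2]))
  have hA' := hps.1 w (Set.mem_univ w)
  have hB' := hps.2 w (Set.mem_univ w)
  simp only [sh, phi, RingHom.pi_apply, Pi.add_apply, Metric.mem_ball, dist_zero_right] at hA' hB'
  rw [Complex.normSq_eq_norm_sq, Complex.normSq_eq_norm_sq]
  have hs2 : Real.sqrt (x w).t ^ 2 = (x w).t := Real.sq_sqrt (x w).t_pos.le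
  have h1 := pow_le_pow_left₀ (norm_nonneg _) hA'.le 2
  have h2 := pow_le_pow_left₀ (norm_nonneg _) hB'.le 2
  rw [div_pow, hs2, le_div_iff₀ (x w).t_pos] at h1
  rw [mul_pow, hs2] at h2
  nlinarith [(x w).t_pos, mul_le_mul_of_nonneg_right h1 (x w).t_pos.le]

end FermatAgent.LT.Minkowski
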