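import Mathlib
import Fermat.Agent.LT.Base.Cosets

set_option autoImplicit false

/-!
# Finiteness: `PGL₂(K)` acts properly discontinuously on `XInf × Cosets`
-/

noncomputable section

open NumberField IsDedekindDomain WithZero Filter
open scoped MatrixGroups ComplexConjugate

namespace FermatAgent.LT

namespace H3

/-- The matrix `(0 1; -1 0)`. -/
def flipMat : GL (Fin 2) ℂ :=
  Matrix.GeneralLinearGroup.mkOfDetNeZero !![0, 1; -1, 0] (by simp [Matrix.det_fin_two])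

/-- A matrix of bounded determinant moving a point of a bounded region into the region has bounded
entries. -/
theorem entries_bounded (R M : ℝ) : ∃ B : ℝ, ∀ (g : GL (Fin 2) ℂ) (P : H3),
    ‖(g : Matrix (Fin 2) (Fin 2) ℂ).det‖ ≤ M → ‖P.z‖ ≤ R → 1 / R ≤ P.t → P.t ≤ R →
      ‖(g • P).z‖ ≤ R → 1 / R ≤ (g • P).t → (g • P).t ≤ R → ∀ i j, ‖g i j‖ ≤ B := by
  by_cases hR : R ≤ 0
  · exact ⟨0, fun g P _ _ _ ht _ _ _ => absurd (ht.trans hR) (not_le.mpr P.t_pos)⟩
  push Not at hR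
  set D := |M| * R * R with hD
  set B₀ := Real.sqrt ((1 + 2 * R ^ 2) * D) * R with hB₀
  refine ⟨B₀ + R * B₀ + Real.sqrt ((1 + 2 * R ^ 2) * D), ?_⟩
  intro g P hM hz ht1 ht2 hz' ht1' ht2' i j
  have ht : 0 < P.t := P.t_pos
  have ht' : 0 < (g • P).t := (g • P).t_pos
  have hM0 : 0 ≤ M := (norm_nonneg _).trans hM
  have hteq : (g • P).t * den g P = ‖(g : Matrix (Fin 2) (Fin 2) ℂ).det‖ * P.t :=
    div_mul_cancel₀ _ (den_pos g P).ne'
  have hden : den g P ≤ D := by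
    have h1 : 1 / R * den g P ≤ M * R := calc
      1 / R * den g P ≤ (g • P).t * den g P := mul_le_mul_of_nonneg_right ht1' (den_pos g P).le
      _ = ‖(g : Matrix (Fin 2) (Fin 2) ℂ).det‖ * P.t := hteq
      _ ≤ M * R := mul_le_mul hM ht2 ht.le hM0
    rw [hD, abs_of_nonneg hM0]
    rwa [one_div, ← le_mul_inv_iff₀' (inv_pos.mpr hR), inv_inv] at h1
  have hflip : den (flipMat * g) P ≤ (1 + 2 * R ^ 2) * D := by
    rw [den_mul]
    refine mul_le_mul ?_ hden (den_pos g P).le (by positivity)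
    have e : den flipMat (act g P) = ‖(g • P).z‖ ^ 2 + (g • P).t ^ 2 := by
      simp [den, flipMat, Complex.normSq_eq_norm_sq, smul_def]
    rw [e]
    have h1 := pow_le_pow_left₀ (norm_nonneg _) hz' 2
    have h2 := pow_le_pow_left₀ ht'.le ht2' 2
    linarith
  have hDle : D ≤ (1 + 2 * R ^ 2) * D := by
    have : 0 ≤ D := by rw [hD]; positivity
    nlinarith [sq_nonneg R]
  have row : ∀ (c d : ℂ) (v : ℝ), v ≤ (1 + 2 * R ^ 2) * D →
      Complex.normSq (c * P.z + d) + Complex.normSq c * P.t ^ 2 = v →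
      ‖c‖ ≤ B₀ ∧ ‖d‖ ≤ R * B₀ + Real.sqrt ((1 + 2 * R ^ 2) * D) := by
    intro c d v hv he
    rw [Complex.normSq_eq_norm_sq, Complex.normSq_eq_norm_sq, ← mul_pow] at he
    have h1 : ‖c‖ * P.t ≤ Real.sqrt ((1 + 2 * R ^ 2) * D) :=
      Real.le_sqrt_of_sq_le (by linarith [sq_nonneg ‖c * P.z + d‖])
    have h2 : ‖c * P.z + d‖ ≤ Real.sqrt ((1 + 2 * R ^ 2) * D) :=
      Real.le_sqrt_of_sq_le (by linarith [sq_nonneg (‖c‖ * P.t)])
    have hc : ‖c‖ ≤ B₀ := by
      have h3 : ‖c‖ * (1 / R) ≤ Real.sqrt ((1 + 2 * R ^ 2) * D) :=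
        (mul_le_mul_of_nonneg_left ht1 (norm_nonneg c)).trans h1
      rwa [one_div, ← le_mul_inv_iff₀ (inv_pos.mpr hR), inv_inv] at h3
    refine ⟨hc, ?_⟩
    calc ‖d‖ = ‖(c * P.z + d) - c * P.z‖ := by rw [add_sub_cancel_left]
      _ ≤ ‖c * P.z + d‖ + ‖c * P.z‖ := norm_sub_le _ _
      _ ≤ _ := by
        rw [norm_mul]
        have := mul_le_mul hc hz (norm_nonneg P.z) (by positivity)
        linarith
  have r1 := row (g 1 0) (g 1 1) (den g P) (hden.trans hDle) rfl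
  have r0 := row (g 0 0) (g 0 1) (den (flipMat * g) P) hflip (by
    simp only [den, flipMat, Matrix.GeneralLinearGroup.coe_mul, Matrix.mul_apply, Fin.sum_univ_two]
    simp
    rw [← Complex.normSq_neg (g 0 0 * P.z + g 0 1), neg_add])
  have hnn : 0 ≤ Real.sqrt ((1 + 2 * R ^ 2) * D) := Real.sqrt_nonneg _
  have hB0 : 0 ≤ B₀ := by positivity
  have hRB : 0 ≤ R * B₀ := by positivity
  fin_cases i <;> fin_cases j <;> simp only [Fin.zero_eta, Fin.mk_one] <;>
    linarith [r1.1, r1.2, r0.1, r0.2]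

end H3

variable {K : Type*} [Field K] [NumberField K]

/-- Finitely many elements have bounded absolute values at every place. -/
theorem finite_bounded (e : HeightOneSpectrum (𝓞 K) → ℕ) (he : ∀ᶠ v in cofinite, e v = 0) (R : ℝ) :
    {x : K | (∀ v : HeightOneSpectrum (𝓞 K), Valued.v (loc v x) ≤ exp (e v : ℤ)) ∧
      ∀ w : InfinitePlace K, ‖w.embedding x‖ ≤ R}.Finite := by
  classical
  set s := (Filter.eventually_cofinite.mp he).toFinset
  choose π hπ using fun v : HeightOneSpectrum (𝓞 K) => v.intValuation_exists_uniformizer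
  have hπ0 : ∀ v, π v ≠ 0 := fun v h => by
    have := hπ v; rw [h, map_zero] at this; exact exp_ne_zero this.symm
  set m : 𝓞 K := ∏ v ∈ s, π v ^ e v with hm
  have hm0 : m ≠ 0 := Finset.prod_ne_zero_iff.mpr fun v _ => pow_ne_zero _ (hπ0 v)
  have hmv : ∀ v : HeightOneSpectrum (𝓞 K), Valued.v (loc v (m : K)) ≤ exp (-(e v : ℤ)) := by
    intro v
    rw [valued_loc, HeightOneSpectrum.valuation_of_algebraMap]
    by_cases hv : v ∈ s
    · rw [hm, ← Finset.mul_prod_erase _ _ hv, map_mul, map_pow, hπ v, ← exp_nsmul]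
      refine (mul_le_of_le_one_right' (v.intValuation_le_one _)).trans (le_of_eq ?_)
      congr 1
      simp
    · have : e v = 0 := by simpa [s] using hv
      rw [this, Nat.cast_zero, neg_zero, exp_zero]
      exact v.intValuation_le_one m
  obtain ⟨Mb, hMb⟩ : ∃ Mb : ℝ, ∀ w : InfinitePlace K, ‖w.embedding (m : K)‖ ≤ Mb :=
    ⟨∑ w : InfinitePlace K, ‖w.embedding (m : K)‖, fun w =>
      Finset.single_le_sum (f := fun w : InfinitePlace K => ‖w.embedding (m : K)‖)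
        (fun _ _ => norm_nonneg _) (Finset.mem_univ w)⟩
  refine ((NumberField.Embeddings.finite_of_norm_le K ℂ (|Mb| * |R|)).image
    fun y => y / (m : K)).subset ?_
  rintro x ⟨hxv, hxw⟩
  have hm0' : (m : K) ≠ 0 := RingOfIntegers.coe_ne_zero_iff.mpr hm0
  refine ⟨(m : K) * x, ⟨?_, fun φ => ?_⟩, by field_simp⟩
  · obtain ⟨y, hy⟩ := HeightOneSpectrum.mem_integers_of_valuation_le_one (R := 𝓞 K) K ((m : K) * x)
      fun v => by
        rw [← valued_loc, map_mul, map_mul]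
        refine (mul_le_mul' (hmv v) (hxv v)).trans (le_of_eq ?_)
        rw [← exp_add, neg_add_cancel, exp_zero]
    rw [← hy]
    exact RingOfIntegers.isIntegral_coe y
  · have hφ : ∀ z : K, ‖φ z‖ = ‖(InfinitePlace.mk φ).embedding z‖ := fun z => by
      rw [InfinitePlace.norm_embedding_eq, InfinitePlace.apply]
    rw [map_mul, norm_mul, hφ, hφ]
    exact mul_le_mul ((hMb _).trans (le_abs_self _)) ((hxw _).trans (le_abs_self _))
      (norm_nonneg _) (abs_nonneg _)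

/-- Units modulo squares have finitely many representatives. -/
theorem exists_unit_square_reps :
    ∃ T : Set (𝓞 K)ˣ, T.Finite ∧ ∀ ε : (𝓞 K)ˣ, ∃ ρ ∈ T, ∃ η : (𝓞 K)ˣ, ε = ρ * η ^ 2 := by
  have : Group.FG (𝓞 K)ˣ := Group.fg_iff_monoid_fg.mpr inferInstance
  have := Subgroup.finiteIndex_range_powMonoidHom_of_fg (𝓞 K)ˣ (n := 2) two_ne_zero
  refine ⟨Set.range fun q : (𝓞 K)ˣ ⧸ (powMonoidHom (α := (𝓞 K)ˣ) 2).range => q.out,
    Set.finite_range _, fun ε => ⟨_, Set.mem_range_self (QuotientGroup.mk ε), ?_⟩⟩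
  obtain ⟨⟨h, hh⟩, he⟩ := QuotientGroup.mk_out_eq_mul
    (powMonoidHom (α := (𝓞 K)ˣ) 2).range ε
  obtain ⟨η, rfl⟩ := hh
  refine ⟨η⁻¹, ?_⟩
  rw [he]
  simp [powMonoidHom_apply, mul_assoc]

theorem valued_unit (v : HeightOneSpectrum (𝓞 K)) (ε : (𝓞 K)ˣ) :
    Valued.v (loc v ((ε : 𝓞 K) : K)) = 1 := by
  rw [valued_int v ε.ne_zero, Ideal.span_singleton_eq_top.mpr ε.isUnit, ← Ideal.one_eq_top, ordAt,
    Ideal.one_eq_top, FractionalIdeal.coeIdeal_top, FractionalIdeal.count_one, neg_zero, exp_zero]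

/-- Elements with prescribed valuations form finitely many classes modulo unit squares. -/
theorem exists_det_reps (n : HeightOneSpectrum (𝓞 K) → WithZero (Multiplicative ℤ)) :
    ∃ T : Set Kˣ, T.Finite ∧ ∀ δ : Kˣ, (∀ v, Valued.v (loc v (δ : K)) = n v) →
      ∃ δ₀ ∈ T, ∃ η : (𝓞 K)ˣ, (δ : K) = δ₀ * ((η : 𝓞 K) : K) ^ 2 := by
  classical
  by_cases hex : ∃ δ : Kˣ, ∀ v, Valued.v (loc v (δ : K)) = n v
  · obtain ⟨δ₁, hδ₁⟩ := hex
    obtain ⟨T, hT, hTr⟩ := exists_unit_square_reps (K := K)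
    refine ⟨(fun ρ : (𝓞 K)ˣ => δ₁ * Units.map (algebraMap (𝓞 K) K).toMonoidHom ρ) '' T,
      hT.image _, fun δ hδ => ?_⟩
    have hq : ∀ v : HeightOneSpectrum (𝓞 K), v.valuation K ((δ / δ₁ : Kˣ) : K) = 1 := fun v => by
      rw [← valued_loc, Units.val_div_eq_div_val, map_div₀, map_div₀, hδ v, hδ₁ v, div_self]
      rw [← hδ₁ v]
      simp
    obtain ⟨y, hy⟩ := HeightOneSpectrum.mem_integers_of_valuation_le_one (R := 𝓞 K) K _
      fun v => (hq v).le
    obtain ⟨y', hy'⟩ := HeightOneSpectrum.mem_integers_of_valuation_le_one (R := 𝓞 K) K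
      ((δ / δ₁ : Kˣ)⁻¹ : K) fun v => by rw [map_inv₀, hq v, inv_one]
    have hyy : y * y' = 1 := RingOfIntegers.ext (by
      push_cast
      change algebraMap (𝓞 K) K y * algebraMap (𝓞 K) K y' = 1
      rw [hy, hy', mul_inv_cancel₀ (Units.ne_zero _)])
    obtain ⟨ρ, hρ, η, he⟩ := hTr ⟨y, y', hyy, by rw [mul_comm, hyy]⟩
    refine ⟨_, ⟨ρ, hρ, rfl⟩, η, ?_⟩
    have hyv : (y : 𝓞 K) = (ρ : 𝓞 K) * (η : 𝓞 K) ^ 2 := by
      have := congrArg Units.val he
      simpa using this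
    rw [show (δ : K) = δ₁ * ((δ / δ₁ : Kˣ) : K) by rw [← Units.val_mul, mul_div_cancel], ← hy, hyv]
    simp [mul_assoc]
  · exact ⟨∅, Set.finite_empty, fun δ hδ => absurd ⟨δ, hδ⟩ hex⟩

/-- Elements moving one coset to another have representatives with bounded denominators and
finitely many determinants. -/
theorem exists_scaled_lift {𝔫 : Ideal (𝓞 K)} (d d' : Cosets 𝔫) :
    ∃ (e : HeightOneSpectrum (𝓞 K) → ℕ) (Δ : Set Kˣ), (∀ᶠ v in cofinite, e v = 0) ∧ Δ.Finite ∧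
      ∀ γ : GL (Fin 2) K, rationalMat γ • d = d' → ∃ γ₂ : GL (Fin 2) K,
        Matrix.ProjGenLinGroup.mk γ₂ = Matrix.ProjGenLinGroup.mk γ ∧
        (∀ x : XInf K, infAct γ₂ x = infAct γ x) ∧ Matrix.GeneralLinearGroup.det γ₂ ∈ Δ ∧
        ∀ (v : HeightOneSpectrum (𝓞 K)) i j, Valued.v (loc v (γ₂ i j)) ≤ exp (e v : ℤ) := by
  classical
  obtain ⟨g, rfl⟩ := QuotientGroup.mk_surjective d
  obtain ⟨g', rfl⟩ := QuotientGroup.mk_surjective d'
  obtain ⟨C, hC, hCr⟩ := exists_finite_idele_reps (K := K)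
  -- the bound on the valuations of the entries
  have hevent : ∀ x : Adf K, ∀ᶠ v in cofinite, Valued.v (x v) ≤ 1 := fun x => x.2
  let F : Finset (Adf K) := ((Finset.univ : Finset (Fin 2 × Fin 2)).image fun p => g' p.1 p.2) ∪
    ((Finset.univ : Finset (Fin 2 × Fin 2)).image fun p => (g⁻¹ : GAf K) p.1 p.2) ∪
    hC.toFinset.image fun c : (Adf K)ˣ => (c : Adf K)
  let e₁ : HeightOneSpectrum (𝓞 K) → ℕ := fun v =>
    F.sup fun x => (log (Valued.v (x v))).toNat
  have he₁ : ∀ᶠ v in cofinite, e₁ v = 0 := by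
    have h : ∀ᶠ v in cofinite, ∀ x ∈ F, Valued.v (x v) ≤ 1 :=
      F.eventually_all.mpr fun x _ => hevent x
    filter_upwards [h] with v hv
    refine Nat.eq_zero_of_le_zero (Finset.sup_le fun x hx => ?_)
    by_cases h0 : Valued.v (x v) = 0
    · simp [h0]
    · have : log (Valued.v (x v)) ≤ 0 := by
        rw [← exp_le_exp, exp_log h0, exp_zero]; exact hv x hx
      simp [this]
  have hF : ∀ x ∈ F, ∀ v : HeightOneSpectrum (𝓞 K), Valued.v (x v) ≤ exp (e₁ v : ℤ) := by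
    intro x hx v
    by_cases h0 : Valued.v (x v) = 0
    · rw [h0]; exact zero_le
    · conv_lhs => rw [← exp_log h0]
      refine exp_le_exp.mpr ((Int.self_le_toNat _).trans ?_)
      exact_mod_cast Finset.le_sup (f := fun x => (log (Valued.v (x v))).toNat) hx
  set e : HeightOneSpectrum (𝓞 K) → ℕ := fun v => e₁ v + (e₁ v + e₁ v)
  have he : ∀ᶠ v in cofinite, e v = 0 := by
    filter_upwards [he₁] with v hv
    simp [e, hv]
  -- finitely many determinants
  choose T hT hTr using fun c : (Adf K)ˣ =>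
    exists_det_reps (K := K) fun v =>
      Valued.v (((c : Adf K) * (c : Adf K) *
        ((g' : Matrix (Fin 2) (Fin 2) (Adf K)).det * ((g⁻¹ : GAf K) : Matrix (Fin 2) (Fin 2) (Adf K)).det)) v)
  set Δ : Set Kˣ := ⋃ c ∈ C, T c
  have hΔ : Δ.Finite := hC.biUnion fun c _ => hT c
  refine ⟨e, Δ, he, hΔ, fun γ hd => ?_⟩
  have hmem : (rationalMat γ * g)⁻¹ * g' ∈ levelGroup 𝔫 := QuotientGroup.eq.mp hd
  obtain ⟨u, hu, z, hz, huz⟩ := (Subgroup.mem_sup_of_normal_right (s := congrSubgroup 𝔫) (t := Subgroup.center (GAf K))).mp hmem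
  rw [Matrix.GeneralLinearGroup.center_eq_range_scalar] at hz
  obtain ⟨z, rfl⟩ := hz
  obtain ⟨k, c, hc, hzc⟩ := hCr z⁻¹
  obtain ⟨kk, hkk, rfl⟩ := Subgroup.mem_map.mp hu
  set u' : GAf K := Matrix.GeneralLinearGroup.map intToAdele kk with hu'
  set k0 : (Adf K)ˣ := Units.map (algebraMap K (Adf K)).toMonoidHom k with hk0
  -- the rescaled element
  set γ₁ : GL (Fin 2) K := Matrix.GeneralLinearGroup.scalar (Fin 2) k⁻¹ * γ with hγ₁
  set c₁ : (Adf K)ˣ := k0⁻¹ * z⁻¹ with hc₁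
  have hγ₁eq : rationalMat γ₁ = Matrix.GeneralLinearGroup.scalar (Fin 2) c₁ * (g' * u'⁻¹ * g⁻¹) := by
    have hz' : rationalMat γ = Matrix.GeneralLinearGroup.scalar (Fin 2) z⁻¹ * (g' * u'⁻¹ * g⁻¹) := by
      rw [map_inv]
      set Z := Matrix.GeneralLinearGroup.scalar (n := Fin 2) (R := Adf K) z
      have h1 : (rationalMat γ * g)⁻¹ * g' = u' * Z := huz.symm
      have hZ : ∀ A : GAf K, Z⁻¹ * A = A * Z⁻¹ := fun A => by
        simp only [Z, ← map_inv]; exact Matrix.GeneralLinearGroup.scalar_commute _ A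
      calc rationalMat γ = g' * ((rationalMat γ * g)⁻¹ * g')⁻¹ * g⁻¹ := by group
        _ = g' * (Z⁻¹ * u'⁻¹) * g⁻¹ := by rw [h1, mul_inv_rev]
        _ = Z⁻¹ * (g' * u'⁻¹ * g⁻¹) := by
          rw [← mul_assoc g' Z⁻¹, ← hZ g']
          group
    rw [hγ₁, map_mul, hz', rationalMat, Matrix.GeneralLinearGroup.map_scalar, ← mul_assoc, ← map_mul,
      map_inv, hc₁]
    rfl
  have hc₁v : ∀ v : HeightOneSpectrum (𝓞 K), Valued.v ((c₁ : Adf K) v) = Valued.v ((c : Adf K) v) := by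
    intro v
    rw [hc₁, Units.val_mul, adele_mul_apply, map_mul, hzc v]
    have h1 : Valued.v ((k0⁻¹ : (Adf K)ˣ).val v) = (Valued.v (loc v (k : K)))⁻¹ := by
      refine eq_inv_of_mul_eq_one_left ?_
      rw [show loc v (k : K) = (k0 : Adf K) v from rfl, ← map_mul, ← adele_mul_apply, Units.inv_mul]
      exact map_one _
    rw [h1, inv_mul_cancel_left₀ ((Valuation.ne_zero_iff _).mpr (by simp))]
  have hent : ∀ (v : HeightOneSpectrum (𝓞 K)) i j, Valued.v (loc v (γ₁ i j)) ≤ exp (e v : ℤ) := by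
    intro v i j
    have h := congrArg (fun A : GAf K => (A i j) v) hγ₁eq
    simp only [rationalMat, Matrix.GeneralLinearGroup.coe_mul, Matrix.GeneralLinearGroup.map_apply] at h
    change loc v (γ₁ i j) = _ at h
    rw [h]
    have hint : ∀ a b : Fin 2, Valued.v (((u'⁻¹ : GAf K) a b) v) ≤ 1 := fun a b => by
      rw [hu', ← map_inv]
      exact (((kk⁻¹ : GL (Fin 2) (IntAd K)) a b) v).2
    have hF' : ∀ a b : Fin 2, Valued.v ((g' a b) v) ≤ exp (e₁ v : ℤ) := fun a b => hF _ (by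
      simp only [F, Finset.mem_union, Finset.mem_image]; exact Or.inl (Or.inl ⟨(a, b), Finset.mem_univ _, rfl⟩)) v
    have hG' : ∀ a b : Fin 2, Valued.v (((g⁻¹ : GAf K) a b) v) ≤ exp (e₁ v : ℤ) := fun a b => hF _ (by
      simp only [F, Finset.mem_union, Finset.mem_image]; exact Or.inl (Or.inr ⟨(a, b), Finset.mem_univ _, rfl⟩)) v
    have hcv : Valued.v ((c₁ : Adf K) v) ≤ exp (e₁ v : ℤ) := by
      rw [hc₁v v]
      refine hF _ ?_ v
      simp only [F, Finset.mem_union, Finset.mem_image, Set.Finite.mem_toFinset]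
      exact Or.inr ⟨c, hc, rfl⟩
    rw [show ((Matrix.GeneralLinearGroup.scalar (Fin 2) c₁ : GAf K) : Matrix (Fin 2) (Fin 2) (Adf K)) =
      Matrix.diagonal fun _ => (c₁ : Adf K) from rfl, Matrix.diagonal_mul, adele_mul_apply, map_mul,
      show (e v : ℤ) = e₁ v + (e₁ v + e₁ v) by simp [e], exp_add, exp_add]
    refine mul_le_mul' hcv ?_
    simp only [Matrix.mul_apply, Fin.sum_univ_two, adele_add_apply, adele_mul_apply]
    refine (Valuation.map_add _ _ _).trans (max_le ?_ ?_) <;>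
    · rw [map_mul]
      refine mul_le_mul' ?_ (hG' _ _)
      refine (Valuation.map_add _ _ _).trans (max_le ?_ ?_) <;>
      · rw [map_mul]
        exact (mul_le_mul' (hF' _ _) (hint _ _)).trans (mul_one _).le
  -- its determinant
  have hdet : ∀ v : HeightOneSpectrum (𝓞 K),
      Valued.v (loc v ((Matrix.GeneralLinearGroup.det γ₁ : Kˣ) : K)) =
        Valued.v (((c : Adf K) * (c : Adf K) * ((g' : Matrix (Fin 2) (Fin 2) (Adf K)).det *
          ((g⁻¹ : GAf K) : Matrix (Fin 2) (Fin 2) (Adf K)).det)) v) := by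
    intro v
    have h := congrArg (fun A : GAf K => ((A : Matrix (Fin 2) (Fin 2) (Adf K)).det) v) hγ₁eq
    simp only [Matrix.GeneralLinearGroup.coe_mul, Matrix.det_mul] at h
    rw [show (rationalMat γ₁ : Matrix (Fin 2) (Fin 2) (Adf K)) =
      ((γ₁ : Matrix (Fin 2) (Fin 2) K).map (algebraMap K (Adf K))) from rfl,
      ← RingHom.mapMatrix_apply, ← RingHom.map_det] at h
    have hu1 : Valued.v ((((u'⁻¹ : GAf K) : Matrix (Fin 2) (Fin 2) (Adf K)).det) v) = 1 := by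
      rw [hu', ← map_inv]
      change Valued.v ((((kk⁻¹ : GL (Fin 2) (IntAd K)) : Matrix (Fin 2) (Fin 2) (IntAd K)).map
        intToAdele).det v) = 1
      rw [← RingHom.mapMatrix_apply, ← RingHom.map_det]
      exact HeightOneSpectrum.adicCompletionIntegers.isUnit_iff_valued_eq_one.mp
        ((Matrix.GeneralLinearGroup.det (kk⁻¹ : GL (Fin 2) (IntAd K))).isUnit.map
          (Pi.evalRingHom (fun v : HeightOneSpectrum (𝓞 K) => v.adicCompletionIntegers K) v))
    change loc v ((γ₁ : Matrix (Fin 2) (Fin 2) K).det) = _ at h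
    rw [Matrix.GeneralLinearGroup.val_det_apply, h]
    rw [show ((Matrix.GeneralLinearGroup.scalar (Fin 2) c₁ : GAf K) : Matrix (Fin 2) (Fin 2) (Adf K)) =
      Matrix.diagonal fun _ => (c₁ : Adf K) from rfl, Matrix.det_diagonal, Fin.prod_univ_two]
    simp only [adele_mul_apply, map_mul, hu1, mul_one, hc₁v v]
  obtain ⟨δ₀, hδ₀, η, hη⟩ := hTr c _ hdet
  set ηK : Kˣ := Units.map (algebraMap (𝓞 K) K).toMonoidHom η
  set γ₂ := Matrix.GeneralLinearGroup.scalar (Fin 2) ηK⁻¹ * γ₁ with hγ₂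
  have hentry : ∀ i j, γ₂ i j = ((ηK⁻¹ : Kˣ) : K) * γ₁ i j := fun i j => by
    simp [hγ₂, Matrix.GeneralLinearGroup.scalar, Matrix.scalar_apply]
  refine ⟨γ₂, ?_, fun x => funext fun w => ?_, ?_, fun v i j => ?_⟩
  · rw [hγ₂, hγ₁, map_mul, map_mul, Matrix.ProjGenLinGroup.mk_scalar,
      Matrix.ProjGenLinGroup.mk_scalar, one_mul, one_mul]
  · rw [hγ₂, hγ₁, infAct, infAct, map_mul, map_mul, mul_smul, mul_smul,
      Matrix.GeneralLinearGroup.map_scalar, Matrix.GeneralLinearGroup.map_scalar, H3.scalar_smul,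
      H3.scalar_smul]
  · rw [show Matrix.GeneralLinearGroup.det γ₂ = δ₀ from Units.ext (by
      rw [Matrix.GeneralLinearGroup.val_det_apply, hγ₂, Matrix.GeneralLinearGroup.coe_mul,
        Matrix.det_mul, ← Matrix.GeneralLinearGroup.val_det_apply γ₁, hη]
      simp [Matrix.GeneralLinearGroup.scalar, Matrix.scalar_apply, Matrix.det_diagonal, ηK]
      field_simp)]
    exact Set.mem_biUnion hc hδ₀
  · rw [hentry, map_mul, map_mul, Units.val_inv_eq_inv_val, map_inv₀, map_inv₀,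
      show ((ηK : Kˣ) : K) = ((η : 𝓞 K) : K) from rfl, valued_unit, inv_one, one_mul]
    exact hent v i j

/-- For fixed cosets and a bounded archimedean region finitely many elements of `PGL₂(K)` move
the region at one coset back to the region at the other. -/
theorem finite_moving {𝔫 : Ideal (𝓞 K)} (d d' : Cosets 𝔫) (R : ℝ) :
    {γ : PGL(2, K) | ∃ x : XInf K, (∀ w, ‖(x w).z‖ ≤ R ∧ 1 / R ≤ (x w).t ∧ (x w).t ≤ R) ∧
      (∀ w, ‖((γ • (x, d)).1 w).z‖ ≤ R ∧ 1 / R ≤ ((γ • (x, d)).1 w).t ∧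
        ((γ • (x, d)).1 w).t ≤ R) ∧ (γ • (x, d)).2 = d'}.Finite := by
  classical
  obtain ⟨e, Δ, he, hΔ, hlift⟩ := exists_scaled_lift d d'
  obtain ⟨M, hM⟩ : ∃ M : ℝ, ∀ δ ∈ Δ, ∀ w : InfinitePlace K, ‖w.embedding (δ : K)‖ ≤ M := by
    refine ⟨∑ δ ∈ hΔ.toFinset, ∑ w : InfinitePlace K, ‖w.embedding (δ : K)‖, fun δ hδ w => ?_⟩
    exact (Finset.single_le_sum (f := fun w : InfinitePlace K => ‖w.embedding (δ : K)‖)
      (fun _ _ => norm_nonneg _) (Finset.mem_univ w)).trans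
      (Finset.single_le_sum (f := fun δ : Kˣ => ∑ w : InfinitePlace K, ‖w.embedding (δ : K)‖)
        (fun _ _ => Finset.sum_nonneg fun _ _ => norm_nonneg _) (hΔ.mem_toFinset.mpr hδ))
  obtain ⟨B, hB⟩ := H3.entries_bounded R M
  set E := {x : K | (∀ v : HeightOneSpectrum (𝓞 K), Valued.v (loc v x) ≤ exp (e v : ℤ)) ∧
      ∀ w : InfinitePlace K, ‖w.embedding x‖ ≤ B}
  have hE : E.Finite := finite_bounded e he B
  have : Finite E := hE.to_subtype
  have hMat : {γ : GL (Fin 2) K | ∀ i j, γ i j ∈ E}.Finite := by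
    have h2 : {m : Matrix (Fin 2) (Fin 2) K | ∀ i j, m i j ∈ E}.Finite := by
      refine ((Set.Finite.pi' fun _ : Fin 2 => Set.Finite.pi' fun _ : Fin 2 => hE)).subset ?_
      exact fun m hm => hm
    exact h2.preimage Units.val_injective.injOn
  refine (hMat.image Matrix.ProjGenLinGroup.mk).subset ?_
  rintro γ ⟨x, hx, hx', hd⟩
  induction γ using Matrix.ProjGenLinGroup.induction_on with | mk γ =>
  rw [mk_smul] at hd hx'
  obtain ⟨γ₂, hmk, hact, hdetΔ, hent⟩ := hlift γ hd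
  refine ⟨γ₂, fun i j => ⟨fun v => hent v i j, fun w => ?_⟩, hmk⟩
  have hactw : Matrix.GeneralLinearGroup.map w.embedding γ₂ • x w = infAct γ x w :=
    congrFun (hact x) w
  have := hB (Matrix.GeneralLinearGroup.map w.embedding γ₂) (x w) (by
      rw [show ((Matrix.GeneralLinearGroup.map w.embedding γ₂ : GL (Fin 2) ℂ) :
          Matrix (Fin 2) (Fin 2) ℂ) = (γ₂ : Matrix (Fin 2) (Fin 2) K).map w.embedding from rfl,
        ← RingHom.mapMatrix_apply, ← RingHom.map_det, ← Matrix.GeneralLinearGroup.val_det_apply]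
      exact hM _ hdetΔ w)
    (hx w).1 (hx w).2.1 (hx w).2.2 (by rw [hactw]; exact (hx' w).1)
    (by rw [hactw]; exact (hx' w).2.1) (by rw [hactw]; exact (hx' w).2.2) i j
  simpa using this

end FermatAgent.LT
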