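import Mathlib

set_option autoImplicit false

/-!
# Balancing heights by units congruent to one
-/

noncomputable section

open NumberField NumberField.InfinitePlace NumberField.Units NumberField.Units.dirichletUnitTheorem

namespace FermatAgent.LT.Balance

variable (K : Type*) [Field K] [NumberField K] [IsTotallyComplex K]

/-- Some unit congruent to one modulo `𝔫` moves a given vector of logarithms within a fixed
distance of its mean. -/
theorem exists_balancing_unit {𝔫 : Ideal (𝓞 K)} (h : 𝔫 ≠ ⊥) :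
    ∃ R : ℝ, ∀ ℓ : InfinitePlace K → ℝ, ∃ ε : (𝓞 K)ˣ, (ε : 𝓞 K) - 1 ∈ 𝔫 ∧
      ∀ w : InfinitePlace K, |ℓ w + Real.log ‖w.embedding ((ε : 𝓞 K) : K)‖ -
        (∑ u, ℓ u) / Fintype.card (InfinitePlace K)| ≤ R := by
  classical
  have hfin : Finite (𝓞 K ⧸ 𝔫) := Ideal.finiteQuotientOfFreeOfNeBot _ h
  have : Fintype (𝓞 K ⧸ 𝔫)ˣ := Fintype.ofFinite _
  set N := Fintype.card (𝓞 K ⧸ 𝔫)ˣ with hN
  have hNpos : (0 : ℝ) < N := by exact_mod_cast Fintype.card_pos
  set b := (basisUnitLattice K).ofZLatticeBasis ℝ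
  set C₀ := ∑ i, ‖b i‖
  set n := Fintype.card (InfinitePlace K)
  refine ⟨(n + 1) * (N * C₀), fun ℓ => ?_⟩
  set μ := (∑ u, ℓ u) / (n : ℝ) with hμ
  set y : logSpace K := fun w => 2 * (μ - ℓ w.1) / N with hy
  have hmem : ((ZSpan.floor b y : Submodule.span ℤ (Set.range b)) : logSpace K) ∈ unitLattice K := by
    have h := (ZSpan.floor b y).2
    simpa [b, (basisUnitLattice K).ofZLatticeBasis_span ℝ] using h
  obtain ⟨η, -, hη⟩ := hmem
  set u : (𝓞 K)ˣ := η.toMul
  refine ⟨u ^ N, ?_, ?_⟩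
  · rw [← Ideal.Quotient.eq_zero_iff_mem, map_sub, map_one, Units.val_pow_eq_pow_val, map_pow,
      show (Ideal.Quotient.mk 𝔫 (u : 𝓞 K)) ^ N =
        ((Units.map (Ideal.Quotient.mk 𝔫).toMonoidHom u ^ N : (𝓞 K ⧸ 𝔫)ˣ) : 𝓞 K ⧸ 𝔫) by simp,
      pow_card_eq_one, Units.val_one, sub_self]
  have hlog : ∀ w : InfinitePlace K,
      Real.log ‖w.embedding ((((u ^ N : (𝓞 K)ˣ)) : 𝓞 K) : K)‖ = N * Real.log (w ((u : 𝓞 K) : K)) := by
    intro w
    push_cast
    rw [map_pow, norm_pow, Real.log_pow, InfinitePlace.norm_embedding_eq]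
  have hne : ∀ w : {w : InfinitePlace K // w ≠ w₀},
      |ℓ w.1 + N * Real.log (w.1 ((u : 𝓞 K) : K)) - μ| ≤ N * C₀ := by
    intro w
    have h1 : |y w - 2 * Real.log (w.1 ((u : 𝓞 K) : K))| ≤ C₀ := by
      have h2 : ‖ZSpan.fract b y‖ ≤ C₀ := ZSpan.norm_fract_le b y
      have h3 := (norm_le_pi_norm (ZSpan.fract b y) w).trans h2
      rw [ZSpan.fract_apply, Pi.sub_apply, Real.norm_eq_abs] at h3
      have h4 : ((ZSpan.floor b y : Submodule.span ℤ (Set.range b)) : logSpace K) w =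
          2 * Real.log (w.1 ((u : 𝓞 K) : K)) := by
        rw [← hη, show η = Additive.ofMul u from rfl]
        change logEmbedding K (Additive.ofMul u) w = _
        rw [logEmbedding_component, IsTotallyComplex.mult_eq]
        norm_num
      rwa [h4] at h3
    have h5 : ℓ w.1 + N * Real.log (w.1 ((u : 𝓞 K) : K)) - μ =
        -(N / 2) * (y w - 2 * Real.log (w.1 ((u : 𝓞 K) : K))) := by
      simp only [hy]; field_simp; ring
    rw [h5, abs_mul, abs_neg, abs_of_pos (by positivity)]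
    have h6 := mul_le_mul_of_nonneg_left h1 hNpos.le
    have h7 : 0 ≤ (N : ℝ) * C₀ := mul_nonneg hNpos.le ((abs_nonneg _).trans h1)
    nlinarith [abs_nonneg (y w - 2 * Real.log (w.1 ((u : 𝓞 K) : K)))]
  intro w
  rw [hlog]
  have hC0 : 0 ≤ C₀ := Finset.sum_nonneg fun i _ => norm_nonneg _
  have hNC : 0 ≤ (N : ℝ) * C₀ := mul_nonneg hNpos.le hC0
  have hn0 : (0 : ℝ) ≤ n := Nat.cast_nonneg n
  by_cases hw : w = w₀
  · subst hw
    set f : InfinitePlace K → ℝ := fun w => ℓ w + N * Real.log (w ((u : 𝓞 K) : K)) - μ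
    have hsum : ∑ w, f w = 0 := by
      have h0 := sum_mult_mul_log u
      simp only [IsTotallyComplex.mult_eq, Nat.cast_ofNat, ← Finset.mul_sum, mul_eq_zero,
        OfNat.ofNat_ne_zero, false_or] at h0
      simp only [f, Finset.sum_sub_distrib, Finset.sum_add_distrib, ← Finset.mul_sum,
        Finset.sum_const, Finset.card_univ, nsmul_eq_mul]
      rw [h0, hμ, mul_zero, add_zero, mul_div_cancel₀ _ (by positivity), sub_self]
    rw [Fintype.sum_eq_add_sum_subtype_ne _ (w₀ : InfinitePlace K), add_eq_zero_iff_eq_neg] at hsum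
    change |f w₀| ≤ _
    rw [hsum, abs_neg]
    refine (Finset.abs_sum_le_sum_abs _ _).trans ((Finset.sum_le_card_nsmul _ _ _
      fun w _ => hne w).trans ?_)
    rw [nsmul_eq_mul]
    have hc : ((Finset.univ : Finset {w : InfinitePlace K // w ≠ w₀}).card : ℝ) ≤ n := by
      exact_mod_cast Fintype.card_subtype_le _
    nlinarith
  · refine (hne ⟨w, hw⟩).trans ?_
    nlinarith

end FermatAgent.LT.Balance
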