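import Mathlib
import Fermat.Agent.LT.Base.Proper
import Fermat.Agent.LT.Base.Minkowski
import Fermat.Agent.LT.Base.Units
import Fermat.Agent.LT.MultOne.StrongApprox

set_option autoImplicit false

/-!
# Reduction theory: a Siegel set meets every orbit of `PGL₂(K)`
-/

noncomputable section

open NumberField IsDedekindDomain WithZero Filter Module
open scoped MatrixGroups

namespace FermatAgent.LT

theorem H3.upperTri_smul (a : ℂˣ) (b : ℂ) (P : H3) :
    (upperTri a b 1 • P).z = a * P.z + b ∧ (upperTri a b 1 • P).t = ‖(a : ℂ)‖ * P.t := by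
  constructor <;>
    simp [H3.smul_def, H3.act, H3.den, upperTri, Matrix.det_fin_two]

variable {K : Type*} [Field K] [NumberField K]

/-- A Siegel region at infinity. -/
def siegelInf (c R : ℝ) : Set (XInf K) :=
  {x | ∀ w, ‖(x w).z‖ ≤ R ∧ c ≤ (x w).t ∧ ∀ u, (x w).t ≤ R * (x u).t}

omit [NumberField K] in
theorem infAct_upperTri (a : Kˣ) (b : K) (x : XInf K) (w : InfinitePlace K) :
    (infAct (upperTri a b 1) x w).z = w.embedding (a : K) * (x w).z + w.embedding b ∧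
      (infAct (upperTri a b 1) x w).t = ‖w.embedding (a : K)‖ * (x w).t := by
  have h : infAct (upperTri a b 1) x w =
      upperTri (Units.map w.embedding.toMonoidHom a) (w.embedding b) 1 • x w := by
    rw [infAct, map_upperTri, map_one]
  rw [h]
  exact H3.upperTri_smul _ _ _

/-- An exponent bounding finitely many adeles at every place. -/
theorem exists_exp_bound (F : Finset (Adf K)) :
    ∃ e : HeightOneSpectrum (𝓞 K) → ℕ, (∀ᶠ v in cofinite, e v = 0) ∧
      ∀ x ∈ F, ∀ v : HeightOneSpectrum (𝓞 K), Valued.v (x v) ≤ exp (e v : ℤ) := by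
  classical
  refine ⟨fun v => F.sup fun x => (log (Valued.v (x v))).toNat, ?_, fun x hx v => ?_⟩
  · have h : ∀ᶠ v in cofinite, ∀ x ∈ F, Valued.v (x v) ≤ 1 :=
      F.eventually_all.mpr fun x _ => x.2
    filter_upwards [h] with v hv
    refine Nat.eq_zero_of_le_zero (Finset.sup_le fun x hx => ?_)
    by_cases h0 : Valued.v (x v) = 0
    · simp [h0]
    · have : log (Valued.v (x v)) ≤ 0 := by
        rw [← exp_le_exp, exp_log h0, exp_zero]; exact hv x hx
      simp [this]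
  · by_cases h0 : Valued.v (x v) = 0
    · rw [h0]; exact zero_le
    · conv_lhs => rw [← exp_log h0]
      refine exp_le_exp.mpr ((Int.self_le_toNat _).trans ?_)
      exact_mod_cast Finset.le_sup (f := fun x => (log (Valued.v (x v))).toNat) hx

/-- A nonzero integer of small valuation everywhere. -/
theorem exists_int_small (e : HeightOneSpectrum (𝓞 K) → ℕ) (he : ∀ᶠ v in cofinite, e v = 0) :
    ∃ m : 𝓞 K, m ≠ 0 ∧ ∀ v : HeightOneSpectrum (𝓞 K),
      Valued.v (loc v (m : K)) ≤ exp (-(e v : ℤ)) := by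
  classical
  set s := (Filter.eventually_cofinite.mp he).toFinset
  choose π hπ using fun v : HeightOneSpectrum (𝓞 K) => v.intValuation_exists_uniformizer
  have hπ0 : ∀ v, π v ≠ 0 := fun v h => by
    have := hπ v; rw [h, map_zero] at this; exact exp_ne_zero this.symm
  refine ⟨∏ v ∈ s, π v ^ e v, Finset.prod_ne_zero_iff.mpr fun v _ => pow_ne_zero _ (hπ0 v),
    fun v => ?_⟩
  rw [valued_loc, HeightOneSpectrum.valuation_of_algebraMap]
  by_cases hv : v ∈ s
  · rw [← Finset.mul_prod_erase _ _ hv, map_mul, map_pow, hπ v, ← exp_nsmul]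
    refine (mul_le_of_le_one_right' (v.intValuation_le_one _)).trans (le_of_eq ?_)
    congr 1
    simp
  · have : e v = 0 := by simpa [s] using hv
    rw [this, Nat.cast_zero, neg_zero, exp_zero]
    exact v.intValuation_le_one _

theorem algebraMap_mem_smallAdeles {e : HeightOneSpectrum (𝓞 K) → ℕ} {m : 𝓞 K}
    (hm : ∀ v : HeightOneSpectrum (𝓞 K), Valued.v (loc v (m : K)) ≤ exp (-(e v : ℤ)))
    {a : 𝓞 K} (ha : a ∈ Ideal.span {m}) : algebraMap K (Adf K) (a : K) ∈ smallAdeles e := by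
  intro v
  obtain ⟨r, rfl⟩ := Ideal.mem_span_singleton'.mp ha
  rw [adele_algebraMap_apply, show ((r * m : 𝓞 K) : K) = (r : K) * (m : K) from map_mul _ _ _,
    map_mul, map_mul]
  refine (mul_le_mul' ?_ (hm v)).trans_eq (one_mul _)
  rw [valued_loc, HeightOneSpectrum.valuation_of_algebraMap]
  exact v.intValuation_le_one r

/-- Elements close to one fix finitely many given cosets. -/
theorem exists_fix_exp {𝔫 : Ideal (𝓞 K)} (h : 𝔫 ≠ ⊥) (D : Finset (GAf K)) :
    ∃ e : HeightOneSpectrum (𝓞 K) → ℕ, (∀ᶠ v in cofinite, e v = 0) ∧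
      ∀ k, IsNearOne e k → ∀ g ∈ D, ((k * g : GAf K) : Cosets 𝔫) = (g : Cosets 𝔫) := by
  obtain ⟨e, he, he0⟩ := exists_levelExp h
  choose e' he' hc using fun g : GAf K => IsNearOne.exists_conj g⁻¹ e he0
  refine ⟨fun v => D.sup fun g => e' g v, ?_, fun k hk g hg => ?_⟩
  · filter_upwards [D.eventually_all.mpr fun g _ => he' g] with v hv
    exact Nat.eq_zero_of_le_zero (Finset.sup_le fun g hg => (hv g hg).le)
  · have hk' : IsNearOne (e' g) k :=
      IsNearOne.anti (fun v => Finset.le_sup (f := fun g => e' g v) hg) hk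
    have hmem : g⁻¹ * k * g⁻¹⁻¹ ∈ congrSubgroup 𝔫 := (hc g k hk').mem_congrSubgroup he
    refine QuotientGroup.eq.mpr (Subgroup.mem_sup_left ?_)
    rw [show (k * g)⁻¹ * g = (g⁻¹ * k * g⁻¹⁻¹)⁻¹ by group]
    exact inv_mem hmem

/-- An element of bounded denominators has norm bounded below. -/
theorem exists_norm_lower [IsTotallyComplex K] (e : HeightOneSpectrum (𝓞 K) → ℕ)
    (he : ∀ᶠ v in cofinite, e v = 0) :
    ∃ c : ℝ, 0 < c ∧ ∀ q : K, q ≠ 0 →
      (∀ v : HeightOneSpectrum (𝓞 K), Valued.v (loc v q) ≤ exp (e v : ℤ)) →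
        c ≤ ∏ w : InfinitePlace K, ‖w.embedding q‖ ^ 2 := by
  obtain ⟨m, hm, hmv⟩ := exists_int_small e he
  have hmK : (m : K) ≠ 0 := RingOfIntegers.coe_ne_zero_iff.mpr hm
  have hpos : 0 < ∏ w : InfinitePlace K, ‖w.embedding (m : K)‖ ^ 2 :=
    Finset.prod_pos fun w _ => pow_pos (norm_pos_iff.mpr (by simpa using hmK)) 2
  refine ⟨(∏ w : InfinitePlace K, ‖w.embedding (m : K)‖ ^ 2)⁻¹, inv_pos.mpr hpos, fun q hq hqv => ?_⟩
  obtain ⟨y, hy⟩ := HeightOneSpectrum.mem_integers_of_valuation_le_one (R := 𝓞 K) K ((m : K) * q)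
    fun v => by
      rw [← valued_loc, map_mul, map_mul]
      refine (mul_le_mul' (hmv v) (hqv v)).trans (le_of_eq ?_)
      rw [← exp_add, neg_add_cancel, exp_zero]
  have hy0 : y ≠ 0 := fun h => by
    rw [h, map_zero] at hy
    exact mul_ne_zero hmK hq hy.symm
  have h1 : (1 : ℝ) ≤ ∏ w : InfinitePlace K, ‖w.embedding (y : K)‖ ^ 2 := by
    have h2 := InfinitePlace.prod_eq_abs_norm (y : K)
    simp only [IsTotallyComplex.mult_eq] at h2
    simp only [InfinitePlace.norm_embedding_eq]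
    rw [h2]
    have h3 : (Algebra.norm ℚ (y : K)) = ((Algebra.norm ℤ y : ℤ) : ℚ) :=
      (Algebra.coe_norm_int y).symm
    have h4 : 1 ≤ |Algebra.norm ℤ y| := Int.one_le_abs (by rwa [Ne, Algebra.norm_eq_zero_iff])
    rw [h3]
    exact_mod_cast h4
  rw [inv_le_iff_one_le_mul₀' hpos]
  refine h1.trans_eq ?_
  rw [← Finset.prod_mul_distrib]
  refine Finset.prod_congr rfl fun w _ => ?_
  change ‖w.embedding (algebraMap (𝓞 K) K y)‖ ^ 2 = _
  rw [hy, map_mul, norm_mul, mul_pow]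

theorem exists_map_eq_of_mem_congrSubgroup {𝔫 : Ideal (𝓞 K)} {u : GAf K}
    (hu : u ∈ congrSubgroup 𝔫) :
    ∃ k : GL (Fin 2) (IntAd K), Matrix.GeneralLinearGroup.map intToAdele k = u := by
  obtain ⟨k, -, hk⟩ := Subgroup.mem_map.mp hu
  exact ⟨k, hk⟩

/-- Between fixed cosets the ratio of the determinant and the square of the scale of a primitive
bottom row has bounded denominators. -/
theorem exists_ratio_bound (𝔫 : Ideal (𝓞 K)) (D : Finset (GAf K)) :
    ∃ e : HeightOneSpectrum (𝓞 K) → ℕ, (∀ᶠ v in cofinite, e v = 0) ∧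
      ∀ g ∈ D, ∀ g' ∈ D, ∀ γ : GL (Fin 2) K,
        ((rationalMat γ * g : GAf K) : Cosets 𝔫) = (g' : Cosets 𝔫) →
        ∀ (δ : K) (c d : 𝓞 K), δ ≠ 0 → γ 1 0 = δ * (c : K) → γ 1 1 = δ * (d : K) →
          ∀ v : HeightOneSpectrum (𝓞 K),
            Valued.v (loc v ((γ : Matrix (Fin 2) (Fin 2) K).det / δ ^ 2)) ≤ exp (e v : ℤ) := by
  classical
  let F : Finset (Adf K) := D.biUnion fun g =>
    ((Finset.univ : Finset (Fin 2 × Fin 2)).image fun p => g p.1 p.2) ∪
    ((Finset.univ : Finset (Fin 2 × Fin 2)).image fun p => (g⁻¹ : GAf K) p.1 p.2) ∪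
    {(g : Matrix (Fin 2) (Fin 2) (Adf K)).det,
      ((g⁻¹ : GAf K) : Matrix (Fin 2) (Fin 2) (Adf K)).det}
  obtain ⟨e, he, hF⟩ := exists_exp_bound F
  refine ⟨fun v => 6 * e v, by filter_upwards [he] with v hv; simp [hv], ?_⟩
  intro g hg g' hg' γ hq δ c d hδ h10 h11 v
  set E : WithZero (Multiplicative ℤ) := exp (e v : ℤ)
  have hmemF : ∀ h ∈ D, (∀ i j, Valued.v ((h i j) v) ≤ E) ∧
      (∀ i j, Valued.v (((h⁻¹ : GAf K) i j) v) ≤ E) ∧
      Valued.v ((h : Matrix (Fin 2) (Fin 2) (Adf K)).det v) ≤ E ∧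
      Valued.v (((h⁻¹ : GAf K) : Matrix (Fin 2) (Fin 2) (Adf K)).det v) ≤ E := fun h hh => by
    refine ⟨fun i j => hF _ ?_ v, fun i j => hF _ ?_ v, hF _ ?_ v, hF _ ?_ v⟩ <;>
      simp only [F, Finset.mem_biUnion, Finset.mem_union, Finset.mem_image, Finset.mem_insert,
        Finset.mem_singleton, Finset.mem_univ, true_and]
    exacts [⟨h, hh, Or.inl (Or.inl ⟨(i, j), rfl⟩)⟩, ⟨h, hh, Or.inl (Or.inr ⟨(i, j), rfl⟩)⟩,
      ⟨h, hh, Or.inr (Or.inl rfl)⟩, ⟨h, hh, Or.inr (Or.inr rfl)⟩]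
  obtain ⟨hgE, -, -, hgdi⟩ := hmemF g hg
  obtain ⟨-, hgi', hgd', -⟩ := hmemF g' hg'
  obtain ⟨u, hu, z, hz, huz⟩ := (Subgroup.mem_sup_of_normal_right (s := congrSubgroup 𝔫)
    (t := Subgroup.center (GAf K))).mp (QuotientGroup.eq.mp hq)
  rw [Matrix.GeneralLinearGroup.center_eq_range_scalar] at hz
  obtain ⟨z, rfl⟩ := hz
  obtain ⟨k, rfl⟩ := exists_map_eq_of_mem_congrSubgroup hu
  set U : GAf K := Matrix.GeneralLinearGroup.map intToAdele k
  have heq : g' = rationalMat γ * g * U * Matrix.GeneralLinearGroup.scalar (Fin 2) z := by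
    rw [mul_assoc _ U, huz, mul_inv_cancel_left]
  have hU : ∀ i j, Valued.v ((U i j) v) ≤ 1 := fun i j => ((k i j) v).2
  set a : WithZero (Multiplicative ℤ) := Valued.v (loc v δ) * Valued.v ((z : Adf K) v)
  have hentry : ∀ j, (g' 1 j) v =
      ∑ i, (loc v (γ 1 0) * (g 0 i) v + loc v (γ 1 1) * (g 1 i) v) * (U i j) v * (z : Adf K) v := by
    intro j
    rw [heq]
    simp only [Matrix.GeneralLinearGroup.coe_mul,
      show ((Matrix.GeneralLinearGroup.scalar (Fin 2) z : GAf K) : Matrix (Fin 2) (Fin 2) (Adf K)) =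
        Matrix.diagonal fun _ => (z : Adf K) from rfl, Matrix.mul_diagonal]
    simp only [rationalMat, Matrix.mul_apply, Fin.sum_univ_two, Matrix.GeneralLinearGroup.map_apply,
      adele_add_apply, adele_mul_apply, adele_algebraMap_apply]
    ring
  have hint : ∀ x : 𝓞 K, Valued.v (loc v (x : K)) ≤ 1 := fun x => by
    rw [valued_loc, HeightOneSpectrum.valuation_of_algebraMap]; exact v.intValuation_le_one x
  have hrow : ∀ j, Valued.v ((g' 1 j) v) ≤ a * E := fun j => by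
    rw [hentry]
    refine Valuation.map_sum_le _ fun i _ => ?_
    rw [h10, h11, map_mul (loc v), map_mul (loc v), mul_assoc (loc v δ), mul_assoc (loc v δ),
      ← mul_add, map_mul, map_mul, map_mul]
    have h1 : Valued.v (loc v (c : K) * (g 0 i) v + loc v (d : K) * (g 1 i) v) ≤ E := by
      refine (Valuation.map_add _ _ _).trans (max_le ?_ ?_) <;> rw [map_mul]
      · exact (mul_le_mul' (hint c) (hgE 0 i)).trans_eq (one_mul _)
      · exact (mul_le_mul' (hint d) (hgE 1 i)).trans_eq (one_mul _)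
    refine (mul_le_mul' (mul_le_mul' (mul_le_mul' le_rfl h1) (hU i j)) le_rfl).trans_eq ?_
    rw [mul_one, mul_right_comm]
  have hone : 1 ≤ a * (E * E) := by
    have h := congrArg (fun M : Matrix (Fin 2) (Fin 2) (Adf K) => M 1 1 v) g'.mul_inv
    simp only [Matrix.mul_apply, Fin.sum_univ_two, adele_add_apply, adele_mul_apply,
      Matrix.one_apply_eq, adele_one_apply] at h
    have h' := congrArg Valued.v h
    rw [map_one] at h'
    rw [← h', ← mul_assoc]
    refine (Valuation.map_add _ _ _).trans (max_le ?_ ?_) <;> rw [map_mul] <;>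
      exact mul_le_mul' (hrow _) (hgi' _ _)
  have ha : a ≠ 0 := fun h0 => by
    rw [h0, zero_mul] at hone
    exact one_ne_zero (le_zero_iff.mp hone)
  have hdet : (g' : Matrix (Fin 2) (Fin 2) (Adf K)).det v =
      loc v (γ : Matrix (Fin 2) (Fin 2) K).det * (g : Matrix (Fin 2) (Fin 2) (Adf K)).det v *
        (U : Matrix (Fin 2) (Fin 2) (Adf K)).det v * ((z : Adf K) v * (z : Adf K) v) := by
    rw [heq]
    simp only [Matrix.GeneralLinearGroup.coe_mul, Matrix.det_mul,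
      show ((Matrix.GeneralLinearGroup.scalar (Fin 2) z : GAf K) : Matrix (Fin 2) (Fin 2) (Adf K)) =
        Matrix.diagonal fun _ => (z : Adf K) from rfl, Matrix.det_diagonal, Fin.prod_univ_two,
      adele_mul_apply,
      show (rationalMat γ : Matrix (Fin 2) (Fin 2) (Adf K)) =
        (γ : Matrix (Fin 2) (Fin 2) K).map (algebraMap K (Adf K)) from rfl,
      ← RingHom.mapMatrix_apply, ← RingHom.map_det, adele_algebraMap_apply]
  have hU1 : Valued.v ((U : Matrix (Fin 2) (Fin 2) (Adf K)).det v) = 1 := by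
    change Valued.v ((((k : GL (Fin 2) (IntAd K)) : Matrix (Fin 2) (Fin 2) (IntAd K)).map
      intToAdele).det v) = 1
    rw [← RingHom.mapMatrix_apply, ← RingHom.map_det]
    exact HeightOneSpectrum.adicCompletionIntegers.isUnit_iff_valued_eq_one.mp
      ((Matrix.GeneralLinearGroup.det k).isUnit.map
        (Pi.evalRingHom (fun v : HeightOneSpectrum (𝓞 K) => v.adicCompletionIntegers K) v))
  have hgg : Valued.v ((g : Matrix (Fin 2) (Fin 2) (Adf K)).det v) *
      Valued.v (((g⁻¹ : GAf K) : Matrix (Fin 2) (Fin 2) (Adf K)).det v) = 1 := by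
    rw [← map_mul, ← adele_mul_apply, ← Matrix.det_mul, ← Matrix.GeneralLinearGroup.coe_mul,
      mul_inv_cancel, Units.val_one, Matrix.det_one, adele_one_apply, map_one]
  have hkey : Valued.v (loc v (γ : Matrix (Fin 2) (Fin 2) K).det) *
      (Valued.v ((z : Adf K) v) * Valued.v ((z : Adf K) v)) =
      Valued.v ((g' : Matrix (Fin 2) (Fin 2) (Adf K)).det v) *
        Valued.v (((g⁻¹ : GAf K) : Matrix (Fin 2) (Fin 2) (Adf K)).det v) := by
    rw [hdet, map_mul, map_mul, map_mul, map_mul, hU1, mul_one]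
    rw [mul_right_comm _ (Valued.v ((z : Adf K) v) * _), mul_assoc (Valued.v (loc v _)), hgg, mul_one]
  have hinv : a⁻¹ ≤ E * E := (inv_le_iff_one_le_mul₀' (zero_lt_iff.mpr ha)).mpr hone
  have hzv : Valued.v ((z : Adf K) v) ≠ 0 := fun h0 => ha (by simp [a, h0])
  have hδv : Valued.v (loc v δ) ≠ 0 := fun h0 => ha (by simp [a, h0])
  have hval : Valued.v (loc v ((γ : Matrix (Fin 2) (Fin 2) K).det / δ ^ 2)) =
      Valued.v ((g' : Matrix (Fin 2) (Fin 2) (Adf K)).det v) *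
        Valued.v (((g⁻¹ : GAf K) : Matrix (Fin 2) (Fin 2) (Adf K)).det v) * (a⁻¹ * a⁻¹) := by
    rw [← hkey, map_div₀, map_pow, map_div₀, map_pow]
    simp only [a, mul_inv]
    field_simp
  rw [hval]
  refine (mul_le_mul' (mul_le_mul' hgd' hgdi) (mul_le_mul' hinv hinv)).trans_eq ?_
  simp only [E, ← exp_add]
  congr 1
  push_cast
  ring

variable [IsTotallyComplex K]

/-- Integral translations bring the horizontal coordinates to a bounded set. -/
theorem exists_translation {m : 𝓞 K} (hm : m ≠ 0) :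
    ∃ R : ℝ, ∀ z : InfinitePlace K → ℂ, ∃ β ∈ Ideal.span {m},
      ∀ w : InfinitePlace K, ‖z w + w.embedding ((β : 𝓞 K) : K)‖ ≤ R := by
  classical
  set b := Minkowski.eBasis K
  set C := ∑ i, ‖b i‖
  refine ⟨(∑ w : InfinitePlace K, ‖w.embedding (m : K)‖) * C, fun z => ?_⟩
  set y : Minkowski.ESpace K := fun w => z w / w.embedding (m : K)
  have hy : ∀ q ∈ Submodule.span ℤ (Set.range b), ∃ r : 𝓞 K, q = Minkowski.phi K (r : K) := by
    intro q hq
    induction hq using Submodule.span_induction with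
    | mem u hu =>
      obtain ⟨i, rfl⟩ := hu
      exact ⟨RingOfIntegers.basis K i, by simp [b, Minkowski.eBasis_apply]⟩
    | zero => exact ⟨0, by simp⟩
    | add u v _ _ hu hv =>
      obtain ⟨r, rfl⟩ := hu
      obtain ⟨r', rfl⟩ := hv
      exact ⟨r + r', by simp⟩
    | smul n u _ hu =>
      obtain ⟨r, rfl⟩ := hu
      exact ⟨n • r, by simp⟩
  obtain ⟨r, hr⟩ := hy _ (ZSpan.floor b y).2
  refine ⟨-(r * m), neg_mem (Ideal.mem_span_singleton'.mpr ⟨r, rfl⟩), fun w => ?_⟩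
  have hm0 : w.embedding (m : K) ≠ 0 := by simpa using hm
  have hfr : ‖y w - w.embedding (r : K)‖ ≤ C := by
    have h2 : ‖ZSpan.fract b y‖ ≤ C := ZSpan.norm_fract_le b y
    have h3 := (norm_le_pi_norm (ZSpan.fract b y) w).trans h2
    rwa [ZSpan.fract_apply, hr] at h3
  have heq : z w + w.embedding ((-(r * m) : 𝓞 K) : K) =
      w.embedding (m : K) * (y w - w.embedding (r : K)) := by
    push_cast
    simp only [y, map_neg, map_mul, mul_sub, mul_div_cancel₀ _ hm0]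
    ring
  rw [heq, norm_mul]
  exact mul_le_mul (Finset.single_le_sum (f := fun w : InfinitePlace K => ‖w.embedding (m : K)‖)
    (fun _ _ => norm_nonneg _) (Finset.mem_univ w)) hfr (norm_nonneg _)
    (Finset.sum_nonneg fun _ _ => norm_nonneg _)

/-- **Reduction theory.** A Siegel set over finitely many cosets meets every orbit. -/
theorem exists_siegel {𝔫 : Ideal (𝓞 K)} (h : 𝔫 ≠ ⊥) :
    ∃ (D : Set (Cosets 𝔫)) (c R : ℝ), D.Finite ∧ 0 < c ∧ 0 < R ∧
      ∀ y : YSpace 𝔫, ∃ γ : PGL(2, K), (γ • y).2 ∈ D ∧ (γ • y).1 ∈ siegelInf c R := by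
  classical
  obtain ⟨D, hD, hDr⟩ := exists_finite_coset_reps h
  obtain ⟨C, hC⟩ := Minkowski.exists_short_row K
  obtain ⟨e, he, hratio⟩ := exists_ratio_bound 𝔫 hD.toFinset
  obtain ⟨c₀, hc₀, hnorm⟩ := exists_norm_lower e he
  obtain ⟨f, hf, hfix⟩ := exists_fix_exp h hD.toFinset
  obtain ⟨m, hm, hmv⟩ := exists_int_small f hf
  obtain ⟨Rb, hRb⟩ := Balance.exists_balancing_unit K (𝔫 := Ideal.span {m}) (by simpa using hm)
  obtain ⟨Rz, hRz⟩ := exists_translation (K := K) hm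
  set n := Fintype.card (InfinitePlace K) with hn
  set C' := |C| + 1 with hC'def
  set c₁ := c₀ / (C' ^ 2) ^ n with hc₁
  refine ⟨(fun g : GAf K => (g : Cosets 𝔫)) '' D, Real.exp (Real.log c₁ / 2 / n - Rb),
    max |Rz| (Real.exp (2 * Rb)), hD.image _, Real.exp_pos _,
    (Real.exp_pos _).trans_le (le_max_right _ _), ?_⟩
  rintro ⟨x, q⟩
  induction q using QuotientGroup.induction_on with | H g => ?_
  obtain ⟨γ₁, d₁, hγ₁, hd₁, hg⟩ := hDr g
  set x₁ := infAct γ₁⁻¹ x with hx₁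
  have hy₁ : Matrix.ProjGenLinGroup.mk γ₁⁻¹ • ((x, (g : Cosets 𝔫)) : YSpace 𝔫) =
      (x₁, (d₁ : Cosets 𝔫)) := by
    rw [mk_smul, hg]
    refine Prod.ext rfl ?_
    change ((rationalMat γ₁⁻¹ * (rationalMat γ₁ * d₁) : GAf K) : Cosets 𝔫) = _
    rw [map_inv, inv_mul_cancel_left]
  -- the short row and a matrix with this bottom row
  obtain ⟨c, d, hcd, hrow⟩ := hC x₁
  obtain ⟨γ₂, h20, h21⟩ : ∃ γ₂ : GL (Fin 2) K, γ₂ 1 0 = (c : K) ∧ γ₂ 1 1 = (d : K) := by
    by_cases hc : c = 0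
    · have hd : (d : K) ≠ 0 := by simpa using hcd.resolve_left (not_not.mpr hc)
      exact ⟨Matrix.GeneralLinearGroup.mkOfDetNeZero !![1, 0; (c : K), (d : K)]
        (by simp [Matrix.det_fin_two, hd]), rfl, rfl⟩
    · have hc' : (c : K) ≠ 0 := by simpa using hc
      exact ⟨Matrix.GeneralLinearGroup.mkOfDetNeZero !![0, 1; (c : K), (d : K)]
        (by simp [Matrix.det_fin_two, hc']), rfl, rfl⟩
  obtain ⟨γ₃, d₂, hγ₃, hd₂, hg₂⟩ := hDr (rationalMat γ₂ * d₁)
  set γ := γ₃⁻¹ * γ₂ with hγ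
  have hq : ((rationalMat γ * d₁ : GAf K) : Cosets 𝔫) = (d₂ : Cosets 𝔫) := by
    have h1 : rationalMat γ₃⁻¹ • ((rationalMat γ₂ * d₁ : GAf K) : Cosets 𝔫) =
        rationalMat γ₃⁻¹ • ((rationalMat γ₃ * d₂ : GAf K) : Cosets 𝔫) := congrArg _ hg₂
    change ((rationalMat γ₃⁻¹ * (rationalMat γ₂ * d₁) : GAf K) : Cosets 𝔫) =
      ((rationalMat γ₃⁻¹ * (rationalMat γ₃ * d₂) : GAf K) : Cosets 𝔫) at h1
    rwa [← mul_assoc, ← map_mul, map_inv, inv_mul_cancel_left] at h1
  set δ := (γ₃⁻¹ : GL (Fin 2) K) 1 1 with hδ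
  have h30 : (γ₃⁻¹ : GL (Fin 2) K) 1 0 = 0 := by
    have h1 := congrArg (fun M : Matrix (Fin 2) (Fin 2) K => M 1 0) γ₃.inv_mul
    simp only [Matrix.mul_apply, Fin.sum_univ_two, hγ₃, mul_zero, add_zero,
      Matrix.one_apply_ne (show (1 : Fin 2) ≠ 0 by decide)] at h1
    refine (mul_eq_zero.mp h1).resolve_right fun h00 => γ₃.det_ne_zero ?_
    rw [Matrix.det_fin_two, hγ₃, h00]
    ring
  have hδ0 : δ ≠ 0 := fun h0 => (γ₃⁻¹ : GL (Fin 2) K).det_ne_zero (by
    rw [Matrix.det_fin_two, h30, ← hδ, h0]; ring)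
  have h10 : γ 1 0 = δ * (c : K) := by
    simp [hγ, Matrix.mul_apply, Fin.sum_univ_two, h30, ← h20, hδ, -Matrix.coe_units_inv]
  have h11 : γ 1 1 = δ * (d : K) := by
    simp [hγ, Matrix.mul_apply, Fin.sum_univ_two, h30, ← h21, hδ, -Matrix.coe_units_inv]
  set qq := (γ : Matrix (Fin 2) (Fin 2) K).det / δ ^ 2 with hqq
  have hq0 : qq ≠ 0 := div_ne_zero γ.det_ne_zero (pow_ne_zero _ hδ0)
  have hcN := hnorm qq hq0 (hratio d₁ (hD.mem_toFinset.mpr hd₁) d₂ (hD.mem_toFinset.mpr hd₂) γ hq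
    δ c d hδ0 h10 h11)
  set x₂ := infAct γ x₁ with hx₂
  have hC'1 : 0 < C' := by positivity
  have ht : ∀ w, ‖w.embedding qq‖ / C' ≤ (x₂ w).t := by
    intro w
    have hden : H3.den (Matrix.GeneralLinearGroup.map w.embedding γ) (x₁ w) ≤
        ‖w.embedding δ‖ ^ 2 * (C' * (x₁ w).t) := by
      simp only [H3.den, Matrix.GeneralLinearGroup.map_apply, h10, h11, map_mul, mul_assoc,
        ← mul_add]
      rw [Complex.normSq_eq_norm_sq]
      refine mul_le_mul_of_nonneg_left ((hrow w).trans ?_) (sq_nonneg _)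
      exact mul_le_mul_of_nonneg_right (by linarith [le_abs_self C]) (x₁ w).t_pos.le
    have hpos : 0 < ‖w.embedding δ‖ := norm_pos_iff.mpr (by simpa using hδ0)
    have hdetw : ((Matrix.GeneralLinearGroup.map w.embedding γ : GL (Fin 2) ℂ) :
        Matrix (Fin 2) (Fin 2) ℂ).det = w.embedding (γ : Matrix (Fin 2) (Fin 2) K).det :=
      (RingHom.map_det w.embedding _).symm
    change _ ≤ ‖((Matrix.GeneralLinearGroup.map w.embedding γ : GL (Fin 2) ℂ) :
        Matrix (Fin 2) (Fin 2) ℂ).det‖ * (x₁ w).t / H3.den _ (x₁ w)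
    rw [hdetw]
    refine le_trans (le_of_eq ?_)
      (div_le_div_of_nonneg_left (mul_nonneg (norm_nonneg _) (x₁ w).t_pos.le) (H3.den_pos _ _) hden)
    have := (x₁ w).t_pos.ne'
    simp only [hqq, map_div₀, map_pow, norm_div, norm_pow]
    field_simp
  have hprod : c₁ ≤ ∏ w, (x₂ w).t ^ 2 := by
    refine le_trans ?_ (Finset.prod_le_prod (fun w _ => sq_nonneg _)
      (fun w _ => pow_le_pow_left₀ (div_nonneg (norm_nonneg _) hC'1.le) (ht w) 2))
    simp only [div_pow, Finset.prod_div_distrib, Finset.prod_const, Finset.card_univ, hc₁, hn]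
    gcongr
  -- balance
  obtain ⟨ε, hε, hbal⟩ := hRb fun w => Real.log (x₂ w).t
  set μ := (∑ u, Real.log (x₂ u).t) / (n : ℝ) with hμ
  set εK : Kˣ := Units.map (algebraMap (𝓞 K) K).toMonoidHom ε
  set x₃ := infAct (upperTri εK 0 1) x₂ with hx₃
  have ht₃ : ∀ w, |Real.log (x₃ w).t - μ| ≤ Rb := fun w => by
    rw [hx₃, (infAct_upperTri εK 0 x₂ w).2, Real.log_mul (norm_ne_zero_iff.mpr (by simp))
      (x₂ w).t_pos.ne', add_comm]
    exact hbal w
  have hμlow : Real.log c₁ / 2 / n ≤ μ := by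
    have hc₁0 : 0 < c₁ := by positivity
    have h1 := Real.log_le_log hc₁0 hprod
    rw [Real.log_prod (fun w _ => pow_ne_zero _ (x₂ w).t_pos.ne')] at h1
    simp only [Real.log_pow, Nat.cast_ofNat, ← Finset.mul_sum] at h1
    rw [hμ]
    exact div_le_div_of_nonneg_right (by linarith) (Nat.cast_nonneg _)
  -- translate
  obtain ⟨β, hβ, hz⟩ := hRz fun w => (x₃ w).z
  set x₄ := infAct (upperTri 1 (β : K) 1) x₃ with hx₄
  have hεN : IsNearOne f (rationalMat (upperTri εK 0 1)) := by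
    have h1 : algebraMap K (Adf K) (((ε : 𝓞 K) : K) - 1) ∈ smallAdeles f := by
      simpa using algebraMap_mem_smallAdeles hmv hε
    have h2 : algebraMap K (Adf K) (((ε⁻¹ : (𝓞 K)ˣ) : 𝓞 K) : K) - 1 ∈ smallAdeles f := by
      have h3 : ((ε⁻¹ : (𝓞 K)ˣ) : 𝓞 K) - 1 ∈ Ideal.span {m} := by
        rw [show ((ε⁻¹ : (𝓞 K)ˣ) : 𝓞 K) - 1 = -((ε⁻¹ : (𝓞 K)ˣ) : 𝓞 K) * ((ε : 𝓞 K) - 1) by
          rw [mul_sub, neg_mul, Units.inv_mul, mul_one]; ring]
        exact Ideal.mul_mem_left _ _ hε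
      simpa using algebraMap_mem_smallAdeles hmv h3
    rw [map_sub, map_one] at h1
    have h2' : algebraMap K (Adf K) (algebraMap (𝓞 K) K (ε : 𝓞 K))⁻¹ - 1 ∈ smallAdeles f := by
      rw [← map_units_inv (algebraMap (𝓞 K) K) ε]
      exact h2
    refine ⟨fun i j => ?_, fun i j => ?_⟩
    · rw [rationalMat_upperTri]
      fin_cases i <;> fin_cases j <;> simp [upperTri, εK, h1]
    · rw [rationalMat_upperTri, upperTri_inv, ← map_inv, ← map_inv]
      fin_cases i <;> fin_cases j <;> simp [upperTri, h2', -map_inv, ← map_inv]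
  have hβN : IsNearOne f (rationalMat (upperTri 1 (β : K) 1)) := by
    rw [rationalMat_upperTri, map_one]
    exact isNearOne_upperUni (algebraMap_mem_smallAdeles hmv hβ)
  refine ⟨Matrix.ProjGenLinGroup.mk (upperTri 1 (β : K) 1) *
    (Matrix.ProjGenLinGroup.mk (upperTri εK 0 1) *
      (Matrix.ProjGenLinGroup.mk γ * Matrix.ProjGenLinGroup.mk γ₁⁻¹)), ?_⟩
  have hfinal : (Matrix.ProjGenLinGroup.mk (upperTri 1 (β : K) 1) *
    (Matrix.ProjGenLinGroup.mk (upperTri εK 0 1) *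
      (Matrix.ProjGenLinGroup.mk γ * Matrix.ProjGenLinGroup.mk γ₁⁻¹))) •
        ((x, (g : Cosets 𝔫)) : YSpace 𝔫) = (x₄, (d₂ : Cosets 𝔫)) := by
    rw [mul_smul, mul_smul, mul_smul, hy₁, mk_smul, mk_smul, mk_smul]
    refine Prod.ext rfl ?_
    change rationalMat _ • rationalMat _ • ((rationalMat γ * d₁ : GAf K) : Cosets 𝔫) = _
    rw [hq]
    have hmem := hD.mem_toFinset.mpr hd₂
    change rationalMat _ • ((rationalMat (upperTri εK 0 1) * d₂ : GAf K) : Cosets 𝔫) = _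
    rw [hfix _ hεN _ hmem]
    exact hfix _ hβN _ hmem
  rw [hfinal]
  refine ⟨⟨d₂, hd₂, rfl⟩, fun w => ?_⟩
  have ht₄ : ∀ u, (x₄ u).t = (x₃ u).t := fun u => by
    rw [hx₄, (infAct_upperTri 1 (β : K) x₃ u).2]; simp
  refine ⟨?_, ?_, fun u => ?_⟩
  · rw [hx₄, (infAct_upperTri 1 (β : K) x₃ w).1, Units.val_one, map_one, one_mul]
    exact ((hz w).trans (le_abs_self _)).trans (le_max_left _ _)
  · rw [ht₄, ← Real.exp_log (x₃ w).t_pos, Real.exp_le_exp]
    linarith [(abs_le.mp (ht₃ w)).1]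
  · rw [ht₄, ht₄]
    refine le_trans ?_ (mul_le_mul_of_nonneg_right (le_max_right _ _) (x₃ u).t_pos.le)
    rw [← Real.exp_log (x₃ w).t_pos, ← Real.exp_log (x₃ u).t_pos, ← Real.exp_add, Real.exp_le_exp]
    linarith [(abs_le.mp (ht₃ w)).2, (abs_le.mp (ht₃ u)).1]

end FermatAgent.LT
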