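import Mathlib
import Fermat.Agent.LT.Base.BallInt
import Fermat.Agent.LT.Base.Quotient
import Fermat.Agent.LT.Base.Cosets
import Fermat.Agent.LT.Lift.Space

set_option autoImplicit false

/-!
# Topology and invariant measures of `H3` and of the space `XInf × Cosets`
-/

noncomputable section

open MeasureTheory NumberField IsDedekindDomain
open scoped ENNReal MatrixGroups

namespace FermatAgent.LT

namespace H3

/-- The identification of the two models. -/
def toLift (P : H3) : Lift.H3 := ⟨P.z, P.t, P.t_pos⟩

theorem toLift_smul (g : GL (Fin 2) ℂ) (P : H3) : toLift (g • P) = g • toLift P := by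
  refine Lift.H3.ext ?_ ?_
  · rw [Lift.z_smul]; rfl
  · rw [Lift.t_smul]; rfl

/-- The identification as a measurable equivalence. -/
def liftEquiv : H3 ≃ᵐ Lift.H3 where
  toFun := toLift
  invFun p := ⟨p.z, p.t, p.t_pos⟩
  left_inv _ := rfl
  right_inv _ := rfl
  measurable_toFun := measurable_comap_iff.mpr measurable_coords
  measurable_invFun := measurable_comap_iff.mpr (comap_measurable Lift.H3.coord)

theorem isOpenEmbedding_coords : Topology.IsOpenEmbedding coords :=
  ⟨⟨⟨rfl⟩, coords_injective⟩, by
    rw [range_coords]; exact isOpen_lt continuous_const continuous_snd⟩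

instance : BorelSpace H3 := ⟨by
  show MeasurableSpace.comap coords _ = _
  rw [BorelSpace.measurable_eq (α := ℂ × ℝ)]
  exact borel_comap.symm⟩

instance : SecondCountableTopology H3 :=
  TopologicalSpace.secondCountableTopology_induced H3 (ℂ × ℝ) coords

instance : T2Space H3 := isOpenEmbedding_coords.isEmbedding.t2Space

instance : LocallyCompactSpace H3 := isOpenEmbedding_coords.locallyCompactSpace

theorem continuous_coord_z : Continuous H3.z := continuous_fst.comp continuous_coords

theorem continuous_coord_t : Continuous H3.t := continuous_snd.comp continuous_coords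

theorem continuous_h3_smul (g : GL (Fin 2) ℂ) : Continuous fun P : H3 => g • P := by
  have h : Continuous fun P : H3 => (g • toLift P).coord :=
    Lift.isOpenEmbedding_coord.continuous.comp ((Lift.continuous_smul_h3 g).comp
      ((Topology.IsInducing.continuous_iff ⟨rfl⟩).mpr continuous_coords))
  refine (Topology.IsInducing.continuous_iff (g := coords) ⟨rfl⟩).mpr (h.congr fun P => ?_)
  rw [← toLift_smul]
  rfl

instance : ContinuousConstSMul (GL (Fin 2) ℂ) H3 := ⟨continuous_h3_smul⟩

theorem vol_eq {s : Set H3} (hs : MeasurableSet s) :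
    vol s = ∫⁻ x in coords '' s, ENNReal.ofReal (x.2 ^ 3)⁻¹ := by
  rw [vol, measurableEmbedding_coords.comap_apply,
    withDensity_apply _ (measurableEmbedding_coords.measurableSet_image.mpr hs)]

theorem map_toLift_vol : Measure.map liftEquiv vol = volume := by
  refine Measure.ext fun s hs => ?_
  rw [MeasurableEquiv.map_apply, vol_eq (liftEquiv.measurable hs), Lift.measure_eq hs]
  have : coords '' (liftEquiv ⁻¹' s) = Lift.H3.coord '' s := by
    rw [← Set.image_preimage_eq s liftEquiv.surjective, Set.image_image,
      Set.image_preimage_eq s liftEquiv.surjective]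
    rfl
  rw [this]
  refine lintegral_congr fun x => ?_
  rw [Lift.dens, one_div]
  rfl

theorem measurePreserving_liftEquiv : MeasurePreserving liftEquiv vol volume :=
  ⟨liftEquiv.measurable, map_toLift_vol⟩

theorem measurePreserving_h3_smul (g : GL (Fin 2) ℂ) :
    MeasurePreserving (fun P : H3 => g • P) vol vol := by
  have h := (measurePreserving_liftEquiv.symm liftEquiv).comp
    ((Lift.mem_preserving g).comp measurePreserving_liftEquiv)
  have he : (fun P : H3 => g • P) =
      liftEquiv.symm ∘ (fun p : Lift.H3 => g • p) ∘ liftEquiv := funext fun P => by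
    change g • P = liftEquiv.symm (g • toLift P)
    rw [← toLift_smul]
    rfl
  rw [he]
  exact h

instance : SigmaFinite vol :=
  (measurePreserving_liftEquiv.symm liftEquiv).map_eq ▸ liftEquiv.symm.sigmaFinite_map

end H3

variable {K : Type*} [Field K] [NumberField K]

omit [NumberField K] in
theorem continuous_infAct (γ : GL (Fin 2) K) : Continuous (infAct γ : XInf K → XInf K) :=
  continuous_pi fun w => (H3.continuous_h3_smul _).comp (continuous_apply w)

theorem measurePreserving_infAct (γ : GL (Fin 2) K) :
    MeasurePreserving (infAct γ : XInf K → XInf K)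
      (Measure.pi fun _ : InfinitePlace K => H3.vol) (Measure.pi fun _ : InfinitePlace K => H3.vol) :=
  measurePreserving_pi _ _ fun _ => H3.measurePreserving_h3_smul _

instance (𝔫 : Ideal (𝓞 K)) : MeasurableSingletonClass (Cosets 𝔫) := ⟨fun _ => trivial⟩

theorem measurePreserving_ySmul {𝔫 : Ideal (𝓞 K)} (h : 𝔫 ≠ ⊥) (γ : PGL(2, K)) :
    MeasurePreserving (fun y : YSpace 𝔫 => γ • y) (yVol 𝔫) (yVol 𝔫) := by
  have : Countable (Cosets 𝔫) := countable_cosets h
  induction γ using Matrix.ProjGenLinGroup.induction_on with | mk γ =>
  have h2 : MeasurePreserving (fun q : Cosets 𝔫 => rationalMat γ • q) Measure.count Measure.count := by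
    refine ⟨fun _ _ => MeasurableSpace.measurableSet_top, Measure.ext fun s hs => ?_⟩
    rw [Measure.map_apply (fun _ _ => MeasurableSpace.measurableSet_top) hs,
      Measure.count_apply MeasurableSpace.measurableSet_top, Measure.count_apply hs]
    congr 1
    exact Set.encard_preimage_of_bijective (MulAction.bijective (rationalMat γ)) s
  exact (measurePreserving_infAct γ).prod h2

theorem measurable_ySmul {𝔫 : Ideal (𝓞 K)} (h : 𝔫 ≠ ⊥) (γ : PGL(2, K)) :
    Measurable (fun y : YSpace 𝔫 => γ • y) := (measurePreserving_ySmul h γ).measurable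

instance : Countable (PGL(2, K)) := by
  have : Countable K := (Module.finBasis ℚ K).equivFun.toEquiv.injective.countable
  have : Countable (Matrix (Fin 2) (Fin 2) K) := inferInstanceAs (Countable (Fin 2 → Fin 2 → K))
  have : Countable (GL (Fin 2) K) := Units.val_injective.countable
  refine Function.Surjective.countable (f := Matrix.ProjGenLinGroup.mk) fun γ => ?_
  induction γ using Matrix.ProjGenLinGroup.induction_on with | mk γ => exact ⟨γ, rfl⟩

end FermatAgent.LT
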