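import Mathlib
import Fermat.Agent.LT.Base.Siegel
import Fermat.Agent.LT.Base.Space

set_option autoImplicit false

/-!
# A fundamental domain for `PGL₂(K)` of finite volume
-/

noncomputable section

open MeasureTheory NumberField IsDedekindDomain Filter TopologicalSpace
open scoped ENNReal MatrixGroups Pointwise

namespace FermatAgent.LT

namespace H3

/-- A matrix that is not scalar fixes a null set. -/
theorem vol_fixed_eq_zero (g : GL (Fin 2) ℂ)
    (hg : ¬(g 1 0 = 0 ∧ g 0 1 = 0 ∧ g 0 0 = g 1 1)) : vol {P : H3 | g • P = P} = 0 := by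
  rw [vol_eq (show MeasurableSet {P : H3 | g • P = P} from
    (isClosed_eq (continuous_h3_smul g) continuous_id).measurableSet)]
  refine setLIntegral_measure_zero _ _ ?_
  by_cases hc : g 1 0 = 0
  · have hdd : g 1 1 ≠ 0 := fun h => g.det_ne_zero (by rw [Matrix.det_fin_two, hc, h]; ring)
    by_cases had : g 0 0 = g 1 1
    · have hb : g 0 1 ≠ 0 := fun h => hg ⟨hc, h, had⟩
      refine measure_mono_null ?_ (measure_empty (μ := (volume : Measure (ℂ × ℝ))))
      rintro _ ⟨P, hP, rfl⟩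
      have hz := congrArg H3.z (show g • P = P from hP)
      rw [smul_def] at hz
      have hmul := act_z_mul g P
      rw [hz, den_coe, hc, had] at hmul
      simp only [zero_mul, zero_add, map_zero, mul_zero, add_zero] at hmul
      refine hb ?_
      have hcd : (starRingEnd ℂ) (g 1 1) ≠ 0 := by simpa using hdd
      have := mul_right_cancel₀ hcd ((mul_assoc _ _ _).trans hmul)
      linear_combination -this
    · refine measure_mono_null (t := {g 0 1 / (g 1 1 - g 0 0)} ×ˢ Set.univ) ?_ ?_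
      · rintro _ ⟨P, hP, rfl⟩
        have hz := congrArg H3.z (show g • P = P from hP)
        rw [smul_def] at hz
        have hmul := act_z_mul g P
        rw [hz, den_coe, hc] at hmul
        simp only [zero_mul, zero_add, map_zero, mul_zero, add_zero] at hmul
        have hcd : (starRingEnd ℂ) (g 1 1) ≠ 0 := by simpa using hdd
        have h1 := mul_right_cancel₀ hcd ((mul_assoc _ _ _).trans hmul)
        refine ⟨?_, trivial⟩
        rw [Set.mem_singleton_iff, eq_div_iff (sub_ne_zero.mpr (Ne.symm had))]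
        change P.z * _ = _
        linear_combination h1
      · rw [Measure.volume_eq_prod, Measure.prod_prod, measure_singleton, zero_mul]
  · set k := ‖(g : Matrix (Fin 2) (Fin 2) ℂ).det‖ with hk
    refine measure_mono_null (t := {p : ℂ × ℝ | Complex.normSq (g 1 0 * p.1 + g 1 1) +
      Complex.normSq (g 1 0) * p.2 ^ 2 = k}) ?_ ?_
    · rintro _ ⟨P, hP, rfl⟩
      have ht := congrArg H3.t (show g • P = P from hP)
      change den g P = k
      change k * P.t / den g P = P.t at ht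
      rw [div_eq_iff (den_pos g P).ne', mul_comm k] at ht
      exact (mul_left_cancel₀ P.t_pos.ne' ht).symm
    · have hclosed : IsClosed {p : ℂ × ℝ | Complex.normSq (g 1 0 * p.1 + g 1 1) +
          Complex.normSq (g 1 0) * p.2 ^ 2 = k} := by
        refine isClosed_eq ?_ continuous_const
        have := Complex.continuous_normSq
        fun_prop
      rw [Measure.volume_eq_prod, Measure.measure_prod_null hclosed.measurableSet]
      refine Eventually.of_forall fun z => ?_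
      set q := Real.sqrt ((k - Complex.normSq (g 1 0 * z + g 1 1)) / Complex.normSq (g 1 0))
      refine measure_mono_null (t := {q, -q}) ?_ ((Set.toFinite _).measure_zero _)
      intro t ht
      have hne : Complex.normSq (g 1 0) ≠ 0 := by simpa using hc
      have h2 : t ^ 2 = (k - Complex.normSq (g 1 0 * z + g 1 1)) / Complex.normSq (g 1 0) := by
        rw [eq_div_iff hne]
        have : Complex.normSq (g 1 0 * z + g 1 1) + Complex.normSq (g 1 0) * t ^ 2 = k := ht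
        linarith
      simp only [q, Set.mem_insert_iff, Set.mem_singleton_iff, ← h2, Real.sqrt_sq_eq_abs]
      rcases abs_choice t with h | h <;> rw [h] <;> simp

/-- A cusp box of finite volume. -/
theorem vol_cuspBox_lt_top {c : ℝ} (hc : 0 < c) (R : ℝ) :
    vol {P : H3 | ‖P.z‖ ≤ R ∧ c ≤ P.t} < ⊤ := by
  have hm : MeasurableSet {P : H3 | ‖P.z‖ ≤ R ∧ c ≤ P.t} :=
    ((isClosed_le continuous_coord_z.norm continuous_const).inter
      (isClosed_le continuous_const continuous_coord_t)).measurableSet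
  rw [vol_eq hm]
  refine (lintegral_mono_set (t := Metric.closedBall (0 : ℂ) R ×ˢ Set.Ici c) ?_).trans_lt ?_
  · rintro _ ⟨P, ⟨h1, h2⟩, rfl⟩
    exact ⟨by simpa [coords] using h1, h2⟩
  rw [Measure.volume_eq_prod, ← Measure.prod_restrict]
  have : ∫⁻ p : ℂ × ℝ, (fun _ : ℂ => (1 : ℝ≥0∞)) p.1 * (fun t : ℝ => ENNReal.ofReal (t ^ 3)⁻¹) p.2
      ∂((volume.restrict (Metric.closedBall (0 : ℂ) R)).prod (volume.restrict (Set.Ici c))) =
      (∫⁻ _ in Metric.closedBall (0 : ℂ) R, (1 : ℝ≥0∞)) *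
        ∫⁻ t in Set.Ici c, ENNReal.ofReal (t ^ 3)⁻¹ :=
    lintegral_prod_mul (f := fun _ : ℂ => (1 : ℝ≥0∞))
      (g := fun t : ℝ => ENNReal.ofReal (t ^ 3)⁻¹) aemeasurable_const
      (ENNReal.measurable_ofReal.comp (measurable_id.pow_const 3).inv).aemeasurable
  simp only [one_mul] at this
  rw [this, setLIntegral_one]
  refine ENNReal.mul_lt_top measure_closedBall_lt_top ?_
  rw [setLIntegral_congr Ioi_ae_eq_Ici.symm]
  refine (lintegral_mono_ae ?_).trans_lt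
    (integrableOn_Ioi_rpow_of_lt (by norm_num : (-3 : ℝ) < -1) hc).2
  filter_upwards [ae_restrict_mem measurableSet_Ioi] with t ht
  have ht0 : 0 < t := hc.trans ht
  rw [Real.enorm_eq_ofReal (Real.rpow_nonneg ht0.le _), Real.rpow_neg ht0.le]
  norm_num

end H3

variable {K : Type*} [Field K] [NumberField K]

omit [NumberField K] in
theorem isClosed_siegelInf (c R : ℝ) : IsClosed (siegelInf c R : Set (XInf K)) := by
  have hz : ∀ w, Continuous fun x : XInf K => (x w).z :=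
    fun w => H3.continuous_coord_z.comp (continuous_apply w)
  have ht : ∀ w, Continuous fun x : XInf K => (x w).t :=
    fun w => H3.continuous_coord_t.comp (continuous_apply w)
  simp only [siegelInf, Set.ofPred_forall, Set.ofPred_and]
  exact isClosed_iInter fun w => (isClosed_le (hz w).norm continuous_const).inter
    ((isClosed_le continuous_const (ht w)).inter
      (isClosed_iInter fun u => isClosed_le (ht w) (continuous_const.mul (ht u))))

theorem yVol_siegelProd_lt_top {c R : ℝ} (hc : 0 < c) {𝔫 : Ideal (𝓞 K)}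
    {D : Set (Cosets 𝔫)} (hD : D.Finite) (h : 𝔫 ≠ ⊥) : yVol 𝔫 (siegelInf c R ×ˢ D) < ⊤ := by
  have : Countable (Cosets 𝔫) := countable_cosets h
  rw [yVol, Measure.prod_prod]
  refine ENNReal.mul_lt_top ?_ (Measure.count_apply_lt_top.mpr hD)
  refine (measure_mono (t := Set.pi Set.univ fun _ : InfinitePlace K =>
    {P : H3 | ‖P.z‖ ≤ R ∧ c ≤ P.t}) fun x hx w _ => ⟨(hx w).1, (hx w).2.1⟩).trans_lt ?_
  rw [Measure.pi_pi]
  exact ENNReal.prod_lt_top fun w _ => H3.vol_cuspBox_lt_top hc R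

/-- Almost every point has trivial stabiliser. -/
theorem ae_free {𝔫 : Ideal (𝓞 K)} (h : 𝔫 ≠ ⊥) :
    ∀ᵐ y ∂(yVol 𝔫), ∀ γ : PGL(2, K), γ ≠ 1 → γ • y ≠ y := by
  have : Countable (Cosets 𝔫) := countable_cosets h
  rw [ae_all_iff]
  intro γ
  induction γ using Matrix.ProjGenLinGroup.induction_on with | mk γ =>
  by_cases h1 : Matrix.ProjGenLinGroup.mk γ = 1
  · exact Eventually.of_forall fun _ h => absurd h1 h
  obtain ⟨w⟩ : Nonempty (InfinitePlace K) := inferInstance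
  have hns : ¬((Matrix.GeneralLinearGroup.map w.embedding γ) 1 0 = 0 ∧
      (Matrix.GeneralLinearGroup.map w.embedding γ) 0 1 = 0 ∧
      (Matrix.GeneralLinearGroup.map w.embedding γ) 0 0 =
        (Matrix.GeneralLinearGroup.map w.embedding γ) 1 1) := by
    rintro ⟨ha, hb, hc⟩
    simp only [Matrix.GeneralLinearGroup.map_apply, map_eq_zero] at ha hb hc
    have hc' := w.embedding.injective hc
    have h00 : γ 0 0 ≠ 0 := fun h0 => γ.det_ne_zero (by rw [Matrix.det_fin_two, h0, hb]; ring)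
    refine h1 ?_
    rw [show γ = Matrix.GeneralLinearGroup.scalar (Fin 2) (Units.mk0 _ h00) by
      refine Units.ext (Matrix.ext fun i j => ?_)
      fin_cases i <;> fin_cases j <;>
        simp [Matrix.GeneralLinearGroup.scalar, Matrix.scalar_apply, ha, hb, ← hc'],
      Matrix.ProjGenLinGroup.mk_scalar]
  set N := {P : H3 | (Matrix.GeneralLinearGroup.map w.embedding γ) • P = P}
  have hN : (Measure.pi fun _ : InfinitePlace K => H3.vol) ((fun x : XInf K => x w) ⁻¹' N) = 0 :=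
    (Measure.quasiMeasurePreserving_eval (μ := fun _ : InfinitePlace K => H3.vol) w).preimage_null
      (H3.vol_fixed_eq_zero _ hns)
  rw [ae_iff]
  refine measure_mono_null (t := ((fun x : XInf K => x w) ⁻¹' N) ×ˢ Set.univ) ?_ ?_
  · rintro ⟨x, q⟩ hy
    simp only [Set.mem_ofPred_eq, Classical.not_imp, not_not, mk_smul] at hy
    exact ⟨congrFun (congrArg Prod.fst hy.2) w, trivial⟩
  · rw [yVol, Measure.prod_prod, hN, zero_mul]

/-- Every free point has a basic neighbourhood disjoint from its translates. -/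
theorem exists_separated {𝔫 : Ideal (𝓞 K)} (y : YSpace 𝔫)
    (hy : ∀ γ : PGL(2, K), γ ≠ 1 → γ • y ≠ y) :
    ∃ b ∈ countableBasis (XInf K), y.1 ∈ b ∧
      ∀ γ : PGL(2, K), γ ≠ 1 → ∀ x ∈ b, ¬((γ • ((x, y.2) : YSpace 𝔫)).1 ∈ b ∧
        (γ • ((x, y.2) : YSpace 𝔫)).2 = y.2) := by
  classical
  obtain ⟨x₀, d⟩ := y
  set R := 1 + ∑ w, (‖(x₀ w).z‖ + (x₀ w).t + 1 / (x₀ w).t) with hR
  have hbox : ∀ w, ‖(x₀ w).z‖ < R ∧ 1 / R < (x₀ w).t ∧ (x₀ w).t < R := by
    intro w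
    have hle := Finset.single_le_sum (f := fun w => ‖(x₀ w).z‖ + (x₀ w).t + 1 / (x₀ w).t)
      (fun u _ => add_nonneg (add_nonneg (norm_nonneg _) (x₀ u).t_pos.le)
        (one_div_nonneg.mpr (x₀ u).t_pos.le)) (Finset.mem_univ w)
    have h1 : 0 < 1 / (x₀ w).t := one_div_pos.mpr (x₀ w).t_pos
    refine ⟨by linarith [(x₀ w).t_pos], ?_, by linarith [norm_nonneg (x₀ w).z]⟩
    rw [one_div_lt (by linarith [(x₀ w).t_pos, norm_nonneg (x₀ w).z]) (x₀ w).t_pos]
    linarith [(x₀ w).t_pos, norm_nonneg (x₀ w).z]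
  set box : Set (XInf K) := {x | ∀ w, ‖(x w).z‖ < R ∧ 1 / R < (x w).t ∧ (x w).t < R}
  have hboxo : IsOpen box := by
    simp only [box, Set.ofPred_forall, Set.ofPred_and]
    exact isOpen_iInter_of_finite fun w =>
      (isOpen_lt (H3.continuous_coord_z.comp (continuous_apply w)).norm continuous_const).inter
        ((isOpen_lt continuous_const (H3.continuous_coord_t.comp (continuous_apply w))).inter
          (isOpen_lt (H3.continuous_coord_t.comp (continuous_apply w)) continuous_const))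
  have hfin := finite_moving d d R
  set Γ₀ := {γ : PGL(2, K) | ∃ x : XInf K, (∀ w, ‖(x w).z‖ ≤ R ∧ 1 / R ≤ (x w).t ∧ (x w).t ≤ R) ∧
      (∀ w, ‖((γ • (x, d)).1 w).z‖ ≤ R ∧ 1 / R ≤ ((γ • (x, d)).1 w).t ∧
        ((γ • (x, d)).1 w).t ≤ R) ∧ (γ • (x, d)).2 = d}
  have hW : ∀ γ : PGL(2, K), ∃ W : Set (XInf K), IsOpen W ∧ x₀ ∈ W ∧ (γ ≠ 1 → ∀ x ∈ W,
      ¬((γ • ((x, d) : YSpace 𝔫)).1 ∈ W ∧ (γ • ((x, d) : YSpace 𝔫)).2 = d)) := by
    intro γ
    by_cases h1 : γ = 1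
    · exact ⟨Set.univ, isOpen_univ, trivial, fun h => absurd h1 h⟩
    have hγ := hy γ h1
    induction γ using Matrix.ProjGenLinGroup.induction_on with | mk γ =>
    by_cases hd : rationalMat γ • d = d
    · have hx : infAct γ x₀ ≠ x₀ := fun hx => hγ (by rw [mk_smul]; exact Prod.ext hx hd)
      obtain ⟨O₁, O₂, ho₁, ho₂, hm₁, hm₂, hdis⟩ := t2_separation hx
      refine ⟨O₂ ∩ infAct γ ⁻¹' O₁, ho₂.inter (ho₁.preimage (continuous_infAct γ)), ⟨hm₂, hm₁⟩, ?_⟩
      rintro - x ⟨-, hx₁⟩ ⟨hx₂, -⟩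
      exact Set.disjoint_left.mp hdis hx₁ hx₂.1
    · exact ⟨Set.univ, isOpen_univ, trivial, fun _ x _ h => hd h.2⟩
  choose W hWo hWm hWs using hW
  obtain ⟨b, hb, hxb, hbsub⟩ := (isBasis_countableBasis (XInf K)).exists_subset_of_mem_open
    (show x₀ ∈ box ∩ ⋂ γ ∈ hfin.toFinset, W γ from ⟨hbox, Set.mem_iInter₂.mpr fun γ _ => hWm γ⟩)
    (hboxo.inter (isOpen_biInter_finset fun γ _ => hWo γ))
  refine ⟨b, hb, hxb, fun γ h1 x hx hcon => ?_⟩
  have hx' : ∀ {x : XInf K}, x ∈ b → ∀ w, ‖(x w).z‖ ≤ R ∧ 1 / R ≤ (x w).t ∧ (x w).t ≤ R :=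
    fun hx w => ⟨((hbsub hx).1 w).1.le, ((hbsub hx).1 w).2.1.le, ((hbsub hx).1 w).2.2.le⟩
  have hmem : γ ∈ hfin.toFinset := hfin.mem_toFinset.mpr ⟨x, hx' hx, hx' hcon.1, hcon.2⟩
  exact hWs γ h1 x (Set.mem_iInter₂.mp (hbsub hx).2 γ hmem)
    ⟨Set.mem_iInter₂.mp (hbsub hcon.1).2 γ hmem, hcon.2⟩

/-- A fundamental domain inside a Siegel set. -/
theorem exists_fundDomain [IsTotallyComplex K] {𝔫 : Ideal (𝓞 K)} (h : 𝔫 ≠ ⊥) :
    ∃ (𝔉 : Set (YSpace 𝔫)) (D : Set (Cosets 𝔫)) (c R : ℝ), D.Finite ∧ 0 < c ∧ 0 < R ∧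
      MeasurableSet 𝔉 ∧ IsFundamentalDomain PGL(2, K) 𝔉 (yVol 𝔫) ∧ 𝔉 ⊆ siegelInf c R ×ˢ D ∧
        yVol 𝔫 𝔉 < ⊤ ∧ ∀ γ : PGL(2, K), γ ≠ 1 → ∀ y ∈ 𝔉, γ • y ∉ 𝔉 := by
  classical
  obtain ⟨D, c, R, hD, hc, hR, hcov⟩ := exists_siegel h
  have : Countable (Cosets 𝔫) := countable_cosets h
  have : Countable (countableBasis (XInf K)) := (countable_countableBasis (XInf K)).to_subtype
  let ι := countableBasis (XInf K) × Cosets 𝔫
  obtain ⟨e, he⟩ : ∃ e : ι → ℕ, Function.Injective e := Countable.exists_injective_nat ι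
  let P : ι → Set (YSpace 𝔫) := fun i => ((i.1 : Set (XInf K)) ∩ siegelInf c R) ×ˢ ({i.2} ∩ D)
  let U : ι → Set (YSpace 𝔫) := fun i =>
    if ∀ γ : PGL(2, K), γ ≠ 1 → ∀ y ∈ P i, γ • y ∉ P i then P i else ∅
  have hUP : ∀ i, U i ⊆ P i := fun i => by
    simp only [U]; split_ifs <;> simp
  have hUsep : ∀ i, ∀ γ : PGL(2, K), γ ≠ 1 → ∀ y ∈ U i, γ • y ∉ U i := fun i γ h1 y hy => by
    simp only [U] at hy ⊢
    split_ifs at hy ⊢ with hs
    · exact hs γ h1 y hy
    · exact absurd hy (Set.notMem_empty _)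
  have hUm : ∀ i, MeasurableSet (U i) := fun i => by
    simp only [U]
    split_ifs
    · exact (((isBasis_countableBasis (XInf K)).isOpen i.1.2).measurableSet.inter
        (isClosed_siegelInf c R).measurableSet).prod MeasurableSpace.measurableSet_top
    · exact MeasurableSet.empty
  let sat : ι → Set (YSpace 𝔫) := fun i => ⋃ γ : PGL(2, K), (fun y => γ • y) ⁻¹' U i
  have hsatm : ∀ i, MeasurableSet (sat i) := fun i =>
    MeasurableSet.iUnion fun γ => measurable_ySmul h γ (hUm i)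
  have hsat : ∀ i (γ : PGL(2, K)) y, γ • y ∈ sat i ↔ y ∈ sat i := fun i γ y => by
    simp only [sat, Set.mem_iUnion, Set.mem_preimage, smul_smul]
    exact ⟨fun ⟨δ, hδ⟩ => ⟨δ * γ, hδ⟩, fun ⟨δ, hδ⟩ => ⟨δ * γ⁻¹, by rwa [inv_mul_cancel_right]⟩⟩
  let 𝔉 : Set (YSpace 𝔫) := ⋃ i, U i \ ⋃ (j) (_ : e j < e i), sat j
  have h𝔉m : MeasurableSet 𝔉 := MeasurableSet.iUnion fun i =>
    (hUm i).diff (MeasurableSet.iUnion fun j => MeasurableSet.iUnion fun _ => hsatm j)
  have h𝔉sub : 𝔉 ⊆ siegelInf c R ×ˢ D := by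
    rintro y hy
    obtain ⟨i, hi, -⟩ := Set.mem_iUnion.mp hy
    exact ⟨(hUP i hi).1.2, (hUP i hi).2.2⟩
  have hstrict : ∀ γ : PGL(2, K), γ ≠ 1 → ∀ y ∈ 𝔉, γ • y ∉ 𝔉 := by
    intro γ h1 y hy hy'
    obtain ⟨i, hi, hi'⟩ := Set.mem_iUnion.mp hy
    obtain ⟨j, hj, hj'⟩ := Set.mem_iUnion.mp hy'
    have h_i : y ∈ sat i := Set.mem_iUnion.mpr ⟨1, by simpa using hi⟩
    have h_j : γ • y ∈ sat j := Set.mem_iUnion.mpr ⟨1, by simpa using hj⟩
    rcases lt_trichotomy (e i) (e j) with hlt | heq | hgt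
    · exact hj' (Set.mem_iUnion₂.mpr ⟨i, hlt, (hsat i γ y).mpr h_i⟩)
    · exact hUsep i γ h1 y hi (he heq ▸ hj)
    · exact hi' (Set.mem_iUnion₂.mpr ⟨j, hgt, (hsat j γ y).mp h_j⟩)
  refine ⟨𝔉, D, c, R, hD, hc, hR, h𝔉m, ⟨h𝔉m.nullMeasurableSet, ?_, ?_⟩, h𝔉sub,
    (measure_mono h𝔉sub).trans_lt (yVol_siegelProd_lt_top hc hD h), hstrict⟩
  · filter_upwards [ae_free h] with y hy
    obtain ⟨γ, hγ2, hγ1⟩ := hcov y
    have hy' : ∀ δ : PGL(2, K), δ ≠ 1 → δ • (γ • y) ≠ γ • y := fun δ hδ heq => by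
      refine hy (γ⁻¹ * δ * γ) (fun h1 => hδ ?_) ?_
      · rw [← conj_eq_one_iff (a := γ⁻¹), inv_inv]; exact h1
      · rw [mul_smul, mul_smul, heq, inv_smul_smul]
    obtain ⟨b, hb, hxb, hsep⟩ := exists_separated (γ • y) hy'
    have hex : ∃ n, ∃ i, e i = n ∧ y ∈ sat i := by
      refine ⟨_, (⟨b, hb⟩, (γ • y).2), rfl, Set.mem_iUnion.mpr ⟨γ, ?_⟩⟩
      simp only [Set.mem_preimage, U]
      rw [if_pos]
      · exact ⟨⟨hxb, hγ1⟩, rfl, hγ2⟩
      · rintro δ hδ ⟨x, q⟩ ⟨⟨hx, -⟩, hq, -⟩ ⟨⟨hx', -⟩, hq', -⟩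
        have : q = (γ • y).2 := hq
        subst this
        exact hsep δ hδ x hx ⟨hx', hq'⟩
    obtain ⟨i, hi, hmem⟩ := Nat.find_spec hex
    obtain ⟨δ, hδ⟩ := Set.mem_iUnion.mp hmem
    refine ⟨δ, Set.mem_iUnion.mpr ⟨i, hδ, fun hcon => ?_⟩⟩
    obtain ⟨j, hj, hj'⟩ := Set.mem_iUnion₂.mp hcon
    exact Nat.find_min hex (hi ▸ hj) ⟨j, rfl, (hsat j δ y).mp hj'⟩
  · intro γ δ hγδ
    refine (Set.disjoint_left.mpr ?_).aedisjoint
    rintro _ ⟨y, hy, rfl⟩ ⟨z, hz, hzy⟩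
    refine hstrict (δ⁻¹ * γ) (fun h1 => hγδ ?_) y hy ?_
    · exact (inv_mul_eq_one.mp h1).symm
    · rw [mul_smul, ← show δ • z = γ • y from hzy, inv_smul_smul]
      exact hz

end FermatAgent.LT
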