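import Fermat.Agent.LT.Setup

set_option autoImplicit false

/-!
# Finite facts about `GL₂(𝔽₃)`
-/

noncomputable section

open Matrix

namespace FermatAgent.LT.GL2F3

/-- Four entries. -/
abbrev Tup := ZMod 3 × ZMod 3 × ZMod 3 × ZMod 3

/-- The product of two matrices given by entries. -/
abbrev tmul : Tup → Tup → Tup
  | (a, b, c, d), (a', b', c', d') =>
    (a * a' + b * c', a * b' + b * d', c * a' + d * c', c * b' + d * d')

/-- The determinant. -/
abbrev tdet : Tup → ZMod 3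
  | (a, b, c, d) => a * d - b * c

/-- The quaternion condition. -/
abbrev TQ8 (t : Tup) : Prop :=
  tdet t = 1 ∧ (t.1 + t.2.2.2 = 0 ∨ t = (1, 0, 0, 1) ∨ t = (-1, 0, 0, -1))

/-- Powers. -/
def tpow (t : Tup) : ℕ → Tup
  | 0 => (1, 0, 0, 1)
  | k + 1 => tmul (tpow t k) t

/-- The entries. -/
def toTup (M : Matrix (Fin 2) (Fin 2) (ZMod 3)) : Tup := (M 0 0, M 0 1, M 1 0, M 1 1)

theorem toTup_injective : Function.Injective toTup := fun M N h => by
  simp only [toTup, Prod.mk.injEq] at h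
  exact Matrix.ext fun i j => by
    fin_cases i <;> fin_cases j
    exacts [h.1, h.2.1, h.2.2.1, h.2.2.2]

theorem toTup_mul (M N : Matrix (Fin 2) (Fin 2) (ZMod 3)) :
    toTup (M * N) = tmul (toTup M) (toTup N) := by
  simp [toTup, tmul, Matrix.mul_apply, Fin.sum_univ_two]

theorem toTup_one : toTup 1 = (1, 0, 0, 1) := by simp [toTup]

theorem toTup_pow (M : Matrix (Fin 2) (Fin 2) (ZMod 3)) (k : ℕ) :
    toTup (M ^ k) = tpow (toTup M) k := by
  induction k with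
  | zero => rw [pow_zero, toTup_one, tpow]
  | succ k ih => rw [pow_succ, toTup_mul, ih, tpow]

theorem tdet_toTup (M : Matrix (Fin 2) (Fin 2) (ZMod 3)) : tdet (toTup M) = M.det := by
  simp [toTup, tdet, Matrix.det_fin_two]

theorem tq8_toTup (M : Matrix (Fin 2) (Fin 2) (ZMod 3)) : TQ8 (toTup M) ↔ IsQ8 M := by
  unfold TQ8 IsQ8
  rw [tdet_toTup, Matrix.trace_fin_two]
  refine and_congr_right fun _ => or_congr Iff.rfl (or_congr ?_ ?_)
  · rw [← toTup_one, toTup_injective.eq_iff]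
  · rw [show ((-1, 0, 0, -1) : Tup) = toTup (-1) by simp [toTup], toTup_injective.eq_iff]

/-- Elements of order eight. -/
abbrev TOct (g : Tup) : Prop :=
  tdet g = -1 ∧ tpow g 4 ≠ (1, 0, 0, 1) ∧ tpow g 6 ≠ (1, 0, 0, 1)

set_option synthInstance.maxSize 1024 in
theorem tnormaliser_oct : ∀ g : Tup, TOct g → ∀ h : Tup, tdet h = 1 →
    (∃ k : Fin 8, tmul h g = tmul (tpow g k.1) h) → TQ8 h := by
  decide +kernel

set_option synthInstance.maxSize 1024 in
theorem tthree_oct : ∀ g : Tup, TOct g → ∀ w : Tup, tpow w 3 = (1, 0, 0, 1) →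
    w ≠ (1, 0, 0, 1) →
    ¬ (tpow (tmul w (tmul g (tmul w (tpow g 7)))) 3 = (1, 0, 0, 1) ∧
      tpow (tmul w (tmul g (tmul (tmul w w) (tpow g 7)))) 3 = (1, 0, 0, 1)) := by
  decide +kernel

theorem tsl2_cosets : ∀ g : Tup, tpow g 3 = (1, 0, 0, 1) → g ≠ (1, 0, 0, 1) →
    ∀ h : Tup, tdet h = 1 → ∃ k : Fin 3, TQ8 (tmul (tpow g k.1) h) := by
  decide +kernel

theorem tdet_of_three : ∀ g : Tup, tpow g 3 = (1, 0, 0, 1) → tdet g = 1 := by
  decide +kernel

theorem tdet_of_oct : ∀ g : Tup, tdet g ≠ 0 → tpow g 4 ≠ (1, 0, 0, 1) →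
    tpow g 6 ≠ (1, 0, 0, 1) → tdet g = -1 ∧ tpow g 8 = (1, 0, 0, 1) := by
  decide +kernel

end FermatAgent.LT.GL2F3
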