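import Fermat.Agent.LT.Base.GL2F3
import Fermat.Agent.TW.Tame
import Fermat.Agent.TW.ValueGroup
import Fermat.Agent.RTLift.Finish.Image.Tame
import Fermat.Agent.Duality.Global.Val

set_option autoImplicit false

/-!
# Frobenius elements over a number field and the residue fields of `F` over `3m`
-/

noncomputable section

open NumberField IsDedekindDomain
open scoped Pointwise

namespace FermatAgent.LT

open FermatAgent.RT (centre mem_centre_iff natCast_mem_centre mem_of_isIntegral_int exists_mul_eq_of_mem)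
open FermatAgent.Duality.Global (toZB Over IsPlace exists_place coe_toZB toZB_smul_of_mem)

local notation "Qb" => AlgebraicClosure ℚ
local notation "GQ" => AlgebraicClosure ℚ ≃ₐ[ℚ] AlgebraicClosure ℚ
local notation "ZB" => integralClosure ℤ (AlgebraicClosure ℚ)

attribute [local instance] FermatAgent.RT.isGalois_algClosureRat

section Frobenius

variable (L : IntermediateField ℚ Qb) [NumberField L]

/-- A Frobenius element fixing `L` at a place over a prime of `L`. -/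
theorem exists_frobenius_over {A : ValuationSubring Qb} {v : HeightOneSpectrum (𝓞 L)}
    (hA : Over L A v) : ∃ σ ∈ L.fixingSubgroup, σ ∈ A.decompositionSubgroup ℚ ∧
      (∀ b : ZB, σ • b - b ^ Ideal.absNorm v.asIdeal ∈ centre A) ∧
      A.IsFrobeniusAt σ (Ideal.absNorm v.asIdeal) := by
  obtain ⟨⟨ℓ, hℓ, hlA⟩, hcomap⟩ := hA
  let H : Subgroup GQ := L.fixingSubgroup
  have : CompactSpace H :=
    isCompact_iff_compactSpace.mp (IntermediateField.fixingSubgroup_isClosed _).isCompact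
  let _ : TopologicalSpace ZB := ⊥
  have : DiscreteTopology ZB := ⟨rfl⟩
  have : ContinuousSMul GQ ZB := FermatAgent.TW.continuousSMul_intClosure
  have : ContinuousSMul H ZB := by
    rw [continuousSMul_iff_stabilizer_isOpen]
    intro b
    exact (stabilizer_isOpen GQ b).preimage continuous_subtype_val
  let _ : Algebra (𝓞 L) ZB := (toZB L).toAlgebra
  have : SMulCommClass H (𝓞 L) ZB := ⟨fun g a b => by
    show g • (toZB L a * b) = toZB L a * g • b
    rw [smul_mul', show g • toZB L a = toZB L a from toZB_smul_of_mem g.2 a]⟩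
  have : Algebra.IsInvariant (𝓞 L) ZB H := ⟨fun b hb => by
    have hbL : (b : Qb) ∈ L := by
      rw [← InfiniteGalois.fixedField_fixingSubgroup L]
      exact fun g => congrArg Subtype.val (hb g)
    have hint : IsIntegral ℤ (⟨b, hbL⟩ : L) :=
      (isIntegral_algHom_iff (L.val.restrictScalars ℤ) Subtype.val_injective).mp b.2
    exact ⟨⟨⟨b, hbL⟩, hint⟩, Subtype.ext rfl⟩⟩
  let Q := centre A
  have : Q.IsPrime := FermatAgent.RT.centre_isPrime A
  let P := Q.under (𝓞 L)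
  have hPv : P = v.asIdeal := hcomap
  let k := ZB ⧸ Q
  have : Fact ℓ.Prime := ⟨hℓ⟩
  have hchar : CharP k ℓ := ⟨fun m => by
    rw [← map_natCast (Ideal.Quotient.mk Q), Ideal.Quotient.eq_zero_iff_mem]
    simpa [Int.natCast_dvd_natCast] using FermatAgent.RT.intCast_mem_centre_iff hℓ hlA (m : ℤ)⟩
  obtain ⟨f, hf⟩ : ∃ f : ℕ, Ideal.absNorm v.asIdeal = ℓ ^ f := by
    have h1 : (ℓ : 𝓞 L) ∈ v.asIdeal := by
      rw [← hcomap, Ideal.mem_comap, map_natCast]
      exact natCast_mem_centre hlA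
    have h2 := Ideal.absNorm_dvd_absNorm_of_le ((Ideal.span_singleton_le_iff_mem _).mpr h1)
    rw [Ideal.absNorm_span_natCast] at h2
    obtain ⟨f, -, hf⟩ := (Nat.dvd_prime_pow hℓ).mp h2
    exact ⟨f, hf⟩
  have hfix : ∀ x : 𝓞 L, (Ideal.Quotient.mk Q (toZB L x)) ^ ℓ ^ f =
      Ideal.Quotient.mk Q (toZB L x) := by
    intro x
    rw [← map_pow, ← map_pow, Ideal.Quotient.eq, ← map_sub, ← hf]
    have hm : ∀ y : 𝓞 L, y ∈ v.asIdeal → toZB L y ∈ Q := fun y hy => by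
      rw [← hcomap] at hy
      exact hy
    exact hm _ (CFT.pow_absNorm_sub_self_mem v x)
  have hbij : Function.Bijective (iterateFrobenius k ℓ f) := by
    rw [coe_iterateFrobenius]
    refine Function.Bijective.iterate ⟨frobenius_inj k ℓ, fun y => ?_⟩ f
    obtain ⟨b, rfl⟩ := Ideal.Quotient.mk_surjective y
    obtain ⟨z, hz⟩ := IsAlgClosed.exists_pow_nat_eq (b : Qb) hℓ.pos
    have hzi : IsIntegral ℤ z := IsIntegral.of_pow hℓ.pos (by rw [hz]; exact b.2)
    refine ⟨Ideal.Quotient.mk Q ⟨z, hzi⟩, ?_⟩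
    rw [frobenius_def, ← map_pow]
    exact congrArg _ (Subtype.ext hz)
  let e : k ≃ₐ[𝓞 L ⧸ P] k :=
    AlgEquiv.ofRingEquiv (f := RingEquiv.ofBijective (iterateFrobenius k ℓ f) hbij) (by
      intro m
      obtain ⟨m, rfl⟩ := Ideal.Quotient.mk_surjective m
      show (Ideal.Quotient.mk Q (toZB L m)) ^ ℓ ^ f = _
      exact hfix m)
  obtain ⟨⟨σ, hσ⟩, hσe⟩ :=
    Ideal.Quotient.stabilizerHom_surjective_of_profinite (G := H) P Q e
  have hfrob : ∀ b : ZB, (σ : GQ) • b - b ^ Ideal.absNorm v.asIdeal ∈ centre A := fun b => by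
    rw [← Ideal.Quotient.eq, map_pow, hf]
    exact DFunLike.congr_fun hσe (Ideal.Quotient.mk Q b)
  have hσQ : (σ : GQ) • centre A = centre A := hσ
  have hd := FermatAgent.RT.mem_decompositionSubgroup_of_smul_centre hℓ hlA hσQ
  refine ⟨σ, σ.2, hd, hfrob, hd, fun x => ?_⟩
  obtain ⟨⟨x, hx⟩, rfl⟩ := IsLocalRing.residue_surjective x
  rw [← IsLocalRing.ResidueField.residue_smul]
  obtain ⟨a, s, hs, h⟩ := exists_mul_eq_of_mem hℓ hlA hx
  let φ : ZB →+* IsLocalRing.ResidueField A :=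
    (IsLocalRing.residue A).comp (FermatAgent.RT.intClosureToPlace A)
  have hφ : ∀ b : ZB, φ ((σ : GQ) • b) = φ b ^ Ideal.absNorm v.asIdeal := by
    intro b
    have : φ ((σ : GQ) • b - b ^ Ideal.absNorm v.asIdeal) = 0 :=
      (IsLocalRing.residue_eq_zero_iff _).mpr (hfrob b)
    rwa [map_sub, map_pow, sub_eq_zero] at this
  have hs0 : φ s ^ Ideal.absNorm v.asIdeal ≠ 0 :=
    pow_ne_zero _ fun h0 => hs ((IsLocalRing.residue_eq_zero_iff _).mp h0)
  have e1 : IsLocalRing.residue A ⟨x, hx⟩ * φ s = φ a := by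
    rw [RingHom.comp_apply, RingHom.comp_apply, ← map_mul]
    exact congrArg _ (Subtype.ext h)
  have e2 : IsLocalRing.residue A
      ((⟨(σ : GQ), hd⟩ : A.decompositionSubgroup ℚ) • ⟨x, hx⟩) * φ ((σ : GQ) • s) =
      φ ((σ : GQ) • a) := by
    rw [RingHom.comp_apply, RingHom.comp_apply, ← map_mul]
    refine congrArg _ (Subtype.ext ?_)
    show (σ : GQ) x * (σ : GQ) (s : Qb) = (σ : GQ) (a : Qb)
    rw [← map_mul, h]
  apply mul_right_cancel₀ hs0
  rw [hφ, hφ, ← e1, mul_pow] at e2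
  exact e2

theorem exists_isFrobOver (v : HeightOneSpectrum (𝓞 L)) : ∃ σ, IsFrobOver v σ := by
  obtain ⟨A, hA⟩ := exists_place v
  obtain ⟨σ, hσ, -, -, hF⟩ := exists_frobenius_over L hA
  exact ⟨σ, hσ, A, fun x => (hA.mem_iff x).trans A.mem_nonunits_iff.symm, hF⟩

end Frobenius

namespace Setup

variable (S : Setup)

theorem exists_three_root : ∃ ζ : Qb, ζ ∈ S.K ∧ ζ ^ 3 = 1 ∧ ζ ≠ 1 ∧
    ∀ σ ∈ S.K.fixingSubgroup, WeierstrassCurve.modThreeCyclotomicChar σ = 1 := by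
  have : NeZero ((3 : ℕ) : Qb) := ⟨by norm_num⟩
  obtain ⟨ζ, hζ⟩ := HasEnoughRootsOfUnity.exists_primitiveRoot Qb 3
  have hchar : ∀ σ : GQ, WeierstrassCurve.modThreeCyclotomicChar σ = 1 ↔ σ ζ = ζ := by
    intro σ
    have hspec := modularCyclotomicCharacter.spec Qb (IsAlgClosed.card_rootsOfUnity_eq Qb 3)
      (σ : Qb ≃+* Qb) (t := ((hζ.toRootsOfUnity : rootsOfUnity 3 Qb) : Qbˣ)) hζ.toRootsOfUnity.2
    change σ ζ = ζ ^ _ at hspec
    rw [WeierstrassCurve.modThreeCyclotomicChar_apply]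
    constructor
    · intro h
      rw [h] at hspec
      simpa [ZMod.val_one] using hspec
    · intro h
      refine Units.ext (ZMod.val_injective 3 ?_)
      rw [Units.val_one, ZMod.val_one]
      refine hζ.pow_inj (ZMod.val_lt _) (by norm_num) ?_
      rw [← hspec, h, pow_one]
  refine ⟨ζ, ?_, hζ.pow_eq_one, hζ.ne_one (by norm_num), fun σ hσ => (hchar σ).2 ?_⟩
  · rintro ⟨σ, hσ⟩
    rw [Subgroup.mem_comap, MonoidHom.mem_ker, S.det_eq] at hσ
    exact (hchar σ).1 hσ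
  · have hζK : ζ ∈ S.K := by
      rintro ⟨τ, hτ⟩
      rw [Subgroup.mem_comap, MonoidHom.mem_ker, S.det_eq] at hτ
      exact (hchar τ).1 hτ
    exact hσ ⟨ζ, hζK⟩

theorem det_eq_one_of_fix {σ : GQ} (hσ : σ ∈ S.K.fixingSubgroup) :
    ((S.ρ σ : GL (Fin 2) (ZMod 3)) : Matrix (Fin 2) (Fin 2) (ZMod 3)).det = 1 := by
  obtain ⟨ζ, -, -, -, h⟩ := S.exists_three_root
  rw [← Matrix.GeneralLinearGroup.val_det_apply, S.det_eq, h σ hσ, Units.val_one]

theorem apply_eq_self_of_q8 {σ : GQ} (hσ : S.ρ σ ∈ quaternionSubgroup) {x : Qb} (hx : x ∈ S.F) :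
    σ x = x :=
  hx ⟨σ, hσ⟩

instance instIsTotallyComplexF : IsTotallyComplex S.F := by
  refine ⟨fun w => ?_⟩
  rw [← InfinitePlace.not_isReal_iff_isComplex, InfinitePlace.isReal_iff]
  intro hr
  obtain ⟨ζ, hζ, h3, h1, -⟩ := S.exists_three_root
  let z : S.F := ⟨ζ, S.K_le_F hζ⟩
  have hz : w.embedding z ^ 3 = 1 := by
    rw [← map_pow, show z ^ 3 = 1 from Subtype.ext (by simpa [z] using h3), map_one]
  have hreal := hr
  rw [ComplexEmbedding.isReal_iff] at hreal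
  have him : (w.embedding z).im = 0 :=
    Complex.conj_eq_iff_im.mp ((ComplexEmbedding.conjugate_coe_eq _ z).symm.trans
      (RingHom.congr_fun hreal z))
  have hre : (w.embedding z) = ((w.embedding z).re : ℂ) := Complex.ext rfl (by simpa using him)
  rw [hre, ← Complex.ofReal_pow] at hz
  have hx : (w.embedding z).re = 1 := by
    have h := Complex.ofReal_eq_one.mp hz
    exact (pow_eq_one_iff_of_ne_zero (by norm_num)).mp h |>.elim id fun h' =>
      absurd h'.2 (by decide)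
  rw [hx, Complex.ofReal_one, ← map_one w.embedding] at hre
  exact h1 (congrArg Subtype.val (w.embedding.injective hre))

theorem det_unit_ne_zero (g : GL (Fin 2) (ZMod 3)) :
    GL2F3.tdet (GL2F3.toTup (g : Matrix (Fin 2) (Fin 2) (ZMod 3))) ≠ 0 := by
  rw [GL2F3.tdet_toTup]
  have : Fact (Nat.Prime 3) := ⟨by norm_num⟩
  exact g.det_ne_zero

theorem toTup_pow_eq (g : GL (Fin 2) (ZMod 3)) (k : ℕ) :
    GL2F3.tpow (GL2F3.toTup (g : Matrix (Fin 2) (Fin 2) (ZMod 3))) k =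
      GL2F3.toTup ((g ^ k : GL (Fin 2) (ZMod 3)) : Matrix (Fin 2) (Fin 2) (ZMod 3)) := by
  rw [← GL2F3.toTup_pow, Units.val_pow_eq_pow_val]

theorem tpow_eq_one_iff (g : GL (Fin 2) (ZMod 3)) (k : ℕ) :
    GL2F3.tpow (GL2F3.toTup (g : Matrix (Fin 2) (Fin 2) (ZMod 3))) k = (1, 0, 0, 1) ↔ g ^ k = 1 := by
  rw [toTup_pow_eq, ← GL2F3.toTup_one, GL2F3.toTup_injective.eq_iff, Units.val_eq_one]

/-- At `3` the inertia image is generated by one element of order eight. -/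
theorem exists_oct_generator_of {ρ : GQ →* GL (Fin 2) (ZMod 3)}
    (hρ : GaloisFactorsThroughFiniteLevel ρ) {A : ValuationSubring Qb} (hA : A.LiesOverPrime 3)
    (hss : ∃ σ ∈ A.inertiaSubgroupIn ℚ, orderOf (ρ σ) = 8) :
    ∃ τ ∈ A.inertiaSubgroupIn ℚ,
      GL2F3.TOct (GL2F3.toTup (ρ τ : Matrix (Fin 2) (Fin 2) (ZMod 3))) ∧
      ρ τ ^ 8 = 1 ∧
      ∀ σ ∈ A.inertiaSubgroupIn ℚ, ρ σ ∈ Subgroup.zpowers (ρ τ) := by
  have hp : Fact (Nat.Prime 3) := ⟨by norm_num⟩
  obtain ⟨L, hLfin, hLnorm, hL⟩ := RTLift.Finish.Image.exists_normal_level hρ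
  obtain ⟨π, hπL, hπ0, -, hπ⟩ := TW.exists_uniformiser hp.out hA L
  obtain ⟨σ₈, hσ₈, hord⟩ := hss
  have h8 : ρ σ₈ ^ 4 ≠ 1 ∧ ρ σ₈ ^ 6 ≠ 1 ∧ ρ σ₈ ^ 8 = 1 := by
    refine ⟨fun h => ?_, fun h => ?_, ?_⟩
    · have := orderOf_dvd_of_pow_eq_one h
      rw [hord] at this
      norm_num at this
    · have := orderOf_dvd_of_pow_eq_one h
      rw [hord] at this
      norm_num at this
    · rw [← hord, pow_orderOf_eq_one]
  set fI := ρ.comp (A.inertiaSubgroupIn ℚ).subtype with hfI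
  have hwild : ∀ σ, TW.tameHom A hπ0 σ = 1 → ∃ a : ℕ, fI σ ^ 3 ^ a = 1 := by
    intro σ h
    obtain ⟨a, ha⟩ := TW.exists_pow_fix_of_tame hp.out hA L σ.2 (fun x hxL hx0 => by
      obtain ⟨k, hk⟩ := hπ x hxL hx0
      have hd := Local.mem_decomposition_of_inertia σ.2
      have hπk : π ^ k ≠ 0 := zpow_ne_zero _ hπ0
      have h1 : TW.tameVal A x σ = 1 := by
        rw [TW.tameVal_eq_of_val_eq hπk (by rw [hk, map_zpow₀]) σ.2]
        have hmem : (σ : GQ) π / π ∈ A := TW.ratio_mem hd hπ0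
        have h' : IsLocalRing.residue A ⟨_, hmem⟩ = 1 := by
          rw [← TW.tameVal_eq hmem]; exact congrArg Units.val h
        obtain ⟨u, hu⟩ : IsUnit (⟨_, hmem⟩ : A) := by
          rw [← IsLocalRing.residue_ne_zero_iff_isUnit, h']; exact one_ne_zero
        have hu1 : Units.map (IsLocalRing.residue A : A →* _) u = 1 := Units.ext (by
          show IsLocalRing.residue A (u : A) = 1
          rw [hu, h'])
        have hval : (σ : GQ) (π ^ k) / π ^ k = (((u ^ k : Aˣ) : A) : Qb) := by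
          show _ = ((Units.map (A.subtype : A →* Qb) (u ^ k) : Qbˣ) : Qb)
          rw [map_zpow, Units.val_zpow_eq_zpow_val]
          show _ = (A.subtype (u : A)) ^ k
          rw [show A.subtype (u : A) = (σ : GQ) π / π from congrArg Subtype.val hu, map_zpow₀,
            div_zpow]
        rw [TW.tameVal_eq (TW.ratio_mem hd hπk),
          show (⟨_, TW.ratio_mem hd hπk⟩ : A) = ((u ^ k : Aˣ) : A) from Subtype.ext hval]
        show ((Units.map (IsLocalRing.residue A : A →* _) (u ^ k) :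
          (IsLocalRing.ResidueField A)ˣ) : IsLocalRing.ResidueField A) = 1
        rw [map_zpow, hu1, _root_.one_zpow, Units.val_one]
      rw [TW.tameVal_eq (TW.ratio_mem hd hx0), ← map_one (IsLocalRing.residue A),
        TW.residue_eq_iff] at h1
      have : (σ : GQ) x - x = x * ((σ : GQ) x / x - 1) := by field_simp
      rw [this, map_mul]
      exact mul_lt_of_lt_one_right (A.valuation.pos_iff.2 hx0) h1)
    refine ⟨a, ?_⟩
    rw [← map_pow]
    exact hL _ fun x hx => by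
      show ((σ : GQ) ^ 3 ^ a) x = x
      exact ha x hx
  have hthree : ∀ σ, TW.tameHom A hπ0 σ = 1 → fI σ ^ 3 = 1 := by
    intro σ h
    obtain ⟨a, ha⟩ := hwild σ h
    have hcard : fI σ ^ 48 = 1 := by
      have h1 : Nat.card (GL (Fin 2) (ZMod 3)) = 48 := by
        rw [Matrix.card_GL_field]
        simp [Fin.prod_univ_two]
      rw [← h1]
      exact pow_card_eq_one'
    have h2 := pow_gcd_eq_one.2 ⟨ha, hcard⟩
    have h3 : Nat.gcd (3 ^ a) 48 ∣ 3 := by
      rcases a with _ | a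
      · simp
      · have e : (3 ^ (a + 1)).gcd 48 = 3 * (3 ^ a).gcd 16 := by
          rw [pow_succ', show (48 : ℕ) = 3 * 16 from rfl, Nat.gcd_mul_left]
        rw [e, (Nat.Coprime.pow_left a (by norm_num : Nat.Coprime 3 16)).gcd_eq_one]
    obtain ⟨c, hc⟩ := h3
    have h4 : fI σ ^ ((3 ^ a).gcd 48 * c) = 1 := by rw [pow_mul, h2, one_pow]
    rwa [← hc] at h4
  have hker : ∀ σ, TW.tameHom A hπ0 σ = 1 → fI σ = 1 := by
    intro σ h
    by_contra hne
    set g := ρ σ₈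
    set w := fI σ
    set s₈ : A.inertiaSubgroupIn ℚ := ⟨σ₈, hσ₈⟩
    have hg : GL2F3.TOct (GL2F3.toTup (g : Matrix (Fin 2) (Fin 2) (ZMod 3))) :=
      ⟨(GL2F3.tdet_of_oct _ (det_unit_ne_zero g) (fun h' => h8.1 ((tpow_eq_one_iff g 4).1 h'))
        (fun h' => h8.2.1 ((tpow_eq_one_iff g 6).1 h'))).1,
        fun h' => h8.1 ((tpow_eq_one_iff g 4).1 h'), fun h' => h8.2.1 ((tpow_eq_one_iff g 6).1 h')⟩
    have hw3 := hthree σ h
    have hk : ∀ u : A.inertiaSubgroupIn ℚ, TW.tameHom A hπ0 u = 1 →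
        (w * (g * (fI u * g ^ 7))) ^ 3 = 1 := by
      intro u hu
      have h1 : TW.tameHom A hπ0 (σ * (s₈ * (u * s₈⁻¹))) = 1 := by
        rw [map_mul, map_mul, map_mul, h, hu, one_mul, one_mul, ← map_mul, mul_inv_cancel, map_one]
      have h2 := hthree _ h1
      have hg7 : g⁻¹ = g ^ 7 := inv_eq_of_mul_eq_one_right (by rw [← pow_succ']; exact h8.2.2)
      rw [map_mul, map_mul, map_mul, map_inv] at h2
      rw [show fI s₈ = g from rfl, hg7] at h2
      exact h2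
    have key := GL2F3.tthree_oct _ hg (GL2F3.toTup (w : Matrix (Fin 2) (Fin 2) (ZMod 3)))
      ((tpow_eq_one_iff w 3).2 hw3) (fun h' => hne (Units.ext (GL2F3.toTup_injective
        (h'.trans GL2F3.toTup_one.symm))))
    refine key ⟨?_, ?_⟩
    · have := (tpow_eq_one_iff _ 3).2 (hk σ h)
      simpa [Units.val_mul, GL2F3.toTup_mul, toTup_pow_eq, w, fI] using this
    · have hu : TW.tameHom A hπ0 (σ * σ) = 1 := by rw [map_mul, h, one_mul]
      have := (tpow_eq_one_iff _ 3).2 (hk (σ * σ) hu)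
      simpa [Units.val_mul, GL2F3.toTup_mul, toTup_pow_eq, w, fI] using this
  have hfin : (Set.range (TW.tameHom A hπ0)).Finite := by
    have : Finite (L ≃ₐ[ℚ] L) := inferInstance
    classical
    refine ((Set.finite_range fun g : L ≃ₐ[ℚ] L => (g ⟨π, hπL⟩ : Qb) / π).image
      (fun z : Qb => if h : z ∈ A then IsLocalRing.residue A ⟨z, h⟩ else 0)).preimage
      (Units.val_injective.injOn) |>.subset ?_
    rintro _ ⟨σ, rfl⟩
    refine ⟨_, ⟨AlgEquiv.restrictNormalHom L (σ : GQ), rfl⟩, ?_⟩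
    show (if h : _ then _ else _) = TW.tameVal A π σ
    simp only [show ((AlgEquiv.restrictNormalHom L (σ : GQ)) ⟨π, hπL⟩ : Qb) = (σ : GQ) π from
      AlgEquiv.restrictNormal_commutes (σ : GQ) L ⟨π, hπL⟩]
    rfl
  have : Finite (TW.tameHom A hπ0).range := hfin.to_subtype
  obtain ⟨⟨_, τ, rfl⟩, hτ⟩ := IsCyclic.exists_generator (α := (TW.tameHom A hπ0).range)
  have hgen : ∀ σ ∈ A.inertiaSubgroupIn ℚ, ρ σ ∈ Subgroup.zpowers (ρ τ) := by
    intro σ hσ
    obtain ⟨k, hk⟩ := Subgroup.mem_zpowers_iff.1 (hτ ⟨_, ⟨σ, hσ⟩, rfl⟩)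
    have hk' : TW.tameHom A hπ0 τ ^ k = TW.tameHom A hπ0 ⟨σ, hσ⟩ := congrArg Subtype.val hk
    refine Subgroup.mem_zpowers_iff.2 ⟨k, ?_⟩
    have := hker (τ ^ k * (⟨σ, hσ⟩ : A.inertiaSubgroupIn ℚ)⁻¹)
      (by rw [map_mul, map_zpow, hk', map_inv, mul_inv_cancel])
    rwa [map_mul, map_zpow, map_inv, mul_inv_eq_one] at this
  obtain ⟨k, hk⟩ := Subgroup.mem_zpowers_iff.1 (hgen σ₈ hσ₈)
  have hne : ∀ n : ℕ, ρ σ₈ ^ n ≠ 1 → ρ τ ^ n ≠ 1 := by
    intro n hn h
    refine hn ?_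
    rw [← hk, ← zpow_natCast, ← zpow_mul, mul_comm, zpow_mul, zpow_natCast, h, _root_.one_zpow]
  have hτ4 : ¬ GL2F3.tpow (GL2F3.toTup (ρ τ : Matrix (Fin 2) (Fin 2) (ZMod 3))) 4 = (1, 0, 0, 1) :=
    fun h => hne 4 h8.1 ((tpow_eq_one_iff _ 4).1 h)
  have hτ6 : ¬ GL2F3.tpow (GL2F3.toTup (ρ τ : Matrix (Fin 2) (Fin 2) (ZMod 3))) 6 = (1, 0, 0, 1) :=
    fun h => hne 6 h8.2.1 ((tpow_eq_one_iff _ 6).1 h)
  have hd := GL2F3.tdet_of_oct _ (det_unit_ne_zero (ρ τ)) hτ4 hτ6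
  exact ⟨τ, τ.2, ⟨hd.1, hτ4, hτ6⟩, (tpow_eq_one_iff _ 8).1 hd.2, hgen⟩

theorem exists_oct_generator {A : ValuationSubring Qb} (hA : A.LiesOverPrime 3) :
    ∃ τ ∈ A.inertiaSubgroupIn ℚ,
      GL2F3.TOct (GL2F3.toTup (S.ρ τ : Matrix (Fin 2) (Fin 2) (ZMod 3))) ∧
      S.ρ τ ^ 8 = 1 ∧
      ∀ σ ∈ A.inertiaSubgroupIn ℚ, S.ρ σ ∈ Subgroup.zpowers (S.ρ τ) :=
  exists_oct_generator_of S.finiteLevel hA (S.supersingular A hA)

/-- An element of the decomposition group fixing `K` agrees on `F` with an inertia element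
fixing `K`. -/
theorem exists_inertia_mul_q8 {A : ValuationSubring Qb} {q : ℕ} (hq : q.Prime)
    (hqm : q ∣ 3 * S.m) (hA : A.LiesOverPrime q) {σ : GQ} (hσ : σ ∈ S.K.fixingSubgroup)
    (hd : σ ∈ A.decompositionSubgroup ℚ) :
    ∃ i ∈ A.inertiaSubgroupIn ℚ, S.ρ (i * σ) ∈ quaternionSubgroup := by
  have hdet : GL2F3.tdet (GL2F3.toTup (S.ρ σ : Matrix (Fin 2) (Fin 2) (ZMod 3))) = 1 := by
    rw [GL2F3.tdet_toTup, S.det_eq_one_of_fix hσ]
  have hmem : ∀ g : GL (Fin 2) (ZMod 3),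
      GL2F3.TQ8 (GL2F3.toTup (g : Matrix (Fin 2) (Fin 2) (ZMod 3))) → g ∈ quaternionSubgroup :=
    fun g hg => (GL2F3.tq8_toTup _).1 hg
  rcases hq.dvd_mul.1 hqm with h3 | hm
  · obtain rfl : q = 3 := (Nat.prime_dvd_prime_iff_eq hq (by norm_num)).1 h3
    obtain ⟨τ, hτ, hoct, h8, hgen⟩ := S.exists_oct_generator hA
    refine ⟨1, one_mem _, hmem _ ?_⟩
    rw [one_mul]
    have hA' : σ • A = A := MulAction.mem_stabilizer_iff.1 hd
    have hconj : σ * τ * σ⁻¹ ∈ A.inertiaSubgroupIn ℚ := hA' ▸ TW.conj_mem_inertia hτ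
    obtain ⟨k, hk⟩ := Subgroup.mem_zpowers_iff.1 (hgen _ hconj)
    refine GL2F3.tnormaliser_oct _ hoct _ hdet
      ⟨⟨(k % 8).toNat, by omega⟩, ?_⟩
    have hpow : S.ρ τ ^ (k % 8).toNat = S.ρ τ ^ k := by
      rw [← zpow_natCast, Int.toNat_of_nonneg (Int.emod_nonneg _ (by norm_num))]
      conv_rhs => rw [← Int.emod_add_mul_ediv k 8, zpow_add, zpow_mul]
      rw [show ((8 : ℤ)) = ((8 : ℕ) : ℤ) from rfl, zpow_natCast (S.ρ τ) 8, h8, _root_.one_zpow,
        mul_one]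
    rw [toTup_pow_eq, ← GL2F3.toTup_mul, ← GL2F3.toTup_mul, ← Units.val_mul, ← Units.val_mul,
      hpow, hk, map_mul, map_mul, map_inv, inv_mul_cancel_right]
  · obtain ⟨i, hi, hne⟩ := S.ramified q hq hm A hA
    have h3 := S.unipotent q hq hm A hA i hi
    obtain ⟨k, hk⟩ := GL2F3.tsl2_cosets _ ((tpow_eq_one_iff _ 3).2 h3)
      (fun h => hne (Units.ext (GL2F3.toTup_injective (h.trans GL2F3.toTup_one.symm)))) _ hdet
    refine ⟨i ^ (k : ℕ), pow_mem hi _, hmem _ ?_⟩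
    rwa [toTup_pow_eq, ← GL2F3.toTup_mul, ← Units.val_mul, ← map_pow, ← map_mul] at hk

/-- The residue fields of `F` over `3m` are those of `K`. -/
theorem absNorm_eq_comap (w : HeightOneSpectrum (𝓞 S.F))
    (hw : ((3 * S.m : ℕ) : 𝓞 S.F) ∈ w.asIdeal) :
    Ideal.absNorm w.asIdeal = Ideal.absNorm (w.asIdeal.comap
      (NumberField.RingOfIntegers.mapRingHom
        (IntermediateField.inclusion S.K_le_F).toRingHom)) := by
  set ι : 𝓞 S.K →+* 𝓞 S.F := NumberField.RingOfIntegers.mapRingHom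
    (IntermediateField.inclusion S.K_le_F).toRingHom with hι
  obtain ⟨A, hA⟩ := exists_place w
  obtain ⟨q, hq, hqA⟩ := hA.1
  have hqw : (q : 𝓞 S.F) ∈ w.asIdeal := hA.natCast_mem hqA
  have hqm : q ∣ 3 * S.m := by
    rw [← hA.2, Ideal.mem_comap, map_natCast, ← Int.cast_natCast,
      FermatAgent.RT.intCast_mem_centre_iff hq hqA, Int.natCast_dvd_natCast] at hw
    exact hw
  have hcomp : ∀ x : 𝓞 S.K, toZB S.F (ι x) = toZB S.K x := fun x => Subtype.ext rfl
  have hv : ∀ x : 𝓞 S.K, x ∈ w.asIdeal.comap ι ↔ toZB S.K x ∈ centre A := fun x => by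
    rw [Ideal.mem_comap, ← hA.2, Ideal.mem_comap, hcomp]
  have hne : w.asIdeal.comap ι ≠ ⊥ := fun h => by
    have : (q : 𝓞 S.K) ∈ w.asIdeal.comap ι := by rw [Ideal.mem_comap, map_natCast]; exact hqw
    rw [h, Ideal.mem_bot] at this
    exact hq.ne_zero (Nat.cast_eq_zero.mp this)
  let v : HeightOneSpectrum (𝓞 S.K) := ⟨w.asIdeal.comap ι, Ideal.comap_isPrime ι w.asIdeal, hne⟩
  have hAv : Over S.K A v := ⟨hA.1, Ideal.ext fun x => (hv x).symm⟩
  obtain ⟨σ, hσ, hd, hfrob, -⟩ := exists_frobenius_over S.K hAv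
  obtain ⟨i, hi, hq8⟩ := S.exists_inertia_mul_q8 hq hqm hqA hσ hd
  have hle : Ideal.absNorm w.asIdeal ≤ Ideal.absNorm v.asIdeal := by
    refine CFT.absNorm_le_of_forall_pow_sub_mem w ?_ fun x => ?_
    · exact CFT.two_le_absNorm v
    · rw [← hA.2, Ideal.mem_comap, map_sub, map_pow]
      set b := toZB S.F x
      have hfix : (i * σ) (b : Qb) = (b : Qb) :=
        S.apply_eq_self_of_q8 hq8 (SetLike.coe_mem _)
      have h1 := hfrob b
      have h2 : i • (σ • b) - σ • b ∈ centre A :=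
        mem_centre_iff.2 (Local.inertia_val_sub_lt_one hi (mem_of_isIntegral_int A (σ • b).2))
      have h3 : i • (σ • b) = b := Subtype.ext hfix
      rw [h3] at h2
      have := add_mem h1 h2
      rw [show σ • b - b ^ Ideal.absNorm v.asIdeal + (b - σ • b) =
        -(b ^ Ideal.absNorm v.asIdeal - b) by ring, neg_mem_iff] at this
      exact this
  refine le_antisymm hle ?_
  have := CFT.finite_quotient_prime w
  rw [← CFT.natCard_quotient_eq_absNorm, ← CFT.natCard_quotient_eq_absNorm]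
  exact Nat.card_le_card_of_injective _ (Ideal.quotientMap_injective' (H := le_rfl) le_rfl)

theorem surjective_residue (w : HeightOneSpectrum (𝓞 S.F))
    (hw : ((3 * S.m : ℕ) : 𝓞 S.F) ∈ w.asIdeal) (o : 𝓞 S.F) :
    ∃ b : 𝓞 S.K, o - NumberField.RingOfIntegers.mapRingHom
      (IntermediateField.inclusion S.K_le_F).toRingHom b ∈ w.asIdeal := by
  have h := S.absNorm_eq_comap w hw
  rw [← CFT.natCard_quotient_eq_absNorm, ← CFT.natCard_quotient_eq_absNorm] at h
  have := CFT.finite_quotient_prime w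
  set f := Ideal.quotientMap w.asIdeal (NumberField.RingOfIntegers.mapRingHom
      (IntermediateField.inclusion S.K_le_F).toRingHom) le_rfl
  have hinj : Function.Injective f := Ideal.quotientMap_injective' (H := le_rfl) le_rfl
  have hbij := (Nat.bijective_iff_injective_and_card f).2 ⟨hinj, h.symm⟩
  obtain ⟨b, hb⟩ := hbij.2 (Ideal.Quotient.mk _ o)
  obtain ⟨b, rfl⟩ := Ideal.Quotient.mk_surjective b
  exact ⟨b, (Ideal.Quotient.eq).1 hb.symm⟩

end Setup

end FermatAgent.LT
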