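import Mathlib
import Fermat.Agent.LT.Base.CircleExp
import Fermat.Agent.LT.Base.Radial
import Fermat.Agent.LT.Base.BallInt

set_option autoImplicit false

/-!
# The waves have spherical parameter zero

The mean value of `t K₀ (μ t) e(ν z)` over a hyperbolic ball: the disc integrals of the character
give the Riemann function of `q'' = μ² e^{2x} q`.
-/

noncomputable section

open MeasureTheory Set Filter
open scoped Topology Interval

namespace FermatAgent.LT.H3

open CircleExp (bfun bfun₁ bfun₂ hasDerivAt_param)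
open SecondDiff (wgt)

/-- Differentiation of an integral over the moving interval `[-e, e]`. -/
theorem hasDerivAt_moving {G Ge Gx : ℝ → ℝ → ℂ} (hG : Continuous fun p : ℝ × ℝ => G p.1 p.2)
    (hGe : Continuous fun p : ℝ × ℝ => Ge p.1 p.2) (hGx : Continuous fun p : ℝ × ℝ => Gx p.1 p.2)
    (hx : ∀ e x, HasDerivAt (G e) (Gx e x) x)
    (hchain : ∀ e s, HasDerivAt (fun e => G e (e * s)) (Ge e (e * s) + (s : ℂ) * Gx e (e * s)) e)
    (e : ℝ) :
    HasDerivAt (fun e => ∫ x in -e..e, G e x) (G e e + G e (-e) + ∫ x in -e..e, Ge e x) e := by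
  have hscale : ∀ (f : ℝ → ℂ) (e : ℝ), ∫ x in -e..e, f x = (e : ℂ) * ∫ s in (-1 : ℝ)..1, f (e * s) :=
    fun f e => by
      have h := intervalIntegral.smul_integral_comp_mul_left (a := (-1 : ℝ)) (b := 1) f e
      rw [mul_neg, mul_one, Complex.real_smul] at h
      exact h.symm
  have hm : Continuous fun p : ℝ × ℝ => (p.1, p.1 * p.2) := by fun_prop
  have hcs : Continuous fun p : ℝ × ℝ => ((p.2 : ℝ) : ℂ) := by fun_prop
  have hmul := (Complex.ofRealCLM.hasDerivAt (x := e)).mul
    (hasDerivAt_param (F := fun e s => G e (e * s))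
      (F' := fun e s => Ge e (e * s) + (s : ℂ) * Gx e (e * s))
      (hG.comp hm) ((hGe.comp hm).add (hcs.mul (hGx.comp hm))) hchain (-1) 1 e)
  refine (hmul.congr_of_eventuallyEq (Eventually.of_forall fun e => hscale _ e)).congr_deriv ?_
  have hline : ∀ {f : ℝ → ℝ → ℂ}, (Continuous fun p : ℝ × ℝ => f p.1 p.2) →
      Continuous fun s : ℝ => f e (e * s) := fun hf =>
    hf.comp (continuous_const.prodMk (continuous_const.mul continuous_id))
  have c1 := hline hG
  have c2 := hline hGe
  have c3 : Continuous fun s : ℝ => (s : ℂ) * Gx e (e * s) :=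
    Complex.continuous_ofReal.mul (hline hGx)
  have c4 : Continuous fun s : ℝ => (e : ℂ) * ((s : ℂ) * Gx e (e * s)) := continuous_const.mul c3
  have hftc : ∫ s in (-1 : ℝ)..1, (G e (e * s) + (e : ℂ) * ((s : ℂ) * Gx e (e * s))) =
      G e e + G e (-e) := by
    rw [intervalIntegral.integral_eq_sub_of_hasDerivAt (f := fun s : ℝ => (s : ℂ) * G e (e * s))
      (fun s _ => ?_) ((c1.fun_add c4).intervalIntegrable _ _)]
    · simp
    · have h1 := (hx e (e * s)).scomp s ((hasDerivAt_id' s).const_mul e)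
      refine ((Complex.ofRealCLM.hasDerivAt (x := s)).mul h1).congr_deriv ?_
      simp [Complex.real_smul]
      ring
  rw [intervalIntegral.integral_add (c1.intervalIntegrable _ _) (c4.intervalIntegrable _ _),
    intervalIntegral.integral_const_mul] at hftc
  rw [intervalIntegral.integral_add (c2.intervalIntegrable _ _) (c3.intervalIntegrable _ _),
    hscale (Ge e) e]
  simp only [Complex.ofRealCLM_apply, Complex.ofReal_one, one_mul]
  linear_combination hftc

/-- The squared radius of the section of a ball at height `t eˣ`. -/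
def secRad (t e x : ℝ) : ℝ := 2 * t ^ 2 * Real.exp x * wgt e x

theorem secRad_eq (t e x : ℝ) :
    secRad t e x = t ^ 2 * (2 * Real.exp x * Real.cosh e - Real.exp (2 * x) - 1) := by
  have h : Real.exp x * Real.exp x = Real.exp (2 * x) := by rw [← Real.exp_add]; ring_nf
  have h' : Real.exp x * Real.exp (-x) = 1 := by rw [← Real.exp_add, add_neg_cancel, Real.exp_zero]
  rw [secRad, wgt, Real.cosh_eq x]
  linear_combination (-t ^ 2) * h + (-t ^ 2) * h'

/-- Its derivative in the radius. -/
def secRadE (t e x : ℝ) : ℝ := t ^ 2 * (2 * Real.exp x * Real.sinh e)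

/-- Its derivative in the height. -/
def secRadX (t e x : ℝ) : ℝ := t ^ 2 * (2 * Real.exp x * Real.cosh e - 2 * Real.exp (2 * x))

theorem hasDerivAt_exp_two (x : ℝ) :
    HasDerivAt (fun x => Real.exp (2 * x)) (2 * Real.exp (2 * x)) x :=
  ((hasDerivAt_id' x).const_mul (2 : ℝ)).exp.congr_deriv (by ring)

theorem hasDerivAt_secRad_snd (t e x : ℝ) :
    HasDerivAt (fun x => secRad t e x) (secRadX t e x) x := by
  simp only [secRad_eq]
  refine (((((Real.hasDerivAt_exp x).const_mul 2).mul_const (Real.cosh e)).fun_sub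
    (hasDerivAt_exp_two x)).sub_const 1).const_mul (t ^ 2) |>.congr_deriv ?_
  rw [secRadX]

theorem hasDerivAt_secRad_line (t s e : ℝ) :
    HasDerivAt (fun e => secRad t e (e * s))
      (secRadE t e (e * s) + s * secRadX t e (e * s)) e := by
  have hl : HasDerivAt (fun e : ℝ => e * s) s e := by simpa using (hasDerivAt_id' e).mul_const s
  simp only [secRad_eq]
  refine (((((hl.exp).const_mul 2).fun_mul (Real.hasDerivAt_cosh e)).fun_sub
    ((hl.const_mul (2 : ℝ)).exp)).sub_const 1).const_mul (t ^ 2) |>.congr_deriv ?_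
  simp only [secRadE, secRadX]
  ring

theorem hasDerivAt_secRadX (t e x : ℝ) :
    HasDerivAt (fun x => secRadX t e x)
      (t ^ 2 * (2 * Real.exp x * Real.cosh e - 4 * Real.exp (2 * x))) x := by
  unfold secRadX
  refine ((((Real.hasDerivAt_exp x).const_mul 2).mul_const (Real.cosh e)).fun_sub
    ((hasDerivAt_exp_two x).const_mul 2)).const_mul (t ^ 2) |>.congr_deriv ?_
  ring

theorem hasDerivAt_secRadE_line (t s e : ℝ) :
    HasDerivAt (fun e => secRadE t e (e * s))
      (t ^ 2 * (2 * Real.exp (e * s) * Real.cosh e) + s * secRadE t e (e * s)) e := by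
  have hl : HasDerivAt (fun e : ℝ => e * s) s e := by simpa using (hasDerivAt_id' e).mul_const s
  unfold secRadE
  refine (((hl.exp).const_mul 2).fun_mul (Real.hasDerivAt_sinh e)).const_mul (t ^ 2)
    |>.congr_deriv ?_
  ring

theorem hasDerivAt_secRadE (t e x : ℝ) :
    HasDerivAt (fun x => secRadE t e x) (secRadE t e x) x := by
  unfold secRadE
  exact (((Real.hasDerivAt_exp x).const_mul 2).mul_const (Real.sinh e)).const_mul (t ^ 2)

theorem secRad_self (t e : ℝ) : secRad t e e = 0 := by simp [secRad, wgt]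

theorem secRad_neg (t e : ℝ) : secRad t e (-e) = 0 := by simp [secRad, wgt]

section Riemann

variable {a t μ : ℝ} {q q₁ : ℝ → ℂ}

/-- The Riemann function against a solution integrates to twice the central value. -/
theorem integral_riemann (hμ : 4 * a * t ^ 2 = μ ^ 2) (h1 : ∀ x, HasDerivAt q (q₁ x) x)
    (h2 : ∀ x, HasDerivAt q₁ (((μ ^ 2 * Real.exp (2 * x) : ℝ) : ℂ) * q x) x) (e : ℝ) :
    ∫ x in -e..e, q x * bfun a (secRad t e x) = 2 * q 0 * (e : ℂ) := by
  have hq : Continuous q := continuous_iff_continuousAt.2 fun x => (h1 x).continuousAt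
  have hq₁ : Continuous q₁ := continuous_iff_continuousAt.2 fun x => (h2 x).continuousAt
  have hX : Continuous fun p : ℝ × ℝ => secRad t p.1 p.2 := by unfold secRad wgt; fun_prop
  have hXe : Continuous fun p : ℝ × ℝ => secRadE t p.1 p.2 := by unfold secRadE; fun_prop
  have hXx : Continuous fun p : ℝ × ℝ => secRadX t p.1 p.2 := by unfold secRadX; fun_prop
  have hB := (CircleExp.continuous_bfun a).comp hX
  have hB1 := (CircleExp.continuous_bfun₁ a).comp hX
  have hB2 := (CircleExp.continuous_bfun₂ a).comp hX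
  have hq2 := hq.comp (continuous_snd (X := ℝ) (Y := ℝ))
  have hq12 := hq₁.comp (continuous_snd (X := ℝ) (Y := ℝ))
  set G : ℝ → ℝ → ℂ := fun e x => q x * bfun a (secRad t e x) with hG
  set Ge : ℝ → ℝ → ℂ := fun e x => q x * (bfun₁ a (secRad t e x) * (secRadE t e x : ℂ)) with hGe
  set Gx : ℝ → ℝ → ℂ := fun e x =>
    q₁ x * bfun a (secRad t e x) + q x * (bfun₁ a (secRad t e x) * (secRadX t e x : ℂ)) with hGx
  set Gex : ℝ → ℝ → ℂ := fun e x => q₁ x * (bfun₁ a (secRad t e x) * (secRadE t e x : ℂ)) +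
    q x * (bfun₂ a (secRad t e x) * (secRadX t e x : ℂ) * (secRadE t e x : ℂ) +
      bfun₁ a (secRad t e x) * (secRadE t e x : ℂ)) with hGex
  set Gee : ℝ → ℝ → ℂ := fun e x => q x * (bfun₂ a (secRad t e x) * (secRadE t e x : ℂ) ^ 2 +
      bfun₁ a (secRad t e x) * ((t ^ 2 * (2 * Real.exp x * Real.cosh e) : ℝ) : ℂ)) with hGee
  have cG : Continuous fun p : ℝ × ℝ => G p.1 p.2 := hq2.mul hB
  have cGe : Continuous fun p : ℝ × ℝ => Ge p.1 p.2 :=
    hq2.mul (hB1.mul (Complex.continuous_ofReal.comp hXe))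
  have cGx : Continuous fun p : ℝ × ℝ => Gx p.1 p.2 :=
    (hq12.mul hB).add (hq2.mul (hB1.mul (Complex.continuous_ofReal.comp hXx)))
  have cGex : Continuous fun p : ℝ × ℝ => Gex p.1 p.2 :=
    (hq12.mul (hB1.mul (Complex.continuous_ofReal.comp hXe))).add
      (hq2.mul (((hB2.mul (Complex.continuous_ofReal.comp hXx)).mul
        (Complex.continuous_ofReal.comp hXe)).add (hB1.mul (Complex.continuous_ofReal.comp hXe))))
  have cGee : Continuous fun p : ℝ × ℝ => Gee p.1 p.2 :=
    hq2.mul ((hB2.mul ((Complex.continuous_ofReal.comp hXe).pow 2)).add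
      (hB1.mul (Complex.continuous_ofReal.comp (by fun_prop))))
  have hl : ∀ s e : ℝ, HasDerivAt (fun e : ℝ => e * s) s e := fun s e => by
    simpa using (hasDerivAt_id' e).mul_const s
  have hqe : ∀ s e : ℝ, HasDerivAt (fun e : ℝ => q (e * s)) ((s : ℂ) * q₁ (e * s)) e := fun s e => by
    exact ((h1 (e * s)).scomp e (hl s e)).congr_deriv (by simp [Complex.real_smul])
  have hBe : ∀ s e : ℝ, HasDerivAt (fun e : ℝ => bfun a (secRad t e (e * s)))
      (bfun₁ a (secRad t e (e * s)) *
        ((secRadE t e (e * s) + s * secRadX t e (e * s) : ℝ) : ℂ)) e := fun s e => by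
    refine ((CircleExp.hasDerivAt_bfun a _).scomp e (hasDerivAt_secRad_line t s e)).congr_deriv ?_
    rw [Complex.real_smul]; ring
  have hBe1 : ∀ s e : ℝ, HasDerivAt (fun e : ℝ => bfun₁ a (secRad t e (e * s)))
      (bfun₂ a (secRad t e (e * s)) *
        ((secRadE t e (e * s) + s * secRadX t e (e * s) : ℝ) : ℂ)) e := fun s e => by
    refine ((CircleExp.hasDerivAt_bfun₁ a _).scomp e (hasDerivAt_secRad_line t s e)).congr_deriv ?_
    rw [Complex.real_smul]; ring
  have hBx : ∀ e x : ℝ, HasDerivAt (fun x : ℝ => bfun a (secRad t e x))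
      (bfun₁ a (secRad t e x) * (secRadX t e x : ℂ)) x := fun e x => by
    refine ((CircleExp.hasDerivAt_bfun a _).scomp x (hasDerivAt_secRad_snd t e x)).congr_deriv ?_
    rw [Complex.real_smul]; ring
  have hBx1 : ∀ e x : ℝ, HasDerivAt (fun x : ℝ => bfun₁ a (secRad t e x))
      (bfun₂ a (secRad t e x) * (secRadX t e x : ℂ)) x := fun e x => by
    refine ((CircleExp.hasDerivAt_bfun₁ a _).scomp x (hasDerivAt_secRad_snd t e x)).congr_deriv ?_
    rw [Complex.real_smul]; ring
  have dG : ∀ e, HasDerivAt (fun e => ∫ x in -e..e, G e x)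
      (G e e + G e (-e) + ∫ x in -e..e, Ge e x) e :=
    hasDerivAt_moving cG cGe cGx
      (fun e x => ((h1 x).mul (hBx e x)).congr_deriv (by simp only [hGx]))
      (fun e s => ((hqe s e).mul (hBe s e)).congr_deriv (by simp only [hGe, hGx]; push_cast; ring))
  have dGe : ∀ e, HasDerivAt (fun e => ∫ x in -e..e, Ge e x)
      (Ge e e + Ge e (-e) + ∫ x in -e..e, Gee e x) e :=
    hasDerivAt_moving cGe cGee cGex
      (fun e x => ((h1 x).mul ((hBx1 e x).fun_mul (hasDerivAt_secRadE t e x).ofReal_comp)).congr_deriv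
        (by simp only [hGex]))
      (fun e s => ((hqe s e).mul
        ((hBe1 s e).fun_mul (hasDerivAt_secRadE_line t s e).ofReal_comp)).congr_deriv
          (by simp only [hGee, hGex]; push_cast; ring))
  have hend : ∀ e, G e e + G e (-e) = q e + q (-e) := fun e => by
    simp [hG, secRad_self, secRad_neg, CircleExp.bfun_zero]
  have hJ2 : ∀ e, HasDerivAt (fun e => q e + q (-e) + ∫ x in -e..e, Ge e x) 0 e := by
    intro e
    have hneg : HasDerivAt (fun e : ℝ => q (-e)) (-q₁ (-e)) e := by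
      exact ((h1 (-e)).scomp e (hasDerivAt_neg e)).congr_deriv (by simp)
    refine (((h1 e).fun_add hneg).fun_add (dGe e)).congr_deriv ?_
    have hFd : ∀ x ∈ [[-e, e]], HasDerivAt
        (fun x => q x * (bfun₁ a (secRad t e x) * (secRadX t e x : ℂ)) - q₁ x * bfun a (secRad t e x))
        (Gee e x) x := by
      intro x _
      refine (((h1 x).mul ((hBx1 e x).fun_mul (hasDerivAt_secRadX t e x).ofReal_comp)).sub
        ((h2 x).mul (hBx e x))).congr_deriv ?_
      have hid : secRadE t e x ^ 2 - secRadX t e x ^ 2 =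
          4 * t ^ 2 * Real.exp (2 * x) * secRad t e x := by
        rw [secRad_eq]
        simp only [secRadE, secRadX]
        have h' : Real.exp x * Real.exp x = Real.exp (2 * x) := by rw [← Real.exp_add]; ring_nf
        rw [← h']
        linear_combination (-4 * t ^ 4 * Real.exp x ^ 2) * Real.cosh_sq_sub_sinh_sq e
      have hidC := congrArg (fun r : ℝ => (r : ℂ)) hid
      have hμC := congrArg (fun r : ℝ => (r : ℂ)) hμ
      have hode := CircleExp.bfun_ode a (secRad t e x)
      simp only [hGee]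
      push_cast at hidC hμC ⊢
      linear_combination (-q x * bfun₂ a (secRad t e x)) * hidC +
        (-4 * (t : ℂ) ^ 2 * Complex.exp (2 * (x : ℂ)) * q x) * hode +
        (Complex.exp (2 * (x : ℂ)) * q x * bfun a (secRad t e x)) * hμC
    have hint := intervalIntegral.integral_eq_sub_of_hasDerivAt hFd
      (((cGee.comp (continuous_const.prodMk continuous_id)) :
        Continuous fun x : ℝ => Gee e x).intervalIntegrable _ _)
    rw [hint]
    simp only [hGe, secRad_self, secRad_neg, CircleExp.bfun_zero, secRadE, secRadX]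
    have h2e : Real.exp (2 * e) = Real.exp e * Real.exp e := by rw [← Real.exp_add]; ring_nf
    have h2n : Real.exp (2 * -e) = Real.exp (-e) * Real.exp (-e) := by
      rw [← Real.exp_add]; ring_nf
    have hch : Real.cosh e + Real.sinh e = Real.exp e := Real.cosh_add_sinh e
    have hch' : Real.cosh e - Real.sinh e = Real.exp (-e) := Real.cosh_sub_sinh e
    rw [h2e, h2n, ← hch, ← hch']
    push_cast
    ring
  have hJ1 : ∀ e, q e + q (-e) + (∫ x in -e..e, Ge e x) = 2 * q 0 := fun e => by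
    rw [is_const_of_deriv_eq_zero (fun e => (hJ2 e).differentiableAt) (fun e => (hJ2 e).deriv) e 0]
    simp
    ring
  have hJ : ∀ e, HasDerivAt (fun e : ℝ => (∫ x in -e..e, G e x) - 2 * q 0 * (e : ℂ)) 0 e :=
    fun e => by
    refine ((dG e).fun_sub ((Complex.ofRealCLM.hasDerivAt (x := e)).const_mul (2 * q 0))).congr_deriv ?_
    rw [hend, hJ1]
    simp
  have h0 := is_const_of_deriv_eq_zero (fun e => (hJ e).differentiableAt) (fun e => (hJ e).deriv) e 0
  simp at h0
  exact sub_eq_zero.mp h0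

end Riemann

/-- The primitive of `π J₀ (2 √(a u))`. -/
def discPrim (a u : ℝ) : ℂ := (Real.pi : ℂ) * ∫ v in (0 : ℝ)..u, bfun a v

theorem hasDerivAt_discPrim (a u : ℝ) :
    HasDerivAt (discPrim a) ((Real.pi : ℂ) * bfun a u) u :=
  ((CircleExp.continuous_bfun a).integral_hasStrictDerivAt 0 u).hasDerivAt.const_mul _

theorem continuous_discPrim (a : ℝ) : Continuous (discPrim a) :=
  continuous_iff_continuousAt.2 fun u => (hasDerivAt_discPrim a u).continuousAt

theorem discPrim_zero (a : ℝ) : discPrim a 0 = 0 := by simp [discPrim]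

theorem integral_circle_echar (ν : ℂ) (hν : ν ≠ 0) {ρ : ℝ} (hρ : 0 < ρ) :
    ∫ θ in (-Real.pi)..Real.pi, echar ν (Complex.polarCoord.symm (ρ, θ)) =
      ((2 * Real.pi : ℝ) : ℂ) * bfun (4 * Real.pi ^ 2 * ‖ν‖ ^ 2) (ρ ^ 2) := by
  set p : ℂ := 2 * Real.pi * Complex.I * ρ * ν with hp
  set q : ℂ := 2 * Real.pi * Complex.I * ρ * (starRingEnd ℂ) ν with hq
  have hk : ∀ θ : ℝ,
      echar ν (Complex.polarCoord.symm (ρ, θ)) = CircleExp.kern 0 p q θ := by
    intro θ
    have hz : Complex.polarCoord.symm (ρ, θ) = (ρ : ℂ) * CircleExp.wθ θ := by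
      rw [Complex.polarCoord_symm_apply, CircleExp.wθ, Complex.exp_mul_I]
      simp
    have hinv : (CircleExp.wθ θ)⁻¹ = (starRingEnd ℂ) (CircleExp.wθ θ) := by
      rw [CircleExp.wθ, ← Complex.exp_conj, ← Complex.exp_neg]
      simp
    rw [hz, echar, CircleExp.kern, zpow_zero, one_mul, hinv]
    congr 1
    rw [show ((2 * (ν * ((ρ : ℂ) * CircleExp.wθ θ)).re : ℝ) : ℂ) =
      ν * ((ρ : ℂ) * CircleExp.wθ θ) + (starRingEnd ℂ) (ν * ((ρ : ℂ) * CircleExp.wθ θ)) by
        rw [Complex.add_conj] ]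
    simp only [map_mul, Complex.conj_ofReal, hp, hq]
    ring
  simp only [hk]
  have hper : Function.Periodic (CircleExp.kern 0 p q) (2 * Real.pi) := fun θ => by
    simp [CircleExp.kern, CircleExp.wθ, add_mul, Complex.exp_add, Complex.exp_two_pi_mul_I]
  have h := hper.intervalIntegral_add_eq (-Real.pi) 0
  rw [show -Real.pi + 2 * Real.pi = Real.pi by ring, zero_add] at h
  have hp0 : p ≠ 0 := by
    simp only [hp, ne_eq, mul_eq_zero, Complex.I_ne_zero, hν, Complex.ofReal_eq_zero, hρ.ne',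
      Real.pi_ne_zero]
    norm_num
  have hpi : ((2 * Real.pi : ℝ) : ℂ) ≠ 0 := Complex.ofReal_ne_zero.mpr (by positivity)
  have hpq : p * q = -(((4 * Real.pi ^ 2 * ‖ν‖ ^ 2 : ℝ) : ℂ) * ((ρ ^ 2 : ℝ) : ℂ)) := by
    simp only [hp, hq]
    push_cast
    linear_combination (4 * (Real.pi : ℂ) ^ 2 * (ρ : ℂ) ^ 2 * ν * (starRingEnd ℂ) ν) * Complex.I_sq -
      (4 * (Real.pi : ℂ) ^ 2 * (ρ : ℂ) ^ 2) * Complex.mul_conj' ν
  rw [h, CircleExp.bfun, ← hpq, ← CircleExp.avg_eq_prod hp0, CircleExp.avg, ← mul_assoc,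
    mul_inv_cancel₀ hpi, one_mul]

theorem discInt_eq (ν : ℂ) (hν : ν ≠ 0) {u : ℝ} (hu : 0 ≤ u) :
    discInt ν u = discPrim (4 * Real.pi ^ 2 * ‖ν‖ ^ 2) u := by
  set a := 4 * Real.pi ^ 2 * ‖ν‖ ^ 2
  set r := Real.sqrt u with hr
  have hr0 : 0 ≤ r := Real.sqrt_nonneg u
  have hS : {p : ℝ × ℝ | p ∈ Ioi (0 : ℝ) ×ˢ Ioo (-Real.pi) Real.pi ∧ p.1 ≤ r} =
      Ioc (0 : ℝ) r ×ˢ Ioo (-Real.pi) Real.pi := by
    ext p
    simp only [mem_ofPred_eq, mem_prod, mem_Ioi, mem_Ioc]
    tauto
  rw [discInt, ← hr, ← integral_indicator Metric.isClosed_closedBall.measurableSet,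
    ← Complex.integral_comp_polarCoord_symm, polarCoord_target]
  have hfun : ∀ p ∈ Ioi (0 : ℝ) ×ˢ Ioo (-Real.pi) Real.pi,
      p.1 • (Metric.closedBall (0 : ℂ) r).indicator (echar ν) (Complex.polarCoord.symm p) =
        ({p : ℝ × ℝ | p.1 ≤ r}).indicator
          (fun p => (p.1 : ℂ) * echar ν (Complex.polarCoord.symm p)) p := by
    intro p hp
    have hn : ‖Complex.polarCoord.symm p‖ = p.1 := by
      rw [Complex.norm_polarCoord_symm, abs_of_pos hp.1]
    by_cases h : p.1 ≤ r
    · rw [indicator_of_mem (mem_closedBall_zero_iff.mpr (hn.trans_le h)),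
        indicator_of_mem (show p ∈ {p : ℝ × ℝ | p.1 ≤ r} from h), Complex.real_smul]
    · rw [indicator_of_notMem (fun hm => h (hn ▸ mem_closedBall_zero_iff.mp hm)),
        indicator_of_notMem (show p ∉ {p : ℝ × ℝ | p.1 ≤ r} from h), smul_zero]
  rw [setIntegral_congr_fun (measurableSet_Ioi.prod measurableSet_Ioo) hfun,
    setIntegral_indicator (measurableSet_le measurable_fst measurable_const),
    show (Ioi (0 : ℝ) ×ˢ Ioo (-Real.pi) Real.pi) ∩ {p : ℝ × ℝ | p.1 ≤ r} =
      Ioc (0 : ℝ) r ×ˢ Ioo (-Real.pi) Real.pi from hS]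
  have hcont : Continuous fun p : ℝ × ℝ => (p.1 : ℂ) * echar ν (Complex.polarCoord.symm p) := by
    refine (by fun_prop : Continuous fun p : ℝ × ℝ => (p.1 : ℂ)).mul ((continuous_echar ν).comp ?_)
    change Continuous fun p : ℝ × ℝ => Complex.polarCoord.symm p
    simp only [Complex.polarCoord_symm_apply]
    fun_prop
  rw [Measure.volume_eq_prod, setIntegral_prod _
    ((hcont.continuousOn.integrableOn_compact (isCompact_Icc.prod isCompact_Icc)).mono_set
      (prod_mono Ioc_subset_Icc_self Ioo_subset_Icc_self))]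
  have hinner : ∀ ρ ∈ Ioc (0 : ℝ) r,
      ∫ θ in Ioo (-Real.pi) Real.pi, (ρ : ℂ) * echar ν (Complex.polarCoord.symm (ρ, θ)) =
        ((2 * Real.pi * ρ : ℝ) : ℂ) * bfun a (ρ ^ 2) := fun ρ hρ => by
    rw [integral_const_mul, ← integral_Ioc_eq_integral_Ioo,
      ← intervalIntegral.integral_of_le (by linarith [Real.pi_pos]),
      integral_circle_echar ν hν hρ.1]
    push_cast
    ring
  rw [setIntegral_congr_fun measurableSet_Ioc hinner, ← intervalIntegral.integral_of_le hr0]
  have hd : ∀ ρ ∈ [[0, r]], HasDerivAt (fun ρ => discPrim a (ρ ^ 2))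
      (((2 * Real.pi * ρ : ℝ) : ℂ) * bfun a (ρ ^ 2)) ρ := fun ρ _ => by
    refine ((hasDerivAt_discPrim a (ρ ^ 2)).scomp ρ (hasDerivAt_pow 2 ρ)).congr_deriv ?_
    rw [Complex.real_smul]
    push_cast
    ring
  rw [intervalIntegral.integral_eq_sub_of_hasDerivAt hd
    ((((Complex.continuous_ofReal.comp (continuous_const.fun_mul continuous_id)).mul
      ((CircleExp.continuous_bfun a).comp (continuous_pow 2))) :
        Continuous fun ρ : ℝ => ((2 * Real.pi * ρ : ℝ) : ℂ) * bfun a (ρ ^ 2)).intervalIntegrable _ _),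
    hr, Real.sq_sqrt hu]
  simp [discPrim_zero]

theorem hasDerivAt_sph0 (e : ℝ) : HasDerivAt sph0 (4 * Real.pi * (e * Real.sinh e)) e := by
  unfold sph0
  exact ((continuous_id.mul Real.continuous_sinh).integral_hasStrictDerivAt 0 e).hasDerivAt.const_mul _

/-- The mean values of a solution against the disc integrals. -/
theorem integral_weighted_prim {a t μ : ℝ} {q q₁ : ℝ → ℂ} (ht : t ≠ 0)
    (hμ : 4 * a * t ^ 2 = μ ^ 2) (h1 : ∀ x, HasDerivAt q (q₁ x) x)
    (h2 : ∀ x, HasDerivAt q₁ (((μ ^ 2 * Real.exp (2 * x) : ℝ) : ℂ) * q x) x) (ε : ℝ) :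
    ∫ x in -ε..ε, ((Real.exp (-x) / t ^ 2 : ℝ) : ℂ) * (q x * discPrim a (secRad t ε x)) =
      (sph0 ε : ℂ) * q 0 := by
  have hq : Continuous q := continuous_iff_continuousAt.2 fun x => (h1 x).continuousAt
  have hq₁ : Continuous q₁ := continuous_iff_continuousAt.2 fun x => (h2 x).continuousAt
  set w : ℝ → ℂ := fun x => ((Real.exp (-x) / t ^ 2 : ℝ) : ℂ) with hw
  have hwd : ∀ x, HasDerivAt w (-w x) x := fun x => by
    refine (((hasDerivAt_id' x).fun_neg.exp.div_const (t ^ 2)).ofReal_comp).congr_deriv ?_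
    simp only [hw]; push_cast; ring
  have hwc : Continuous w := continuous_iff_continuousAt.2 fun x => (hwd x).continuousAt
  have hX : Continuous fun p : ℝ × ℝ => secRad t p.1 p.2 := by unfold secRad wgt; fun_prop
  have hXe : Continuous fun p : ℝ × ℝ => secRadE t p.1 p.2 := by unfold secRadE; fun_prop
  have hXx : Continuous fun p : ℝ × ℝ => secRadX t p.1 p.2 := by unfold secRadX; fun_prop
  have hB := (CircleExp.continuous_bfun a).comp hX
  have hD := (continuous_discPrim a).comp hX
  have hw2 := hwc.comp (continuous_snd (X := ℝ) (Y := ℝ))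
  have hq2 := hq.comp (continuous_snd (X := ℝ) (Y := ℝ))
  have hq12 := hq₁.comp (continuous_snd (X := ℝ) (Y := ℝ))
  set Gx : ℝ → ℝ → ℂ := fun e x => -w x * (q x * discPrim a (secRad t e x)) +
    w x * (q₁ x * discPrim a (secRad t e x) +
      q x * ((Real.pi : ℂ) * bfun a (secRad t e x) * (secRadX t e x : ℂ))) with hGx
  set Ge : ℝ → ℝ → ℂ := fun e x =>
    w x * (q x * ((Real.pi : ℂ) * bfun a (secRad t e x) * (secRadE t e x : ℂ))) with hGe
  have dL : ∀ e, HasDerivAt (fun e => ∫ x in -e..e, w x * (q x * discPrim a (secRad t e x)))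
      (((4 * Real.pi * (e * Real.sinh e) : ℝ) : ℂ) * q 0) e := by
    intro e
    refine (hasDerivAt_moving (G := fun e x => w x * (q x * discPrim a (secRad t e x)))
      (Ge := Ge) (Gx := Gx) (hw2.mul (hq2.mul hD))
      (hw2.mul (hq2.mul ((continuous_const.mul hB).mul (Complex.continuous_ofReal.comp hXe))))
      ((hw2.neg.mul (hq2.mul hD)).add (hw2.mul ((hq12.mul hD).add
        (hq2.mul ((continuous_const.mul hB).mul (Complex.continuous_ofReal.comp hXx))))))
      (fun e x => ?_) (fun e s => ?_) e).congr_deriv ?_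
    · refine ((hwd x).mul ((h1 x).mul ((hasDerivAt_discPrim a _).scomp x
        (hasDerivAt_secRad_snd t e x)))).congr_deriv ?_
      simp only [hGx, Complex.real_smul, Pi.mul_apply, Function.comp_apply]
      ring
    · have hl : HasDerivAt (fun e : ℝ => e * s) s e := by simpa using (hasDerivAt_id' e).mul_const s
      refine (((hwd (e * s)).scomp e hl).mul (((h1 (e * s)).scomp e hl).mul
        ((hasDerivAt_discPrim a _).scomp e (hasDerivAt_secRad_line t s e)))).congr_deriv ?_
      simp only [hGe, hGx, Complex.real_smul, Pi.mul_apply, Function.comp_apply]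
      push_cast
      ring
    · have hGe' : ∀ x, Ge e x =
          ((2 * Real.pi * Real.sinh e : ℝ) : ℂ) * (q x * bfun a (secRad t e x)) := fun x => by
        have hone : Real.exp (-x) / t ^ 2 * secRadE t e x = 2 * Real.sinh e := by
          rw [secRadE, Real.exp_neg]
          field_simp
        have honeC := congrArg (fun r : ℝ => (r : ℂ)) hone
        simp only [hGe, hw]
        push_cast at honeC ⊢
        linear_combination (q x * (Real.pi : ℂ) * bfun a (secRad t e x)) * honeC
      rw [intervalIntegral.integral_congr (fun x _ => hGe' x), intervalIntegral.integral_const_mul,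
        integral_riemann hμ h1 h2]
      simp only [secRad_self, secRad_neg, discPrim_zero, mul_zero, add_zero, zero_add]
      push_cast
      ring
  have hR : ∀ e : ℝ, HasDerivAt (fun e : ℝ => (sph0 e : ℂ) * q 0)
      (((4 * Real.pi * (e * Real.sinh e) : ℝ) : ℂ) * q 0) e := fun e =>
    (hasDerivAt_sph0 e).ofReal_comp.mul_const _
  have hd := fun e => (dL e).fun_sub (hR e)
  have h0 := is_const_of_deriv_eq_zero (fun e => (hd e).differentiableAt)
    (fun e => by rw [(hd e).deriv, sub_self]) ε 0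
  simp [sph0] at h0
  simpa [sph0, hw] using sub_eq_zero.mp h0

/-- **The waves are eigenfunctions of parameter zero.** -/
theorem isSph0_wave (ν : ℂ) (hν : ν ≠ 0) : IsSph0 (wave ν) := by
  intro P ε hε
  have ht := P.t_pos
  set μ : ℝ := 4 * Real.pi * ‖ν‖ * P.t with hμdef
  have hμ : 0 < μ := by have := norm_pos_iff.mpr hν; positivity
  set q : ℝ → ℂ := fun x => (besselK0 (μ * Real.exp x) : ℂ) with hq
  have hcont : Continuous (wave ν) := by
    have hz : Continuous fun Q : H3 => Q.z := continuous_fst.comp continuous_coords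
    have htc : Continuous fun Q : H3 => Q.t := continuous_snd.comp continuous_coords
    have hK : Continuous fun Q : H3 => besselK0 (4 * Real.pi * ‖ν‖ * Q.t) :=
      continuousOn_besselK0.comp_continuous (continuous_const.mul htc)
        fun Q => mul_pos (by have := norm_pos_iff.mpr hν; positivity) Q.t_pos
    exact (Complex.continuous_ofReal.comp (htc.mul hK)).mul ((continuous_echar ν).comp hz)
  rw [setIntegral_ball hcont P hε.le]
  have key := integral_weighted_prim (a := 4 * Real.pi ^ 2 * ‖ν‖ ^ 2) (μ := μ) (q := q)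
    (q₁ := fun x => ((-(μ * Real.exp x) * besselMom 1 (μ * Real.exp x) : ℝ) : ℂ)) ht.ne'
    (by rw [hμdef]; ring) (fun x => (bessel_ode hμ x).1.ofReal_comp)
    (fun x => (bessel_ode hμ x).2.ofReal_comp.congr_deriv (by simp [hq])) ε
  have hpt : ∀ x ∈ [[-ε, ε]], ((Real.exp (-2 * x) / P.t ^ 2 : ℝ) : ℂ) *
      ∫ ζ in Metric.closedBall (0 : ℂ) (Real.sqrt (2 * P.t ^ 2 * Real.exp x * wgt ε x)),
        wave ν (hpt P x ζ) = ((P.t : ℂ) * echar ν P.z) *
      (((Real.exp (-x) / P.t ^ 2 : ℝ) : ℂ) *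
        (q x * discPrim (4 * Real.pi ^ 2 * ‖ν‖ ^ 2) (secRad P.t ε x))) := by
    intro x hx
    rw [uIcc_of_le (by linarith : -ε ≤ ε)] at hx
    simp only [secRad]
    rw [← discInt_eq ν hν (mul_nonneg (by positivity) (SecondDiff.wgt_nonneg (abs_le.mpr hx)))]
    have he : Real.exp (-2 * x) * Real.exp x = Real.exp (-x) := by rw [← Real.exp_add]; ring_nf
    have hwave : ∀ ζ, wave ν (hpt P x ζ) =
        ((P.t * Real.exp x : ℝ) : ℂ) * q x * echar ν P.z * echar ν ζ := fun ζ => by
      rw [wave_eq]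
      simp only [H3.hpt, hq, echar_add]
      rw [show 4 * Real.pi * ‖ν‖ * (P.t * Real.exp x) = μ * Real.exp x by rw [hμdef]; ring]
      push_cast
      ring
    simp only [hwave, integral_const_mul, discInt]
    have heC := congrArg (fun r : ℝ => (r : ℂ)) he
    push_cast at heC ⊢
    linear_combination (q x * echar ν P.z * (P.t : ℂ) / (P.t : ℂ) ^ 2 *
      ∫ ζ in Metric.closedBall (0 : ℂ) (Real.sqrt (2 * P.t ^ 2 * Real.exp x * wgt ε x)), echar ν ζ) * heC
  rw [intervalIntegral.integral_congr hpt, intervalIntegral.integral_const_mul, key, wave_eq]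
  simp only [hq, Real.exp_zero, mul_one, hμdef]
  push_cast
  ring

end FermatAgent.LT.H3

end
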